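/-
GATE-E / E6-INST, node N7 BASE-T of helper12's table (board 7604), the FAITHFULNESS leaf (helper64):
**at the base the image ring IS `Tloc`.**

`A` a commutative ring (the anemic Hecke algebra), `𝒪` a complete noetherian local ring,
`θ : A →+* k` a residual character, `X` a finite free `𝒪`-module on which `𝒪 ⊗[ℤ] A` acts FAITHFULLY
through `twO 𝒪 twX` (for `X = 𝒪 ⊗[ℤ] Lam M`: `latAct_injective` + `tensorEndAlg_injective`, see
`BaseTInst`), and `h : Y → X` an injective equivariant `𝒪`-linear map whose range is the `𝔪`-primary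
part of `X`, `𝔪 = maxθ 𝒪 θ`.  Then

* `locHyp_of_model` : `LocHyp 𝒪 θ twY` (everything outside `𝔪` acts bijectively on `Y`);
* `algebraMap_eq_zero_of_twO_eq_zero` : an element of `𝒪 ⊗ A` killing `Y` dies in `Tloc 𝒪 θ`;
* `exists_kappa_base` : `κ : Tloc 𝒪 θ ≃ₐ[𝒪] TQ 𝒪 θ twY` with `κ (piT t) = chi t`;
* `exists_act_Tloc` : a FAITHFUL action `aT : Tloc 𝒪 θ →ₐ[𝒪] End_𝒪 Y` with `aT (piT t) = twY t`.

Mathlib + `GB/B3/{Loc, LocBridge}` + `GB/B4/Datum/{Carrier, ImageRing}`.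
-/
import Mathlib
import Fermat.Agent.GB.B3.Loc
import Fermat.Agent.GB.B3.LocBridge
import Fermat.Agent.GB.B4.Datum.Carrier
import Fermat.Agent.GB.B4.Datum.ImageRing

set_option autoImplicit false
set_option linter.unusedSectionVars false
set_option linter.style.haveILetI false

noncomputable section

open scoped TensorProduct
open IsLocalRing

namespace Fermat.Agent.GE6.Inst.BaseT

open Fermat.Agent.GB.B3.Loc Fermat.Agent.GB.B3.RealLevel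
open Fermat.Agent.GB.B3.LocBridge (moduleOfAct isScalarTower_moduleOfAct isLoc_iff_mem_locPart)
open Fermat.Agent.GB.B4.Datum.Carrier Fermat.Agent.GB.B4.Datum.ImageRing

section Abs

variable {𝒪 : Type} [CommRing 𝒪] [IsLocalRing 𝒪]
  {A : Type} [CommRing A] (θ : A →+* ResidueField 𝒪)
  {X : Type} [AddCommGroup X] [Module 𝒪 X] (twX : A →+* Module.End 𝒪 X)
  {Y : Type} [AddCommGroup Y] [Module 𝒪 Y] (twY : A →+* Module.End 𝒪 Y)
  (h : Y →ₗ[𝒪] X)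

/-- an equivariant map intertwines the `𝒪`-linear extensions of the actions. -/
theorem map_twO (hact : ∀ t y, h (twY t y) = twX t (h y)) (a : 𝒪 ⊗[ℤ] A) (y : Y) :
    h (twO 𝒪 twY a y) = twO 𝒪 twX a (h y) := by
  induction a using TensorProduct.induction_on with
  | zero => rw [map_zero, map_zero, LinearMap.zero_apply, LinearMap.zero_apply, map_zero]
  | tmul c t =>
    rw [twO_tmul, twO_tmul, LinearMap.smul_apply, LinearMap.smul_apply, map_smul, hact]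
  | add a b ha hb =>
    rw [map_add, map_add, LinearMap.add_apply, LinearMap.add_apply, map_add, ha, hb]

variable [IsNoetherianRing 𝒪] [IsAdicComplete (maximalIdeal 𝒪) 𝒪] [Module.Finite 𝒪 X]

/-- **(LOC) for a model of the primary part**: everything outside `𝔪 = maxθ 𝒪 θ` acts bijectively
on `Y`. -/
theorem locHyp_of_model (hinj : Function.Injective h)
    (hact : ∀ t y, h (twY t y) = twX t (h y))
    (hrange : ∀ x, x ∈ LinearMap.range h ↔ IsLoc (twO 𝒪 twX) (maxθ 𝒪 θ) x) :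
    LocHyp 𝒪 θ twY := by
  intro a ha
  letI := moduleOfAct (twO 𝒪 twX)
  haveI := isScalarTower_moduleOfAct (twO 𝒪 twX)
  have hmem : ∀ y : Y, h y ∈ locPart (maxθ 𝒪 θ) X := fun y =>
    (isLoc_iff_mem_locPart (twO 𝒪 twX) (fun _ _ => rfl) (maxθ 𝒪 θ) (h y)).1
      ((hrange (h y)).1 ⟨y, rfl⟩)
  have hs : a ∉ maxθ 𝒪 θ := fun hmem' => ha ((mem_maxθ 𝒪 θ a).1 hmem')
  have hbij := bijective_smul_locPart 𝒪 (L := X) (maxθ 𝒪 θ) hs
  constructor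
  · intro y₁ y₂ hy
    have h1 : h (twO 𝒪 twY a y₁) = h (twO 𝒪 twY a y₂) := congrArg h hy
    rw [map_twO twX twY h hact, map_twO twX twY h hact] at h1
    have h2 : (fun x : locPart (maxθ 𝒪 θ) X => a • x) ⟨h y₁, hmem y₁⟩
        = (fun x : locPart (maxθ 𝒪 θ) X => a • x) ⟨h y₂, hmem y₂⟩ := Subtype.ext h1
    exact hinj (congrArg Subtype.val (hbij.1 h2))
  · intro y
    obtain ⟨⟨x', hx'⟩, hxy⟩ := hbij.2 ⟨h y, hmem y⟩
    have hx'' : IsLoc (twO 𝒪 twX) (maxθ 𝒪 θ) x' :=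
      (isLoc_iff_mem_locPart (twO 𝒪 twX) (fun _ _ => rfl) (maxθ 𝒪 θ) x').2 hx'
    obtain ⟨y', rfl⟩ := (hrange x').2 hx''
    refine ⟨y', hinj ?_⟩
    rw [map_twO twX twY h hact]
    exact congrArg Subtype.val hxy

/-- **faithfulness, localised**: an element of `𝒪 ⊗ A` killing the model `Y` of the primary part of
a FAITHFUL module `X` dies in `Tloc 𝒪 θ`. -/
theorem algebraMap_eq_zero_of_twO_eq_zero (hfaith : Function.Injective (twO 𝒪 twX))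
    (hact : ∀ t y, h (twY t y) = twX t (h y))
    (hrange : ∀ x, x ∈ LinearMap.range h ↔ IsLoc (twO 𝒪 twX) (maxθ 𝒪 θ) x)
    (b : 𝒪 ⊗[ℤ] A) (hb : twO 𝒪 twY b = 0) :
    algebraMap (𝒪 ⊗[ℤ] A) (Tloc 𝒪 θ) b = 0 := by
  letI := moduleOfAct (twO 𝒪 twX)
  haveI := isScalarTower_moduleOfAct (twO 𝒪 twX)
  obtain ⟨s₀, hs₀, -, hloc, -⟩ := parts_eq 𝒪 (L := X) (maxθ 𝒪 θ)
  have hkill : twO 𝒪 twX (b * s₀) = 0 := by
    refine LinearMap.ext fun x => ?_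
    rw [map_mul, Module.End.mul_apply, LinearMap.zero_apply]
    have h1 : twO 𝒪 twX s₀ x ∈ locPart (maxθ 𝒪 θ) X := by
      rw [hloc]
      exact ⟨x, rfl⟩
    have h2 : IsLoc (twO 𝒪 twX) (maxθ 𝒪 θ) (twO 𝒪 twX s₀ x) :=
      (isLoc_iff_mem_locPart (twO 𝒪 twX) (fun _ _ => rfl) (maxθ 𝒪 θ) _).2 h1
    obtain ⟨y, hy⟩ := (hrange _).2 h2
    rw [← hy, ← map_twO twX twY h hact, hb, LinearMap.zero_apply, map_zero]
  have h0 : b * s₀ = 0 := hfaith (by rw [hkill, map_zero])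
  rw [IsLocalization.map_eq_zero_iff (maxθ 𝒪 θ).primeCompl (Tloc 𝒪 θ)]
  exact ⟨⟨s₀, hs₀⟩, by rw [mul_comm]; exact h0⟩

variable [Module.Free 𝒪 X]

/-- a model of the primary part of a finite free module is finite. -/
theorem finite_of_model (hinj : Function.Injective h) : Module.Finite 𝒪 Y := by
  haveI : IsNoetherian 𝒪 X := isNoetherian_of_isNoetherianRing_of_finite 𝒪 X
  exact Module.Finite.of_injective h hinj

/-- a model of the primary part of a finite free module is free. -/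
theorem free_of_model (hinj : Function.Injective h)
    (hrange : ∀ x, x ∈ LinearMap.range h ↔ IsLoc (twO 𝒪 twX) (maxθ 𝒪 θ) x) :
    Module.Free 𝒪 Y := by
  letI := moduleOfAct (twO 𝒪 twX)
  haveI := isScalarTower_moduleOfAct (twO 𝒪 twX)
  have hmem : ∀ y : Y, h y ∈ locPart (maxθ 𝒪 θ) X := fun y =>
    (isLoc_iff_mem_locPart (twO 𝒪 twX) (fun _ _ => rfl) (maxθ 𝒪 θ) (h y)).1
      ((hrange (h y)).1 ⟨y, rfl⟩)
  let g : Y →ₗ[𝒪] ↥(locPart (maxθ 𝒪 θ) X) :=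
    { toFun := fun y => ⟨h y, hmem y⟩
      map_add' := fun y₁ y₂ => Subtype.ext (map_add h y₁ y₂)
      map_smul' := fun c y => Subtype.ext (map_smul h c y) }
  have hg : Function.Bijective g := by
    constructor
    · intro y₁ y₂ hy
      exact hinj (congrArg Subtype.val hy)
    · rintro ⟨x, hx⟩
      have hx' : IsLoc (twO 𝒪 twX) (maxθ 𝒪 θ) x :=
        (isLoc_iff_mem_locPart (twO 𝒪 twX) (fun _ _ => rfl) (maxθ 𝒪 θ) x).2 hx
      obtain ⟨y, rfl⟩ := (hrange x).2 hx'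
      exact ⟨y, rfl⟩
  haveI : Module.Free 𝒪 ↥(locPart (maxθ 𝒪 θ) X) := free_locPart 𝒪 (L := X) (maxθ 𝒪 θ)
  exact Module.Free.of_equiv (LinearEquiv.ofBijective g hg).symm

/-- **at the base the image ring is `Tloc`**: for a model `h : Y ↪ X` of the `𝔪`-primary part of a
finite free module `X` on which `𝒪 ⊗ A` acts faithfully, the canonical map
`Tloc 𝒪 θ → TQ 𝒪 θ twY` is an isomorphism of `𝒪`-algebras, matching `piT` with `chi`. -/
theorem exists_kappa_base (hfaith : Function.Injective (twO 𝒪 twX))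
    (hinj : Function.Injective h) (hact : ∀ t y, h (twY t y) = twX t (h y))
    (hrange : ∀ x, x ∈ LinearMap.range h ↔ IsLoc (twO 𝒪 twX) (maxθ 𝒪 θ) x) :
    LocHyp 𝒪 θ twY ∧ ∃ κ : Tloc 𝒪 θ ≃ₐ[𝒪] TQ 𝒪 θ twY,
      (∀ a : 𝒪 ⊗[ℤ] A, κ (algebraMap (𝒪 ⊗[ℤ] A) (Tloc 𝒪 θ) a) = mkQ 𝒪 θ twY a) ∧
      ∀ t : A, κ (piT 𝒪 θ t) = chi 𝒪 θ twY t := by
  have hloc : LocHyp 𝒪 θ twY := locHyp_of_model θ twX twY h hinj hact hrange
  refine ⟨hloc, ?_⟩
  haveI : Module.Finite 𝒪 Y := finite_of_model h hinj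
  haveI : Module.Free 𝒪 Y := free_of_model θ twX h hinj hrange
  have hg : ∀ s : (maxθ 𝒪 θ).primeCompl,
      IsUnit ((mkQ 𝒪 θ twY : 𝒪 ⊗[ℤ] A →+* TQ 𝒪 θ twY) s) := fun s =>
    isUnit_mkQ hloc (s : 𝒪 ⊗[ℤ] A) (fun h0 => s.2 ((mem_maxθ 𝒪 θ _).2 h0))
  let κ₀ : Tloc 𝒪 θ →+* TQ 𝒪 θ twY :=
    IsLocalization.lift (M := (maxθ 𝒪 θ).primeCompl) (S := Tloc 𝒪 θ) hg
  have hκ₀ : ∀ a : 𝒪 ⊗[ℤ] A, κ₀ (algebraMap (𝒪 ⊗[ℤ] A) (Tloc 𝒪 θ) a) = mkQ 𝒪 θ twY a :=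
    fun a => IsLocalization.lift_eq hg a
  let κ₁ : Tloc 𝒪 θ →ₐ[𝒪] TQ 𝒪 θ twY :=
    { κ₀ with
      commutes' := fun c => by
        show κ₀ (algebraMap 𝒪 (Tloc 𝒪 θ) c) = algebraMap 𝒪 (TQ 𝒪 θ twY) c
        rw [IsScalarTower.algebraMap_apply 𝒪 (𝒪 ⊗[ℤ] A) (Tloc 𝒪 θ), hκ₀]
        exact (mkQ 𝒪 θ twY).commutes c }
  have hκ₁ : ∀ z, κ₁ z = κ₀ z := fun _ => rfl
  have hbij : Function.Bijective κ₁ := by
    constructor
    · rw [injective_iff_map_eq_zero]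
      intro z hz
      obtain ⟨b, s, rfl⟩ := IsLocalization.exists_mk'_eq (maxθ 𝒪 θ).primeCompl z
      have h1 : κ₀ (algebraMap (𝒪 ⊗[ℤ] A) (Tloc 𝒪 θ) b) = 0 := by
        have h2 : algebraMap (𝒪 ⊗[ℤ] A) (Tloc 𝒪 θ) b
            = IsLocalization.mk' (Tloc 𝒪 θ) b s * algebraMap (𝒪 ⊗[ℤ] A) (Tloc 𝒪 θ) s :=
          (IsLocalization.mk'_spec (Tloc 𝒪 θ) b s).symm
        rw [h2, map_mul, ← hκ₁, hz, zero_mul]
      rw [hκ₀, mkQ_eq_zero_iff] at h1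
      have h3 := algebraMap_eq_zero_of_twO_eq_zero θ twX twY h hfaith hact hrange b h1
      rw [← IsLocalization.mk'_spec (Tloc 𝒪 θ) b s] at h3
      have hu : IsUnit (algebraMap (𝒪 ⊗[ℤ] A) (Tloc 𝒪 θ) s) :=
        IsLocalization.map_units (Tloc 𝒪 θ) s
      exact (hu.mul_left_eq_zero).1 h3
    · intro w
      obtain ⟨a, rfl⟩ := mkQ_surjective 𝒪 θ twY w
      exact ⟨algebraMap (𝒪 ⊗[ℤ] A) (Tloc 𝒪 θ) a, hκ₀ a⟩
  refine ⟨AlgEquiv.ofBijective κ₁ hbij, fun a => hκ₀ a, fun t => ?_⟩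
  show κ₀ (piT 𝒪 θ t) = chi 𝒪 θ twY t
  rw [piT_apply, hκ₀, chi_apply]

/-- **`Tloc` acts faithfully on the model of the primary part**, through `twY` on the Hecke
operators. -/
theorem exists_act_Tloc (hfaith : Function.Injective (twO 𝒪 twX))
    (hinj : Function.Injective h) (hact : ∀ t y, h (twY t y) = twX t (h y))
    (hrange : ∀ x, x ∈ LinearMap.range h ↔ IsLoc (twO 𝒪 twX) (maxθ 𝒪 θ) x) :
    ∃ aT : Tloc 𝒪 θ →ₐ[𝒪] Module.End 𝒪 Y, Function.Injective aT ∧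
      (∀ (a : 𝒪 ⊗[ℤ] A), aT (algebraMap (𝒪 ⊗[ℤ] A) (Tloc 𝒪 θ) a) = twO 𝒪 twY a) ∧
      ∀ (t : A) (y : Y), aT (piT 𝒪 θ t) y = twY t y := by
  obtain ⟨-, κ, hκa, hκ⟩ := exists_kappa_base θ twX twY h hfaith hinj hact hrange
  refine ⟨(act 𝒪 θ twY).comp (κ : Tloc 𝒪 θ →ₐ[𝒪] TQ 𝒪 θ twY),
    (act_injective 𝒪 θ twY).comp κ.injective, fun a => ?_, fun t y => ?_⟩
  · show act 𝒪 θ twY (κ _) = _
    rw [hκa, act_mkQ]
  · show act 𝒪 θ twY (κ (piT 𝒪 θ t)) y = twY t y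
    rw [hκ, act_chi]

end Abs

end Fermat.Agent.GE6.Inst.BaseT
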