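/-
GATE-E / E6-INST, node N7 BASE-T (helper64), the INSTANCES of `GE6/Inst/BaseT`:

* `twLam 𝒪 N S : heckeAlgebra N 2 S →+* End_𝒪 (𝒪 ⊗[ℤ] Lam N)`, `t ↦ (latAct N S t).baseChange 𝒪`;
  `twO_twLam_injective` (flat `𝒪`): `𝒪 ⊗ heckeAlgebra` acts FAITHFULLY on `𝒪 ⊗ Lam N`;
* `ren` : the symbol algebra `MvPolynomial σ 𝒪 → 𝒪 ⊗ heckeAlgebra`, `X s ↦ 1 ⊗ T_{pr s}`, onto as soon
  as every prime outside `S` is a symbol; `twO_ren : twO (twLam) ∘ ren = actLam` (helper74 EB2);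
* `exists_act_Tloc_lam` : `Tloc 𝒪 θ` acts FAITHFULLY on helper2's `L = locSub actLam 𝔪`,
  `𝔪 = ren⁻¹ (maxθ 𝒪 θ)`, with `piT (T_{pr s})` acting as `(latT N (pr s)).baseChange 𝒪`;
* `exists_act_Tloc_of_equiv` : the same on ANY model `Y'` with an equivariant
  `e : Y' ≃ₗ[𝒪] locSub actLam 𝔪` (for `Y' = Mbase P`: helper74's `exists_locEquiv_lam`).
-/
import Mathlib
import Fermat.Agent.GE6.Inst.BaseT
import Fermat.Agent.GJ.Tate.Faithful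
import Fermat.Agent.GJ.J2.LatAct
import Fermat.Agent.GB.B4.Twist.TwHom
import Fermat.Agent.GE9.Eta.Base.LocBridge

set_option autoImplicit false
set_option linter.unusedSectionVars false
set_option linter.style.haveILetI false

noncomputable section

open scoped TensorProduct
open IsLocalRing CuspForm ModularCurve.Period CongruenceSubgroup

namespace Fermat.Agent.GE6.Inst.BaseTInst

open Fermat.Agent.GB.B3.RealLevel
open Fermat.Agent.GB.B3.LocBridge (isLoc_comp_iff)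
open Fermat.Agent.GB.B4.Datum.Carrier Fermat.Agent.GB.B4.Datum.ImageRing
open Fermat.Agent.GB.B8.LevelStage
open Fermat.Agent.GJ.J2.Lat Fermat.Agent.GJ.J2.LatAct Fermat.Agent.GJ.J2.ZStruct
open Fermat.Agent.GJ.Tate.Lim
open Fermat.Agent.GE9.Eta.Base.LocBridge
open Fermat.Agent.GE6.Inst.BaseT

/-! ### the Hecke algebra of forms on `𝒪 ⊗ Lam N` -/

section TwLam

variable (𝒪 : Type) [CommRing 𝒪] (N : ℕ) [NeZero N] (S : Set ℕ)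

/-- the Hecke algebra of forms acting on `𝒪 ⊗[ℤ] Lam N`. -/
def twLam : ↥(heckeAlgebra N 2 S) →+* Module.End 𝒪 (𝒪 ⊗[ℤ] Lam N) :=
  ((Module.End.baseChangeHom ℤ 𝒪 (Lam N) : Module.End ℤ (Lam N) →ₐ[ℤ] _) :
    Module.End ℤ (Lam N) →+* Module.End 𝒪 (𝒪 ⊗[ℤ] Lam N)).comp (latAct N S)

theorem twLam_apply (t : ↥(heckeAlgebra N 2 S)) :
    twLam 𝒪 N S t = (latAct N S t).baseChange 𝒪 := rfl

theorem twLam_T {ℓ : ℕ} (hℓ : ℓ.Prime) (hℓN : ¬ ℓ ∣ N) (hℓS : ℓ ∉ S) :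
    twLam 𝒪 N S (heckeAlgebra.T hℓ hℓN hℓS) = (latT N (⟨ℓ, hℓ⟩ : Nat.Primes)).baseChange 𝒪 := by
  rw [twLam_apply, latAct_T]

variable [IsLocalRing 𝒪]

theorem twO_twLam_eq (a : 𝒪 ⊗[ℤ] ↥(heckeAlgebra N 2 S)) :
    twO 𝒪 (twLam 𝒪 N S) a = tensorEndAlg 𝒪 (latAct N S).toIntAlgHom a := by
  induction a using TensorProduct.induction_on with
  | zero => rw [map_zero, map_zero]
  | tmul c t => rw [twO_tmul, tensorEndAlg_tmul]; rfl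
  | add a b ha hb => rw [map_add, map_add, ha, hb]

/-- **`𝒪 ⊗ heckeAlgebra` acts faithfully on `𝒪 ⊗ Lam N`** (`𝒪` flat over `ℤ`). -/
theorem twO_twLam_injective [Module.Flat ℤ 𝒪] : Function.Injective (twO 𝒪 (twLam 𝒪 N S)) := by
  have hfree : Module.Free ℤ (Lam N) := free_parabolicHoms_int N
  have hfin : Module.Finite ℤ (Lam N) := finite_parabolicHoms_int N
  have : Module.FinitePresentation ℤ (Lam N) := Module.finitePresentation_of_finite ℤ (Lam N)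
  have h := tensorEndAlg_injective 𝒪 (latAct N S).toIntAlgHom (latAct_injective N S)
  intro a b hab
  apply h
  rw [← twO_twLam_eq, ← twO_twLam_eq, hab]

end TwLam

/-! ### the symbol algebra -/

section Symbols

variable (𝒪 : Type) [CommRing 𝒪] [IsLocalRing 𝒪] (N : ℕ) [NeZero N] (S : Set ℕ)
  {σ : Type} (pr : σ → ℕ) (hpr : ∀ s, (pr s).Prime) (hprN : ∀ s, ¬ pr s ∣ N)
  (hprS : ∀ s, pr s ∉ S)

/-- the Hecke operator of a symbol. -/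
def gen (s : σ) : ↥(heckeAlgebra N 2 S) := heckeAlgebra.T (hpr s) (hprN s) (hprS s)

/-- the symbol algebra maps to `𝒪 ⊗ heckeAlgebra`. -/
def ren : MvPolynomial σ 𝒪 →ₐ[𝒪] 𝒪 ⊗[ℤ] ↥(heckeAlgebra N 2 S) :=
  MvPolynomial.aeval fun s => (1 : 𝒪) ⊗ₜ[ℤ] gen N S pr hpr hprN hprS s

theorem ren_X (s : σ) :
    ren 𝒪 N S pr hpr hprN hprS (MvPolynomial.X s) = (1 : 𝒪) ⊗ₜ[ℤ] gen N S pr hpr hprN hprS s := by
  rw [ren, MvPolynomial.aeval_X]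

/-- the symbols generate: `ren` is onto as soon as every prime outside `S` is a symbol. -/
theorem ren_surjective (hS : ∀ ℓ : ℕ, ℓ.Prime → ℓ ∉ S → ∃ s, pr s = ℓ) :
    Function.Surjective (ren 𝒪 N S pr hpr hprN hprS) := by
  have hgen : ∀ l : PrimesOff S, ∃ s, formsGenS N S l = gen N S pr hpr hprN hprS s := by
    intro l
    obtain ⟨s, hs⟩ := hS (l.1 : ℕ) l.1.2 l.2
    have hlN : ¬ ((l.1 : ℕ)) ∣ N := by rw [← hs]; exact hprN s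
    refine ⟨s, ?_⟩
    rw [formsGenS_of_not_dvd N S l hlN]
    unfold gen
    congr 1
    · exact hs.symm
    all_goals exact proof_irrel_heq _ _
  have h1 : ∀ t : ↥(heckeAlgebra N 2 S),
      ((1 : 𝒪) ⊗ₜ[ℤ] t : 𝒪 ⊗[ℤ] ↥(heckeAlgebra N 2 S))
        ∈ (ren 𝒪 N S pr hpr hprN hprS).range := by
    intro t
    have ht : t ∈ Subring.closure (Set.range (formsGenS N S)) := by
      rw [Fermat.Agent.GB.B4.Twist.TwHom.closure_range_formsGenS]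
      exact Subring.mem_top t
    induction ht using Subring.closure_induction with
    | mem x hx =>
      obtain ⟨l, rfl⟩ := hx
      obtain ⟨s, hs⟩ := hgen l
      refine ⟨MvPolynomial.X s, ?_⟩
      show ren 𝒪 N S pr hpr hprN hprS (MvPolynomial.X s) = _
      rw [ren_X, hs]
    | zero => rw [TensorProduct.tmul_zero]; exact Subalgebra.zero_mem _
    | one => exact Subalgebra.one_mem _
    | add x y _ _ hx hy => rw [TensorProduct.tmul_add]; exact Subalgebra.add_mem _ hx hy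
    | neg x _ hx => rw [TensorProduct.tmul_neg]; exact Subalgebra.neg_mem _ hx
    | mul x y _ _ hx hy =>
      have : ((1 : 𝒪) ⊗ₜ[ℤ] (x * y) : 𝒪 ⊗[ℤ] ↥(heckeAlgebra N 2 S))
          = ((1 : 𝒪) ⊗ₜ[ℤ] x) * ((1 : 𝒪) ⊗ₜ[ℤ] y) := by
        rw [Algebra.TensorProduct.tmul_mul_tmul, mul_one]
      rw [this]
      exact Subalgebra.mul_mem _ hx hy
  intro a
  have ha : a ∈ (ren 𝒪 N S pr hpr hprN hprS).range := by
    induction a using TensorProduct.induction_on with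
    | zero => exact Subalgebra.zero_mem _
    | tmul c t =>
      have : (c ⊗ₜ[ℤ] t : 𝒪 ⊗[ℤ] ↥(heckeAlgebra N 2 S)) = c • ((1 : 𝒪) ⊗ₜ[ℤ] t) := by
        rw [TensorProduct.smul_tmul', smul_eq_mul, mul_one]
      rw [this]
      exact Subalgebra.smul_mem _ (h1 t) c
    | add a b ha hb => exact Subalgebra.add_mem _ ha hb
  exact ha

/-- **the dictionary**: `𝒪 ⊗ heckeAlgebra` acts on `𝒪 ⊗ Lam N` through the symbols as `actLam`. -/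
theorem twO_ren (P : MvPolynomial σ 𝒪) :
    twO 𝒪 (twLam 𝒪 N S) (ren 𝒪 N S pr hpr hprN hprS P) = actLam 𝒪 N pr hpr P := by
  have h : (twO 𝒪 (twLam 𝒪 N S)).comp (ren 𝒪 N S pr hpr hprN hprS) = actLam 𝒪 N pr hpr := by
    refine MvPolynomial.algHom_ext fun s => ?_
    rw [AlgHom.comp_apply, ren_X, twO_tmul, one_smul, actLam_X]
    exact twLam_T 𝒪 N S (hpr s) (hprN s) (hprS s)
  exact DFunLike.congr_fun h P

end Symbols

/-! ### `Tloc` on helper2's `L = locSub actLam 𝔪` -/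

section Main

variable {𝒪 : Type} [CommRing 𝒪] [IsLocalRing 𝒪]
  {N : ℕ} [NeZero N] {S : Set ℕ}
  {σ : Type} (pr : σ → ℕ) (hpr : ∀ s, (pr s).Prime) (hprN : ∀ s, ¬ pr s ∣ N)
  (hprS : ∀ s, pr s ∉ S) (𝔪 : Ideal (MvPolynomial σ 𝒪))

include hprN hprS in
/-- the Hecke algebra of forms preserves the primary part of the symbol algebra. -/
theorem twLam_mem_locSub (t : ↥(heckeAlgebra N 2 S)) {x : 𝒪 ⊗[ℤ] Lam N}
    (hx : x ∈ locSub (actLam 𝒪 N pr hpr) 𝔪) :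
    twLam 𝒪 N S t x ∈ locSub (actLam 𝒪 N pr hpr) 𝔪 := by
  intro s hs
  obtain ⟨x', hx'⟩ := hx s hs
  refine ⟨twLam 𝒪 N S t x', ?_⟩
  have h1 : twLam 𝒪 N S t = twO 𝒪 (twLam 𝒪 N S) ((1 : 𝒪) ⊗ₜ[ℤ] t) := by
    rw [twO_tmul, one_smul]
  rw [← hx', ← twO_ren 𝒪 N S pr hpr hprN hprS s, h1, ← Module.End.mul_apply,
    ← Module.End.mul_apply, ← map_mul, ← map_mul, mul_comm]

/-- the Hecke algebra of forms on the primary part `locSub actLam 𝔪`. -/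
def twLoc : ↥(heckeAlgebra N 2 S) →+* Module.End 𝒪 ↥(locSub (actLam 𝒪 N pr hpr) 𝔪) where
  toFun t := (twLam 𝒪 N S t).restrict
    (fun _ hx => twLam_mem_locSub pr hpr hprN hprS 𝔪 t hx)
  map_one' := by
    refine LinearMap.ext fun x => Subtype.ext ?_
    show twLam 𝒪 N S 1 (x : 𝒪 ⊗[ℤ] Lam N) = x
    rw [map_one]; rfl
  map_mul' s t := by
    refine LinearMap.ext fun x => Subtype.ext ?_
    show twLam 𝒪 N S (s * t) (x : 𝒪 ⊗[ℤ] Lam N)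
      = twLam 𝒪 N S s (twLam 𝒪 N S t (x : 𝒪 ⊗[ℤ] Lam N))
    rw [map_mul]; rfl
  map_zero' := by
    refine LinearMap.ext fun x => Subtype.ext ?_
    show twLam 𝒪 N S 0 (x : 𝒪 ⊗[ℤ] Lam N) = 0
    rw [map_zero]; rfl
  map_add' s t := by
    refine LinearMap.ext fun x => Subtype.ext ?_
    show twLam 𝒪 N S (s + t) (x : 𝒪 ⊗[ℤ] Lam N)
      = twLam 𝒪 N S s (x : 𝒪 ⊗[ℤ] Lam N) + twLam 𝒪 N S t (x : 𝒪 ⊗[ℤ] Lam N)
    rw [map_add]; rfl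

theorem coe_twLoc (t : ↥(heckeAlgebra N 2 S)) (x : ↥(locSub (actLam 𝒪 N pr hpr) 𝔪)) :
    ((twLoc pr hpr hprN hprS 𝔪 t x : ↥(locSub (actLam 𝒪 N pr hpr) 𝔪)) : 𝒪 ⊗[ℤ] Lam N)
      = twLam 𝒪 N S t (x : 𝒪 ⊗[ℤ] Lam N) := rfl

/-- `twO twLoc` on the symbols is the restricted symbol action `locAct actLam 𝔪`. -/
theorem twO_twLoc_ren (P : MvPolynomial σ 𝒪) :
    twO 𝒪 (twLoc pr hpr hprN hprS 𝔪) (ren 𝒪 N S pr hpr hprN hprS P)
      = locAct (actLam 𝒪 N pr hpr) 𝔪 P := by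
  have h : (twO 𝒪 (twLoc pr hpr hprN hprS 𝔪)).comp (ren 𝒪 N S pr hpr hprN hprS)
      = locAct (actLam 𝒪 N pr hpr) 𝔪 := by
    refine MvPolynomial.algHom_ext fun s => ?_
    rw [AlgHom.comp_apply, ren_X, twO_tmul, one_smul]
    refine LinearMap.ext fun x => Subtype.ext ?_
    rw [coe_twLoc, locAct_apply, actLam_X]
    exact LinearMap.congr_fun (twLam_T 𝒪 N S (hpr s) (hprN s) (hprS s)) _
  exact DFunLike.congr_fun h P

variable [IsNoetherianRing 𝒪] [IsAdicComplete (maximalIdeal 𝒪) 𝒪] [Module.Flat ℤ 𝒪]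
  (θ : ↥(heckeAlgebra N 2 S) →+* ResidueField 𝒪)

/-- **N7 BASE-T on the lattice model**: `Tloc 𝒪 θ` acts FAITHFULLY on
`L = locSub actLam 𝔪`, `𝔪 = ren⁻¹ (maxθ 𝒪 θ)`; `𝒪 ⊗ heckeAlgebra` acts through `twO twLoc`, the
symbol algebra through `locAct actLam 𝔪`, and `piT (T_{pr s})` as `(latT N (pr s)).baseChange 𝒪`. -/
theorem exists_act_Tloc_lam (hS : ∀ ℓ : ℕ, ℓ.Prime → ℓ ∉ S → ∃ s, pr s = ℓ)
    (h𝔪 : 𝔪 = (maxθ 𝒪 θ).comap (ren 𝒪 N S pr hpr hprN hprS)) :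
    ∃ aT : Tloc 𝒪 θ →ₐ[𝒪] Module.End 𝒪 ↥(locSub (actLam 𝒪 N pr hpr) 𝔪),
      Function.Injective aT ∧
      (∀ P : MvPolynomial σ 𝒪,
        aT (algebraMap (𝒪 ⊗[ℤ] ↥(heckeAlgebra N 2 S)) (Tloc 𝒪 θ)
          (ren 𝒪 N S pr hpr hprN hprS P)) = locAct (actLam 𝒪 N pr hpr) 𝔪 P) ∧
      (∀ (t : ↥(heckeAlgebra N 2 S)) (y : ↥(locSub (actLam 𝒪 N pr hpr) 𝔪)),
        ((aT (piT 𝒪 θ t) y : ↥(locSub (actLam 𝒪 N pr hpr) 𝔪)) : 𝒪 ⊗[ℤ] Lam N)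
          = (latAct N S t).baseChange 𝒪 (y : 𝒪 ⊗[ℤ] Lam N)) ∧
      ∀ (s : σ) (y : ↥(locSub (actLam 𝒪 N pr hpr) 𝔪)),
        ((aT (piT 𝒪 θ (gen N S pr hpr hprN hprS s)) y :
            ↥(locSub (actLam 𝒪 N pr hpr) 𝔪)) : 𝒪 ⊗[ℤ] Lam N)
          = (latT N (⟨pr s, hpr s⟩ : Nat.Primes)).baseChange 𝒪 (y : 𝒪 ⊗[ℤ] Lam N) := by
  have hfree : Module.Free ℤ (Lam N) := free_parabolicHoms_int N
  have hfin : Module.Finite ℤ (Lam N) := finite_parabolicHoms_int N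
  haveI : Module.Free 𝒪 (𝒪 ⊗[ℤ] Lam N) := inferInstance
  haveI : Module.Finite 𝒪 (𝒪 ⊗[ℤ] Lam N) := inferInstance
  have hsurj := ren_surjective 𝒪 N S pr hpr hprN hprS hS
  have hcomp : (twO 𝒪 (twLam 𝒪 N S)).comp (ren 𝒪 N S pr hpr hprN hprS) = actLam 𝒪 N pr hpr :=
    AlgHom.ext fun P => twO_ren 𝒪 N S pr hpr hprN hprS P
  have hrange : ∀ x : 𝒪 ⊗[ℤ] Lam N,
      x ∈ LinearMap.range (locSub (actLam 𝒪 N pr hpr) 𝔪).subtype
        ↔ IsLoc (twO 𝒪 (twLam 𝒪 N S)) (maxθ 𝒪 θ) x := by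
    intro x
    rw [Submodule.range_subtype, mem_locSub, h𝔪, ← hcomp]
    exact isLoc_comp_iff (ren 𝒪 N S pr hpr hprN hprS) hsurj (twO 𝒪 (twLam 𝒪 N S)) (maxθ 𝒪 θ) x
  obtain ⟨aT, hinj, ha, hT⟩ := exists_act_Tloc θ (twLam 𝒪 N S) (twLoc pr hpr hprN hprS 𝔪)
    (locSub (actLam 𝒪 N pr hpr) 𝔪).subtype (twO_twLam_injective 𝒪 N S)
    (Submodule.injective_subtype _) (fun _ _ => rfl) hrange
  refine ⟨aT, hinj, fun P => ?_, fun t y => ?_, fun s y => ?_⟩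
  · rw [ha, twO_twLoc_ren]
  · rw [hT, coe_twLoc, twLam_apply]
  · rw [hT, coe_twLoc]
    exact LinearMap.congr_fun (twLam_T 𝒪 N S (hpr s) (hprN s) (hprS s)) _

/-- **N7 BASE-T on any model** (`Y' = Mbase P` through helper74's EB2 `exists_locEquiv_lam`):
an `𝒪`-linear equivalence `e : Y' ≃ locSub actLam 𝔪` intertwining a symbol action `actY'` with
`locAct actLam 𝔪` transports the faithful `Tloc`-action: two FAITHFUL actions `aL` (on the lattice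
model) and `aY` (on `Y'`), intertwined by `e`, with `aY (ren P) = actY' P`. -/
theorem exists_act_Tloc_of_equiv (hS : ∀ ℓ : ℕ, ℓ.Prime → ℓ ∉ S → ∃ s, pr s = ℓ)
    (h𝔪 : 𝔪 = (maxθ 𝒪 θ).comap (ren 𝒪 N S pr hpr hprN hprS))
    {Y' : Type} [AddCommGroup Y'] [Module 𝒪 Y']
    (actY' : MvPolynomial σ 𝒪 →ₐ[𝒪] Module.End 𝒪 Y')
    (e : Y' ≃ₗ[𝒪] ↥(locSub (actLam 𝒪 N pr hpr) 𝔪))
    (he : ∀ (P : MvPolynomial σ 𝒪) (y : Y'),
      e (actY' P y) = locAct (actLam 𝒪 N pr hpr) 𝔪 P (e y)) :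
    ∃ (aL : Tloc 𝒪 θ →ₐ[𝒪] Module.End 𝒪 ↥(locSub (actLam 𝒪 N pr hpr) 𝔪))
      (aY : Tloc 𝒪 θ →ₐ[𝒪] Module.End 𝒪 Y'),
      Function.Injective aL ∧ Function.Injective aY ∧
      (∀ (z : Tloc 𝒪 θ) (y : Y'), e (aY z y) = aL z (e y)) ∧
      (∀ P : MvPolynomial σ 𝒪,
        aY (algebraMap (𝒪 ⊗[ℤ] ↥(heckeAlgebra N 2 S)) (Tloc 𝒪 θ)
          (ren 𝒪 N S pr hpr hprN hprS P)) = actY' P) ∧
      (∀ (s : σ) (y : Y'),
        aY (piT 𝒪 θ (gen N S pr hpr hprN hprS s)) y = actY' (MvPolynomial.X s) y) ∧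
      (∀ P : MvPolynomial σ 𝒪,
        aL (algebraMap (𝒪 ⊗[ℤ] ↥(heckeAlgebra N 2 S)) (Tloc 𝒪 θ)
          (ren 𝒪 N S pr hpr hprN hprS P)) = locAct (actLam 𝒪 N pr hpr) 𝔪 P) ∧
      (∀ (t : ↥(heckeAlgebra N 2 S)) (y : ↥(locSub (actLam 𝒪 N pr hpr) 𝔪)),
        ((aL (piT 𝒪 θ t) y : ↥(locSub (actLam 𝒪 N pr hpr) 𝔪)) : 𝒪 ⊗[ℤ] Lam N)
          = (latAct N S t).baseChange 𝒪 (y : 𝒪 ⊗[ℤ] Lam N)) ∧
      ∀ (s : σ) (y : ↥(locSub (actLam 𝒪 N pr hpr) 𝔪)),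
        ((aL (piT 𝒪 θ (gen N S pr hpr hprN hprS s)) y :
            ↥(locSub (actLam 𝒪 N pr hpr) 𝔪)) : 𝒪 ⊗[ℤ] Lam N)
          = (latT N (⟨pr s, hpr s⟩ : Nat.Primes)).baseChange 𝒪 (y : 𝒪 ⊗[ℤ] Lam N) := by
  obtain ⟨aL, hinj, ha, hT, hTs⟩ := exists_act_Tloc_lam pr hpr hprN hprS 𝔪 θ hS h𝔪
  let c : Module.End 𝒪 ↥(locSub (actLam 𝒪 N pr hpr) 𝔪) ≃ₐ[𝒪] Module.End 𝒪 Y' :=
    e.symm.conjAlgEquiv 𝒪
  have hc : ∀ (f : Module.End 𝒪 ↥(locSub (actLam 𝒪 N pr hpr) 𝔪)) (y : Y'),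
      c f y = e.symm (f (e y)) := fun f y => rfl
  let aY : Tloc 𝒪 θ →ₐ[𝒪] Module.End 𝒪 Y' := (c : _ →ₐ[𝒪] _).comp aL
  have haY : ∀ z, aY z = c (aL z) := fun _ => rfl
  have hP : ∀ P : MvPolynomial σ 𝒪,
      aY (algebraMap (𝒪 ⊗[ℤ] ↥(heckeAlgebra N 2 S)) (Tloc 𝒪 θ)
        (ren 𝒪 N S pr hpr hprN hprS P)) = actY' P := by
    intro P
    refine LinearMap.ext fun y => ?_
    rw [haY, hc, ha, ← he, e.symm_apply_apply]
  refine ⟨aL, aY, hinj, ?_, fun z y => ?_, hP, fun s y => ?_, ha, hT, hTs⟩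
  · intro z₁ z₂ hz
    apply hinj
    apply c.injective
    rw [← haY, ← haY, hz]
  · rw [haY, hc, e.apply_symm_apply]
  · have h1 := hP (MvPolynomial.X s)
    rw [ren_X] at h1
    have h2 : piT 𝒪 θ (gen N S pr hpr hprN hprS s)
        = algebraMap (𝒪 ⊗[ℤ] ↥(heckeAlgebra N 2 S)) (Tloc 𝒪 θ)
            ((1 : 𝒪) ⊗ₜ[ℤ] gen N S pr hpr hprN hprS s) := piT_apply 𝒪 θ _
    rw [h2]
    exact LinearMap.congr_fun h1 y

end Main

end Fermat.Agent.GE6.Inst.BaseTInst
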