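import Fermat.Agent.GB.B8.LevelStage

/-!
# GATE-E / ENGINE-INST, node N7a (helper12): the localised Hecke algebra acts on the primary part

`𝒪` complete noetherian local, `𝕋` a commutative `𝒪`-algebra acting on an `𝒪`-finite module `X`
(`act : 𝕋 →ₐ[𝒪] End_𝒪 X`), `𝔪 ⊂ 𝕋` maximal, `L = locSub act 𝔪` the `𝔪`-primary part
(`GB/B8/LevelStage`), `Tl` ANY localisation of `𝕋` at `𝔪` (`IsLocalization.AtPrime Tl 𝔪`; e.g.
`Tl = Tloc 𝒪 θ` for `𝕋 = 𝒪 ⊗[ℤ] heckeAlgebra N 2 S`, `𝔪 = maxθ 𝒪 θ`).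

* `locModule act 𝔪 Tl : Module Tl (locSub act 𝔪)` — every `s ∉ 𝔪` is bijective on `L`, so `Tl` acts;
* `algebraMap_smul_eq` : `algebraMap 𝕋 Tl t • y = locAct act 𝔪 t y`;
* `isScalarTower_locModule` : `IsScalarTower 𝒪 Tl L` (for `[Algebra 𝒪 Tl] [IsScalarTower 𝒪 𝕋 Tl]`);
* `eq_zero_of_smul_eq_zero` : if `act` is injective (`𝕋` acts FAITHFULLY on `X`) then `Tl` acts
  faithfully on `L`.

This is the `Tloc P.O P.theta`-module structure on the base module of the engine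
(`GE/Engine/Base.BaseInput.L`, `T = Tloc`), needed by E6 (N6 semilinearity, `KappaAbs.exists_kappa`
wants a faithful action) and by ETA-BASE (`base_fields`, binder `hact`).
-/

set_option autoImplicit false
set_option linter.unusedSectionVars false
set_option linter.style.haveILetI false

namespace Fermat.Agent.GE6.Inst.LocModule

open IsLocalRing Fermat.Agent.GB.B8.LevelStage Fermat.Agent.GB.B8.LevelAbs Fermat.Agent.GB.B3.Loc

variable {𝒪 : Type} [CommRing 𝒪] [IsLocalRing 𝒪] [IsNoetherianRing 𝒪]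
  [IsAdicComplete (maximalIdeal 𝒪) 𝒪]
  {𝕋 : Type} [CommRing 𝕋] [Algebra 𝒪 𝕋]
  {X : Type} [AddCommGroup X] [Module 𝒪 X] [Module.Finite 𝒪 X]
  (act : 𝕋 →ₐ[𝒪] Module.End 𝒪 X) (𝔪 : Ideal 𝕋) [h𝔪 : 𝔪.IsMaximal]

/-- `𝕋` acts on the primary part. -/
@[reducible] def modT : Module 𝕋 (locSub act 𝔪) :=
  Module.compHom (locSub act 𝔪) (locAct act 𝔪 : 𝕋 →+* Module.End 𝒪 (locSub act 𝔪))

theorem modT_smul (t : 𝕋) (y : locSub act 𝔪) :
    letI := modT act 𝔪
    t • y = locAct act 𝔪 t y := rfl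

/-- the identity of the primary part is a localisation map at `𝔪`. -/
theorem isLocalizedModule_id :
    letI := modT act 𝔪
    IsLocalizedModule 𝔪.primeCompl (LinearMap.id : locSub act 𝔪 →ₗ[𝕋] locSub act 𝔪) := by
  letI := modT act 𝔪
  refine ⟨fun s => ?_, fun y => ⟨(y, 1), by simp⟩, fun {x₁ x₂} h => ⟨1, by simpa using h⟩⟩
  rw [Module.End.isUnit_iff]
  exact (Stage.base act 𝔪).bijective_actP s.2

variable (Tl : Type) [CommRing Tl] [Algebra 𝕋 Tl] [IsLocalization.AtPrime Tl 𝔪]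

/-- **the localisation `Tl = 𝕋_𝔪` acts on the primary part.** -/
@[reducible] noncomputable def locModule : Module Tl (locSub act 𝔪) :=
  letI := modT act 𝔪
  haveI := isLocalizedModule_id act 𝔪
  IsLocalizedModule.module 𝔪.primeCompl
    (LinearMap.id : locSub act 𝔪 →ₗ[𝕋] locSub act 𝔪)

theorem isScalarTower_T :
    letI := modT act 𝔪
    letI := locModule act 𝔪 Tl
    IsScalarTower 𝕋 Tl (locSub act 𝔪) := by
  letI := modT act 𝔪
  haveI := isLocalizedModule_id act 𝔪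
  exact IsLocalizedModule.isScalarTower_module 𝔪.primeCompl
    (LinearMap.id : locSub act 𝔪 →ₗ[𝕋] locSub act 𝔪)

/-- the image of `t : 𝕋` acts as `act t`. -/
theorem algebraMap_smul_eq (t : 𝕋) (y : locSub act 𝔪) :
    letI := locModule act 𝔪 Tl
    algebraMap 𝕋 Tl t • y = locAct act 𝔪 t y := by
  letI := modT act 𝔪
  letI := locModule act 𝔪 Tl
  haveI := isScalarTower_T act 𝔪 Tl
  rw [algebraMap_smul Tl t y]
  rfl

/-- coordinates in `X`. -/
theorem coe_algebraMap_smul (t : 𝕋) (y : locSub act 𝔪) :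
    letI := locModule act 𝔪 Tl
    ((algebraMap 𝕋 Tl t • y : locSub act 𝔪) : X) = act t (y : X) := by
  letI := locModule act 𝔪 Tl
  rw [algebraMap_smul_eq]
  rfl

/-- `𝒪`-linearity of the `Tl`-action. -/
theorem isScalarTower_locModule [Algebra 𝒪 Tl] [IsScalarTower 𝒪 𝕋 Tl] :
    letI := locModule act 𝔪 Tl
    IsScalarTower 𝒪 Tl (locSub act 𝔪) := by
  letI := locModule act 𝔪 Tl
  refine IsScalarTower.of_algebraMap_smul fun c y => ?_
  rw [IsScalarTower.algebraMap_apply 𝒪 𝕋 Tl, algebraMap_smul_eq, AlgHom.commutes,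
    Module.algebraMap_end_apply]

/-- **faithfulness**: if `𝕋` acts faithfully on `X`, then `Tl` acts faithfully on the primary
part. -/
theorem eq_zero_of_smul_eq_zero (hinj : Function.Injective act) (u : Tl)
    (hu : letI := locModule act 𝔪 Tl
      ∀ y : locSub act 𝔪, u • y = 0) : u = 0 := by
  letI := modT act 𝔪
  letI := locModule act 𝔪 Tl
  haveI := isScalarTower_T act 𝔪 Tl
  letI : Module 𝕋 X := Module.compHom X (act : 𝕋 →+* Module.End 𝒪 X)
  haveI : IsScalarTower 𝒪 𝕋 X := ⟨fun c s x => by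
    show act (c • s) x = c • act s x
    rw [map_smul]; rfl⟩
  obtain ⟨⟨t, s⟩, hts⟩ := IsLocalization.mk'_surjective 𝔪.primeCompl u
  -- `u * s = t`
  have h1 : u * algebraMap 𝕋 Tl (s : 𝕋) = algebraMap 𝕋 Tl t := by
    rw [← hts, IsLocalization.mk'_spec]
  -- `t` kills the primary part
  have h2 : ∀ y : locSub act 𝔪, locAct act 𝔪 t y = 0 := by
    intro y
    rw [← algebraMap_smul_eq act 𝔪 Tl, ← h1, mul_comm, mul_smul, hu, smul_zero]
  -- the idempotent
  obtain ⟨s₀, hs₀, -, hloc, -⟩ := parts_eq 𝒪 (L := X) 𝔪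
  have h3 : ∀ x : X, act (s₀ * t) x = 0 := by
    intro x
    have hx : s₀ • x ∈ locPart 𝔪 X := by
      rw [hloc]
      exact ⟨x, rfl⟩
    have hx' : act s₀ x ∈ locSub act 𝔪 := (mem_locSub act 𝔪 _).2 (mem_locPart.1 hx)
    have := congrArg Subtype.val (h2 ⟨act s₀ x, hx'⟩)
    rw [mul_comm, map_mul]
    exact this
  have h4 : s₀ * t = 0 := by
    apply hinj
    rw [map_zero]
    exact LinearMap.ext h3
  -- conclude
  have h5 : algebraMap 𝕋 Tl t = 0 := by
    have hunit : IsUnit (algebraMap 𝕋 Tl s₀) :=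
      IsLocalization.map_units Tl (⟨s₀, hs₀⟩ : 𝔪.primeCompl)
    have : algebraMap 𝕋 Tl s₀ * algebraMap 𝕋 Tl t = 0 := by rw [← map_mul, h4, map_zero]
    exact (hunit.mul_right_eq_zero).mp this
  have hunit : IsUnit (algebraMap 𝕋 Tl (s : 𝕋)) := IsLocalization.map_units Tl s
  rw [h5] at h1
  exact (hunit.mul_left_eq_zero).mp h1

end Fermat.Agent.GE6.Inst.LocModule
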