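/-
GATE-E / E6-INST, node N7b BASE-T INSTANCE (helper64; RULING N7 of helper12, board 7678), generic
half: **the base Hecke module `LT` with its `Tloc`-module structure of record**.

* `tA 𝒪 N S : 𝒪 ⊗[ℤ] heckeAlgebra N 2 S →ₐ[𝒪] End_𝒪 (𝒪 ⊗[ℤ] Lam N)` `:= tensorEndAlg 𝒪 (latActAlg N S)`,
  `tA_injective` (flat `𝒪`), `tA_ren : tA (ren P) = actLam P`;
* `LT 𝒪 N S θ := ↥(locSub (tA 𝒪 N S) (maxθ 𝒪 θ))` with
  `Module (Tloc 𝒪 θ) (LT …) := LocModule.locModule …` (helper12), `IsScalarTower 𝒪 (Tloc 𝒪 θ) (LT …)`,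
  `coe_piT_smul`, `coe_piT_T_smul`, `lsmul_injective` (the `Injective a0` of `KappaAbs.exists_kappa`),
  `finite_LT`, `free_LT`, `nontrivial_LT`;
* `locSub_actLam_eq` : `locSub actLam 𝔪 = locSub tA (maxθ 𝒪 θ)` for `𝔪 = ren⁻¹ (maxθ 𝒪 θ)`
  (helper2's `L` IS `LT`), `comap_ren_maxθ` : `ker lam = ren⁻¹ (maxθ 𝒪 θ)` when `lam (X s) = θ (T_{pr s})`;
* `exists_eL` : from an equivariant `e : Y' ≃ₗ[𝒪] locSub actLam 𝔪` (helper74's EB2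
  `exists_locEquiv_lam`, `Y' = Mbase P`) the equivalence `eL : Y' ≃ₗ[𝒪] LT` with
  `eL (actY' P y) = algebraMap _ (Tloc 𝒪 θ) (ren P) • eL y`, `eL (actY' (X s) y) = piT (T_{pr s}) • eL y`.
-/
import Mathlib
import Fermat.Agent.GE6.Inst.BaseTInst
import Fermat.Agent.GE6.Inst.LocModule

set_option autoImplicit false
set_option linter.unusedSectionVars false
set_option linter.style.haveILetI false

noncomputable section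

open scoped TensorProduct
open IsLocalRing CuspForm ModularCurve.Period CongruenceSubgroup

namespace Fermat.Agent.GE6.Inst.BaseTLoc

open Fermat.Agent.GB.B3.RealLevel
open Fermat.Agent.GB.B3.LocBridge (isLoc_comp_iff)
open Fermat.Agent.GB.B4.Datum.Carrier Fermat.Agent.GB.B4.Datum.ImageRing
open Fermat.Agent.GB.B8.LevelStage
open Fermat.Agent.GJ.J2.Lat Fermat.Agent.GJ.J2.LatAct Fermat.Agent.GJ.J2.ZStruct
open Fermat.Agent.GJ.Tate.Lim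
open Fermat.Agent.GE9.Eta.Base.LocBridge
open Fermat.Agent.GE6.Inst.BaseT Fermat.Agent.GE6.Inst.BaseTInst Fermat.Agent.GE6.Inst.LocModule

/-! ### the action of record -/

section TA

variable (𝒪 : Type) [CommRing 𝒪] (N : ℕ) [NeZero N] (S : Set ℕ)

/-- **the action of record** of `𝒪 ⊗ heckeAlgebra` on `𝒪 ⊗ Lam N`. -/
def tA : 𝒪 ⊗[ℤ] ↥(heckeAlgebra N 2 S) →ₐ[𝒪] Module.End 𝒪 (𝒪 ⊗[ℤ] Lam N) :=
  tensorEndAlg 𝒪 (latActAlg N S)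

theorem tA_tmul (c : 𝒪) (t : ↥(heckeAlgebra N 2 S)) :
    tA 𝒪 N S (c ⊗ₜ[ℤ] t) = c • (latAct N S t).baseChange 𝒪 :=
  tensorEndAlg_tmul 𝒪 (latActAlg N S) c t

theorem tA_one_tmul_T {ℓ : ℕ} (hℓ : ℓ.Prime) (hℓN : ¬ ℓ ∣ N) (hℓS : ℓ ∉ S) :
    tA 𝒪 N S ((1 : 𝒪) ⊗ₜ[ℤ] heckeAlgebra.T hℓ hℓN hℓS)
      = (latT N (⟨ℓ, hℓ⟩ : Nat.Primes)).baseChange 𝒪 := by
  rw [tA_tmul, one_smul, latAct_T]

/-- `𝒪 ⊗ heckeAlgebra` acts faithfully on `𝒪 ⊗ Lam N`. -/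
theorem tA_injective [Module.Flat ℤ 𝒪] : Function.Injective (tA 𝒪 N S) := by
  have hfree : Module.Free ℤ (Lam N) := free_parabolicHoms_int N
  have hfin : Module.Finite ℤ (Lam N) := finite_parabolicHoms_int N
  have : Module.FinitePresentation ℤ (Lam N) := Module.finitePresentation_of_finite ℤ (Lam N)
  exact tensorEndAlg_injective 𝒪 (latActAlg N S) (latAct_injective N S)

variable [IsLocalRing 𝒪]

theorem tA_eq_twO : tA 𝒪 N S = twO 𝒪 (twLam 𝒪 N S) :=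
  AlgHom.ext fun a => (twO_twLam_eq 𝒪 N S a).symm

variable {σ : Type} (pr : σ → ℕ) (hpr : ∀ s, (pr s).Prime) (hprN : ∀ s, ¬ pr s ∣ N)
  (hprS : ∀ s, pr s ∉ S)

/-- the symbols act through `tA ∘ ren` as `actLam`. -/
theorem tA_ren (P : MvPolynomial σ 𝒪) :
    tA 𝒪 N S (ren 𝒪 N S pr hpr hprN hprS P) = actLam 𝒪 N pr hpr P := by
  rw [tA_eq_twO, twO_ren]

theorem tA_comp_ren :
    (tA 𝒪 N S).comp (ren 𝒪 N S pr hpr hprN hprS) = actLam 𝒪 N pr hpr :=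
  AlgHom.ext fun P => tA_ren 𝒪 N S pr hpr hprN hprS P

end TA

/-! ### the base Hecke module `LT` -/

section LTsec

variable (𝒪 : Type) [CommRing 𝒪] [IsLocalRing 𝒪] [IsNoetherianRing 𝒪]
  [IsAdicComplete (maximalIdeal 𝒪) 𝒪]
  (N : ℕ) [NeZero N] (S : Set ℕ) (θ : ↥(heckeAlgebra N 2 S) →+* ResidueField 𝒪)

/-- **the base Hecke module**: the `maxθ`-primary part of `𝒪 ⊗ Lam N`. -/
abbrev LT : Type := ↥(locSub (tA 𝒪 N S) (maxθ 𝒪 θ))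

instance instFiniteTensorLam : Module.Finite 𝒪 (𝒪 ⊗[ℤ] Lam N) := by
  have : Module.Finite ℤ (Lam N) := finite_parabolicHoms_int N
  infer_instance

instance instFreeTensorLam : Module.Free 𝒪 (𝒪 ⊗[ℤ] Lam N) := by
  have : Module.Free ℤ (Lam N) := free_parabolicHoms_int N
  infer_instance

/-- **the module structure of record** (`LocModule.locModule`). -/
instance instModuleTlocLT : Module (Tloc 𝒪 θ) (LT 𝒪 N S θ) :=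
  locModule (tA 𝒪 N S) (maxθ 𝒪 θ) (Tloc 𝒪 θ)

instance instIsScalarTowerLT : IsScalarTower 𝒪 (Tloc 𝒪 θ) (LT 𝒪 N S θ) :=
  isScalarTower_locModule (tA 𝒪 N S) (maxθ 𝒪 θ) (Tloc 𝒪 θ)

variable {𝒪 N S θ}

theorem algebraMap_smul_LT (a : 𝒪 ⊗[ℤ] ↥(heckeAlgebra N 2 S)) (y : LT 𝒪 N S θ) :
    algebraMap (𝒪 ⊗[ℤ] ↥(heckeAlgebra N 2 S)) (Tloc 𝒪 θ) a • y
      = locAct (tA 𝒪 N S) (maxθ 𝒪 θ) a y :=
  algebraMap_smul_eq (tA 𝒪 N S) (maxθ 𝒪 θ) (Tloc 𝒪 θ) a y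

theorem coe_algebraMap_smul_LT (a : 𝒪 ⊗[ℤ] ↥(heckeAlgebra N 2 S)) (y : LT 𝒪 N S θ) :
    ((algebraMap (𝒪 ⊗[ℤ] ↥(heckeAlgebra N 2 S)) (Tloc 𝒪 θ) a • y : LT 𝒪 N S θ) : 𝒪 ⊗[ℤ] Lam N)
      = tA 𝒪 N S a (y : 𝒪 ⊗[ℤ] Lam N) :=
  coe_algebraMap_smul (tA 𝒪 N S) (maxθ 𝒪 θ) (Tloc 𝒪 θ) a y

/-- `piT t` acts as the lattice operator `latAct t`. -/
theorem coe_piT_smul (t : ↥(heckeAlgebra N 2 S)) (y : LT 𝒪 N S θ) :
    ((piT 𝒪 θ t • y : LT 𝒪 N S θ) : 𝒪 ⊗[ℤ] Lam N)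
      = (latAct N S t).baseChange 𝒪 (y : 𝒪 ⊗[ℤ] Lam N) := by
  rw [piT_apply, coe_algebraMap_smul_LT, tA_tmul, one_smul]

/-- **`piT (T_ℓ)` acts as `(latT N ℓ).baseChange 𝒪`** (the `hact` of helper2's `base_fields`). -/
theorem coe_piT_T_smul {ℓ : ℕ} (hℓ : ℓ.Prime) (hℓN : ¬ ℓ ∣ N) (hℓS : ℓ ∉ S) (y : LT 𝒪 N S θ) :
    ((piT 𝒪 θ (heckeAlgebra.T hℓ hℓN hℓS) • y : LT 𝒪 N S θ) : 𝒪 ⊗[ℤ] Lam N)
      = (latT N (⟨ℓ, hℓ⟩ : Nat.Primes)).baseChange 𝒪 (y : 𝒪 ⊗[ℤ] Lam N) := by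
  rw [coe_piT_smul, latAct_T]

/-- **faithfulness** (module form). -/
theorem eq_zero_of_smul_LT_eq_zero [Module.Flat ℤ 𝒪] (u : Tloc 𝒪 θ)
    (hu : ∀ y : LT 𝒪 N S θ, u • y = 0) : u = 0 :=
  eq_zero_of_smul_eq_zero (tA 𝒪 N S) (maxθ 𝒪 θ) (Tloc 𝒪 θ) (tA_injective 𝒪 N S) u hu

/-- **faithfulness**, the `Injective a0` binder of `KappaAbs.exists_kappa` for
`a0 := Algebra.lsmul`. -/
theorem lsmul_injective [Module.Flat ℤ 𝒪] :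
    Function.Injective
      (Algebra.lsmul 𝒪 𝒪 (LT 𝒪 N S θ) : Tloc 𝒪 θ →ₐ[𝒪] Module.End 𝒪 (LT 𝒪 N S θ)) := by
  rw [injective_iff_map_eq_zero]
  intro u hu
  exact eq_zero_of_smul_LT_eq_zero u fun y => LinearMap.congr_fun hu y

theorem finite_LT : Module.Finite 𝒪 (LT 𝒪 N S θ) := by
  haveI : IsNoetherian 𝒪 (𝒪 ⊗[ℤ] Lam N) := isNoetherian_of_isNoetherianRing_of_finite 𝒪 _
  exact Module.Finite.of_injective (Submodule.subtype _) (Submodule.injective_subtype _)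

theorem free_LT : Module.Free 𝒪 (LT 𝒪 N S θ) := by
  refine free_of_model θ (twLam 𝒪 N S) (locSub (tA 𝒪 N S) (maxθ 𝒪 θ)).subtype
    (Submodule.injective_subtype _) fun x => ?_
  rw [Submodule.range_subtype, mem_locSub, tA_eq_twO]

theorem nontrivial_LT [Module.Flat ℤ 𝒪] : Nontrivial (LT 𝒪 N S θ) := by
  by_contra h
  rw [not_nontrivial_iff_subsingleton] at h
  have h1 : (1 : Tloc 𝒪 θ) = 0 :=
    eq_zero_of_smul_LT_eq_zero (1 : Tloc 𝒪 θ) fun y => Subsingleton.elim _ _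
  exact one_ne_zero h1

end LTsec

/-! ### the symbol models are `LT` -/

section Sym

variable {𝒪 : Type} [CommRing 𝒪] [IsLocalRing 𝒪] [IsNoetherianRing 𝒪]
  [IsAdicComplete (maximalIdeal 𝒪) 𝒪]
  {N : ℕ} [NeZero N] {S : Set ℕ} (θ : ↥(heckeAlgebra N 2 S) →+* ResidueField 𝒪)
  {σ : Type} (pr : σ → ℕ) (hpr : ∀ s, (pr s).Prime) (hprN : ∀ s, ¬ pr s ∣ N)
  (hprS : ∀ s, pr s ∉ S)

/-- the maximal ideal of the symbol algebra: `ker lam = ren⁻¹ (maxθ 𝒪 θ)` as soon as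
`lam (X s) = θ (T_{pr s})`. -/
theorem comap_ren_maxθ (lam : MvPolynomial σ 𝒪 →ₐ[𝒪] ResidueField 𝒪)
    (hlam : ∀ s, lam (MvPolynomial.X s) = θ (gen N S pr hpr hprN hprS s)) :
    RingHom.ker (lam : MvPolynomial σ 𝒪 →+* ResidueField 𝒪)
      = (maxθ 𝒪 θ).comap (ren 𝒪 N S pr hpr hprN hprS) := by
  have h : lam = (thetaO 𝒪 θ).comp (ren 𝒪 N S pr hpr hprN hprS) := by
    refine MvPolynomial.algHom_ext fun s => ?_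
    rw [AlgHom.comp_apply, ren_X, thetaO_tmul, map_one, one_mul, hlam]
  ext P
  rw [RingHom.mem_ker, Ideal.mem_comap, mem_maxθ, h]
  rfl

variable (𝔪 : Ideal (MvPolynomial σ 𝒪))

/-- **helper2's `L` is `LT`**: for `𝔪 = ren⁻¹ (maxθ 𝒪 θ)` the primary part of the symbol action
`actLam` is the primary part of `tA`. -/
theorem locSub_actLam_eq (hS : ∀ ℓ : ℕ, ℓ.Prime → ℓ ∉ S → ∃ s, pr s = ℓ)
    (h𝔪 : 𝔪 = (maxθ 𝒪 θ).comap (ren 𝒪 N S pr hpr hprN hprS)) :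
    locSub (actLam 𝒪 N pr hpr) 𝔪 = locSub (tA 𝒪 N S) (maxθ 𝒪 θ) := by
  ext x
  rw [mem_locSub, mem_locSub, h𝔪, ← tA_comp_ren 𝒪 N S pr hpr hprN hprS]
  exact isLoc_comp_iff (ren 𝒪 N S pr hpr hprN hprS)
    (ren_surjective 𝒪 N S pr hpr hprN hprS hS) (tA 𝒪 N S) (maxθ 𝒪 θ) x

/-- **N7b, the equivalence `eL`**: an `𝒪`-linear equivalence `e : Y' ≃ locSub actLam 𝔪` intertwining
a symbol action `actY'` with `locAct actLam 𝔪` (helper74's EB2 for `Y' = Mbase P`) gives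
`eL : Y' ≃ₗ[𝒪] LT` with `↑(eL y) = ↑(e y)`, `eL (actY' P y) = (ren P) • eL y` and
`eL (actY' (X s) y) = piT (T_{pr s}) • eL y`. -/
theorem exists_eL (hS : ∀ ℓ : ℕ, ℓ.Prime → ℓ ∉ S → ∃ s, pr s = ℓ)
    (h𝔪 : 𝔪 = (maxθ 𝒪 θ).comap (ren 𝒪 N S pr hpr hprN hprS))
    {Y' : Type} [AddCommGroup Y'] [Module 𝒪 Y']
    (actY' : MvPolynomial σ 𝒪 →ₐ[𝒪] Module.End 𝒪 Y')
    (e : Y' ≃ₗ[𝒪] ↥(locSub (actLam 𝒪 N pr hpr) 𝔪))
    (he : ∀ (P : MvPolynomial σ 𝒪) (y : Y'),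
      e (actY' P y) = locAct (actLam 𝒪 N pr hpr) 𝔪 P (e y)) :
    ∃ eL : Y' ≃ₗ[𝒪] LT 𝒪 N S θ,
      (∀ y : Y', ((eL y : LT 𝒪 N S θ) : 𝒪 ⊗[ℤ] Lam N)
        = ((e y : ↥(locSub (actLam 𝒪 N pr hpr) 𝔪)) : 𝒪 ⊗[ℤ] Lam N)) ∧
      (∀ (P : MvPolynomial σ 𝒪) (y : Y'),
        eL (actY' P y) = algebraMap (𝒪 ⊗[ℤ] ↥(heckeAlgebra N 2 S)) (Tloc 𝒪 θ)
          (ren 𝒪 N S pr hpr hprN hprS P) • eL y) ∧
      ∀ (s : σ) (y : Y'),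
        eL (actY' (MvPolynomial.X s) y) = piT 𝒪 θ (gen N S pr hpr hprN hprS s) • eL y := by
  have heq := locSub_actLam_eq θ pr hpr hprN hprS 𝔪 hS h𝔪
  let eL : Y' ≃ₗ[𝒪] LT 𝒪 N S θ := e.trans (LinearEquiv.ofEq _ _ heq)
  have hcoe : ∀ y : Y', ((eL y : LT 𝒪 N S θ) : 𝒪 ⊗[ℤ] Lam N)
      = ((e y : ↥(locSub (actLam 𝒪 N pr hpr) 𝔪)) : 𝒪 ⊗[ℤ] Lam N) := fun _ => rfl
  have hP : ∀ (P : MvPolynomial σ 𝒪) (y : Y'),
      eL (actY' P y) = algebraMap (𝒪 ⊗[ℤ] ↥(heckeAlgebra N 2 S)) (Tloc 𝒪 θ)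
        (ren 𝒪 N S pr hpr hprN hprS P) • eL y := by
    intro P y
    apply Subtype.ext
    rw [coe_algebraMap_smul_LT, hcoe, hcoe, he, locAct_apply, tA_ren]
  refine ⟨eL, hcoe, hP, fun s y => ?_⟩
  rw [hP, ren_X, piT_apply]

end Sym

end Fermat.Agent.GE6.Inst.BaseTLoc
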