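/-
GATE-E (S59) / ENGINE-INST item (i), file 1 (helper51): **the primary part of a Hecke module does not
depend on the NAMES of the Hecke symbols.**

`GB/B8/LevelIter.exists_baseEquiv` identifies the base of the Taylor–Wiles tower at the set `Q` with
`LevelStage.locSub (actN 𝒪 (prSy Q.Sy) _ M) (ker Q.lamBase)`, a submodule of `Hom(Γ₀(M), 𝒪)` cut out by
the polynomial ring `MvPolynomial (Q.Sy.ι₁ ⊕ Q.Sy.ι₂) 𝒪` — whose INDEX TYPE changes with `Q`.  The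
engine (`GE6/Inst/LevelE.TWDepthE`) needs ONE base module for all `Q`.  Abstractly: if
`ren : 𝕋 →ₐ[𝒪] 𝕋'` is SURJECTIVE, `act = act' ∘ ren` and `𝔪 = ren⁻¹ 𝔪'`, then
`locSub act 𝔪 = locSub act' 𝔪'` as submodules of `L`.

* `isLoc_comp_iff`, `locSub_comp_eq` : the equality;
* `locSubEquivComp`, `locSubEquivComp_act`, `coe_locSubEquivComp` : the (identity) linear equivalence
  and its equivariance `e (locAct act 𝔪 t y) = locAct act' 𝔪' (ren t) (e y)`;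
* `locSub_comp_ker_eq`, `locSubEquivKer` : the form with `𝔪' = ker lam'`, `𝔪 = ker (lam' ∘ ren)`;
* polynomial rings: `rename_surjective`, `locSubEquivRename` for `ren = MvPolynomial.rename f`, `f` onto.
-/
import Mathlib
import Fermat.Agent.GB.B8.LevelStage

set_option autoImplicit false
set_option linter.unusedSectionVars false

namespace Fermat.Agent.GE6.Inst.BaseIndep

open Fermat.Agent.GB.B8.LevelStage Fermat.Agent.GB.B3.RealLevel

variable {𝒪 : Type} [CommRing 𝒪] {𝕋 𝕋' : Type} [CommRing 𝕋] [Algebra 𝒪 𝕋] [CommRing 𝕋']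
  [Algebra 𝒪 𝕋'] {L : Type*} [AddCommGroup L] [Module 𝒪 L]

/-- being primary does not see a surjective change of symbols -/
theorem isLoc_comp_iff (ren : 𝕋 →ₐ[𝒪] 𝕋') (hren : Function.Surjective ren)
    (act' : 𝕋' →ₐ[𝒪] Module.End 𝒪 L) (𝔪' : Ideal 𝕋') (x : L) :
    IsLoc (act'.comp ren) (𝔪'.comap (ren : 𝕋 →+* 𝕋')) x ↔ IsLoc act' 𝔪' x := by
  constructor
  · intro h s' hs'
    obtain ⟨s, rfl⟩ := hren s'
    exact h s (fun hmem => hs' (Ideal.mem_comap.mp hmem))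
  · intro h s hs
    exact h (ren s) (fun hmem => hs (Ideal.mem_comap.mpr hmem))

/-- **the primary part does not depend on the names of the symbols** -/
theorem locSub_comp_eq (ren : 𝕋 →ₐ[𝒪] 𝕋') (hren : Function.Surjective ren)
    (act' : 𝕋' →ₐ[𝒪] Module.End 𝒪 L) (𝔪' : Ideal 𝕋') :
    locSub (act'.comp ren) (𝔪'.comap (ren : 𝕋 →+* 𝕋')) = locSub act' 𝔪' :=
  Submodule.ext fun x => isLoc_comp_iff ren hren act' 𝔪' x

/-- the identity, as a linear equivalence -/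
noncomputable def locSubEquivComp (ren : 𝕋 →ₐ[𝒪] 𝕋') (hren : Function.Surjective ren)
    (act' : 𝕋' →ₐ[𝒪] Module.End 𝒪 L) (𝔪' : Ideal 𝕋') :
    locSub (act'.comp ren) (𝔪'.comap (ren : 𝕋 →+* 𝕋')) ≃ₗ[𝒪] locSub act' 𝔪' :=
  LinearEquiv.ofEq _ _ (locSub_comp_eq ren hren act' 𝔪')

theorem coe_locSubEquivComp (ren : 𝕋 →ₐ[𝒪] 𝕋') (hren : Function.Surjective ren)
    (act' : 𝕋' →ₐ[𝒪] Module.End 𝒪 L) (𝔪' : Ideal 𝕋')
    (y : locSub (act'.comp ren) (𝔪'.comap (ren : 𝕋 →+* 𝕋'))) :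
    ((locSubEquivComp ren hren act' 𝔪' y : locSub act' 𝔪') : L) = (y : L) := rfl

theorem locSubEquivComp_act (ren : 𝕋 →ₐ[𝒪] 𝕋') (hren : Function.Surjective ren)
    (act' : 𝕋' →ₐ[𝒪] Module.End 𝒪 L) (𝔪' : Ideal 𝕋') (t : 𝕋)
    (y : locSub (act'.comp ren) (𝔪'.comap (ren : 𝕋 →+* 𝕋'))) :
    locSubEquivComp ren hren act' 𝔪'
        (locAct (act'.comp ren) (𝔪'.comap (ren : 𝕋 →+* 𝕋')) t y)
      = locAct act' 𝔪' (ren t) (locSubEquivComp ren hren act' 𝔪' y) :=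
  Subtype.ext rfl

/-! ### kernels of characters -/

section Ker

variable {κ : Type} [Field κ] [Algebra 𝒪 κ]

theorem ker_comp_eq_comap (ren : 𝕋 →ₐ[𝒪] 𝕋') (lam' : 𝕋' →ₐ[𝒪] κ) :
    RingHom.ker ((lam'.comp ren : 𝕋 →ₐ[𝒪] κ) : 𝕋 →+* κ)
      = (RingHom.ker (lam' : 𝕋' →+* κ)).comap (ren : 𝕋 →+* 𝕋') := by
  refine Ideal.ext fun t => ?_
  rw [RingHom.mem_ker, Ideal.mem_comap, RingHom.mem_ker]
  rfl

/-- the form used at the base of the Taylor–Wiles tower -/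
theorem locSub_comp_ker_eq (ren : 𝕋 →ₐ[𝒪] 𝕋') (hren : Function.Surjective ren)
    (act' : 𝕋' →ₐ[𝒪] Module.End 𝒪 L) (lam' : 𝕋' →ₐ[𝒪] κ) :
    locSub (act'.comp ren) (RingHom.ker ((lam'.comp ren : 𝕋 →ₐ[𝒪] κ) : 𝕋 →+* κ))
      = locSub act' (RingHom.ker (lam' : 𝕋' →+* κ)) := by
  rw [ker_comp_eq_comap]
  exact locSub_comp_eq ren hren act' _

/-- the identity, as a linear equivalence (kernel form, GENERAL `act`, `lam` with the two
factorisations as hypotheses) -/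
noncomputable def locSubEquivKer (ren : 𝕋 →ₐ[𝒪] 𝕋') (hren : Function.Surjective ren)
    (act : 𝕋 →ₐ[𝒪] Module.End 𝒪 L) (act' : 𝕋' →ₐ[𝒪] Module.End 𝒪 L) (hact : act = act'.comp ren)
    (lam : 𝕋 →ₐ[𝒪] κ) (lam' : 𝕋' →ₐ[𝒪] κ) (hlam : lam = lam'.comp ren) :
    locSub act (RingHom.ker (lam : 𝕋 →+* κ)) ≃ₗ[𝒪] locSub act' (RingHom.ker (lam' : 𝕋' →+* κ)) :=
  LinearEquiv.ofEq _ _ (by rw [hact, hlam]; exact locSub_comp_ker_eq ren hren act' lam')

theorem coe_locSubEquivKer (ren : 𝕋 →ₐ[𝒪] 𝕋') (hren : Function.Surjective ren)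
    (act : 𝕋 →ₐ[𝒪] Module.End 𝒪 L) (act' : 𝕋' →ₐ[𝒪] Module.End 𝒪 L) (hact : act = act'.comp ren)
    (lam : 𝕋 →ₐ[𝒪] κ) (lam' : 𝕋' →ₐ[𝒪] κ) (hlam : lam = lam'.comp ren)
    (y : locSub act (RingHom.ker (lam : 𝕋 →+* κ))) :
    ((locSubEquivKer ren hren act act' hact lam lam' hlam y :
        locSub act' (RingHom.ker (lam' : 𝕋' →+* κ))) : L) = (y : L) := rfl

theorem locSubEquivKer_act (ren : 𝕋 →ₐ[𝒪] 𝕋') (hren : Function.Surjective ren)
    (act : 𝕋 →ₐ[𝒪] Module.End 𝒪 L) (act' : 𝕋' →ₐ[𝒪] Module.End 𝒪 L) (hact : act = act'.comp ren)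
    (lam : 𝕋 →ₐ[𝒪] κ) (lam' : 𝕋' →ₐ[𝒪] κ) (hlam : lam = lam'.comp ren) (t : 𝕋)
    (y : locSub act (RingHom.ker (lam : 𝕋 →+* κ))) :
    locSubEquivKer ren hren act act' hact lam lam' hlam
        (locAct act (RingHom.ker (lam : 𝕋 →+* κ)) t y)
      = locAct act' (RingHom.ker (lam' : 𝕋' →+* κ)) (ren t)
          (locSubEquivKer ren hren act act' hact lam lam' hlam y) := by
  apply Subtype.ext
  rw [locAct_apply, coe_locSubEquivKer, coe_locSubEquivKer, locAct_apply]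
  exact LinearMap.congr_fun (congrArg (fun a : 𝕋 →ₐ[𝒪] Module.End 𝒪 L => a t) hact) (y : L)

end Ker

/-! ### polynomial rings -/

section Poly

variable {σ σ' : Type}

theorem rename_surjective' (f : σ → σ') (hf : Function.Surjective f) :
    Function.Surjective (MvPolynomial.rename f : MvPolynomial σ 𝒪 →ₐ[𝒪] MvPolynomial σ' 𝒪) :=
  MvPolynomial.rename_surjective f hf

end Poly

end Fermat.Agent.GE6.Inst.BaseIndep
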