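/-
GATE-E (S59) / ENGINE-INST, base seam (helper72, AUDIT 7095 item 1): **transport of a GATE-B
`FreeLevel` along an equivariant isomorphism of base modules.**

The base of helper95's Taylor–Wiles tower (`GB/B3/Final.M0`) is `Hom(Γ₀(N_Q), 𝒪)_{𝔪_Q}` at the BIG
level `N_Q = M ∏ qv` (with `U_q ↦ α_q`), while E6 wants the level-`M` module
`M_∅ = Hom(Γ₀(M), 𝒪)_𝔪`.  helper49's `GB/B8/LevelIter.exists_baseEquiv` gives an `𝒪`-linear
equivalence between the two, Hecke-equivariant up to a substitution `ρ` of the symbols; this file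
moves the `FreeLevel` across it (take `act0' := act'.comp ρ`).

* `mapBase F act0' e he : FreeLevel O 𝕋 M0' act0' k N` with the SAME module, diamonds, Hecke action,
  rank and `O[Δ]`-basis; `π' = e ∘ π`.
Mathlib + `GB/B3/TWLevel` only.
-/
import Mathlib
import Fermat.Agent.GB.B3.TWLevel

set_option autoImplicit false

namespace Fermat.Agent.GE6.Inst.MapBase

open Fermat.Agent.GB.B3.TWLevel Module

variable {O : Type} [CommRing O] {𝕋 : Type} [CommRing 𝕋] [Algebra O 𝕋]
  {M0 : Type} [AddCommGroup M0] [Module O M0] {act0 : 𝕋 →ₐ[O] Module.End O M0}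
  {k : ℕ} {N : Fin k → ℕ}

/-- **transport of a `FreeLevel` along an equivariant isomorphism of the base modules.** -/
noncomputable def mapBase (F : FreeLevel O 𝕋 M0 act0 k N)
    {M0' : Type} [AddCommGroup M0'] [Module O M0'] (act0' : 𝕋 →ₐ[O] Module.End O M0')
    (e : M0 ≃ₗ[O] M0') (he : ∀ t y, e (act0 t y) = act0' t (e y)) :
    FreeLevel O 𝕋 M0' act0' k N where
  M := F.M
  act := F.act
  D := F.D
  D_pow := F.D_pow
  D_comm := F.D_comm
  act_D := F.act_D
  d := F.d
  e := F.e
  basis := F.basis
  basis_eq := F.basis_eq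
  π := (e : M0 →ₗ[O] M0').comp F.π
  π_surjective := e.surjective.comp F.π_surjective
  ker_π := by
    intro x
    rw [← F.ker_π x, LinearMap.comp_apply]
    exact e.map_eq_zero_iff
  π_act := by
    intro t x
    rw [LinearMap.comp_apply, LinearMap.comp_apply, F.π_act]
    exact he t (F.π x)
  basis0 := F.basis0.map e
  basis0_eq := by
    intro j
    rw [Basis.map_apply, F.basis0_eq, LinearMap.comp_apply]
    rfl

section Api

variable (F : FreeLevel O 𝕋 M0 act0 k N)
  {M0' : Type} [AddCommGroup M0'] [Module O M0'] (act0' : 𝕋 →ₐ[O] Module.End O M0')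
  (e : M0 ≃ₗ[O] M0') (he : ∀ t y, e (act0 t y) = act0' t (e y))

@[simp] theorem mapBase_M : (mapBase F act0' e he).M = F.M := rfl

@[simp] theorem mapBase_D (i : Fin k) : (mapBase F act0' e he).D i = F.D i := rfl

@[simp] theorem mapBase_act (t : 𝕋) : (mapBase F act0' e he).act t = F.act t := rfl

@[simp] theorem mapBase_d : (mapBase F act0' e he).d = F.d := rfl

theorem mapBase_π_apply (x : F.M) : (mapBase F act0' e he).π x = e (F.π x) := rfl

end Api

end Fermat.Agent.GE6.Inst.MapBase
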