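/-
GATE-E / E6-INST, node N7b BASE-T INSTANCE at a bundle `P : Pkg` (helper64; RULING N7 of helper12,
board 7678): **`(LT P, eL P)` = THE `L` of `BaseInput`**.

* `LTP P := LT P.O M ↑P.S0 P.theta` (the `maxθ`-primary part of `P.O ⊗ Lam M`, a
  `Tloc P.O P.theta`-module by `LocModule.locModule`, faithful: `BaseTLoc.lsmul_injective`);
* `renP P : MvPolynomial (I0 W p M) P.O →ₐ P.O ⊗ heckeAlgebra M 2 ↑P.S0` (`X_ℓ ↦ 1 ⊗ T_ℓ`), onto,
  `ker_lam0 : ker (lam0 P) = renP⁻¹ (maxθ P.O P.theta)`;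
* `exists_eLP` (squarefree `M`): `eL : Mbase P ≃ₗ[P.O] LTP P` with `tensHom (eL y) = y`,
  `eL (actBase P t y) = (renP t) • eL y` and `eL (actBase P (X ℓ) y) = piT (T_ℓ) • eL y`
  (helper74's EB2 `exists_locEquiv_of_squarefree` + `P.exists_nonEis` + `BaseTLoc.exists_eL`).
-/
import Mathlib
import Fermat.Agent.GE6.Inst.BaseTLoc
import Fermat.Agent.GE6.Inst.FreeLevelInst
import Fermat.Agent.GE9.Eta.Base.LocBridgeBnd

set_option autoImplicit false
set_option linter.unusedSectionVars false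
set_option linter.style.haveILetI false

noncomputable section

open scoped TensorProduct
open IsLocalRing CuspForm ModularCurve.Period CongruenceSubgroup MvPolynomial
open WeierstrassCurve WeierstrassCurve.Affine.Point

namespace Fermat.Agent.GE6.Inst.BaseTPkg

open Fermat.Agent.GB.Setup.SetupPkg
open Fermat.Agent.GB.B4.Datum.Carrier
open Fermat.Agent.GB.B8.LevelStage Fermat.Agent.GB.B8.LevelGen
open Fermat.Agent.GJ.J2.Lat
open Fermat.Agent.GE9.Eta.Base Fermat.Agent.GE9.Eta.Base.LocBridge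
  Fermat.Agent.GE9.Eta.Base.LocBridgeBnd
open Fermat.Agent.GE6.Inst.FreeLevelInst Fermat.Agent.GE6.Inst.BaseTInst
  Fermat.Agent.GE6.Inst.BaseTLoc

variable {p : ℕ} [hpF : Fact p.Prime] {W : WeierstrassCurve ℤ}
  {hcard₁ : Nat.card (Submodule.torsionBy ℤ
    ((W.map (Int.castRingHom ℚ)).toAffine.baseChange (AlgebraicClosure ℚ)).Point p) = p ^ 2}
  {hker : GaloisFactorsThroughFiniteLevel
    (WeierstrassCurve.Affine.Point.galoisRepModuleEnd (K := AlgebraicClosure ℚ) ℚ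
      (W.map (Int.castRingHom ℚ)) p)}
  {M A : ℕ} (P : Pkg p W hcard₁ hker M A)

theorem pr0_not_dvd (s : I0 W p M) : ¬ pr0 W p M s ∣ M := s.2.2.2.1

/-- a good symbol is outside `S0`. -/
theorem pr0_notMem_S0 (s : I0 W p M) : pr0 W p M s ∉ (↑P.S0 : Set ℕ) := by
  intro h
  simp only [Pkg.S0, Finset.coe_union, Set.mem_union, Finset.mem_coe] at h
  rcases h with (h | h) | h
  · exact s.2.2.2.1 (Nat.dvd_of_mem_primeFactors h)
  · exact s.2.2.2.2 (Finset.mem_singleton.mp h)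
  · exact s.2.2.1 (Int.natCast_dvd.mpr (Nat.dvd_of_mem_primeFactors h))

/-- every prime outside `S0` is a good symbol. -/
theorem exists_symbol (ℓ : ℕ) (hℓ : ℓ.Prime) (hℓS : ℓ ∉ (↑P.S0 : Set ℕ)) :
    ∃ s : I0 W p M, pr0 W p M s = ℓ := by
  obtain ⟨h1, h2, h3⟩ := P.good_of_notMem_S0 hℓ hℓS
  exact ⟨⟨ℓ, hℓ, h1, h2, h3⟩, rfl⟩

variable [NeZero M]

/-- the Hecke operator of a good symbol. -/
abbrev genP (s : I0 W p M) : ↥(heckeAlgebra M 2 (↑P.S0 : Set ℕ)) :=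
  gen M (↑P.S0 : Set ℕ) (pr0 W p M) (pr0_prime W p M) pr0_not_dvd (pr0_notMem_S0 P) s

theorem genP_eq (s : I0 W p M) :
    genP P s = heckeAlgebra.T s.2.1 s.2.2.2.1 (pr0_notMem_S0 P s) := rfl

/-- the symbols-to-Hecke map at the base. -/
abbrev renP : MvPolynomial (I0 W p M) P.O →ₐ[P.O] P.O ⊗[ℤ] ↥(heckeAlgebra M 2 (↑P.S0 : Set ℕ)) :=
  ren P.O M (↑P.S0 : Set ℕ) (pr0 W p M) (pr0_prime W p M) pr0_not_dvd (pr0_notMem_S0 P)

theorem renP_surjective : Function.Surjective (renP P) :=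
  ren_surjective P.O M (↑P.S0 : Set ℕ) (pr0 W p M) (pr0_prime W p M) pr0_not_dvd
    (pr0_notMem_S0 P) (exists_symbol P)

/-- **`ker lam0 = renP⁻¹ (maxθ)`**. -/
theorem ker_lam0 :
    RingHom.ker (lam0 P : MvPolynomial (I0 W p M) P.O →+* P.k)
      = (maxθ P.O P.theta).comap (renP P) :=
  comap_ren_maxθ P.theta (pr0 W p M) (pr0_prime W p M) pr0_not_dvd (pr0_notMem_S0 P) (lam0 P)
    (fun s => by rw [lam0_X]; exact (P.theta_T s.2.1 s.2.2.2.1 (pr0_notMem_S0 P s)).symm)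

/-- **the base Hecke module of the engine.** -/
abbrev LTP : Type := LT P.O M (↑P.S0 : Set ℕ) P.theta

instance ker_lam0_isMaximal :
    (RingHom.ker (lam0 P : MvPolynomial (I0 W p M) P.O →+* P.k)).IsMaximal := by
  refine RingHom.ker_isMaximal_of_surjective _ fun y => ?_
  obtain ⟨c, rfl⟩ := residue_surjective y
  exact ⟨C c, by
    show lam0 P (C c) = _
    rw [← MvPolynomial.algebraMap_eq, AlgHom.commutes]
    rfl⟩

/-- helper2's `L` at the base is `LTP P`. -/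
theorem locSub_actLam_eq_LTP :
    locSub (actLam P.O M (pr0 W p M) (pr0_prime W p M))
        (RingHom.ker (lam0 P : MvPolynomial (I0 W p M) P.O →+* P.k))
      = locSub (tA P.O M (↑P.S0 : Set ℕ)) (maxθ P.O P.theta) :=
  locSub_actLam_eq P.theta (pr0 W p M) (pr0_prime W p M) pr0_not_dvd (pr0_notMem_S0 P) _
    (exists_symbol P) (ker_lam0 P)

/-- **N7b, `eL P`**: at a squarefree level, `Mbase P ≃ₗ[P.O] LTP P`, inverse to `tensHom`,
intertwining `actBase P` with the `Tloc`-module structure of record. -/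
theorem exists_eLP (hM : Squarefree M) :
    ∃ eL : Mbase P ≃ₗ[P.O] LTP P,
      (∀ y : Mbase P, tensHom M P.O ((eL y : LTP P) : P.O ⊗[ℤ] Lam M)
        = (y : Additive (Gamma0 M) →+ P.O)) ∧
      (∀ (t : MvPolynomial (I0 W p M) P.O) (y : Mbase P),
        eL (actBase P t y)
          = algebraMap (P.O ⊗[ℤ] ↥(heckeAlgebra M 2 (↑P.S0 : Set ℕ))) (Tloc P.O P.theta)
              (renP P t) • eL y) ∧
      ∀ (s : I0 W p M) (y : Mbase P),
        eL (actBase P (X s) y)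
          = piT P.O P.theta (heckeAlgebra.T s.2.1 s.2.2.2.1 (pr0_notMem_S0 P s)) • eL y := by
  haveI : Module.Finite P.O (Additive (Gamma0 M) →+ P.O) := finite_hom P.O M
  -- a non-Eisenstein symbol
  obtain ⟨ℓ, hℓ, -, hgood, hℓM, hℓp, hne⟩ := P.exists_nonEis ∅
  let s₀ : I0 W p M := ⟨ℓ, hℓ, hgood, hℓM, hℓp⟩
  have hτ : (X s₀ - C (((pr0 W p M s₀ + 1 : ℕ) : P.O)) : MvPolynomial (I0 W p M) P.O)
      ∉ RingHom.ker (lam0 P : MvPolynomial (I0 W p M) P.O →+* P.k) := by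
    intro hmem
    rw [RingHom.mem_ker] at hmem
    have h1 : lam0 P (X s₀ - C (((pr0 W p M s₀ + 1 : ℕ) : P.O))) = 0 := hmem
    rw [map_sub, lam0_X, ← MvPolynomial.algebraMap_eq, AlgHom.commutes, map_natCast,
      sub_eq_zero] at h1
    apply hne
    rw [h1]
    show ((ℓ + 1 : ℕ) : P.k) = _
    push_cast
    rfl
  obtain ⟨e, he1, -, he3⟩ := exists_locEquiv_of_squarefree (O := P.O) (pr0 W p M)
    (pr0_prime W p M) M hM
    (RingHom.ker (lam0 P : MvPolynomial (I0 W p M) P.O →+* P.k)) s₀ hℓM hτ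
  obtain ⟨eL, hcoe, hP, hX⟩ := exists_eL (Y' := Mbase P) P.theta (pr0 W p M) (pr0_prime W p M)
    pr0_not_dvd (pr0_notMem_S0 P) _ (exists_symbol P) (ker_lam0 P) (actBase P) e
    (fun t y => he3 t y)
  refine ⟨eL, fun y => ?_, hP, hX⟩
  rw [hcoe, he1]

end Fermat.Agent.GE6.Inst.BaseTPkg
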