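/-
GATE-E (S59) / ENGINE-INST, part (R) (helper72; split of helper12 7002): **the ring side of the
Taylor–Wiles levels for the engine problems `𝒟^{fl}`, `𝒟^{so}`, from the frozen S56 binders.**

For `c ∈ {fl, so}` and the MINIMAL problem `𝒟^c_∅ = Graph.condFL/condSO 𝒪 p Smin ∅` with
`hbar : 𝒟^c_∅ ρ̄`:

* `condFL_mono`, `condSO_mono` : `𝒟^c_Σ ⊆ 𝒟^c_{Σ'}` for `Σ ⊆ Σ'` (more ramification allowed);
* `ringSide_FL`, `ringSide_SO` : **`∃ r, ∀ n, ∃ qv`** with the frozen S56 Taylor–Wiles clauses,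
  such that the deformation ring `R_{Q_n}` of `𝒟^c_{Q_n}`, `Q_n = image qv`, EXISTS
  (`GE6/DefRing`, through the landed S53) and every such ring is a quotient of `𝒪⟦X₁,…,X_r⟧`
  (the landed S56).  Together with helper22's `GE2/DeltaQData.exists_augQuot_units_FL_data/_SO_data`
  (`β : R_Q ↠ R_∅`, `ker β = (g_j − 1)`, `g_j^{p^a} = 1`, labelled) this is the whole ring side
  `(RQ, γ, g, g_lift, β, ker_β)` of helper12's `GE6/Level.TWDepth`.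
NEW file; imports only.
-/
import Mathlib
import Fermat.Agent.S56
import Fermat.Agent.GE6.DefRing

set_option autoImplicit false
set_option linter.unusedSectionVars false
set_option linter.style.haveILetI false

namespace Fermat.Agent.GE6.Inst.Ring

open IsLocalRing Function Polynomial GaloisRep Fermat.Agent.GE.Graph

/-- `ℚ̄`. -/
local notation "Qb" => AlgebraicClosure ℚ
/-- `G_ℚ`. -/
local notation "GQ" => (AlgebraicClosure ℚ ≃ₐ[ℚ] AlgebraicClosure ℚ)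

section Mono

variable {𝒪 : Type} [CommRing 𝒪] {p : ℕ} {Smin Sig Sig' : Finset ℕ}
  {A : Type} [CommRing A] [IsLocalRing A] [Algebra 𝒪 A] {ρ : GaloisRepAdic A}

/-- enlarging `Σ` weakens `𝒟^{fl}_Σ`. -/
theorem condFL_mono (h : Sig ⊆ Sig') (hρ : condFL 𝒪 p Smin Sig ρ) : condFL 𝒪 p Smin Sig' ρ :=
  ⟨⟨hρ.1.1, hρ.1.2.1, fun q hq hqT => hρ.1.2.2 q hq fun hmem =>
    hqT (Finset.union_subset_union_right h hmem)⟩, hρ.2⟩

/-- enlarging `Σ` weakens `𝒟^{so}_Σ`. -/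
theorem condSO_mono (h : Sig ⊆ Sig') (hρ : condSO 𝒪 p Smin Sig ρ) : condSO 𝒪 p Smin Sig' ρ :=
  ⟨⟨hρ.1.1, hρ.1.2.1, fun q hq hqT => hρ.1.2.2 q hq fun hmem =>
    hqT (Finset.union_subset_union_right h hmem)⟩, hρ.2⟩

end Mono

section Ring

variable {𝒪 : Type} [CommRing 𝒪] [IsDomain 𝒪] [IsDiscreteValuationRing 𝒪]
  [IsAdicComplete (maximalIdeal 𝒪) 𝒪] [Finite (ResidueField 𝒪)]
  (p : ℕ) [Fact p.Prime] [Algebra (ZMod p) (ResidueField 𝒪)]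
  (ρbar : ResidualGaloisRep (ResidueField 𝒪))

/-- **the ring side of the Taylor–Wiles levels, flat case.** -/
theorem ringSide_FL (hp2 : p ≠ 2) (hp𝒪 : (p : 𝒪) ∈ maximalIdeal 𝒪)
    (habs : ρbar.IsAbsolutelyIrreducible)
    (hdet : (GaloisRepAdic.ofResidualGaloisRep ρbar).DetIsCyclotomic p)
    (hsplit : ∀ σ : GQ, ∃ α β : ResidueField 𝒪,
      LinearMap.charpoly (ρbar.ρ σ) = (X - C α) * (X - C β))
    (hTW : ∀ (K : Type) [Field K] [Algebra (ResidueField 𝒪) K] (G : Subgroup GQ), G.index = 2 →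
      ∀ V : Submodule K (ρbar.baseChange K).V,
        (∀ σ ∈ G, ∀ x ∈ V, (ρbar.baseChange K).ρ σ x ∈ V) → V = ⊥ ∨ V = ⊤)
    (S Smin : Finset ℕ) (hpSmin : p ∈ Smin) (hSmin : Smin ⊆ S) (hS : ∀ q ∈ S, q.Prime)
    (hmin : ∀ q : ℕ, q.Prime → q ≠ p → (q ∈ Smin ↔ ¬ ρbar.IsUnramifiedAt q))
    (hbar : condFL 𝒪 p Smin ∅ (GaloisRepAdic.ofResidualGaloisRep ρbar)) :
    ∃ r : ℕ, ∀ n : ℕ, ∃ qv : Fin r → ℕ, Injective qv ∧
      (∀ i, (qv i).Prime ∧ qv i ∉ S ∧ p ^ (n + 1) ∣ qv i - 1) ∧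
      (∀ i, ∀ P : ValuationSubring Qb, P.LiesOverPrime (qv i) →
        ∀ φ : GQ, P.IsFrobeniusAt φ (qv i) →
          ∃ α β : ResidueField 𝒪, α ≠ β ∧
            LinearMap.charpoly (ρbar.ρ φ) = (X - C α) * (X - C β)) ∧
      Nonempty (DeformationRingData 𝒪 ρbar (condFL 𝒪 p Smin (Finset.univ.image qv))) ∧
      ∀ DQ : DeformationRingData 𝒪 ρbar (condFL 𝒪 p Smin (Finset.univ.image qv)),
        ∃ γ : MvPowerSeries (Fin r) 𝒪 →ₐ[𝒪] DQ.R, Surjective γ := by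
  obtain ⟨r, hr⟩ := (Fermat.Agent.S56.result p hp2 hp𝒪 ρbar habs hdet hsplit hTW S Smin hpSmin
    hSmin hS hmin).2
  refine ⟨r, fun n => ?_⟩
  obtain ⟨qv, hinj, hqv, hfrob, hγ⟩ := hr n
  exact ⟨qv, hinj, hqv, hfrob,
    Fermat.Agent.GE6.DefRing.nonempty_defRing_FL p ρbar hp2 habs Smin _ hpSmin hmin
      (condFL_mono (Finset.empty_subset _) hbar),
    fun DQ => hγ DQ⟩

/-- **the ring side of the Taylor–Wiles levels, strict-ordinary case.** -/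
theorem ringSide_SO (hp2 : p ≠ 2) (hp𝒪 : (p : 𝒪) ∈ maximalIdeal 𝒪)
    (habs : ρbar.IsAbsolutelyIrreducible)
    (hdet : (GaloisRepAdic.ofResidualGaloisRep ρbar).DetIsCyclotomic p)
    (hsplit : ∀ σ : GQ, ∃ α β : ResidueField 𝒪,
      LinearMap.charpoly (ρbar.ρ σ) = (X - C α) * (X - C β))
    (hTW : ∀ (K : Type) [Field K] [Algebra (ResidueField 𝒪) K] (G : Subgroup GQ), G.index = 2 →
      ∀ V : Submodule K (ρbar.baseChange K).V,
        (∀ σ ∈ G, ∀ x ∈ V, (ρbar.baseChange K).ρ σ x ∈ V) → V = ⊥ ∨ V = ⊤)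
    (S Smin : Finset ℕ) (hpSmin : p ∈ Smin) (hSmin : Smin ⊆ S) (hS : ∀ q ∈ S, q.Prime)
    (hmin : ∀ q : ℕ, q.Prime → q ≠ p → (q ∈ Smin ↔ ¬ ρbar.IsUnramifiedAt q))
    (hbar : condSO 𝒪 p Smin ∅ (GaloisRepAdic.ofResidualGaloisRep ρbar)) :
    ∃ r : ℕ, ∀ n : ℕ, ∃ qv : Fin r → ℕ, Injective qv ∧
      (∀ i, (qv i).Prime ∧ qv i ∉ S ∧ p ^ (n + 1) ∣ qv i - 1) ∧
      (∀ i, ∀ P : ValuationSubring Qb, P.LiesOverPrime (qv i) →
        ∀ φ : GQ, P.IsFrobeniusAt φ (qv i) →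
          ∃ α β : ResidueField 𝒪, α ≠ β ∧
            LinearMap.charpoly (ρbar.ρ φ) = (X - C α) * (X - C β)) ∧
      Nonempty (DeformationRingData 𝒪 ρbar (condSO 𝒪 p Smin (Finset.univ.image qv))) ∧
      ∀ DQ : DeformationRingData 𝒪 ρbar (condSO 𝒪 p Smin (Finset.univ.image qv)),
        ∃ γ : MvPowerSeries (Fin r) 𝒪 →ₐ[𝒪] DQ.R, Surjective γ := by
  obtain ⟨r, hr⟩ := (Fermat.Agent.S56.result p hp2 hp𝒪 ρbar habs hdet hsplit hTW S Smin hpSmin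
    hSmin hS hmin).1
  refine ⟨r, fun n => ?_⟩
  obtain ⟨qv, hinj, hqv, hfrob, hγ⟩ := hr n
  exact ⟨qv, hinj, hqv, hfrob,
    Fermat.Agent.GE6.DefRing.nonempty_defRing_SO p ρbar hp2 habs Smin _ hpSmin hmin
      (condSO_mono (Finset.empty_subset _) hbar),
    fun DQ => hγ DQ⟩

end Ring

end Fermat.Agent.GE6.Inst.Ring
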