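import Fermat.Agent.GE6.Inst.AssemblyE
import Fermat.Agent.GE6.OfFreeLevel
import Fermat.Agent.GB.B3.MonoCoinv

/-!
# GATE-E / ENGINE-INST, node N1 TRUNC (helper12): full exponents ⟹ uniform exponents

A Taylor–Wiles datum with per-prime exponents `E j ≥ n` (`TWDepthE`, `GE6/Inst/LevelE`: the module
`M_Q` is free over `𝒪[∏ ℤ/ℓ^(E j)]` on the Galois diamonds `g j`) TRUNCATES to a datum of uniform
depth `n` (`TWDepth`, `GE6/Level`): replace `M_Q` by its coinvariants under the subgroup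
`∏ ℓ^n ℤ/ℓ^(E j)`, i.e. by `M_Q / (g_j^(ℓ^n) − 1)_j M_Q`, free over `𝒪[(ℤ/ℓ^n)^r]` on the same
generators.

* `exists_trunc` : the algebra (re-indexing of the monomial basis + `GB/B3/MonoCoinv`).
* `truncate` : `TWDepthE 𝒪 ℓ r R M E → (∀ j, n ≤ E j) → TWDepth 𝒪 ℓ r R M n`.
* `twLevelsStmt_of_twLevelsEStmt` : `TWLevelsEStmt ℓ D φ M → TWLevelsStmt ℓ D φ M`
  (`GE6/Inst/AssemblyE` → `GE6/Stmt`; the latter is the field `htw` of `GE/Engine/Base.BaseInput`).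
-/

set_option autoImplicit false
set_option linter.unusedSectionVars false
set_option linter.style.haveILetI false

namespace Fermat.Agent.GE6.Inst.Trunc

open Module Fermat.Agent.GB.B3.TWLevel Fermat.Agent.GB.B3.MonoCoinv Fermat.Agent.GB.B3.Chi
  Fermat.Agent.GE6.OfFreeLevel

section Index

/-- `a = b + ℓ^n * c` : the digits of an exponent vector. -/
def splitEquiv (ℓ n : ℕ) (hℓ : 0 < ℓ) {r : ℕ} (E : Fin r → ℕ) (hn : ∀ j, n ≤ E j) :
    ((∀ j : Fin r, Fin (ℓ ^ (E j - n))) × (Fin r → Fin (ℓ ^ n))) ≃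
      (∀ j : Fin r, Fin (ℓ ^ E j)) where
  toFun cb j := ⟨(cb.2 j : ℕ) + ℓ ^ n * (cb.1 j : ℕ), by
    have h1 : (cb.2 j : ℕ) < ℓ ^ n := (cb.2 j).isLt
    have h2 : (cb.1 j : ℕ) + 1 ≤ ℓ ^ (E j - n) := (cb.1 j).isLt
    have h3 : ℓ ^ E j = ℓ ^ n * ℓ ^ (E j - n) := by
      rw [← pow_add, Nat.add_sub_cancel' (hn j)]
    calc (cb.2 j : ℕ) + ℓ ^ n * (cb.1 j : ℕ) < ℓ ^ n + ℓ ^ n * (cb.1 j : ℕ) := by omega
      _ = ℓ ^ n * ((cb.1 j : ℕ) + 1) := by ring
      _ ≤ ℓ ^ n * ℓ ^ (E j - n) := Nat.mul_le_mul_left _ h2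
      _ = ℓ ^ E j := h3.symm⟩
  invFun a := (fun j => ⟨(a j : ℕ) / ℓ ^ n, by
      have h3 : ℓ ^ E j = ℓ ^ n * ℓ ^ (E j - n) := by
        rw [← pow_add, Nat.add_sub_cancel' (hn j)]
      exact Nat.div_lt_of_lt_mul (h3 ▸ (a j).isLt)⟩,
    fun j => ⟨(a j : ℕ) % ℓ ^ n, Nat.mod_lt _ (pow_pos hℓ n)⟩)
  left_inv cb := by
    have hpos : 0 < ℓ ^ n := pow_pos hℓ n
    refine Prod.ext (funext fun j => Fin.ext ?_) (funext fun j => Fin.ext ?_)
    · show ((cb.2 j : ℕ) + ℓ ^ n * (cb.1 j : ℕ)) / ℓ ^ n = (cb.1 j : ℕ)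
      rw [Nat.add_mul_div_left _ _ hpos, Nat.div_eq_of_lt (cb.2 j).isLt, zero_add]
    · show ((cb.2 j : ℕ) + ℓ ^ n * (cb.1 j : ℕ)) % ℓ ^ n = (cb.2 j : ℕ)
      rw [Nat.add_mul_mod_self_left, Nat.mod_eq_of_lt (cb.2 j).isLt]
  right_inv a := by
    refine funext fun j => Fin.ext ?_
    show (a j : ℕ) % ℓ ^ n + ℓ ^ n * ((a j : ℕ) / ℓ ^ n) = (a j : ℕ)
    exact Nat.mod_add_div _ _

theorem splitEquiv_apply (ℓ n : ℕ) (hℓ : 0 < ℓ) {r : ℕ} (E : Fin r → ℕ) (hn : ∀ j, n ≤ E j)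
    (c : ∀ j : Fin r, Fin (ℓ ^ (E j - n))) (b : Fin r → Fin (ℓ ^ n)) (j : Fin r) :
    ((splitEquiv ℓ n hℓ E hn (c, b) j : Fin (ℓ ^ E j)) : ℕ) = (b j : ℕ) + ℓ ^ n * (c j : ℕ) := rfl

end Index

section Abs

variable {𝒪 : Type*} [CommRing 𝒪] {A : Type*} [CommRing A] [Algebra 𝒪 A]
  {M : Type*} [AddCommGroup M] [Module 𝒪 M] [Module A M] [IsScalarTower 𝒪 A M]

/-- the `𝒪`-endomorphism `m ↦ x • m`. -/
def smulE (x : A) : Module.End 𝒪 M where
  toFun m := x • m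
  map_add' := smul_add x
  map_smul' c m := smul_comm x c m

theorem smulE_apply (x : A) (m : M) : smulE (𝒪 := 𝒪) x m = x • m := rfl

theorem mk_sum_smul {ι : Type*} (s : Finset ι) (W : Submodule 𝒪 M) (c : ι → 𝒪) (v : ι → M) :
    (Submodule.Quotient.mk (∑ x ∈ s, c x • v x) : M ⧸ W) =
      ∑ x ∈ s, c x • (Submodule.Quotient.mk (v x) : M ⧸ W) := by
  rw [← Submodule.mkQ_apply, map_sum]
  simp only [map_smul, Submodule.mkQ_apply]

/-- **truncation, the algebra**: if the `g`-monomials `∏ g_j^(a_j) • e_i`, `a_j < ℓ^(E j)`, are an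
`𝒪`-basis of `M` and `g_j^(ℓ^(E j))` acts trivially, then modulo `W = (g_j^(ℓ^n) − 1)_j M` the
monomials with `a_j < ℓ^n` span and are independent. -/
theorem exists_trunc {ℓ r d n : ℕ} (hℓ : 0 < ℓ) {E : Fin r → ℕ} (hn : ∀ j, n ≤ E j)
    (g : Fin r → A) (g_pow : ∀ (j : Fin r) (m : M), g j ^ (ℓ ^ E j) • m = m) (e : Fin d → M)
    (b : Basis ((∀ j : Fin r, Fin (ℓ ^ E j)) × Fin d) 𝒪 M)
    (hb : ∀ a i, b (a, i) = (∏ j, g j ^ (a j : ℕ)) • e i) :
    (∀ m : M, ∃ c : (Fin r → Fin (ℓ ^ n)) → Fin d → 𝒪,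
      m - ∑ a, ∑ i, (algebraMap 𝒪 A (c a i) * ∏ j, g j ^ (a j : ℕ)) • e i ∈
        (Ideal.span (Set.range fun j => g j ^ (ℓ ^ n) - 1)) • (⊤ : Submodule A M)) ∧
    (∀ c : (Fin r → Fin (ℓ ^ n)) → Fin d → 𝒪,
      (∑ a, ∑ i, (algebraMap 𝒪 A (c a i) * ∏ j, g j ^ (a j : ℕ)) • e i) ∈
        (Ideal.span (Set.range fun j => g j ^ (ℓ ^ n) - 1)) • (⊤ : Submodule A M) →
      ∀ a i, c a i = 0) := by
  classical
  -- the operators `H j = g j ^ (ℓ^n)` of orders `K j = ℓ^(E j - n)`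
  set K : Fin r → ℕ := fun j => ℓ ^ (E j - n) with hK
  have hKpos : ∀ j, 0 < K j := fun j => pow_pos hℓ _
  set H : Fin r → Module.End 𝒪 M := fun j => smulE (g j ^ (ℓ ^ n)) with hH
  have hgH : ∀ (j : Fin r) (m : M), (g j ^ (ℓ ^ n)) • m = H j m := fun _ _ => rfl
  have H_pow : ∀ j, H j ^ K j = 1 := by
    intro j
    refine LinearMap.ext fun m => ?_
    rw [← pow_smul_eq (g j ^ (ℓ ^ n)) (H j) (hgH j), ← pow_mul, ← pow_add,
      Nat.add_sub_cancel' (hn j), g_pow, Module.End.one_apply]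
  have H_comm : ∀ i j, H i * H j = H j * H i := by
    intro i j
    refine LinearMap.ext fun m => ?_
    simp only [Module.End.mul_apply, hH, smulE_apply]
    exact smul_comm _ _ _
  -- the new generators
  set e' : (Fin r → Fin (ℓ ^ n)) × Fin d → M := fun x => (∏ j, g j ^ (x.1 j : ℕ)) • e x.2 with he'
  -- the re-indexed basis
  let τ : ((∀ j : Fin r, Fin (ℓ ^ E j)) × Fin d) ≃
      ((∀ j : Fin r, Fin (K j)) × ((Fin r → Fin (ℓ ^ n)) × Fin d)) :=
    (Equiv.prodCongr (splitEquiv ℓ n hℓ E hn).symm (Equiv.refl (Fin d))).trans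
      (Equiv.prodAssoc _ _ _)
  let b2 : Basis ((∀ j : Fin r, Fin (K j)) × ((Fin r → Fin (ℓ ^ n)) × Fin d)) 𝒪 M := b.reindex τ
  have hb2 : ∀ c x, b2 (c, x) = mono H (fun j => (c j : ℕ)) (e' x) := by
    rintro c ⟨bb, i⟩
    have h1 : τ.symm (c, (bb, i)) = (splitEquiv ℓ n hℓ E hn (c, bb), i) := rfl
    rw [Basis.reindex_apply, h1, hb,
      ← prod_pow_smul_eq (fun j => g j ^ (ℓ ^ n)) H hgH (fun j => (c j : ℕ)) (e' (bb, i))]
    show _ = (∏ j, (g j ^ (ℓ ^ n)) ^ (c j : ℕ)) • (∏ j, g j ^ (bb j : ℕ)) • e i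
    rw [← mul_smul, ← Finset.prod_mul_distrib]
    congr 1
    refine Finset.prod_congr rfl fun j _ => ?_
    rw [splitEquiv_apply, pow_add, pow_mul, mul_comm]
  obtain ⟨B', hB'⟩ := exists_basis_quot hKpos H H_pow H_comm e' b2 hb2 (fun _ => (1 : 𝒪))
    (fun _ => one_pow _)
  -- the two descriptions of the submodule
  have hW : ∀ x : M, x ∈ (Ideal.span (Set.range fun j => g j ^ (ℓ ^ n) - 1)) •
      (⊤ : Submodule A M) ↔ x ∈ ⨆ j, chiRange (H j) (1 : 𝒪) := by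
    intro x
    rw [mem_span_smul_top_iff (fun j => g j ^ (ℓ ^ n)) H hgH]
    have : ∀ j, chiRange (H j) (1 : 𝒪) = LinearMap.range (H j - 1) := by
      intro j
      unfold chiRange
      rw [one_smul]
      rfl
    simp only [this]
  have hterm : ∀ (c : (Fin r → Fin (ℓ ^ n)) → Fin d → 𝒪),
      (∑ a, ∑ i, (algebraMap 𝒪 A (c a i) * ∏ j, g j ^ (a j : ℕ)) • e i) =
        ∑ x : (Fin r → Fin (ℓ ^ n)) × Fin d, c x.1 x.2 • e' x := by
    intro c
    rw [Fintype.sum_prod_type]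
    refine Finset.sum_congr rfl fun a _ => Finset.sum_congr rfl fun i _ => ?_
    rw [mul_smul, algebraMap_smul]
  refine ⟨fun m => ?_, fun c hc a i => ?_⟩
  · refine ⟨fun a i => B'.repr (Submodule.Quotient.mk m) (a, i), ?_⟩
    rw [hW, hterm, ← Submodule.Quotient.eq, mk_sum_smul]
    refine (B'.sum_repr (Submodule.Quotient.mk m)).symm.trans ?_
    refine Finset.sum_congr rfl fun x _ => ?_
    rw [hB']
  · rw [hW, hterm] at hc
    have h0 : (Submodule.Quotient.mk (∑ x : (Fin r → Fin (ℓ ^ n)) × Fin d, c x.1 x.2 • e' x) :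
        M ⧸ (⨆ j, chiRange (H j) (1 : 𝒪))) = 0 :=
      (Submodule.Quotient.mk_eq_zero _).mpr hc
    rw [mk_sum_smul] at h0
    have h1 : ∑ x : (Fin r → Fin (ℓ ^ n)) × Fin d, c x.1 x.2 • B' x = 0 := by
      rw [← h0]
      refine Finset.sum_congr rfl fun x _ => ?_
      rw [hB']
    exact Fintype.linearIndependent_iff.mp B'.linearIndependent (fun x => c x.1 x.2) h1 (a, i)

end Abs

section Lift

variable {A : Type*} [CommRing A] {MQ M : Type*} [AddCommGroup MQ] [Module A MQ]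
  [AddCommGroup M]

/-- an additive map killing `W` descends to `MQ ⧸ W`. -/
def liftAdd (π : MQ →+ M) (W : Submodule A MQ) (hW : ∀ m ∈ W, π m = 0) : (MQ ⧸ W) →+ M :=
  QuotientAddGroup.lift W.toAddSubgroup π (fun m hm => AddMonoidHom.mem_ker.mpr (hW m hm))

theorem liftAdd_mk (π : MQ →+ M) (W : Submodule A MQ) (hW : ∀ m ∈ W, π m = 0) (m : MQ) :
    liftAdd π W hW (Submodule.Quotient.mk m) = π m := rfl

end Lift

section Build

open Fermat.Agent.GE6.Inst.LevelE Fermat.Agent.GE6.Level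

variable {𝒪 : Type} [CommRing 𝒪] {ℓ r : ℕ} {R : Type} [CommRing R] [Algebra 𝒪 R]
  {M : Type} [AddCommGroup M] [Module R M] {E : Fin r → ℕ}

/-- the truncation submodule `(g_j^(ℓ^n) − 1)_j M_Q`. -/
def truncSub (T : TWDepthE 𝒪 ℓ r R M E) (n : ℕ) : Submodule T.RQ T.MQ :=
  (Ideal.span (Set.range fun j => T.g j ^ (ℓ ^ n) - 1)) • (⊤ : Submodule T.RQ T.MQ)

theorem β_g (T : TWDepthE 𝒪 ℓ r R M E) (j : Fin r) : T.β (T.g j) = 1 := by
  have h1 : T.g j - 1 ∈ RingHom.ker T.β := by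
    rw [T.ker_β]
    exact Ideal.subset_span ⟨j, rfl⟩
  have h2 : T.β (T.g j - 1) = 0 := h1
  rwa [map_sub, map_one, sub_eq_zero] at h2

theorem π_eq_zero_of_mem_truncSub (T : TWDepthE 𝒪 ℓ r R M E) (n : ℕ) (m : T.MQ)
    (hm : m ∈ truncSub T n) : T.π m = 0 := by
  have key : ∀ a ∈ Ideal.span (Set.range fun j => T.g j ^ (ℓ ^ n) - 1), T.β a = 0 := by
    intro a ha
    have hle : Ideal.span (Set.range fun j => T.g j ^ (ℓ ^ n) - 1) ≤ RingHom.ker T.β := by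
      rw [Ideal.span_le]
      rintro _ ⟨j, rfl⟩
      show T.β (T.g j ^ (ℓ ^ n) - 1) = 0
      rw [map_sub, map_pow, β_g, one_pow, map_one, sub_self]
    exact hle ha
  refine Submodule.smul_induction_on hm (fun a ha m _ => ?_) (fun x y hx hy => ?_)
  · rw [T.π_smul, key a ha, zero_smul]
  · rw [map_add, hx, hy, add_zero]

theorem truncSub_le (T : TWDepthE 𝒪 ℓ r R M E) (n : ℕ) :
    truncSub T n ≤ (Ideal.span (Set.range fun j => T.g j - 1)) • (⊤ : Submodule T.RQ T.MQ) := by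
  refine Submodule.smul_mono_left ?_
  rw [Ideal.span_le]
  rintro _ ⟨j, rfl⟩
  obtain ⟨c, hc⟩ := sub_dvd_pow_sub_pow (T.g j) 1 (ℓ ^ n)
  rw [one_pow] at hc
  show T.g j ^ (ℓ ^ n) - 1 ∈ _
  rw [hc]
  exact Ideal.mul_mem_right _ _ (Ideal.subset_span ⟨j, rfl⟩)

/-- the monomial basis of a `TWDepthE`. -/
theorem exists_basis (T : TWDepthE 𝒪 ℓ r R M E) :
    letI : Module 𝒪 T.MQ := Module.compHom T.MQ (algebraMap 𝒪 T.RQ)
    ∃ b : Basis ((∀ j : Fin r, Fin (ℓ ^ E j)) × Fin T.d) 𝒪 T.MQ,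
      ∀ a i, b (a, i) = (∏ j, T.g j ^ (a j : ℕ)) • T.e i := by
  classical
  letI : Module 𝒪 T.MQ := Module.compHom T.MQ (algebraMap 𝒪 T.RQ)
  have hsmul : ∀ (c : 𝒪) (m : T.MQ), c • m = algebraMap 𝒪 T.RQ c • m := fun _ _ => rfl
  set v : (∀ j : Fin r, Fin (ℓ ^ E j)) × Fin T.d → T.MQ :=
    fun x => (∏ j, T.g j ^ (x.1 j : ℕ)) • T.e x.2 with hv
  have hterm : ∀ (c : (∀ j : Fin r, Fin (ℓ ^ E j)) → Fin T.d → 𝒪),
      (∑ a, ∑ i, (algebraMap 𝒪 T.RQ (c a i) * ∏ j, T.g j ^ (a j : ℕ)) • T.e i) =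
        ∑ x : (∀ j : Fin r, Fin (ℓ ^ E j)) × Fin T.d, c x.1 x.2 • v x := by
    intro c
    rw [Fintype.sum_prod_type]
    refine Finset.sum_congr rfl fun a _ => Finset.sum_congr rfl fun i _ => ?_
    rw [mul_smul, hsmul]
  have hli : LinearIndependent 𝒪 v := by
    rw [Fintype.linearIndependent_iff]
    intro c hc x
    exact T.indep (fun a i => c (a, i)) ((hterm _).trans hc) x.1 x.2
  have hsp : ⊤ ≤ Submodule.span 𝒪 (Set.range v) := by
    intro m _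
    obtain ⟨c, hc⟩ := T.span m
    rw [hc, hterm]
    exact Submodule.sum_mem _ fun x _ =>
      Submodule.smul_mem _ _ (Submodule.subset_span ⟨x, rfl⟩)
  exact ⟨Basis.mk hli hsp, fun a i => Basis.mk_apply hli hsp (a, i)⟩

/-- **N1 TRUNC**: a Taylor–Wiles datum with exponents `E j ≥ n` truncates to uniform depth
`n`. -/
noncomputable def truncate (hℓ : 0 < ℓ) (T : TWDepthE 𝒪 ℓ r R M E) (n : ℕ)
    (hn : ∀ j, n ≤ E j) : TWDepth 𝒪 ℓ r R M n where
  RQ := T.RQ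
  γ := T.γ
  γ_surjective := T.γ_surjective
  g := T.g
  g_lift := T.g_lift
  β := T.β
  β_surjective := T.β_surjective
  ker_β := T.ker_β
  MQ := T.MQ ⧸ truncSub T n
  π := liftAdd T.π (truncSub T n) (π_eq_zero_of_mem_truncSub T n)
  π_smul := by
    intro x y
    obtain ⟨m, rfl⟩ := Submodule.Quotient.mk_surjective _ y
    rw [← Submodule.Quotient.mk_smul, liftAdd_mk, liftAdd_mk, T.π_smul]
  π_surjective := by
    intro y
    obtain ⟨m, rfl⟩ := T.π_surjective y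
    exact ⟨Submodule.Quotient.mk m, rfl⟩
  ker_π := by
    intro y
    obtain ⟨m, rfl⟩ := Submodule.Quotient.mk_surjective _ y
    rw [liftAdd_mk, T.ker_π]
    constructor
    · intro hm
      have h1 : (truncSub T n).mkQ m ∈ Submodule.map (truncSub T n).mkQ
          ((Ideal.span (Set.range fun j => T.g j - 1)) • (⊤ : Submodule T.RQ T.MQ)) :=
        Submodule.mem_map_of_mem hm
      rw [Submodule.map_smul''] at h1
      exact Submodule.smul_mono le_rfl le_top h1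
    · intro hm
      have h1 : (Ideal.span (Set.range fun j => T.g j - 1)) •
          (⊤ : Submodule T.RQ (T.MQ ⧸ truncSub T n)) =
          Submodule.map (truncSub T n).mkQ
            ((Ideal.span (Set.range fun j => T.g j - 1)) • (⊤ : Submodule T.RQ T.MQ)) := by
        rw [Submodule.map_smul'', Submodule.map_top, Submodule.range_mkQ]
      rw [h1] at hm
      obtain ⟨m0, hm0, hm0'⟩ := hm
      have h2 : m - m0 ∈ truncSub T n := by
        rw [← Submodule.Quotient.eq]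
        exact hm0'.symm
      have h3 : m = m0 + (m - m0) := by abel
      rw [h3]
      exact add_mem hm0 (truncSub_le T n h2)
  d := T.d
  e := fun i => Submodule.Quotient.mk (T.e i)
  g_pow := by
    intro j y
    obtain ⟨m, rfl⟩ := Submodule.Quotient.mk_surjective _ y
    rw [← Submodule.Quotient.mk_smul, Submodule.Quotient.eq]
    have h1 : T.g j ^ (ℓ ^ n) • m - m = (T.g j ^ (ℓ ^ n) - 1) • m := by
      rw [sub_smul, one_smul]
    rw [h1]
    exact Submodule.smul_mem_smul (Ideal.subset_span ⟨j, rfl⟩) Submodule.mem_top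
  span := by
    letI : Module 𝒪 T.MQ := Module.compHom T.MQ (algebraMap 𝒪 T.RQ)
    haveI : IsScalarTower 𝒪 T.RQ T.MQ := IsScalarTower.of_algebraMap_smul fun _ _ => rfl
    obtain ⟨b, hb⟩ := exists_basis T
    obtain ⟨h1, -⟩ := exists_trunc hℓ hn T.g T.g_pow T.e b hb
    intro y
    obtain ⟨m, rfl⟩ := Submodule.Quotient.mk_surjective _ y
    obtain ⟨c, hc⟩ := h1 m
    refine ⟨c, ?_⟩
    have h2 := (Submodule.Quotient.eq (truncSub T n)).mpr hc
    rw [h2, ← Submodule.mkQ_apply, map_sum]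
    refine Finset.sum_congr rfl fun a _ => ?_
    rw [map_sum]
    refine Finset.sum_congr rfl fun i _ => ?_
    rw [map_smul]
    rfl
  indep := by
    letI : Module 𝒪 T.MQ := Module.compHom T.MQ (algebraMap 𝒪 T.RQ)
    haveI : IsScalarTower 𝒪 T.RQ T.MQ := IsScalarTower.of_algebraMap_smul fun _ _ => rfl
    obtain ⟨b, hb⟩ := exists_basis T
    obtain ⟨-, h1⟩ := exists_trunc hℓ hn T.g T.g_pow T.e b hb
    intro c hc
    refine h1 c ?_
    rw [← Submodule.Quotient.mk_eq_zero]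
    refine Eq.trans ?_ hc
    rw [← Submodule.mkQ_apply, map_sum]
    refine Finset.sum_congr rfl fun a _ => ?_
    rw [map_sum]
    refine Finset.sum_congr rfl fun i _ => ?_
    rw [map_smul]
    rfl

end Build

section Stmt

open IsLocalRing Fermat.Agent.GE6.Inst.AssemblyE Fermat.Agent.GE6.Stmt Fermat.Agent.GE.Graph

/-- **`TWLevelsEStmt ⟹ TWLevelsStmt`**: the general-exponent statement implies the
uniform-exponent statement of `GE6/Stmt` (the field `htw` of `GE/Engine/Base.BaseInput`). -/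
theorem twLevelsStmt_of_twLevelsEStmt {𝒪 : Type} [CommRing 𝒪] [IsDomain 𝒪]
    [IsDiscreteValuationRing 𝒪] [IsAdicComplete (maximalIdeal 𝒪) 𝒪]
    {ρbar : ResidualGaloisRep (ResidueField 𝒪)} {𝒟 : DefCondE 𝒪} {ℓ : ℕ} (hℓ : 0 < ℓ)
    (D : GaloisRep.DeformationRingData 𝒪 ρbar 𝒟)
    {T : Type} [CommRing T] [Algebra 𝒪 T] (φ : D.R →ₐ[𝒪] T)
    {M : Type} [AddCommGroup M] [Module T M]
    (h : TWLevelsEStmt ℓ D φ M) : TWLevelsStmt ℓ D φ M := by
  letI : Module D.R M := Module.compHom M (φ : D.R →+* T)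
  obtain ⟨r, hL⟩ := h
  refine ⟨r, fun n => ?_⟩
  obtain ⟨E, hE, ⟨X⟩⟩ := hL n
  exact ⟨truncate hℓ X n hE⟩

end Stmt

end Fermat.Agent.GE6.Inst.Trunc
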