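import Mathlib
import Fermat.Agent.GB.B3.MonoCoinv
import Fermat.Agent.GE6.OfFreeLevel

/-!
# GATE-E / ENGINE-INST (helper12): the UNIT bridge

GATE-B exports, at a Taylor–Wiles level, the module `M = M_Q` FREE over `𝒪[Δ_Q]` for the HECKE
diamonds `D_i` (basis form: the monomials `mono D a (e j)`, `a i < p^(E i)`, are an `𝒪`-basis), and
for the GALOIS diamonds `g_i` (elements of a commutative ring `A` acting on `M`) only

  (UNIT)  `∀ i m, ∃ m', D i m - m = g i • m' - m'`     (`(D_i − 1) M ⊆ (g_i − 1) M`).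

This file shows that, as soon as `g i ^ (p^(E i))` acts trivially on `M` (`𝒪` local, `p ∈ 𝔪_𝒪`),
`M` is ALSO free over `𝒪[Δ_Q]` for the action through the `g_i`, on the same `e j`
(`exists_basis_of_unit`), with the same coinvariants (`mem_span_smul_top_iff_of_unit`).

Proof: `P := 𝒪`-span of the `g`-monomials of the `e j` is stable under `𝒪[g]`; `M = P + I M`,
`I = (g_i − 1)_i`, by (UNIT); `I^t M ⊆ p M` for `t ≫ 0` since `(g_i − 1)^(p^(E i)) ∈ (p) + Ann M`;
Nakayama over `𝒪` gives `P = M`; a spanning family of cardinality the rank is a basis.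
-/

set_option autoImplicit false
set_option linter.unusedSectionVars false
set_option linter.style.haveILetI false

namespace Fermat.Agent.GE6.Inst.UnitBridge

open Module IsLocalRing Fermat.Agent.GB.B3.TWLevel Fermat.Agent.GB.B3.MonoCoinv
  Fermat.Agent.GB.B3.Chi

section MonoSub

variable {O M : Type*} [CommRing O] [AddCommGroup M] [Module O M]

theorem pow_apply_sub_mem (D : Module.End O M) (n : ℕ) (m : M) :
    (D ^ n) m - m ∈ LinearMap.range (D - 1) := by
  have h : D ^ n - 1 = (D - 1) * ∑ i ∈ Finset.range n, D ^ i := (mul_geom_sum D n).symm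
  have h2 : (D ^ n) m - m = (D ^ n - 1) m := by
    rw [LinearMap.sub_apply, Module.End.one_apply]
  rw [h2, h, Module.End.mul_apply]
  exact ⟨_, rfl⟩

/-- `mono D a m ≡ m` modulo `∑ (D i − 1) M`. -/
theorem mono_apply_sub_mem {k : ℕ} (D : Fin k → Module.End O M) (a : Fin k → ℕ) (m : M) :
    mono D a m - m ∈ ⨆ i, LinearMap.range (D i - 1) := by
  induction k generalizing m with
  | zero =>
    rw [mono_fin_zero, Module.End.one_apply, sub_self]
    exact Submodule.zero_mem _
  | succ k ih =>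
    rw [mono_succ, Module.End.mul_apply]
    set y := mono (fun i => D i.succ) (fun i => a i.succ) m with hy
    have h1 : (D 0 ^ a 0) y - m = ((D 0 ^ a 0) y - y) + (y - m) := by abel
    rw [h1]
    refine Submodule.add_mem _ ?_ ?_
    · exact (le_iSup (fun i => LinearMap.range (D i - 1)) 0) (pow_apply_sub_mem (D 0) (a 0) y)
    · have h2 := ih (fun i => D i.succ) (fun i => a i.succ) m
      have h3 : (⨆ i : Fin k, LinearMap.range (D i.succ - 1)) ≤
          ⨆ i, LinearMap.range (D i - 1) :=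
        iSup_le fun i => le_iSup (fun i => LinearMap.range (D i - 1)) i.succ
      exact h3 h2

end MonoSub

section Core

variable {O : Type} [CommRing O] {A : Type} [CommRing A] [Algebra O A]
  {M : Type} [AddCommGroup M] [Module O M] [Module A M] [IsScalarTower O A M]
  {k d : ℕ} {N : Fin k → ℕ}

/-- the `g`-monomial vectors -/
def gv (g : Fin k → A) (e : Fin d → M) (x : (∀ i : Fin k, Fin (N i)) × Fin d) : M :=
  (∏ i, g i ^ (x.1 i : ℕ)) • e x.2

theorem prod_update (g : Fin k → A) (a : ∀ i : Fin k, Fin (N i)) (i : Fin k) (s : Fin (N i)) :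
    ∏ i', g i' ^ ((Function.update a i s i' : Fin (N i')) : ℕ) =
      g i ^ (s : ℕ) * ∏ i' ∈ Finset.univ.erase i, g i' ^ (a i' : ℕ) := by
  rw [← Finset.mul_prod_erase Finset.univ _ (Finset.mem_univ i), Function.update_self]
  congr 1
  refine Finset.prod_congr rfl fun i' hi' => ?_
  rw [Function.update_of_ne (Finset.ne_of_mem_erase hi')]

theorem prod_eq_mul_erase (g : Fin k → A) (a : ∀ i : Fin k, Fin (N i)) (i : Fin k) :
    ∏ i', g i' ^ (a i' : ℕ) =
      g i ^ (a i : ℕ) * ∏ i' ∈ Finset.univ.erase i, g i' ^ (a i' : ℕ) :=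
  (Finset.mul_prod_erase Finset.univ (fun i' => g i' ^ (a i' : ℕ)) (Finset.mem_univ i)).symm

/-- the span of the monomial vectors is stable under the `g i`. -/
theorem smul_gv_mem (hN : ∀ i, 0 < N i) (g : Fin k → A)
    (g_pow : ∀ (j : Fin k) (m : M), g j ^ N j • m = m) (e : Fin d → M)
    (i : Fin k) (x : (∀ i : Fin k, Fin (N i)) × Fin d) :
    g i • gv g e x ∈ Submodule.span O (Set.range (gv (N := N) g e)) := by
  classical
  obtain ⟨a, j⟩ := x
  by_cases h : (a i : ℕ) + 1 < N i
  · refine Submodule.subset_span ⟨(Function.update a i ⟨(a i : ℕ) + 1, h⟩, j), ?_⟩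
    show (∏ i', g i' ^ ((Function.update a i ⟨(a i : ℕ) + 1, h⟩ i' : Fin (N i')) : ℕ)) • e j =
      g i • (∏ i', g i' ^ (a i' : ℕ)) • e j
    rw [prod_update, prod_eq_mul_erase g a i, smul_smul, ← mul_assoc, ← pow_succ']
  · have h' : (a i : ℕ) + 1 = N i := by have := (a i).isLt; omega
    refine Submodule.subset_span ⟨(Function.update a i ⟨0, hN i⟩, j), ?_⟩
    show (∏ i', g i' ^ ((Function.update a i ⟨0, hN i⟩ i' : Fin (N i')) : ℕ)) • e j =
      g i • (∏ i', g i' ^ (a i' : ℕ)) • e j
    rw [prod_update, prod_eq_mul_erase g a i, smul_smul, ← mul_assoc, ← pow_succ', h', pow_zero,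
      one_mul, mul_smul, g_pow]

theorem smul_mem_span_gv (hN : ∀ i, 0 < N i) (g : Fin k → A)
    (hgen : Algebra.adjoin O (Set.range g) = ⊤)
    (g_pow : ∀ (j : Fin k) (m : M), g j ^ N j • m = m) (e : Fin d → M) (c : A) :
    ∀ y ∈ Submodule.span O (Set.range (gv (N := N) g e)),
      c • y ∈ Submodule.span O (Set.range (gv (N := N) g e)) := by
  have hc : c ∈ Algebra.adjoin O (Set.range g) := by rw [hgen]; exact Algebra.mem_top
  refine Algebra.adjoin_induction
    (p := fun c _ => ∀ y ∈ Submodule.span O (Set.range (gv (N := N) g e)),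
      c • y ∈ Submodule.span O (Set.range (gv (N := N) g e))) ?_ ?_ ?_ ?_ hc
  · rintro _ ⟨i, rfl⟩ y hy
    refine Submodule.span_induction (p := fun y _ => g i • y ∈
      Submodule.span O (Set.range (gv (N := N) g e))) ?_ ?_ ?_ ?_ hy
    · rintro _ ⟨x, rfl⟩
      exact smul_gv_mem hN g g_pow e i x
    · rw [smul_zero]; exact Submodule.zero_mem _
    · intro y z _ _ hy hz
      rw [smul_add]; exact Submodule.add_mem _ hy hz
    · intro c y _ hy
      rw [smul_comm]; exact Submodule.smul_mem _ _ hy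
  · intro c y hy
    rw [algebraMap_smul]
    exact Submodule.smul_mem _ _ hy
  · intro x y _ _ hx hy z hz
    rw [add_smul]
    exact Submodule.add_mem _ (hx z hz) (hy z hz)
  · intro x y _ _ hx hy z hz
    rw [mul_smul]
    exact hx _ (hy z hz)

/-- the span of the monomial vectors, as an `A`-submodule when `A = 𝒪[g]`. -/
def spanA (hN : ∀ i, 0 < N i) (g : Fin k → A) (hgen : Algebra.adjoin O (Set.range g) = ⊤)
    (g_pow : ∀ (j : Fin k) (m : M), g j ^ N j • m = m) (e : Fin d → M) : Submodule A M where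
  carrier := Submodule.span O (Set.range (gv (N := N) g e))
  zero_mem' := Submodule.zero_mem _
  add_mem' := fun ha hb => Submodule.add_mem _ ha hb
  smul_mem' := fun c _ hy => smul_mem_span_gv hN g hgen g_pow e c _ hy

theorem mem_spanA (hN : ∀ i, 0 < N i) (g : Fin k → A)
    (hgen : Algebra.adjoin O (Set.range g) = ⊤)
    (g_pow : ∀ (j : Fin k) (m : M), g j ^ N j • m = m) (e : Fin d → M) (y : M) :
    y ∈ spanA hN g hgen g_pow e ↔ y ∈ Submodule.span O (Set.range (gv (N := N) g e)) :=
  Iff.rfl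

/-- iteration: `M = P + I M ⟹ M = P + I^t M`. -/
theorem top_le_sup_pow_smul (P : Submodule A M) (I : Ideal A)
    (h : (⊤ : Submodule A M) ≤ P ⊔ I • ⊤) (t : ℕ) : (⊤ : Submodule A M) ≤ P ⊔ I ^ t • ⊤ := by
  induction t with
  | zero => rw [pow_zero, Ideal.one_eq_top, Submodule.top_smul]; exact le_sup_right
  | succ t ih =>
    have h1 : I ^ t • (⊤ : Submodule A M) ≤ P ⊔ I ^ (t + 1) • ⊤ := by
      calc I ^ t • (⊤ : Submodule A M) ≤ I ^ t • (P ⊔ I • ⊤) := Submodule.smul_mono le_rfl h
        _ = I ^ t • P ⊔ I ^ t • (I • ⊤) := Submodule.smul_sup _ _ _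
        _ ≤ P ⊔ I ^ (t + 1) • ⊤ := by
          refine sup_le_sup Submodule.smul_le_right ?_
          rw [← Submodule.mul_smul, ← pow_succ]
    exact le_trans ih (sup_le le_sup_left h1)

/-- `(g_j − 1)_j^t M ⊆ p M` for `t ≫ 0`, when `g j ^ (p^(E j))` acts trivially. -/
theorem exists_pow_smul_le {p : ℕ} (hp : p.Prime) {E : Fin k → ℕ} (g : Fin k → A)
    (g_pow : ∀ (j : Fin k) (m : M), g j ^ (p ^ E j) • m = m) :
    ∃ t, (Ideal.span (Set.range fun j => g j - 1)) ^ t • (⊤ : Submodule A M) ≤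
      Ideal.span {(p : A)} • ⊤ := by
  have hrad : Ideal.span (Set.range fun j => g j - 1) ≤
      (Ideal.span {(p : A)} ⊔ Module.annihilator A M).radical := by
    rw [Ideal.span_le]
    rintro _ ⟨j, rfl⟩
    show _ ∈ Ideal.radical _
    rw [Ideal.mem_radical_iff]
    refine ⟨p ^ E j, ?_⟩
    obtain ⟨v, hv⟩ := exists_add_pow_prime_pow_eq hp (g j - 1) 1 (E j)
    rw [sub_add_cancel, one_pow] at hv
    have h1 : (g j - 1) ^ p ^ E j = (g j ^ p ^ E j - 1) + (p : A) * (-((g j - 1) * 1 * v)) := by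
      linear_combination -hv
    rw [h1]
    refine Ideal.add_mem _ (Ideal.mem_sup_right ?_)
      (Ideal.mem_sup_left (Ideal.mul_mem_right _ _ (Ideal.subset_span rfl)))
    rw [Module.mem_annihilator]
    intro m
    rw [sub_smul, g_pow, one_smul, sub_self]
  obtain ⟨t, ht⟩ := Ideal.exists_pow_le_of_le_radical_of_fg hrad
    (Submodule.fg_span (Set.finite_range _))
  refine ⟨t, ?_⟩
  refine le_trans (Submodule.smul_mono ht le_rfl) ?_
  rw [Submodule.sup_smul]
  refine sup_le le_rfl ?_
  rw [Submodule.smul_le]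
  intro a ha m _
  rw [Module.mem_annihilator.mp ha m]
  exact Submodule.zero_mem _

variable [IsLocalRing O]

/-- **the `g`-monomials span `M`** (`A = 𝒪[g]`). -/
theorem span_gv_eq_top {p : ℕ} (hp : p.Prime) (hpO : (p : O) ∈ maximalIdeal O) {E : Fin k → ℕ}
    (D : Fin k → Module.End O M) (e : Fin d → M)
    (b : Basis ((∀ i : Fin k, Fin (p ^ E i)) × Fin d) O M)
    (hb : ∀ a j, b (a, j) = mono D (fun i => (a i : ℕ)) (e j))
    (g : Fin k → A) (hgen : Algebra.adjoin O (Set.range g) = ⊤)
    (g_pow : ∀ (j : Fin k) (m : M), g j ^ (p ^ E j) • m = m)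
    (hunit : ∀ (j : Fin k) (m : M), ∃ m', D j m - m = g j • m' - m') :
    Submodule.span O (Set.range (gv (N := fun i => p ^ E i) g e)) = ⊤ := by
  classical
  have hN : ∀ i : Fin k, 0 < p ^ E i := fun i => pow_pos hp.pos _
  set PA := spanA (N := fun i => p ^ E i) hN g hgen g_pow e with hPA
  set I := Ideal.span (Set.range fun j => g j - 1) with hI
  -- `e j ∈ P`
  have he : ∀ j, e j ∈ PA := by
    intro j
    rw [hPA, mem_spanA]
    refine Submodule.subset_span ⟨(fun i => ⟨0, hN i⟩, j), ?_⟩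
    show (∏ i : Fin k, g i ^ (0 : ℕ)) • e j = e j
    simp
  -- `(D_i − 1) M ⊆ I M`
  have hD : ∀ y ∈ ⨆ i, LinearMap.range (D i - 1), y ∈ I • (⊤ : Submodule A M) := by
    intro y hy
    refine Submodule.iSup_induction _ (motive := fun y => y ∈ I • (⊤ : Submodule A M)) hy ?_ ?_ ?_
    · rintro i _ ⟨m, rfl⟩
      obtain ⟨m', hm'⟩ := hunit i m
      have h1 : (D i - 1) m = (g i - 1) • m' := by
        rw [LinearMap.sub_apply, Module.End.one_apply, hm', sub_smul, one_smul]
      rw [h1]
      exact Submodule.smul_mem_smul (Ideal.subset_span ⟨i, rfl⟩) Submodule.mem_top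
    · exact Submodule.zero_mem _
    · intro y z hy hz
      exact Submodule.add_mem _ hy hz
  -- `M = P + I M`
  have h2 : (⊤ : Submodule A M) ≤ PA ⊔ I • ⊤ := by
    intro m _
    rw [← b.sum_repr m]
    refine Submodule.sum_mem _ fun x _ => ?_
    obtain ⟨a, j⟩ := x
    rw [← algebraMap_smul A (b.repr m (a, j)) (b (a, j))]
    refine Submodule.smul_mem _ _ ?_
    rw [hb]
    have h3 : mono D (fun i => (a i : ℕ)) (e j) =
        e j + (mono D (fun i => (a i : ℕ)) (e j) - e j) := by abel
    rw [h3]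
    exact Submodule.add_mem_sup (he j) (hD _ (mono_apply_sub_mem D _ (e j)))
  -- `M = P + p M`
  obtain ⟨t, ht⟩ := exists_pow_smul_le (M := M) hp g g_pow
  have h4 : (⊤ : Submodule A M) ≤ PA ⊔ Ideal.span {(p : A)} • ⊤ :=
    le_trans (top_le_sup_pow_smul PA I h2 t) (sup_le_sup le_rfl ht)
  -- Nakayama over `𝒪`
  have hfin : Module.Finite O M := Module.Finite.of_basis b
  have h5 : (⊤ : Submodule O M) ≤
      Submodule.span O (Set.range (gv (N := fun i => p ^ E i) g e)) ⊔
        maximalIdeal O • (⊤ : Submodule O M) := by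
    intro m _
    obtain ⟨y, hy, z, hz, rfl⟩ := Submodule.mem_sup.mp (h4 (Submodule.mem_top (x := m)))
    refine Submodule.add_mem_sup hy ?_
    rw [Submodule.ideal_span_singleton_smul] at hz
    obtain ⟨m', -, rfl⟩ := hz
    have h6 : (p : A) • m' = (p : O) • m' := by
      rw [Nat.cast_smul_eq_nsmul, Nat.cast_smul_eq_nsmul]
    show (p : A) • m' ∈ _
    rw [h6]
    exact Submodule.smul_mem_smul hpO Submodule.mem_top
  exact top_le_iff.mp (Submodule.le_of_le_smul_of_le_jacobson_bot hfin.fg_top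
    (maximalIdeal_le_jacobson ⊥) h5)

/-- **(UNIT) bridge, generated case**: the `g`-monomials are an `𝒪`-basis. -/
theorem exists_basis_of_unit_gen {p : ℕ} (hp : p.Prime) (hpO : (p : O) ∈ maximalIdeal O)
    {E : Fin k → ℕ} (D : Fin k → Module.End O M) (e : Fin d → M)
    (b : Basis ((∀ i : Fin k, Fin (p ^ E i)) × Fin d) O M)
    (hb : ∀ a j, b (a, j) = mono D (fun i => (a i : ℕ)) (e j))
    (g : Fin k → A) (hgen : Algebra.adjoin O (Set.range g) = ⊤)
    (g_pow : ∀ (j : Fin k) (m : M), g j ^ (p ^ E j) • m = m)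
    (hunit : ∀ (j : Fin k) (m : M), ∃ m', D j m - m = g j • m' - m') :
    ∃ b' : Basis ((∀ i : Fin k, Fin (p ^ E i)) × Fin d) O M,
      ∀ a j, b' (a, j) = (∏ i, g i ^ (a i : ℕ)) • e j := by
  classical
  have hspan := span_gv_eq_top hp hpO D e b hb g hgen g_pow hunit
  set v := gv (N := fun i => p ^ E i) g e with hv
  have hfin : Module.Finite O M := Module.Finite.of_basis b
  -- the coordinate map is a surjective endomorphism of `ι → 𝒪`
  let Φ := Fintype.linearCombination O v
  have hΦsurj : Function.Surjective Φ := by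
    rw [← LinearMap.range_eq_top, Fintype.range_linearCombination, hspan]
  have hcomp : Function.Injective (b.equivFun.toLinearMap ∘ₗ Φ) :=
    OrzechProperty.injective_of_surjective_endomorphism _
      (b.equivFun.surjective.comp hΦsurj)
  have hΦinj : Function.Injective Φ := fun x y hxy => hcomp (by
    show b.equivFun (Φ x) = b.equivFun (Φ y)
    rw [hxy])
  have hli : LinearIndependent O v := by
    rw [Fintype.linearIndependent_iff]
    intro c hc i
    have h1 : Φ c = Φ 0 := by
      rw [map_zero]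
      exact hc
    rw [hΦinj h1]
    rfl
  refine ⟨Basis.mk hli hspan.ge, fun a j => ?_⟩
  rw [Basis.mk_apply]
  rfl

/-- **(UNIT) bridge**: `M` free over `𝒪[Δ]` for the Hecke diamonds `D_i` (basis form), a commutative
ring `A` acting on `M`, elements `g_i ∈ A` with `g i ^ (p^(E i))` acting trivially and
`(D_i − 1) M ⊆ (g_i − 1) M`: then the `g`-monomials of the `e j` are an `𝒪`-basis of `M`. -/
theorem exists_basis_of_unit {p : ℕ} (hp : p.Prime) (hpO : (p : O) ∈ maximalIdeal O)
    {E : Fin k → ℕ} (D : Fin k → Module.End O M) (e : Fin d → M)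
    (b : Basis ((∀ i : Fin k, Fin (p ^ E i)) × Fin d) O M)
    (hb : ∀ a j, b (a, j) = mono D (fun i => (a i : ℕ)) (e j))
    (g : Fin k → A)
    (g_pow : ∀ (j : Fin k) (m : M), g j ^ (p ^ E j) • m = m)
    (hunit : ∀ (j : Fin k) (m : M), ∃ m', D j m - m = g j • m' - m') :
    ∃ b' : Basis ((∀ i : Fin k, Fin (p ^ E i)) × Fin d) O M,
      ∀ a j, b' (a, j) = (∏ i, g i ^ (a i : ℕ)) • e j := by
  classical
  let g₀ : Fin k → Algebra.adjoin O (Set.range g) :=
    fun j => ⟨g j, Algebra.subset_adjoin ⟨j, rfl⟩⟩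
  have hgen : Algebra.adjoin O (Set.range g₀) = ⊤ := by
    have h1 : Set.range g₀ = (Subtype.val ⁻¹' Set.range g :
        Set (Algebra.adjoin O (Set.range g))) := by
      ext x
      constructor
      · rintro ⟨j, rfl⟩
        exact ⟨j, rfl⟩
      · rintro ⟨j, hj⟩
        exact ⟨j, Subtype.ext hj⟩
    rw [h1]
    exact Algebra.adjoin_adjoin_coe_preimage
  have g_pow₀ : ∀ (j : Fin k) (m : M), g₀ j ^ (p ^ E j) • m = m := by
    intro j m
    rw [Subalgebra.smul_def]
    exact g_pow j m
  have hunit₀ : ∀ (j : Fin k) (m : M), ∃ m', D j m - m = g₀ j • m' - m' := by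
    intro j m
    obtain ⟨m', hm'⟩ := hunit j m
    exact ⟨m', by rw [Subalgebra.smul_def]; exact hm'⟩
  obtain ⟨b', hb'⟩ := exists_basis_of_unit_gen (A := Algebra.adjoin O (Set.range g)) hp hpO D e b hb
    g₀ hgen g_pow₀ hunit₀
  refine ⟨b', fun a j => ?_⟩
  rw [hb', Subalgebra.smul_def]
  congr 1
  rw [← Subalgebra.coe_val, map_prod]
  refine Finset.prod_congr rfl fun i _ => ?_
  rw [map_pow]
  rfl

/-- the `𝒪`-endomorphism `m ↦ x • m` -/
def smulEnd (x : A) : Module.End O M where
  toFun m := x • m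
  map_add' := smul_add x
  map_smul' c m := smul_comm x c m

omit [IsLocalRing O] in
theorem smulEnd_apply (x : A) (m : M) : smulEnd (O := O) x m = x • m := rfl

/-- **(UNIT) bridge, coinvariants**: `(g_j − 1)_j M = ∑ (D_i − 1) M`. -/
theorem mem_span_smul_top_iff_of_unit {p : ℕ} (hp : p.Prime) (hpO : (p : O) ∈ maximalIdeal O)
    {E : Fin k → ℕ} (D : Fin k → Module.End O M)
    (D_pow : ∀ i, D i ^ (p ^ E i) = 1) (D_comm : ∀ i j, D i * D j = D j * D i)
    (e : Fin d → M)
    (b : Basis ((∀ i : Fin k, Fin (p ^ E i)) × Fin d) O M)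
    (hb : ∀ a j, b (a, j) = mono D (fun i => (a i : ℕ)) (e j))
    (g : Fin k → A)
    (g_pow : ∀ (j : Fin k) (m : M), g j ^ (p ^ E j) • m = m)
    (hunit : ∀ (j : Fin k) (m : M), ∃ m', D j m - m = g j • m' - m') (x : M) :
    x ∈ (Ideal.span (Set.range fun j => g j - 1)) • (⊤ : Submodule A M) ↔
      x ∈ ⨆ i, LinearMap.range (D i - 1) := by
  classical
  have hN : ∀ i : Fin k, 0 < p ^ E i := fun i => pow_pos hp.pos _
  set X : Fin k → Module.End O M := fun j => smulEnd (g j) with hX
  have hgX : ∀ (j : Fin k) (m : M), g j • m = X j m := fun _ _ => rfl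
  rw [Fermat.Agent.GE6.OfFreeLevel.mem_span_smul_top_iff g X hgX]
  -- the two coinvariant bases
  obtain ⟨b', hb'⟩ := exists_basis_of_unit hp hpO D e b hb g g_pow hunit
  have hb'' : ∀ a j, b' (a, j) = mono X (fun i => (a i : ℕ)) (e j) := by
    intro a j
    rw [hb', Fermat.Agent.GE6.OfFreeLevel.prod_pow_smul_eq g X hgX]
  have X_pow : ∀ i, X i ^ (p ^ E i) = 1 := by
    intro i
    refine LinearMap.ext fun m => ?_
    rw [← Fermat.Agent.GE6.OfFreeLevel.pow_smul_eq (g i) (X i) (hgX i), g_pow,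
      Module.End.one_apply]
  have X_comm : ∀ i j, X i * X j = X j * X i := by
    intro i j
    refine LinearMap.ext fun m => ?_
    show g i • g j • m = g j • g i • m
    rw [smul_smul, smul_smul, mul_comm]
  obtain ⟨b1, hb1⟩ := exists_basis_quot hN D D_pow D_comm e b hb (fun _ => 1)
    (fun _ => one_pow _)
  obtain ⟨b2, hb2⟩ := exists_basis_quot hN X X_pow X_comm e b' hb'' (fun _ => 1)
    (fun _ => one_pow _)
  have hcr : ∀ (T : Fin k → Module.End O M),
      (⨆ i, chiRange (T i) (1 : O)) = ⨆ i, LinearMap.range (T i - 1) := by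
    intro T
    congr 1
    funext i
    rw [chiRange_one]
    rfl
  rw [← hcr X, ← hcr D]
  have hle : (⨆ i, chiRange (D i) (1 : O)) ≤ ⨆ i, chiRange (X i) (1 : O) := by
    rw [hcr D, hcr X]
    refine iSup_le fun i => ?_
    rintro _ ⟨m, rfl⟩
    obtain ⟨m', hm'⟩ := hunit i m
    refine (le_iSup (fun i => LinearMap.range (X i - 1)) i) ⟨m', ?_⟩
    rw [LinearMap.sub_apply, Module.End.one_apply, LinearMap.sub_apply, Module.End.one_apply, hm']
    rfl
  constructor
  · intro hx
    -- the canonical map `M/W_D → M/W_X` maps basis to basis, hence is injective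
    let f : (M ⧸ ⨆ i, chiRange (D i) (1 : O)) →ₗ[O] (M ⧸ ⨆ i, chiRange (X i) (1 : O)) :=
      Submodule.mapQ _ _ LinearMap.id hle
    have hf : f = (b1.equiv b2 (Equiv.refl _)).toLinearMap := by
      refine b1.ext fun j => ?_
      rw [LinearEquiv.coe_coe, Basis.equiv_apply, hb1, Equiv.refl_apply, hb2]
      rfl
    have hinj : Function.Injective f := by
      rw [hf]
      exact (b1.equiv b2 (Equiv.refl _)).injective
    have h0 : f (Submodule.Quotient.mk x) = 0 := by
      show (Submodule.Quotient.mk x : M ⧸ ⨆ i, chiRange (X i) (1 : O)) = 0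
      rw [Submodule.Quotient.mk_eq_zero]
      exact hx
    have h1 := hinj (h0.trans (map_zero f).symm)
    rwa [Submodule.Quotient.mk_eq_zero] at h1
  · intro hx
    exact hle hx

end Core

end Fermat.Agent.GE6.Inst.UnitBridge
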