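import Fermat.Agent.GE6.Inst.LevelE
import Fermat.Agent.GE6.Inst.UnitBridge

/-!
# GATE-E / ENGINE-INST (helper12): GATE-B's exports at one Taylor–Wiles set give a `TWDepthE`

`twDepthEOfUnit` : a GATE-B `FreeLevel` `F` with diamond exponents `p^(E j)` (the module
`M_Q = H¹(Γ_H(Q), 𝒪)_𝔪`, free over `𝒪[Δ_Q]` for the HECKE diamonds `F.D j`), the ring side
`(RQ, γ, g, β)` (S56 + GE2/DeltaQ), an `RQ`-module structure on `F.M` (through `R_Q → T_Q`) with

* `g j ^ (p^(E j))` acting trivially (free: `g_j^(p^a) = 1` in `R_Q`, `a = v_p(q_j − 1) = E j`),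
* (UNIT) `∀ j m, ∃ m', F.D j m − m = g j • m' − m'` (the field `unit₁` of `GB/B9/ModOfTW.TWInput`),
* `F.π` semilinear over `β`,

is a `TWDepthE 𝒪 p r R M_∅ E`; hence a patching level at `J_n` for every `n ≤ E j`
(`nonempty_patchingLevel_of_unit`).
-/

set_option autoImplicit false
set_option linter.unusedSectionVars false

namespace Fermat.Agent.GE6.Inst.OfUnit

open IsLocalRing MvPowerSeries Fermat.Agent.GB.B3.TWLevel Fermat.Agent.GE6.Inst.LevelE
  Fermat.Agent.GE6.Inst.UnitBridge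

variable {𝒪 : Type} [CommRing 𝒪] [IsLocalRing 𝒪] {p r : ℕ} {E : Fin r → ℕ}
  {𝕋 : Type} [CommRing 𝕋] [Algebra 𝒪 𝕋]
  {R : Type} [CommRing R] [Algebra 𝒪 R]
  {M0 : Type} [AddCommGroup M0] [Module 𝒪 M0] [Module R M0]
  {act0 : 𝕋 →ₐ[𝒪] Module.End 𝒪 M0}

/-- **GATE-B's exports at one Taylor–Wiles set ⟹ `TWDepthE`.** -/
noncomputable def twDepthEOfUnit (hp : p.Prime) (hp𝒪 : (p : 𝒪) ∈ maximalIdeal 𝒪)
    (F : FreeLevel 𝒪 𝕋 M0 act0 r (fun j => p ^ E j))
    {RQ : Type} [CommRing RQ] [Algebra 𝒪 RQ]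
    (γ : MvPowerSeries (Fin r) 𝒪 →ₐ[𝒪] RQ) (hγ : Function.Surjective γ) (g : Fin r → RQ)
    (g_lift : ∀ j, ∃ y : MvPowerSeries (Fin r) 𝒪, ¬ IsUnit (constantCoeff y) ∧ γ y = g j - 1)
    (β : RQ →ₐ[𝒪] R) (hβ : Function.Surjective β)
    (ker_β : RingHom.ker β = Ideal.span (Set.range fun j => g j - 1))
    [Module RQ F.M] [IsScalarTower 𝒪 RQ F.M]
    (g_pow : ∀ (j : Fin r) (m : F.M), g j ^ (p ^ E j) • m = m)
    (hunit : ∀ (j : Fin r) (m : F.M), ∃ m', F.D j m - m = g j • m' - m')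
    (hπ : ∀ (x : RQ) (m : F.M), F.π (x • m) = β x • F.π m) :
    TWDepthE 𝒪 p r R M0 E where
  RQ := RQ
  γ := γ
  γ_surjective := hγ
  g := g
  g_lift := g_lift
  β := β
  β_surjective := hβ
  ker_β := ker_β
  MQ := F.M
  π := F.π.toAddMonoidHom
  π_smul := hπ
  π_surjective := F.π_surjective
  ker_π := by
    intro m
    rw [mem_span_smul_top_iff_of_unit hp hp𝒪 F.D F.D_pow F.D_comm F.e F.basis F.basis_eq g g_pow
      hunit]
    exact F.ker_π m
  d := F.d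
  e := F.e
  g_pow := g_pow
  span := by
    classical
    obtain ⟨b', hb'⟩ := exists_basis_of_unit hp hp𝒪 F.D F.e F.basis F.basis_eq g g_pow hunit
    intro m
    refine ⟨fun a i => b'.repr m (a, i), ?_⟩
    have h1 := (b'.sum_repr m).symm
    rw [Fintype.sum_prod_type] at h1
    refine h1.trans ?_
    refine Finset.sum_congr rfl fun a _ => Finset.sum_congr rfl fun i _ => ?_
    rw [mul_smul, algebraMap_smul, hb']
  indep := by
    classical
    obtain ⟨b', hb'⟩ := exists_basis_of_unit hp hp𝒪 F.D F.e F.basis F.basis_eq g g_pow hunit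
    intro c hc a i
    have h1 : ∑ x : (∀ j : Fin r, Fin (p ^ E j)) × Fin F.d, c x.1 x.2 • b' x = 0 := by
      rw [Fintype.sum_prod_type, ← hc]
      refine Finset.sum_congr rfl fun a _ => Finset.sum_congr rfl fun i _ => ?_
      rw [mul_smul, algebraMap_smul, hb']
    exact Fintype.linearIndependent_iff.mp b'.linearIndependent (fun x => c x.1 x.2) h1 (a, i)

/-- the patching level at `J_n`, `n ≤ E j`, from GATE-B's exports at one Taylor–Wiles set. -/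
theorem nonempty_patchingLevel_of_unit [IsNoetherianRing 𝒪] [IsAdicComplete (maximalIdeal 𝒪) 𝒪]
    (hp : p.Prime) (hp𝒪 : (p : 𝒪) ∈ maximalIdeal 𝒪)
    (F : FreeLevel 𝒪 𝕋 M0 act0 r (fun j => p ^ E j))
    {RQ : Type} [CommRing RQ] [Algebra 𝒪 RQ]
    (γ : MvPowerSeries (Fin r) 𝒪 →ₐ[𝒪] RQ) (hγ : Function.Surjective γ) (g : Fin r → RQ)
    (g_lift : ∀ j, ∃ y : MvPowerSeries (Fin r) 𝒪, ¬ IsUnit (constantCoeff y) ∧ γ y = g j - 1)
    (β : RQ →ₐ[𝒪] R) (hβ : Function.Surjective β)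
    (ker_β : RingHom.ker β = Ideal.span (Set.range fun j => g j - 1))
    [Module RQ F.M] [IsScalarTower 𝒪 RQ F.M]
    (g_pow : ∀ (j : Fin r) (m : F.M), g j ^ (p ^ E j) • m = m)
    (hunit : ∀ (j : Fin r) (m : F.M), ∃ m', F.D j m - m = g j • m' - m')
    (hπ : ∀ (x : RQ) (m : F.M), F.π (x • m) = β x • F.π m) (n : ℕ) (hn : ∀ j, n ≤ E j) :
    Nonempty (Algebra.PatchingLevel 𝒪 r R M0
      (Ideal.span (Set.range fun j : Fin r =>
        ((1 + MvPowerSeries.X j) ^ (p ^ n) - 1 : MvPowerSeries (Fin r) 𝒪)))) :=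
  (twDepthEOfUnit hp hp𝒪 F γ hγ g g_lift β hβ ker_β g_pow hunit hπ).nonempty_patchingLevel
    hp hp𝒪 n hn

end Fermat.Agent.GE6.Inst.OfUnit
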