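/-
GATE-E / ENGINE-INST (helper49), item (iv) of helper12's list (board 7237) = §4 of helper72's audit
(board 7095): **the (UNIT) binder `hunit` of `OfUnit.twDepthEOfUnit` for NAMED Galois units.**

GATE-B's `ProviderFlat/G4Asm.exists_x_of_residual` produces ANONYMOUS `x i` (places, Frobenius
lifts, tame generators and the diagonalisations are chosen inside) on the TWO modules of CASE B.
The engine of GATE-E needs ONE module and `x j := ψ_Q (g j)`, the image of the labelled unit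
`g j ∈ R_Q` of helper22's `GE2/DeltaQData` (`LabelledAt DQ.ρ … (g j)`), whose push-forward
`LabelledAt ρ_Q … (Units.map ψ_Q (g j))` is `GE2/LabelMap.labelledAt_map_algHom`.

* `hunit_of_labelled` : `L` ONE `FreeLevel`, `a : T →ₐ[O] End L.M` commuting with the diamonds,
  `ρ : GaloisRepAdic T` with cyclotomic determinant and residual representation `ρbar ⊗ k_T`,
  Taylor–Wiles data `(r, P, φ, τ, α, β)` GIVEN, units `x i : Tˣ` LABELLED at these data, of
  `p`-power order, `(1pt)` and `(B5)` in the shapes of `G4Asm.exists_x_of_residual`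
  ⟹ `∀ i m, ∃ m', L.D i m - m = a (x i) m' - m'`.
* `hunit_compHom` : the same statement for the `RQ`-module structure on `L.M` through a ring map
  `f : RQ → T` (`Module.compHom` along `a ∘ f`), units `g i : RQˣ` with `x i = f (g i)` — the binder
  `hunit` of `OfUnit.twDepthEOfUnit` VERBATIM; + `g_pow_compHom` (the binder `g_pow`).
* `twDepthEOfHom` : PLUG — `OfUnit.twDepthEOfUnit` with the module structure `moduleOfHom a f`
  (`f = ψ_Q : R_Q → T_Q`, `a : T_Q → End M_Q`): inputs = the ring side `(γ, g, β)`, `g j ^ p^(E j) = 1`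
  in `R_Q`, (UNIT) over `T` for `x j = f (g j)`, and `F.π (a (f y) m) = β y • F.π m`.
-/
import Fermat.Agent.GB.B9.ProviderFlat.G4Asm
import Fermat.Agent.GE2.LabelMap
import Fermat.Agent.GE6.Inst.OfUnit

set_option autoImplicit false
set_option linter.unusedSectionVars false
set_option linter.unusedVariables false
set_option linter.style.haveILetI false

namespace Fermat.Agent.GE6.Inst.UnitInst

open IsLocalRing Finset Polynomial Fermat.Agent.GB.B3.TWLevel Fermat.Agent.Common_helper32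
  Fermat.Agent.GB.E2.TWDiag Fermat.Agent.GB.E2.TameGenAdic Fermat.Agent.GB.Glue.Points
  Fermat.Agent.GE2.DeltaQData Fermat.Agent.GB.B9.ProviderFlat.G4

section Labelled

variable {O : Type} [CommRing O] [IsDomain O] [IsDiscreteValuationRing O]
  [IsAdicComplete (maximalIdeal O) O] [CharZero O]
  {𝕋 : Type} [CommRing 𝕋] [Algebra O 𝕋]
  {M0 : Type} [AddCommGroup M0] [Module O M0] {act0 : 𝕋 →ₐ[O] Module.End O M0}
  {g : ℕ} {N : Fin g → ℕ} [∀ i, NeZero (N i)]

/-- **(UNIT) for labelled units, one module.** -/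
theorem hunit_of_labelled
    (L : FreeLevel O 𝕋 M0 act0 g N)
    {p : ℕ} [hpF : Fact p.Prime] (hp2 : p ≠ 2) (hpO : (p : O) ∈ maximalIdeal O)
    (hNpow : ∀ i, ∃ n, N i = p ^ n) (hN : ∀ i, p ∣ N i)
    (T : Type) [CommRing T] [IsLocalRing T] [Algebra O T] [IsLocalHom (algebraMap O T)]
    [Module.Finite O T] [IsReduced T] [IsNoetherianRing T] [IsAdicComplete (maximalIdeal T) T]
    (a : T →ₐ[O] Module.End O L.M) (a_D : ∀ t i, a t * L.D i = L.D i * a t)
    (Ω : Type) [Field Ω] [IsAlgClosed Ω] [Algebra O Ω] [Module.IsTorsionFree O Ω]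
    -- the Galois representation over `T`
    (ρ : GaloisRepAdic T) (hdet : ρ.DetIsCyclotomic p)
    (ρbar : ResidualGaloisRep (ResidueField O))
    (hres : ρ.residual.IsEquiv (ρbar.baseChangeAlong (ResidueField.map (algebraMap O T))))
    -- the Taylor–Wiles primes and the local data
    (r : Fin g → ℕ) (hr : ∀ i, (r i).Prime) (hpr : ∀ i, p ∣ r i - 1)
    (hunrbar : ∀ i, ρbar.IsUnramifiedAt (r i))
    (P : Fin g → ValuationSubring Qb) (hP : ∀ i, (P i).LiesOverPrime (r i))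
    (φ : Fin g → GQ) (hφ : ∀ i, (P i).IsFrobeniusAt (φ i) (r i))
    (τ : Fin g → GQ) (hτ : ∀ i, IsTameGenerator (P i) p (τ i))
    (α β : Fin g → ResidueField O) (hαβ : ∀ i, α i ≠ β i)
    (hchar : ∀ i, LinearMap.charpoly (ρbar.ρ (φ i)) = (X - C (α i)) * (X - C (β i)))
    -- the labelled units
    (x : Fin g → Tˣ)
    (hx : ∀ i, LabelledAt ρ (ResidueField.map (algebraMap O T)) (P i) (φ i) (τ i) (α i) (β i)
      (x i))
    (hxpow : ∀ i, ∃ n, (x i : T) ^ p ^ n = 1)
    -- (1pt)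
    (h1 : ∀ (i : Fin g) (P' : ValuationSubring Qb) (hP' : P'.LiesOverPrime (r i)) (s : GQ)
      (hs : s ∈ P'.inertiaSubgroupIn ℚ) (Bas : Module.Basis (Fin 2) T ρ.V)
      (χ : Fin 2 → P'.decompositionSubgroup ℚ →* Tˣ),
      (∀ (j : Fin 2) (σ : P'.decompositionSubgroup ℚ),
        ρ.ρ (σ : GQ) (Bas j) = (χ j σ : T) • Bas j) →
      ∀ θ : T →ₐ[O] Ω, Occ₁ L a i θ →
        θ (χ 0 ⟨s, inertia_le_decomposition P' hs⟩ : T) = 1)
    -- (B5) at the DVR points
    (hB5 : ∀ (i : Fin g) (q : Idx O T)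
      (hloc : IsLocalHom ((ψ q : T →ₐ[O] Rq q) : T →+* Rq q)),
      (∀ t : T, (∀ m, a t m ∈ L.unitSub p hN i) → ψ q t = 0) →
      ¬ (ρ.baseChangeAlong ((ψ q : T →ₐ[O] Rq q) : T →+* Rq q) hloc).IsUnipotentOnInertiaAt
        (r i)) :
    ∀ i (m : L.M), ∃ m' : L.M, L.D i m - m = a (x i : T) m' - m' := by
  classical
  have hp : p.Prime := hpF.out
  have hreg : ∀ c : O, (p : O) * c = 0 → c = 0 := fun c hc =>
    (mul_eq_zero.mp hc).resolve_left (Nat.cast_ne_zero.mpr hp.ne_zero)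
  have hpne : ∀ i, p ≠ r i := by
    intro i h
    have h1 := hpr i
    rw [← h] at h1
    have := Nat.le_of_dvd (by have := hp.two_le; omega) h1
    have := hp.two_le
    omega
  -- the diagonalisations carried by the labellings
  have key : ∀ i, ∃ (hτD : τ i ∈ (P i).decompositionSubgroup ℚ)
      (B : Module.Basis (Fin 2) T ρ.V) (χ : Fin 2 → (P i).decompositionSubgroup ℚ →* Tˣ),
      (∀ (j : Fin 2) (σ : (P i).decompositionSubgroup ℚ),
        ρ.ρ (σ : GQ) (B j) = (χ j σ : T) • B j) ∧ (x i : T) = (χ 0 ⟨τ i, hτD⟩ : T) := by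
    intro i
    obtain ⟨_, hτD, B, χ, hχ, -, -, hu⟩ := hx i
    exact ⟨hτD, B, χ, hχ, congrArg Units.val hu⟩
  choose hτD B χ hχ hxχ using key
  have hlift : ∀ c : ResidueField O, ∃ t : T,
      residue T t = ResidueField.map (algebraMap O T) c := by
    intro c
    obtain ⟨c₀, rfl⟩ := residue_surjective c
    exact ⟨algebraMap O T c₀, (ResidueField.map_residue (algebraMap O T) c₀).symm⟩
  choose lift hlift' using hlift
  have hunr : ∀ i, ∀ s ∈ (P i).inertiaSubgroupIn ℚ, ∀ v,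
      ρ.ρ s v - v ∈ maximalIdeal T • (⊤ : Submodule T ρ.V) := fun i =>
    (Fermat.Agent.GB.B9.ProviderFlat.G4Res.twChars_inputs ρ ρbar
      (ResidueField.map (algebraMap O T)) hres (P i) (hP i) (hunrbar i) (φ i) (α i) (β i)
      (hαβ i) (hchar i) (lift (α i)) (lift (β i)) (hlift' _) (hlift' _)).2.2.2
  refine Fermat.Agent.GB.Alg.UnitOrder.unit_field_of_points_ne L a a_D Ω hp hp2 hpO hreg hNpow hN
    (fun i => (x i : T)) hxpow (fun i θ hθ => ?_) ?_
  · rw [hxχ i]
    have e : (⟨τ i, hτD i⟩ : (P i).decompositionSubgroup ℚ)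
        = ⟨τ i, inertia_le_decomposition (P i) (hτ i).1⟩ := rfl
    rw [e]
    exact h1 i (P i) (hP i) (τ i) (hτ i).1 (B i) (χ i) (hχ i) θ hθ
  · exact Fermat.Agent.GB.B5.Glue.Wne.hWne_occ_of_not_isUnipotent (ρ := ρ) (Ω := Ω) a
      (fun j => L.unitSub p hN j) hp hdet r hr hpne P hP τ hτ hτD hunr B χ hχ 0
      (fun i => (x i : T)) hxχ hB5

end Labelled

section CompHom

variable {O : Type} [CommRing O] {M : Type} [AddCommGroup M] [Module O M]
  {T : Type} [CommRing T] [Algebra O T] {RQ : Type} [CommRing RQ] [Algebra O RQ]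

/-- the `RQ`-module structure on `M` through `a ∘ f` -/
@[reducible] def moduleOfHom (a : T →ₐ[O] Module.End O M) (f : RQ →ₐ[O] T) : Module RQ M :=
  Module.compHom M ((a : T →+* Module.End O M).comp (f : RQ →+* T))

theorem smul_def_of_hom (a : T →ₐ[O] Module.End O M) (f : RQ →ₐ[O] T) (x : RQ) (m : M) :
    letI := moduleOfHom a f
    x • m = a (f x) m := rfl

/-- `O`, `RQ` and `M` form a scalar tower -/
theorem isScalarTower_of_hom (a : T →ₐ[O] Module.End O M) (f : RQ →ₐ[O] T) :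
    letI := moduleOfHom a f
    IsScalarTower O RQ M := by
  letI := moduleOfHom a f
  refine ⟨fun c x m => ?_⟩
  show a (f (c • x)) m = c • a (f x) m
  rw [map_smul, map_smul, LinearMap.smul_apply]

/-- **the binder `hunit` of `OfUnit.twDepthEOfUnit`** from the statement over `T`. -/
theorem hunit_compHom (a : T →ₐ[O] Module.End O M) (f : RQ →ₐ[O] T) {k : ℕ}
    (D : Fin k → Module.End O M) (g : Fin k → RQ) (x : Fin k → T) (hxg : ∀ j, x j = f (g j))
    (h : ∀ j (m : M), ∃ m' : M, D j m - m = a (x j) m' - m') :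
    letI := moduleOfHom a f
    ∀ j (m : M), ∃ m' : M, D j m - m = g j • m' - m' := by
  letI := moduleOfHom a f
  intro j m
  obtain ⟨m', hm'⟩ := h j m
  exact ⟨m', by rw [hm', hxg j]; rfl⟩

/-- **the binder `g_pow` of `OfUnit.twDepthEOfUnit`**: `g j ^ n = 1` in `RQ`. -/
theorem g_pow_compHom (a : T →ₐ[O] Module.End O M) (f : RQ →ₐ[O] T) {k : ℕ}
    (g : Fin k → RQ) (n : Fin k → ℕ) (hg : ∀ j, g j ^ n j = 1) :
    letI := moduleOfHom a f
    ∀ j (m : M), g j ^ n j • m = m := by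
  letI := moduleOfHom a f
  intro j m
  show a (f (g j ^ n j)) m = m
  rw [hg j, map_one, map_one, Module.End.one_apply]

end CompHom

section Plug

open MvPowerSeries Fermat.Agent.GE6.Inst.LevelE Fermat.Agent.GE6.Inst.OfUnit

variable {𝒪 : Type} [CommRing 𝒪] [IsLocalRing 𝒪] {p r : ℕ} {E : Fin r → ℕ}
  {𝕋 : Type} [CommRing 𝕋] [Algebra 𝒪 𝕋]
  {R : Type} [CommRing R] [Algebra 𝒪 R]
  {M0 : Type} [AddCommGroup M0] [Module 𝒪 M0] [Module R M0]
  {act0 : 𝕋 →ₐ[𝒪] Module.End 𝒪 M0}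

/-- **PLUG**: `OfUnit.twDepthEOfUnit` for the `R_Q`-module structure on `F.M` through
`a ∘ f : R_Q → T → End F.M`. -/
noncomputable def twDepthEOfHom (hp : p.Prime) (hp𝒪 : (p : 𝒪) ∈ maximalIdeal 𝒪)
    (F : FreeLevel 𝒪 𝕋 M0 act0 r (fun j => p ^ E j))
    {RQ : Type} [CommRing RQ] [Algebra 𝒪 RQ]
    (γ : MvPowerSeries (Fin r) 𝒪 →ₐ[𝒪] RQ) (hγ : Function.Surjective γ) (g : Fin r → RQ)
    (g_lift : ∀ j, ∃ y : MvPowerSeries (Fin r) 𝒪, ¬ IsUnit (constantCoeff y) ∧ γ y = g j - 1)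
    (β : RQ →ₐ[𝒪] R) (hβ : Function.Surjective β)
    (ker_β : RingHom.ker β = Ideal.span (Set.range fun j => g j - 1))
    {T : Type} [CommRing T] [Algebra 𝒪 T] (a : T →ₐ[𝒪] Module.End 𝒪 F.M) (f : RQ →ₐ[𝒪] T)
    (hg : ∀ j, g j ^ (p ^ E j) = 1)
    (x : Fin r → T) (hxg : ∀ j, x j = f (g j))
    (h : ∀ j (m : F.M), ∃ m' : F.M, F.D j m - m = a (x j) m' - m')
    (hπ : ∀ (y : RQ) (m : F.M), F.π (a (f y) m) = β y • F.π m) :
    TWDepthE 𝒪 p r R M0 E :=
  letI := moduleOfHom a f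
  haveI := isScalarTower_of_hom a f
  twDepthEOfUnit hp hp𝒪 F γ hγ g g_lift β hβ ker_β
    (g_pow_compHom a f g (fun j => p ^ E j) hg)
    (hunit_compHom a f F.D g x hxg h) hπ

end Plug

end Fermat.Agent.GE6.Inst.UnitInst
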