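import Fermat.Agent.GE6.Inst.ModSide
import Fermat.Agent.GE6.Inst.FreeLevelTw
import Fermat.Agent.GE6.Inst.UnitInst
import Fermat.Agent.GE6.Inst.Ring
import Fermat.Agent.GE6.Inst.Trunc

/-!
# GATE-E / E6 node N8 WIRE (helper72): the module side of E6 at GATE-B's named objects

`GE6/Inst/ModSide.ModSideStmt p S 𝒟 D₀ φ₀ L` (helper12) asks, for EVERY Taylor–Wiles set with its
labels `(P, φ, α, β, τ)` and labelled ring side `(π, g)`, for full exponents `E j = v_p(qv j − 1)`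
and a `ModSideData` (a GATE-B `FreeLevel` over `L`, an `R_Q`-module structure on it, (UNIT) and the
`π`-semilinearity of `F.π`).  This file reduces it to ONE statement `NodeStmt` about GATE-B's NAMED
objects at the Taylor–Wiles set `Q : G1.TWSet P r n` whose eigenvalues are THE LABELS
(`Q.al = α`, `Q.be = β`), on the module `(FreeLevelTw.twE Q hp3 E hE c hc hc1).L1.M` (on which
`ProviderFlat/G2.a₁` acts by `rfl`):

* `twSetOf P qv hinj hqv Pl φ α β hP hφ hαβ : TWSet P r n` with `qv`, `al := α`, `be := β`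
  (`twSetOf_qv`, `twSetOf_al`, `twSetOf_be` : `rfl`);
* `exists_fullExp` : the full exponents `E j`, `qv j = p ^ E j * m + 1`, `p ∤ m`;
* `NodeStmt P hp3 𝒟 D₀ φ₀ L eL` : for every `Q`, full exponents `E`, every `c hc hc1`, every base
  identification `(ρs, e₀, he)` of `FreeLevelInst.exists_baseE`, every deformation ring `DQ` of
  `𝒟 (image Q.qv)`, labels at `(Q.al, Q.be)` and labelled ring side `(π, g)`:
  `∃ T_Q, a : T_Q →ₐ End (twE …).L1.M, ψ : DQ.R →ₐ T_Q`, with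
  (UNIT) `L1.D j m − m = a (ψ (g j)) m' − m'` and
  (SEMILIN) `eL (e₀ (L1.π (a (ψ y) m))) = φ₀ (π y) • eL (e₀ (L1.π m))`
  — N4 (MODQ: `T_Q, a, ψ`) + N5 (UNIT) + N6 (SEMILIN) + N7 (`L`, `eL`) of helper12's table 7604;
* `actL`, `FL` : the level over `L` (`FreeLevelTw.FQ1` moved along `eL` by `MapBase.mapBase`);
* **`modSideStmt_of_nodeStmt`** : `NodeStmt ⟹ ModSideStmt p P.S0 𝒟 D₀ φ₀ L` (any `𝒟`);
* **`twLevelsEStmt_FL_of_nodeStmt`**, **`twLevelsEStmt_SO_of_nodeStmt`** : with helper72's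
  `Ring.ringSide_FL/SO` and helper12's `ModSide.twLevelsEStmt_FL/SO`: `TWLevelsEStmt p D₀ φ₀ L`;
* **`e6_FL`**, **`e6_SO`** : with helper12's `Trunc`: `GE6.Stmt.TWLevelsStmt p D₀ φ₀ L`, the field
  `htw` of `GE/Engine/Base.BaseInput`.
-/

set_option autoImplicit false
set_option linter.unusedSectionVars false
set_option linter.unusedVariables false
set_option linter.style.haveILetI false

open scoped MatrixGroups
open CongruenceSubgroup

namespace Fermat.Agent.GE6.Inst.Wire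

open IsLocalRing Function Polynomial GaloisRep
open Fermat.Agent.GB.B3 Fermat.Agent.GB.B3.TWLevel Fermat.Agent.GB.B3.RealLevel
  Fermat.Agent.GB.B3.HeckeActH Fermat.Agent.GB.B3.TWChars Fermat.Agent.GB.B3.FinalTW
  Fermat.Agent.GB.B3.Final Fermat.Agent.GB.B3.Tower
  Fermat.Agent.GB.B8.LevelIter Fermat.Agent.GB.B8.LevelGen
  Fermat.Agent.GE6.Inst.BaseIndep Fermat.Agent.GE6.Inst.MapBase
  Fermat.Agent.GE6.Inst.FreeLevelInst Fermat.Agent.GE6.Inst.FreeLevelTw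
  Fermat.Agent.GE6.Inst.ModSide Fermat.Agent.GE6.Inst.AssemblyE Fermat.Agent.GE6.Inst.UnitInst
  Fermat.Agent.GE.Graph Fermat.Agent.GE2.DeltaQData Fermat.Agent.GB.E2.TameGenAdic
open WeierstrassCurve WeierstrassCurve.Affine.Point
open Fermat.Agent.GB.Setup.SetupPkg Fermat.Agent.GB.B9.ProviderFlat.G1
  Fermat.Agent.GB.B9.ProviderFlat.H1

/-- `ℚ̄`. -/
local notation "Qb" => AlgebraicClosure ℚ
/-- `G_ℚ`. -/
local notation "GQ" => (AlgebraicClosure ℚ ≃ₐ[ℚ] AlgebraicClosure ℚ)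

variable {p : ℕ} [hpF : Fact p.Prime] {W : WeierstrassCurve ℤ}
  {hcard₁ : Nat.card (Submodule.torsionBy ℤ
    ((W.map (Int.castRingHom ℚ)).toAffine.baseChange (AlgebraicClosure ℚ)).Point p) = p ^ 2}
  {hker : GaloisFactorsThroughFiniteLevel
    (WeierstrassCurve.Affine.Point.galoisRepModuleEnd (K := AlgebraicClosure ℚ) ℚ
      (W.map (Int.castRingHom ℚ)) p)}
  {M A : ℕ} (P : Pkg p W hcard₁ hker M A)

/-! ### the Taylor–Wiles set of a labelled family -/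

section TWSetOf

variable {r n : ℕ} (qv : Fin r → ℕ) (hinj : Injective qv)
  (hqv : ∀ i, (qv i).Prime ∧ qv i ∉ P.S0 ∧ p ^ (n + 1) ∣ qv i - 1)
  (Pl : Fin r → ValuationSubring Qb) (φ : Fin r → GQ) (α β : Fin r → P.k)
  (hP : ∀ j, (Pl j).LiesOverPrime (qv j)) (hφ : ∀ j, (Pl j).IsFrobeniusAt (φ j) (qv j))
  (hαβ : ∀ j, α j ≠ β j ∧
    LinearMap.charpoly (P.rhobar.ρ (φ j)) = (X - C (α j)) * (X - C (β j)))

include hqv in
theorem notMem_S0 (i : Fin r) : qv i ∉ (↑P.S0 : Set ℕ) := fun h =>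
  (hqv i).2.1 (Finset.mem_coe.mp h)

/-- **the Taylor–Wiles set whose eigenvalues are the labels** `(α j, β j)`. -/
def twSetOf : TWSet P r n where
  qv := qv
  inj := hinj
  prime := fun i => (hqv i).1
  notMem := notMem_S0 P qv hqv
  cong := fun i => (hqv i).2.2
  al := α
  be := β
  ne := fun i => (hαβ i).1
  sum := fun i =>
    (P.tw_roots (hqv i).1 (P.good_of_notMem_S0 (hqv i).1 (notMem_S0 P qv hqv i)).1
      (P.good_of_notMem_S0 (hqv i).1 (notMem_S0 P qv hqv i)).2.1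
      (P.good_of_notMem_S0 (hqv i).1 (notMem_S0 P qv hqv i)).2.2
      (Pl i) (hP i) (φ i) (hφ i) (α i) (β i) (hαβ i).2).1
  prod := fun i =>
    (P.tw_roots (hqv i).1 (P.good_of_notMem_S0 (hqv i).1 (notMem_S0 P qv hqv i)).1
      (P.good_of_notMem_S0 (hqv i).1 (notMem_S0 P qv hqv i)).2.1
      (P.good_of_notMem_S0 (hqv i).1 (notMem_S0 P qv hqv i)).2.2
      (Pl i) (hP i) (φ i) (hφ i) (α i) (β i) (hαβ i).2).2

@[simp] theorem twSetOf_qv : (twSetOf P qv hinj hqv Pl φ α β hP hφ hαβ).qv = qv := rfl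

@[simp] theorem twSetOf_al : (twSetOf P qv hinj hqv Pl φ α β hP hφ hαβ).al = α := rfl

@[simp] theorem twSetOf_be : (twSetOf P qv hinj hqv Pl φ α β hP hφ hαβ).be = β := rfl

end TWSetOf

/-! ### the full exponents -/

/-- **the full exponents** `E j = v_p(qv j − 1)`. -/
theorem exists_fullExp {r : ℕ} (qv : Fin r → ℕ) (hqv : ∀ i, (qv i).Prime) :
    ∃ E : Fin r → ℕ, ∀ j, ∃ m : ℕ, qv j = p ^ E j * m + 1 ∧ ¬ p ∣ m := by
  have hp : p.Prime := hpF.out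
  have hex : ∀ j, ∃ e m : ℕ, ¬ p ∣ m ∧ qv j - 1 = p ^ e * m := fun j =>
    Nat.exists_eq_pow_mul_and_not_dvd (n := qv j - 1)
      (by have := (hqv j).two_le; omega) p hp.ne_one
  choose E m hm1 hm2 using hex
  refine ⟨E, fun j => ⟨m j, ?_, hm1 j⟩⟩
  have h1 := (hqv j).two_le
  have h2 := hm2 j
  omega

theorem dvd_of_fullExp {q e m : ℕ} (h : q = p ^ e * m + 1) : p ^ e ∣ q - 1 := by
  subst h
  rw [Nat.add_sub_cancel]
  exact Dvd.intro _ rfl

/-! ### the node statement at GATE-B's named objects -/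

section Node

variable {T : Type} [CommRing T] [Algebra P.O T]

/-- **E6-MOD at GATE-B's named objects** = N4 (MODQ) + N5 (UNIT) + N6 (SEMILIN) + N7 (BASE-T) of
helper12's node table (board 7604), at the Taylor–Wiles set `Q` whose eigenvalues are the labels, on
the module `(twE Q hp3 E hE c hc hc1).L1.M`. -/
def NodeStmt (hp3 : p ≠ 3) (𝒟 : Finset ℕ → DefCondE P.O)
    (D0 : DeformationRingData P.O P.rhobar (𝒟 ∅)) (φ0 : D0.R →ₐ[P.O] T)
    (L : Type) [AddCommGroup L] [Module P.O L] [Module T L] (eL : Mbase P ≃ₗ[P.O] L) : Prop :=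
  ∀ (r n : ℕ) (Q : TWSet P r n) (E : Fin r → ℕ) (hE : ∀ j, p ^ E j ∣ Q.qv j - 1),
    (∀ j, ∃ m : ℕ, Q.qv j = p ^ E j * m + 1 ∧ ¬ p ∣ m) →
    ∀ (c : Fin 0 → P.O) (hc : ∀ v : Fin 0, c v ^ p ^ eRev E (0 + r - 1 - v) = 1)
      (hc1 : ∀ v, (1 : P.O) - c v ∈ Ideal.span {P.ϖ})
      (ρs : Q.Sy.𝕋 P.O →ₐ[P.O] Q.Sy.𝕋 P.O)
      (e0 : M0 Q.Sy Q.𝔪 (Δs p (eRev E)) (primeDataE Q E hE).psi ≃ₗ[P.O] Mbase P)
      (he : ∀ t y, e0 (act0 Q.Sy Q.𝔪 (Δs p (eRev E)) (primeDataE Q E hE).psi t y)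
        = actQ Q ρs t (e0 y)),
      (∀ s, s ∉ Q.Qset → ρs (MvPolynomial.X s) = MvPolynomial.X s) →
      Q.lamBase.comp ρs = Q.lamTop →
    ∀ (DQ : DeformationRingData P.O P.rhobar (𝒟 (Finset.univ.image Q.qv)))
      (Pl : Fin r → ValuationSubring Qb) (φ : Fin r → GQ) (τ : Fin r → GQ),
      (∀ j, (Pl j).LiesOverPrime (Q.qv j)) → (∀ j, (Pl j).IsFrobeniusAt (φ j) (Q.qv j)) →
      (∀ j, LinearMap.charpoly (P.rhobar.ρ (φ j)) = (X - C (Q.al j)) * (X - C (Q.be j))) →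
      (∀ j, IsTameGenerator (Pl j) p (τ j)) →
      ∀ (π : DQ.R →ₐ[P.O] D0.R) (hπ : IsLocalHom (π : DQ.R →+* D0.R)) (g : Fin r → (DQ.R)ˣ),
        Surjective π →
        RingHom.ker (π : DQ.R →+* D0.R) = Ideal.span (Set.range fun j => (g j : DQ.R) - 1) →
        (DQ.ρ.baseChangeAlong (π : DQ.R →+* D0.R) hπ).IsEquiv D0.ρ →
        (∀ j, LabelledAt DQ.ρ (ResidueField.map (algebraMap P.O DQ.R)) (Pl j) (φ j) (τ j)
          (Q.al j) (Q.be j) (g j)) →
        ∃ (TQ : Type) (_ : CommRing TQ) (_ : Algebra P.O TQ)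
          (a : TQ →ₐ[P.O] Module.End P.O (twE Q hp3 E hE c hc hc1).L1.M)
          (ψ : DQ.R →ₐ[P.O] TQ),
          (∀ (j : Fin r) (m : (twE Q hp3 E hE c hc hc1).L1.M),
            ∃ m' : (twE Q hp3 E hE c hc hc1).L1.M,
              (twE Q hp3 E hE c hc hc1).L1.D j m - m = a (ψ (g j : DQ.R)) m' - m') ∧
          (∀ (y : DQ.R) (m : (twE Q hp3 E hE c hc hc1).L1.M),
            eL (e0 ((twE Q hp3 E hE c hc hc1).L1.π (a (ψ y) m)))
              = φ0 (π y) • eL (e0 ((twE Q hp3 E hE c hc hc1).L1.π m)))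

end Node

/-! ### the level over `L` -/

section LevelL

variable {P} {g n : ℕ} (Q : TWSet P g n)
  (hp3 : p ≠ 3) (E : Fin g → ℕ) (hE : ∀ j, p ^ E j ∣ Q.qv j - 1)
  (c : Fin 0 → P.O) (hc : ∀ v : Fin 0, c v ^ p ^ eRev E (0 + g - 1 - v) = 1)
  (hc1 : ∀ v, (1 : P.O) - c v ∈ Ideal.span {P.ϖ})
  (ρs : Q.Sy.𝕋 P.O →ₐ[P.O] Q.Sy.𝕋 P.O)
  (e0 : M0 Q.Sy Q.𝔪 (Δs p (eRev E)) (primeDataE Q E hE).psi ≃ₗ[P.O] Mbase P)
  (he : ∀ t y, e0 (act0 Q.Sy Q.𝔪 (Δs p (eRev E)) (primeDataE Q E hE).psi t y)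
    = actQ Q ρs t (e0 y))
  {L : Type} [AddCommGroup L] [Module P.O L] (eL : Mbase P ≃ₗ[P.O] L)

/-- the action of the symbols of `Q` on `L` -/
noncomputable def actL : Q.Sy.𝕋 P.O →ₐ[P.O] Module.End P.O L :=
  (eL.conjAlgEquiv P.O).toAlgHom.comp (actQ Q ρs)

theorem actL_apply (t : Q.Sy.𝕋 P.O) (y : L) :
    actL Q ρs eL t y = eL (actQ Q ρs t (eL.symm y)) := rfl

theorem eL_actQ (t : Q.Sy.𝕋 P.O) (y : Mbase P) :
    eL (actQ Q ρs t y) = actL Q ρs eL t (eL y) := by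
  rw [actL_apply, LinearEquiv.symm_apply_apply]

/-- **THE Taylor–Wiles module over `L`**: `FreeLevelTw.FQ1` moved along `eL`. -/
noncomputable def FL :
    FreeLevel P.O (Q.Sy.𝕋 P.O) L (actL Q ρs eL) g (fun j => p ^ E j) :=
  mapBase (FQ1 Q hp3 E hE c hc hc1 ρs e0 he) (actL Q ρs eL) eL (eL_actQ Q ρs eL)

@[simp] theorem FL_M :
    (FL Q hp3 E hE c hc hc1 ρs e0 he eL).M = (twE Q hp3 E hE c hc hc1).L1.M := rfl

@[simp] theorem FL_D (j : Fin g) :
    (FL Q hp3 E hE c hc hc1 ρs e0 he eL).D j = (twE Q hp3 E hE c hc hc1).L1.D j := rfl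

@[simp] theorem FL_act (t : Q.Sy.𝕋 P.O) :
    (FL Q hp3 E hE c hc hc1 ρs e0 he eL).act t = (twE Q hp3 E hE c hc hc1).L1.act t := rfl

theorem FL_π_apply (x : (twE Q hp3 E hE c hc hc1).L1.M) :
    (FL Q hp3 E hE c hc hc1 ρs e0 he eL).π x = eL (e0 ((twE Q hp3 E hE c hc hc1).L1.π x)) := rfl

end LevelL

/-! ### the wiring -/

section Main

variable {T : Type} [CommRing T] [Algebra P.O T]

/-- **N8 WIRE**: the node statement at GATE-B's named objects gives helper12's `ModSideStmt`, for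
ANY family of deformation problems `𝒟` (`condFL`, `condSO`). -/
theorem modSideStmt_of_nodeStmt (hp3 : p ≠ 3) (𝒟 : Finset ℕ → DefCondE P.O)
    (D0 : DeformationRingData P.O P.rhobar (𝒟 ∅)) (φ0 : D0.R →ₐ[P.O] T)
    (L : Type) [AddCommGroup L] [Module P.O L] [Module T L] (eL : Mbase P ≃ₗ[P.O] L)
    (hnode : NodeStmt P hp3 𝒟 D0 φ0 L eL) :
    ModSideStmt p P.S0 𝒟 D0 φ0 L := by
  intro r n qv hinj hqv DQ Pl φ α β τ hP hφ hαβ hτ π hπ g hπs hker hπρ hlab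
  -- the full exponents
  obtain ⟨E, hEfull⟩ := exists_fullExp (p := p) qv fun i => (hqv i).1
  have hE : ∀ j, p ^ E j ∣ (twSetOf P qv hinj hqv Pl φ α β hP hφ hαβ).qv j - 1 := fun j => by
    obtain ⟨m, hm, -⟩ := hEfull j
    exact dvd_of_fullExp hm
  -- the base identification
  obtain ⟨ρs, e0, he, hρs, hlam⟩ :=
    exists_baseE (twSetOf P qv hinj hqv Pl φ α β hP hφ hαβ) E hE
  -- the node
  obtain ⟨TQ, _, _, a, ψ, hunit, hsemi⟩ :=
    hnode r n (twSetOf P qv hinj hqv Pl φ α β hP hφ hαβ) E hE hEfull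
      (fun v => v.elim0) (fun v => v.elim0) (fun v => v.elim0) ρs e0 he hρs hlam DQ Pl φ τ hP hφ
      (fun j => (hαβ j).2) hτ π hπ g hπs hker hπρ hlab
  refine ⟨E, hEfull, ⟨?_⟩⟩
  letI : Module D0.R L := Module.compHom L (φ0 : D0.R →+* T)
  letI inst1 : Module DQ.R
      (FL (twSetOf P qv hinj hqv Pl φ α β hP hφ hαβ) hp3 E hE (fun v => v.elim0)
        (fun v => v.elim0) (fun v => v.elim0) ρs e0 he eL).M := moduleOfHom a ψ
  haveI inst2 : IsScalarTower P.O DQ.R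
      (FL (twSetOf P qv hinj hqv Pl φ α β hP hφ hαβ) hp3 E hE (fun v => v.elim0)
        (fun v => v.elim0) (fun v => v.elim0) ρs e0 he eL).M := isScalarTower_of_hom a ψ
  exact
    { 𝕋 := (twSetOf P qv hinj hqv Pl φ α β hP hφ hαβ).Sy.𝕋 P.O
      act0 := actL (twSetOf P qv hinj hqv Pl φ α β hP hφ hαβ) ρs eL
      F := FL (twSetOf P qv hinj hqv Pl φ α β hP hφ hαβ) hp3 E hE (fun v => v.elim0)
        (fun v => v.elim0) (fun v => v.elim0) ρs e0 he eL
      instModule := inst1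
      instTower := inst2
      unit := fun j m => hunit j m
      semilin := fun y m => hsemi y m }

/-! ### `Smin ⊆ S0`, and the two engine problems -/

theorem smin_subset_S0 : P.Smin ⊆ P.S0 := by
  intro q hq
  rcases P.dvd_of_mem_Smin hq with rfl | h
  · exact Finset.mem_coe.mp P.hpS0
  · exact Finset.mem_coe.mp (P.hMS0 q (P.prime_of_mem_Smin hq) h)

theorem prime_of_mem_S0 : ∀ q ∈ P.S0, q.Prime := by
  intro q hq
  simp only [Pkg.S0, Finset.mem_union, Finset.mem_singleton] at hq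
  rcases hq with (h | rfl) | h
  · exact Nat.prime_of_mem_primeFactors h
  · exact hpF.out
  · exact Nat.prime_of_mem_primeFactors h

/-- **E6 for the flat problem, at GATE-B's named objects**: `TWLevelsEStmt` from the node
statement (the ring side is `Ring.ringSide_FL`, i.e. the landed S56 + `GE6/DefRing`). -/
theorem twLevelsEStmt_FL_of_nodeStmt (hp3 : p ≠ 3)
    (D0 : DeformationRingData P.O P.rhobar (condFL P.O p P.Smin ∅)) (φ0 : D0.R →ₐ[P.O] T)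
    (L : Type) [AddCommGroup L] [Module P.O L] [Module T L] (eL : Mbase P ≃ₗ[P.O] L)
    (hbar : condFL P.O p P.Smin ∅ (GaloisRepAdic.ofResidualGaloisRep P.rhobar))
    (hnode : NodeStmt P hp3 (condFL P.O p P.Smin) D0 φ0 L eL) :
    TWLevelsEStmt p D0 φ0 L :=
  twLevelsEStmt_FL P.hpO P.S0 P.Smin P.p_mem_Smin (smin_subset_S0 P) P.hmin D0 φ0 L
    (Fermat.Agent.GE6.Inst.Ring.ringSide_FL p P.rhobar P.hp2 P.hpO P.habs P.hdet P.hsplit P.hTW
      P.S0 P.Smin P.p_mem_Smin (smin_subset_S0 P) (prime_of_mem_S0 P) P.hmin hbar)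
    (modSideStmt_of_nodeStmt P hp3 (condFL P.O p P.Smin) D0 φ0 L eL hnode)

/-- **E6 for the strict-ordinary problem, at GATE-B's named objects** (the FULL module at a level
`M` with `p ∥ M`, `p`-new case (a)). -/
theorem twLevelsEStmt_SO_of_nodeStmt (hp3 : p ≠ 3)
    (D0 : DeformationRingData P.O P.rhobar (condSO P.O p P.Smin ∅)) (φ0 : D0.R →ₐ[P.O] T)
    (L : Type) [AddCommGroup L] [Module P.O L] [Module T L] (eL : Mbase P ≃ₗ[P.O] L)
    (hbar : condSO P.O p P.Smin ∅ (GaloisRepAdic.ofResidualGaloisRep P.rhobar))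
    (hnode : NodeStmt P hp3 (condSO P.O p P.Smin) D0 φ0 L eL) :
    TWLevelsEStmt p D0 φ0 L :=
  twLevelsEStmt_SO P.hp2 P.hpO P.S0 P.Smin P.p_mem_Smin (smin_subset_S0 P) P.hmin D0 φ0 L
    (Fermat.Agent.GE6.Inst.Ring.ringSide_SO p P.rhobar P.hp2 P.hpO P.habs P.hdet P.hsplit P.hTW
      P.S0 P.Smin P.p_mem_Smin (smin_subset_S0 P) (prime_of_mem_S0 P) P.hmin hbar)
    (modSideStmt_of_nodeStmt P hp3 (condSO P.O p P.Smin) D0 φ0 L eL hnode)

/-- **E6, flat problem** in the shape of the field `htw` of `GE/Engine/Base.BaseInput`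
(helper12's `Trunc.twLevelsStmt_of_twLevelsEStmt`). -/
theorem e6_FL (hp3 : p ≠ 3)
    (D0 : DeformationRingData P.O P.rhobar (condFL P.O p P.Smin ∅)) (φ0 : D0.R →ₐ[P.O] T)
    (L : Type) [AddCommGroup L] [Module P.O L] [Module T L] (eL : Mbase P ≃ₗ[P.O] L)
    (hbar : condFL P.O p P.Smin ∅ (GaloisRepAdic.ofResidualGaloisRep P.rhobar))
    (hnode : NodeStmt P hp3 (condFL P.O p P.Smin) D0 φ0 L eL) :
    Fermat.Agent.GE6.Stmt.TWLevelsStmt p D0 φ0 L :=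
  Fermat.Agent.GE6.Inst.Trunc.twLevelsStmt_of_twLevelsEStmt hpF.out.pos D0 φ0
    (twLevelsEStmt_FL_of_nodeStmt P hp3 D0 φ0 L eL hbar hnode)

/-- **E6, strict-ordinary problem (full module)** in the shape of `BaseInput.htw`. -/
theorem e6_SO (hp3 : p ≠ 3)
    (D0 : DeformationRingData P.O P.rhobar (condSO P.O p P.Smin ∅)) (φ0 : D0.R →ₐ[P.O] T)
    (L : Type) [AddCommGroup L] [Module P.O L] [Module T L] (eL : Mbase P ≃ₗ[P.O] L)
    (hbar : condSO P.O p P.Smin ∅ (GaloisRepAdic.ofResidualGaloisRep P.rhobar))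
    (hnode : NodeStmt P hp3 (condSO P.O p P.Smin) D0 φ0 L eL) :
    Fermat.Agent.GE6.Stmt.TWLevelsStmt p D0 φ0 L :=
  Fermat.Agent.GE6.Inst.Trunc.twLevelsStmt_of_twLevelsEStmt hpF.out.pos D0 φ0
    (twLevelsEStmt_SO_of_nodeStmt P hp3 D0 φ0 L eL hbar hnode)

end Main

end Fermat.Agent.GE6.Inst.Wire
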