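/-
GATE-E (S59) / E6 sub-gate, node N7 "BASE-T", the FAITHFULNESS leaf (helper67; helper12 7604).

`KappaAbs.exists_kappa` needs the base Hecke ring `T_∅` (`= Tloc P.O P.theta`, a LOCALISATION of
`𝒪 ⊗ A`) to act FAITHFULLY on the base module `L` (`= locSub actLam 𝔪`, the `𝔪`-primary part of
`𝒪 ⊗ Lam M`).  This file proves it abstractly, for ANY way of putting the module structure on `L`:

* `exists_proj` : `𝒪` complete noetherian local, `X` finite over `𝒪`, `act : 𝕋 →ₐ[𝒪] End_𝒪 X`,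
  `𝔪` maximal: some `s₀ ∉ 𝔪` maps `X` into the `𝔪`-primary part (`GB/B3/Loc.parts_eq`);
* `exists_mul_act_eq_zero` : `t` kills the primary part ⟹ `act (s * t) = 0` for some `s ∉ 𝔪`;
* `injective_of_loc` : **the abstract statement** — `c : 𝕋 →+* Tl` inverts `𝔪ᶜ`, every element of
  `Tl` is a fraction `c t / c s`, `act t = 0 → c t = 0`; `Tl` acts (`a : Tl →+* AddMonoid.End Lm`) on
  a model `j : Lm → X` (onto the primary part; injectivity is not needed) compatibly with `act` ⟹ `a` is injective;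
* `faithful_of_loc` (module form), `lsmul_injective_of_loc` (the `Injective a0` of `KappaAbs`);
* `injective_of_isLocalization` : `Tl` an honest localisation `B_𝔫` of a quotient/image `f : 𝕋 ↠ B`
  with `𝔪 = 𝔫.comap f` and `B` acting faithfully (`act t = 0 → f t = 0`);
* `tloc_faithful` : the Hecke instance — `B = 𝒪 ⊗[ℤ] A` acting on `𝒪 ⊗[ℤ] Λ` through a FAITHFUL
  `lat : A →ₐ[ℤ] End_ℤ Λ` (`GJ/J2/LatAct.latAct_injective`), `𝒪` flat over `ℤ`
  (`GJ/Tate/Faithful.tensorEndAlg_injective`), `Tl = Carrier.Tloc 𝒪 θ`.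
NEW file; Mathlib + `GB/B3/{Loc,LocBridge,Realizes}` + `GB/B4/Datum/Carrier` + `GJ/Tate/Faithful`.
-/
import Mathlib
import Fermat.Agent.GB.B3.Loc
import Fermat.Agent.GB.B3.LocBridge
import Fermat.Agent.GB.B3.Realizes
import Fermat.Agent.GB.B4.Datum.Carrier
import Fermat.Agent.GJ.Tate.Faithful

set_option autoImplicit false
set_option linter.unusedSectionVars false
set_option linter.style.haveILetI false

namespace Fermat.Agent.GE6.Inst.FaithLoc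

open Function IsLocalRing TensorProduct
open Fermat.Agent.GB.B3.Loc Fermat.Agent.GB.B3.RealLevel
open Fermat.Agent.GB.B3.LocBridge (moduleOfAct isScalarTower_moduleOfAct isLoc_iff_mem_locPart
  isLoc_comp_iff)

section Abs

variable {𝒪 : Type} [CommRing 𝒪] [IsLocalRing 𝒪] [IsNoetherianRing 𝒪]
  [IsAdicComplete (maximalIdeal 𝒪) 𝒪]
  {𝕋 : Type} [CommRing 𝕋] [Algebra 𝒪 𝕋]
  {X : Type*} [AddCommGroup X] [Module 𝒪 X] [Module.Finite 𝒪 X]
  (act : 𝕋 →ₐ[𝒪] Module.End 𝒪 X) (𝔪 : Ideal 𝕋) [𝔪.IsMaximal]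

/-- some `s₀ ∉ 𝔪` maps the whole module into its `𝔪`-primary part. -/
theorem exists_proj : ∃ s₀ : 𝕋, s₀ ∉ 𝔪 ∧ ∀ x : X, IsLoc act 𝔪 (act s₀ x) := by
  letI := moduleOfAct act
  haveI := isScalarTower_moduleOfAct act
  obtain ⟨s₀, hs₀, -, hloc, -⟩ := parts_eq 𝒪 (L := X) 𝔪
  refine ⟨s₀, hs₀, fun x => ?_⟩
  rw [isLoc_iff_mem_locPart act (fun _ _ => rfl) 𝔪, hloc]
  exact ⟨x, rfl⟩

/-- an operator killing the `𝔪`-primary part is killed, on the whole module, by some `s ∉ 𝔪`. -/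
theorem exists_mul_act_eq_zero (t : 𝕋) (ht : ∀ x : X, IsLoc act 𝔪 x → act t x = 0) :
    ∃ s : 𝕋, s ∉ 𝔪 ∧ act (s * t) = 0 := by
  obtain ⟨s₀, hs₀, hloc⟩ := exists_proj act 𝔪
  refine ⟨s₀, hs₀, LinearMap.ext fun x => ?_⟩
  rw [mul_comm, map_mul, Module.End.mul_apply, LinearMap.zero_apply]
  exact ht _ (hloc x)

variable {Tl : Type*} [CommRing Tl] (c : 𝕋 →+* Tl)
  {Lm : Type*} [AddCommGroup Lm] (j : Lm →+ X)

/-- **faithfulness of a localised Hecke ring on the primary part, abstract form.** -/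
theorem injective_of_loc
    (hunit : ∀ s : 𝕋, s ∉ 𝔪 → IsUnit (c s))
    (hfrac : ∀ y : Tl, ∃ t s : 𝕋, s ∉ 𝔪 ∧ y * c s = c t)
    (hker : ∀ t : 𝕋, act t = 0 → c t = 0)
    (hrange : ∀ x : X, IsLoc act 𝔪 x → ∃ y, j y = x)
    (a : Tl →+* AddMonoid.End Lm) (ha : ∀ (t : 𝕋) (y : Lm), j (a (c t) y) = act t (j y)) :
    Injective a := by
  rw [injective_iff_map_eq_zero]
  intro y hy
  obtain ⟨t, s, hs, hyts⟩ := hfrac y
  have h1 : a (c t) = 0 := by rw [← hyts, map_mul, hy, zero_mul]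
  have h2 : ∀ x : X, IsLoc act 𝔪 x → act t x = 0 := by
    intro x hx
    obtain ⟨m, rfl⟩ := hrange x hx
    rw [← ha, h1, AddMonoid.End.zero_apply, map_zero]
  obtain ⟨s', hs', h3⟩ := exists_mul_act_eq_zero act 𝔪 t h2
  have h4 : c s' * c t = 0 := by rw [← map_mul]; exact hker _ h3
  have h5 : c t = 0 := (hunit s' hs').mul_right_eq_zero.mp h4
  rw [h5] at hyts
  exact (hunit s hs).mul_left_eq_zero.mp hyts

/-- module form of `injective_of_loc`. -/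
theorem faithful_of_loc [Module Tl Lm]
    (hunit : ∀ s : 𝕋, s ∉ 𝔪 → IsUnit (c s))
    (hfrac : ∀ y : Tl, ∃ t s : 𝕋, s ∉ 𝔪 ∧ y * c s = c t)
    (hker : ∀ t : 𝕋, act t = 0 → c t = 0)
    (hrange : ∀ x : X, IsLoc act 𝔪 x → ∃ y, j y = x)
    (ha : ∀ (t : 𝕋) (y : Lm), j (c t • y) = act t (j y))
    (y : Tl) (hy : ∀ m : Lm, y • m = 0) : y = 0 := by
  have hinj := injective_of_loc act 𝔪 c j hunit hfrac hker hrange
    (Module.toAddMonoidEnd Tl Lm) (fun t m => ha t m)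
  apply hinj
  rw [map_zero]
  ext m
  exact hy m

/-- the `Injective a0` binder of `KappaAbs.exists_kappa` for `a0 := Algebra.lsmul`. -/
theorem lsmul_injective_of_loc [Algebra 𝒪 Tl] [Module 𝒪 Lm] [Module Tl Lm] [IsScalarTower 𝒪 Tl Lm]
    (hunit : ∀ s : 𝕋, s ∉ 𝔪 → IsUnit (c s))
    (hfrac : ∀ y : Tl, ∃ t s : 𝕋, s ∉ 𝔪 ∧ y * c s = c t)
    (hker : ∀ t : 𝕋, act t = 0 → c t = 0)
    (hrange : ∀ x : X, IsLoc act 𝔪 x → ∃ y, j y = x)
    (ha : ∀ (t : 𝕋) (y : Lm), j (c t • y) = act t (j y)) :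
    Injective (Algebra.lsmul 𝒪 𝒪 Lm : Tl →ₐ[𝒪] Module.End 𝒪 Lm) := by
  rw [injective_iff_map_eq_zero]
  intro y hy
  refine faithful_of_loc act 𝔪 c j hunit hfrac hker hrange ha y fun m => ?_
  have := LinearMap.congr_fun hy m
  exact this

end Abs

section Localization

variable {𝒪 : Type} [CommRing 𝒪] [IsLocalRing 𝒪] [IsNoetherianRing 𝒪]
  [IsAdicComplete (maximalIdeal 𝒪) 𝒪]
  {𝕋 : Type} [CommRing 𝕋] [Algebra 𝒪 𝕋]
  {X : Type*} [AddCommGroup X] [Module 𝒪 X] [Module.Finite 𝒪 X]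
  (act : 𝕋 →ₐ[𝒪] Module.End 𝒪 X)
  {B : Type*} [CommRing B] (f : 𝕋 →+* B) (𝔫 : Ideal B) [𝔫.IsMaximal]
  {Tl : Type*} [CommRing Tl] [Algebra B Tl] [IsLocalization.AtPrime Tl 𝔫]
  {Lm : Type*} [AddCommGroup Lm] (j : Lm →+ X)

/-- **faithfulness of `B_𝔫` on the primary part**: `f : 𝕋 ↠ B`, the action of `𝕋` on `X` is
faithful through `B` (`act t = 0 → f t = 0`), `Lm` a model of the `𝔫.comap f`-primary part of `X` on
which `Tl = B_𝔫` acts compatibly. -/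
theorem injective_of_isLocalization (hf : Surjective f)
    (hker : ∀ t : 𝕋, act t = 0 → f t = 0)
    (hrange : ∀ x : X, IsLoc act (𝔫.comap f) x → ∃ y, j y = x)
    (a : Tl →+* AddMonoid.End Lm)
    (ha : ∀ (t : 𝕋) (y : Lm), j (a (algebraMap B Tl (f t)) y) = act t (j y)) :
    Injective a := by
  haveI := Ideal.comap_isMaximal_of_surjective f hf (K := 𝔫)
  refine injective_of_loc act (𝔫.comap f) ((algebraMap B Tl).comp f) j ?_ ?_ ?_ hrange a ha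
  · intro s hs
    exact IsLocalization.map_units Tl (⟨f s, fun h => hs (Ideal.mem_comap.2 h)⟩ : 𝔫.primeCompl)
  · intro y
    obtain ⟨⟨b, s⟩, hbs⟩ := IsLocalization.surj 𝔫.primeCompl y
    obtain ⟨t, rfl⟩ := hf b
    obtain ⟨s', hs'⟩ := hf (s : B)
    refine ⟨t, s', fun h => s.2 (hs' ▸ Ideal.mem_comap.1 h), ?_⟩
    show y * algebraMap B Tl (f s') = algebraMap B Tl (f t)
    rw [hs']
    exact hbs
  · intro t ht
    show algebraMap B Tl (f t) = 0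
    rw [hker t ht, map_zero]

end Localization

section Hecke

open Fermat.Agent.GB.B4.Datum.Carrier Fermat.Agent.GJ.Tate.Lim

variable {𝒪 : Type} [CommRing 𝒪] [IsLocalRing 𝒪] [IsNoetherianRing 𝒪]
  [IsAdicComplete (maximalIdeal 𝒪) 𝒪] [Module.Flat ℤ 𝒪]
  {A : Type} [CommRing A] (θ : A →+* ResidueField 𝒪)
  {Λ : Type} [AddCommGroup Λ] [Module.Free ℤ Λ] [Module.Finite ℤ Λ]
  (lat : A →ₐ[ℤ] Module.End ℤ Λ)
  {Lm : Type*} [AddCommGroup Lm] (j : Lm →+ 𝒪 ⊗[ℤ] Λ)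

/-- **the Hecke instance**: `Tloc 𝒪 θ = (𝒪 ⊗ A)_{𝔪_θ}` acts faithfully on (any model `Lm` of) the
`𝔪_θ`-primary part of `𝒪 ⊗[ℤ] Λ`, as soon as `A` acts faithfully on the lattice `Λ`. -/
theorem tloc_faithful (hlat : Injective lat)
    (hrange : ∀ x : 𝒪 ⊗[ℤ] Λ, IsLoc (tensorEndAlg 𝒪 lat) (maxθ 𝒪 θ) x → ∃ y, j y = x)
    (a : Tloc 𝒪 θ →+* AddMonoid.End Lm)
    (ha : ∀ (b : 𝒪 ⊗[ℤ] A) (y : Lm),
      j (a (algebraMap (𝒪 ⊗[ℤ] A) (Tloc 𝒪 θ) b) y) = tensorEndAlg 𝒪 lat b (j y)) :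
    Injective a := by
  haveI : Module.FinitePresentation ℤ Λ := Module.finitePresentation_of_projective ℤ Λ
  haveI : Module.Finite 𝒪 (𝒪 ⊗[ℤ] Λ) := inferInstance
  have hinj := tensorEndAlg_injective 𝒪 lat hlat
  refine injective_of_isLocalization (tensorEndAlg 𝒪 lat) (RingHom.id (𝒪 ⊗[ℤ] A)) (maxθ 𝒪 θ) j
    (fun b => ⟨b, rfl⟩) (fun t ht => ?_) ?_ a ha
  · show t = 0
    apply hinj
    rw [ht, map_zero]
  · intro x hx
    exact hrange x hx

end Hecke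

end Fermat.Agent.GE6.Inst.FaithLoc
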