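import Fermat.Agent.GE6.Inst.LevelE
import Fermat.Agent.GE6.Stmt

/-!
# GATE-E / ENGINE-INST (helper12): assembly for Taylor–Wiles data with GENERAL exponents

The twin of `GE6/Assembly` + `GE6/Stmt` for `TWDepthE` (`GE6/Inst/LevelE`): the diamond exponents
`E j = v_ℓ(q_j − 1)` of a Taylor–Wiles set of depth `n` are only `≥ n`, not uniform.

* `TWLevelsEStmt ℓ D φ M` : there are `r` and, for every depth `n`, exponents `E` with `n ≤ E j`
  and a `TWDepthE 𝒪 ℓ r D.R M E` (`D.R` acting on `M` through `φ`).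
* `bijective_of_twDepthE`, `free_of_twDepthE` : ring-theoretic output (`R ≅ T`, `M` free, complete
  intersection presentation).
* `exists_rtData_of_twDepthE`, `exists_rtData_of_twLevelsEStmt` : the engine contract `RTData`.
* `twLevelsEStmt_of_twLevelsStmt` : the uniform-exponent statement of `GE6/Stmt` is a special case.
-/

set_option autoImplicit false
set_option linter.style.haveILetI false
set_option linter.unusedSectionVars false

namespace Fermat.Agent.GE6.Inst.AssemblyE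

open IsLocalRing Polynomial CuspForm Fermat.Agent.GE6.Inst.LevelE Fermat.Agent.GE.Graph

/-- `G_ℚ`. -/
local notation "GQ" => (AlgebraicClosure ℚ ≃ₐ[ℚ] AlgebraicClosure ℚ)

section Abstract

variable {𝒪 : Type} [CommRing 𝒪] [IsDomain 𝒪] [IsDiscreteValuationRing 𝒪]
  [IsAdicComplete (maximalIdeal 𝒪) 𝒪] [Finite (ResidueField 𝒪)] {ℓ r : ℕ}
  {R : Type} [CommRing R] [IsLocalRing R] [IsNoetherianRing R]
  [IsAdicComplete (maximalIdeal R) R] [Algebra 𝒪 R] [IsLocalHom (algebraMap 𝒪 R)]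
  {T : Type} [CommRing T] [Algebra 𝒪 T]
  {M : Type} [AddCommGroup M] [Module R M] [Module T M] [Nontrivial M]

/-- Taylor–Wiles data of every depth (general exponents, existential form) give a Prelude
`PatchingDatum`. -/
theorem nonempty_patchingDatum_of_forall (hℓ : ℓ.Prime) (hℓ𝒪 : (ℓ : 𝒪) ∈ maximalIdeal 𝒪)
    (L : ∀ n : ℕ, ∃ E : Fin r → ℕ, (∀ j, n ≤ E j) ∧ Nonempty (TWDepthE 𝒪 ℓ r R M E)) :
    Nonempty (Algebra.PatchingDatum 𝒪 ℓ r R M) := by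
  choose E hE hT using L
  exact nonempty_patchingDatum_E hℓ hℓ𝒪 E hE fun n => (hT n).some

/-- **E6, ring-theoretic form, general exponents**. -/
theorem bijective_of_twDepthE (hℓ : ℓ.Prime) (hℓ𝒪 : (ℓ : 𝒪) ∈ maximalIdeal 𝒪)
    (hres : Function.Surjective (residue R ∘ algebraMap 𝒪 R))
    (φ : R →ₐ[𝒪] T) (hφ : Function.Surjective φ)
    (hcompat : ∀ (x : R) (m : M), x • m = φ x • m)
    (L : ∀ n : ℕ, ∃ E : Fin r → ℕ, (∀ j, n ≤ E j) ∧ Nonempty (TWDepthE 𝒪 ℓ r R M E)) :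
    Function.Bijective φ ∧ Module.Free R M ∧
      ∃ L' : Algebra.PatchingLevel 𝒪 r R M ⊥,
        RingHom.ker L'.ψ = Ideal.span (Set.range fun i : Fin r => L'.φ (MvPowerSeries.X i)) := by
  obtain ⟨D⟩ := nonempty_patchingDatum_of_forall hℓ hℓ𝒪 L
  exact Fermat.Agent.GE6.MinRT.bijective_of_patchingDatum hℓ𝒪 hres φ hφ hcompat D

/-- `M` is free over `T` as well. -/
theorem free_of_twDepthE (hℓ : ℓ.Prime) (hℓ𝒪 : (ℓ : 𝒪) ∈ maximalIdeal 𝒪)
    (hres : Function.Surjective (residue R ∘ algebraMap 𝒪 R))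
    (φ : R →ₐ[𝒪] T) (hφ : Function.Surjective φ)
    (hcompat : ∀ (x : R) (m : M), x • m = φ x • m)
    (L : ∀ n : ℕ, ∃ E : Fin r → ℕ, (∀ j, n ≤ E j) ∧ Nonempty (TWDepthE 𝒪 ℓ r R M E)) :
    Module.Free T M := by
  obtain ⟨D⟩ := nonempty_patchingDatum_of_forall hℓ hℓ𝒪 L
  exact Fermat.Agent.GE6.MinRT.free_of_patchingDatum hℓ𝒪 hres φ hφ hcompat D

end Abstract

section RT

variable {𝒪 : Type} [CommRing 𝒪] [IsDomain 𝒪] [IsDiscreteValuationRing 𝒪]
  [IsAdicComplete (maximalIdeal 𝒪) 𝒪]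
  {ρbar : ResidualGaloisRep (ResidueField 𝒪)} {𝒟 : DefCondE 𝒪}

/-- **E6-TW with general exponents, the residual input of E6**: Taylor–Wiles data of every depth
for `(D.R, M)`, `D.R` acting on the `T`-module `M` through `φ`; at depth `n` the exponents are
`E j ≥ n`. -/
def TWLevelsEStmt (ℓ : ℕ) (D : GaloisRep.DeformationRingData 𝒪 ρbar 𝒟)
    {T : Type} [CommRing T] [Algebra 𝒪 T] (φ : D.R →ₐ[𝒪] T)
    (M : Type) [AddCommGroup M] [Module T M] : Prop :=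
  ∃ r : ℕ, ∀ n : ℕ, ∃ E : Fin r → ℕ, (∀ j, n ≤ E j) ∧
    Nonempty (@TWDepthE 𝒪 _ ℓ r D.R _ _ M _ (Module.compHom M (φ : D.R →+* T)) E)

variable [Finite (ResidueField 𝒪)]

/-- E6, ring-theoretic output (the input of E9-BASE), general exponents. -/
theorem minRT_of_twLevelsEStmt {ℓ : ℕ} (hℓ : ℓ.Prime) (hℓ𝒪 : (ℓ : 𝒪) ∈ maximalIdeal 𝒪)
    (D : GaloisRep.DeformationRingData 𝒪 ρbar 𝒟)
    {T : Type} [CommRing T] [Algebra 𝒪 T] (φ : D.R →ₐ[𝒪] T) (hφ : Function.Surjective φ)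
    {M : Type} [AddCommGroup M] [Module T M] [Nontrivial M]
    (h : TWLevelsEStmt ℓ D φ M) :
    letI : Module D.R M := Module.compHom M (φ : D.R →+* T)
    Function.Bijective φ ∧ Module.Free D.R M ∧ Module.Free T M ∧
      ∃ (r : ℕ) (L' : Algebra.PatchingLevel 𝒪 r D.R M ⊥),
        RingHom.ker L'.ψ = Ideal.span (Set.range fun i : Fin r => L'.φ (MvPowerSeries.X i)) := by
  letI : Module D.R M := Module.compHom M (φ : D.R →+* T)
  obtain ⟨r, hL⟩ := h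
  have hcompat : ∀ (x : D.R) (m : M), x • m = φ x • m := fun _ _ => rfl
  obtain ⟨h1, h2, L', h3⟩ :=
    bijective_of_twDepthE hℓ hℓ𝒪 D.residue_surjective φ hφ hcompat hL
  exact ⟨h1, h2, free_of_twDepthE hℓ hℓ𝒪 D.residue_surjective φ hφ hcompat hL, r, L', h3⟩

/-- **E6 ASSEMBLY-MIN, engine form, general exponents**. -/
theorem exists_rtData_of_twDepthE {ℓ r : ℕ} (hℓ : ℓ.Prime) (hℓ𝒪 : (ℓ : 𝒪) ∈ maximalIdeal 𝒪)
    (D : GaloisRep.DeformationRingData 𝒪 ρbar 𝒟)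
    {N : ℕ} [NeZero N] {S : Set ℕ} {T : Type} [CommRing T] [IsLocalRing T] [Algebra 𝒪 T]
    (π : heckeAlgebra N 2 S →+* T) (ρT : GaloisRepAdic T)
    (hcp : ∀ (q : ℕ) (hq : q.Prime) (hqN : ¬ q ∣ N) (hqS : q ∉ S),
      ∀ A : ValuationSubring (AlgebraicClosure ℚ), A.LiesOverPrime q →
        ∀ σ : GQ, A.IsFrobeniusAt σ q →
          LinearMap.charpoly (ρT.ρ σ) =
            X ^ 2 - C (π (heckeAlgebra.T hq hqN hqS)) * X + C ((q : T)))
    (φ : D.R →ₐ[𝒪] T) (hφ : Function.Surjective φ) (φ_local : IsLocalHom (φ : D.R →+* T))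
    (φ_ρ : (D.ρ.baseChangeAlong (φ : D.R →+* T) φ_local).IsEquiv ρT)
    {M : Type} [AddCommGroup M] [Module D.R M] [Module T M] [Nontrivial M]
    (hcompat : ∀ (x : D.R) (m : M), x • m = φ x • m)
    (L : ∀ n : ℕ, ∃ E : Fin r → ℕ, (∀ j, n ≤ E j) ∧ Nonempty (TWDepthE 𝒪 ℓ r D.R M E)) :
    ∃ X' : RTData ρbar 𝒟, X'.N = N ∧ X'.S = S ∧ X'.D = D := by
  obtain ⟨hbij, -, -⟩ := bijective_of_twDepthE hℓ hℓ𝒪 D.residue_surjective φ hφ hcompat L
  exact ⟨{ N := N, S := S, T := T, π := π, ρT := ρT, charpoly_frob := hcp, D := D, φ := φ,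
           φ_bijective := hbij, φ_local := φ_local, φ_ρ := φ_ρ }, rfl, rfl, rfl⟩

/-- **E6, engine output**: `TWLevelsEStmt` gives an `R = T` datum at the given level. -/
theorem exists_rtData_of_twLevelsEStmt {ℓ : ℕ} (hℓ : ℓ.Prime) (hℓ𝒪 : (ℓ : 𝒪) ∈ maximalIdeal 𝒪)
    (D : GaloisRep.DeformationRingData 𝒪 ρbar 𝒟)
    {N : ℕ} [NeZero N] {S : Set ℕ} {T : Type} [CommRing T] [IsLocalRing T] [Algebra 𝒪 T]
    (π : heckeAlgebra N 2 S →+* T) (ρT : GaloisRepAdic T)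
    (hcp : ∀ (q : ℕ) (hq : q.Prime) (hqN : ¬ q ∣ N) (hqS : q ∉ S),
      ∀ A : ValuationSubring (AlgebraicClosure ℚ), A.LiesOverPrime q →
        ∀ σ : GQ, A.IsFrobeniusAt σ q →
          LinearMap.charpoly (ρT.ρ σ) =
            X ^ 2 - C (π (heckeAlgebra.T hq hqN hqS)) * X + C ((q : T)))
    (φ : D.R →ₐ[𝒪] T) (hφ : Function.Surjective φ) (φ_local : IsLocalHom (φ : D.R →+* T))
    (φ_ρ : (D.ρ.baseChangeAlong (φ : D.R →+* T) φ_local).IsEquiv ρT)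
    {M : Type} [AddCommGroup M] [Module T M] [Nontrivial M]
    (h : TWLevelsEStmt ℓ D φ M) :
    ∃ X' : RTData ρbar 𝒟, X'.N = N ∧ X'.S = S ∧ X'.D = D := by
  letI : Module D.R M := Module.compHom M (φ : D.R →+* T)
  obtain ⟨r, hL⟩ := h
  exact exists_rtData_of_twDepthE hℓ hℓ𝒪 D π ρT hcp φ hφ φ_local φ_ρ (fun _ _ => rfl) hL

end RT

section Uniform

variable {𝒪 : Type} [CommRing 𝒪] {ℓ r : ℕ} {R : Type} [CommRing R] [Algebra 𝒪 R]
  {M : Type} [AddCommGroup M] [Module R M]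

/-- a uniform-exponent datum (`GE6/Level`) is a general-exponent datum with `E j = n`. -/
def ofTWDepth {n : ℕ} (T : Fermat.Agent.GE6.Level.TWDepth 𝒪 ℓ r R M n) :
    TWDepthE 𝒪 ℓ r R M (fun _ => n) where
  RQ := T.RQ
  γ := T.γ
  γ_surjective := T.γ_surjective
  g := T.g
  g_lift := T.g_lift
  β := T.β
  β_surjective := T.β_surjective
  ker_β := T.ker_β
  MQ := T.MQ
  π := T.π
  π_smul := T.π_smul
  π_surjective := T.π_surjective
  ker_π := T.ker_π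
  d := T.d
  e := T.e
  g_pow := T.g_pow
  span := T.span
  indep := T.indep

end Uniform

/-- the uniform-exponent statement of `GE6/Stmt` is a special case of `TWLevelsEStmt`. -/
theorem twLevelsEStmt_of_twLevelsStmt {𝒪 : Type} [CommRing 𝒪] [IsDomain 𝒪]
    [IsDiscreteValuationRing 𝒪] [IsAdicComplete (maximalIdeal 𝒪) 𝒪]
    {ρbar : ResidualGaloisRep (ResidueField 𝒪)} {𝒟 : DefCondE 𝒪} {ℓ : ℕ}
    (D : GaloisRep.DeformationRingData 𝒪 ρbar 𝒟)
    {T : Type} [CommRing T] [Algebra 𝒪 T] (φ : D.R →ₐ[𝒪] T)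
    {M : Type} [AddCommGroup M] [Module T M]
    (h : Fermat.Agent.GE6.Stmt.TWLevelsStmt ℓ D φ M) : TWLevelsEStmt ℓ D φ M := by
  letI : Module D.R M := Module.compHom M (φ : D.R →+* T)
  obtain ⟨r, hL⟩ := h
  exact ⟨r, fun n => ⟨fun _ => n, fun _ => le_rfl, ⟨ofTWDepth (hL n).some⟩⟩⟩

end Fermat.Agent.GE6.Inst.AssemblyE
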