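/-
GATE-E / E6 (helper55): **transport of the Taylor–Wiles statements along an isomorphism of the base
module.**

`GE6/Level.TWDepth`, `GE6/Inst/LevelE.TWDepthE` see the base module `M` only through the surjection
`π : M_Q → M` (`π_smul`, `π_surjective`, `ker_π`), so they transport along any `R`-linear equivalence
`M ≃ M'`; hence `GE6/Stmt.TWLevelsStmt` and `GE6/Inst/AssemblyE.TWLevelsEStmt` transport along any
`T`-linear equivalence.  Use: E6 is proved on the model of the Hecke module in which the
Taylor–Wiles levels live (`Hom(Γ₀(N), 𝒪)_𝔪`, or its `p`-new part `ker (cores_p, coresD_p)` for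
`GE8/RaiseP/BaseB`), ETA needs the SAME statement on the lattice model (`𝒪 ⊗ Lam N`, resp. the
kernel of `(β_p ⊗ 𝒪)`): one equivariant identification of the two models then suffices.

* `TWDepth.congrBase`, `TWDepthE.congrBase` : the transported data;
* `twLevelsStmt_congr`, `twLevelsEStmt_congr` : the transported statements.
-/
import Fermat.Agent.GE6.Stmt
import Fermat.Agent.GE6.Inst.AssemblyE

set_option autoImplicit false
set_option linter.unusedSectionVars false
set_option linter.style.haveILetI false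

namespace Fermat.Agent.GE6.Inst.CongrBase

open IsLocalRing Fermat.Agent.GE6.Level Fermat.Agent.GE6.Inst.LevelE
  Fermat.Agent.GE6.Inst.AssemblyE Fermat.Agent.GE6.Stmt Fermat.Agent.GE.Graph

section Data

variable {𝒪 : Type} [CommRing 𝒪] {ℓ r : ℕ} {R : Type} [CommRing R] [Algebra 𝒪 R]
  {M : Type} [AddCommGroup M] [Module R M] {M' : Type} [AddCommGroup M'] [Module R M']

/-- **transport of a Taylor–Wiles datum along an isomorphism of the base module** -/
def _root_.Fermat.Agent.GE6.Level.TWDepth.congrBase {n : ℕ} (T : TWDepth 𝒪 ℓ r R M n)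
    (e : M ≃ₗ[R] M') : TWDepth 𝒪 ℓ r R M' n where
  RQ := T.RQ
  γ := T.γ
  γ_surjective := T.γ_surjective
  g := T.g
  g_lift := T.g_lift
  β := T.β
  β_surjective := T.β_surjective
  ker_β := T.ker_β
  MQ := T.MQ
  π := (e : M →+ M').comp T.π
  π_smul x m := by
    show e (T.π (x • m)) = T.β x • e (T.π m)
    rw [T.π_smul, map_smul]
  π_surjective := e.surjective.comp T.π_surjective
  ker_π m := by
    rw [← T.ker_π m]
    show e (T.π m) = 0 ↔ T.π m = 0
    exact e.map_eq_zero_iff
  d := T.d
  e := T.e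
  g_pow := T.g_pow
  span := T.span
  indep := T.indep

/-- **transport of a Taylor–Wiles datum with exponents along an isomorphism of the base module** -/
def _root_.Fermat.Agent.GE6.Inst.LevelE.TWDepthE.congrBase {E : Fin r → ℕ}
    (T : TWDepthE 𝒪 ℓ r R M E) (e : M ≃ₗ[R] M') : TWDepthE 𝒪 ℓ r R M' E where
  RQ := T.RQ
  γ := T.γ
  γ_surjective := T.γ_surjective
  g := T.g
  g_lift := T.g_lift
  β := T.β
  β_surjective := T.β_surjective
  ker_β := T.ker_β
  MQ := T.MQ
  π := (e : M →+ M').comp T.π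
  π_smul x m := by
    show e (T.π (x • m)) = T.β x • e (T.π m)
    rw [T.π_smul, map_smul]
  π_surjective := e.surjective.comp T.π_surjective
  ker_π m := by
    rw [← T.ker_π m]
    show e (T.π m) = 0 ↔ T.π m = 0
    exact e.map_eq_zero_iff
  d := T.d
  e := T.e
  g_pow := T.g_pow
  span := T.span
  indep := T.indep

end Data

section Stmt

variable {𝒪 : Type} [CommRing 𝒪] [IsDomain 𝒪] [IsDiscreteValuationRing 𝒪]
  [IsAdicComplete (maximalIdeal 𝒪) 𝒪]
  {ρbar : ResidualGaloisRep (ResidueField 𝒪)} {𝒟 : DefCondE 𝒪}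

/-- a `T`-linear equivalence is linear over any ring acting through `T` -/
def restrictEquiv {R T : Type} [CommRing R] [CommRing T] (φ : R →+* T)
    {M M' : Type} [AddCommGroup M] [Module T M] [AddCommGroup M'] [Module T M']
    (e : M ≃ₗ[T] M') :
    @LinearEquiv R R _ _ (RingHom.id R) (RingHom.id R) _ _ M M' _ _
      (Module.compHom M φ) (Module.compHom M' φ) :=
  letI : Module R M := Module.compHom M φ
  letI : Module R M' := Module.compHom M' φ
  { (e : M ≃+ M') with
    map_smul' := fun x m => by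
      show e (φ x • m) = φ x • e m
      exact map_smul e (φ x) m }

/-- **`TWLevelsStmt` transports along a `T`-linear equivalence of the base module.** -/
theorem twLevelsStmt_congr {ℓ : ℕ} (D : GaloisRep.DeformationRingData 𝒪 ρbar 𝒟)
    {T : Type} [CommRing T] [Algebra 𝒪 T] (φ : D.R →ₐ[𝒪] T)
    {M M' : Type} [AddCommGroup M] [Module T M] [AddCommGroup M'] [Module T M']
    (e : M ≃ₗ[T] M') (h : TWLevelsStmt ℓ D φ M) : TWLevelsStmt ℓ D φ M' := by
  obtain ⟨r, hr⟩ := h
  refine ⟨r, fun n => ?_⟩
  obtain ⟨X⟩ := hr n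
  letI : Module D.R M := Module.compHom M (φ : D.R →+* T)
  letI : Module D.R M' := Module.compHom M' (φ : D.R →+* T)
  exact ⟨X.congrBase (restrictEquiv (φ : D.R →+* T) e)⟩

/-- **`TWLevelsEStmt` transports along a `T`-linear equivalence of the base module.** -/
theorem twLevelsEStmt_congr {ℓ : ℕ} (D : GaloisRep.DeformationRingData 𝒪 ρbar 𝒟)
    {T : Type} [CommRing T] [Algebra 𝒪 T] (φ : D.R →ₐ[𝒪] T)
    {M M' : Type} [AddCommGroup M] [Module T M] [AddCommGroup M'] [Module T M']
    (e : M ≃ₗ[T] M') (h : TWLevelsEStmt ℓ D φ M) : TWLevelsEStmt ℓ D φ M' := by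
  obtain ⟨r, hr⟩ := h
  refine ⟨r, fun n => ?_⟩
  obtain ⟨E, hE, ⟨X⟩⟩ := hr n
  letI : Module D.R M := Module.compHom M (φ : D.R →+* T)
  letI : Module D.R M' := Module.compHom M' (φ : D.R →+* T)
  exact ⟨E, hE, ⟨X.congrBase (restrictEquiv (φ : D.R →+* T) e)⟩⟩

end Stmt

end Fermat.Agent.GE6.Inst.CongrBase
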