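/-
GATE-E (S59) / ENGINE-INST item (v), Hecke side (helper67; helper12 7237, helper72 7095 §5).

The seam "`π : M_Q → M_∅` is `β`-semilinear" is reduced by `GE6/Inst/Semilin` (helper72) to the
existence of a LOCAL `𝒪`-algebra map `κ : T_Q → T_∅` with

  `π (t • m) = κ t • π m`,   `κ (T_ℓ at level Q) = T_ℓ at the base level`.

This file constructs `κ` abstractly.  `T_Q` acts on `M_Q` (through `aQ`), `T_∅` acts FAITHFULLY on
`M_∅` (through `a0`), `π : M_Q → M_∅` is a SURJECTIVE `𝒪`-linear map, and a set `G` of `𝒪`-algebra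
generators of `T_Q` is given such that every `g ∈ G` is `π`-compatible with some element of `T_∅`.
Then the graph `{(x, y) | π ∘ aQ x = a0 y ∘ π}` is a subalgebra of `T_Q × T_∅` whose first projection
is bijective, and `κ := pr₂ ∘ pr₁⁻¹`.

* `graph`, `exists_kappa` : the abstract construction (`∃ κ`, semilinearity, uniqueness);
* `kappa_eq_of_comm` : `κ x = y` as soon as `π ∘ aQ x = a0 y ∘ π`;
* `isLocalHom_of_isIntegral` : ANY `𝒪`-algebra map from a local integral `𝒪`-algebra to a local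
  `𝒪`-algebra with `𝒪 → T_∅` local is a local homomorphism;
* `exists_kappa_TQ` : the statement for two `GB/B4/Datum/ImageRing.TQ` carriers (two anemic Hecke
  algebras `AQ`, `A0` of DIFFERENT levels, ring generators `t i ∈ AQ` matched with `s i ∈ A0`).
NEW file; Mathlib + `GB/B4/Datum/ImageRing` only.
-/
import Mathlib
import Fermat.Agent.GB.B4.Datum.ImageRing

set_option autoImplicit false
set_option linter.unusedSectionVars false

namespace Fermat.Agent.GE6.Inst.KappaAbs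

open IsLocalRing Function

section Graph

variable {O : Type*} [CommRing O]
  {TQ T0 : Type*} [CommRing TQ] [Algebra O TQ] [CommRing T0] [Algebra O T0]
  {MQ M0 : Type*} [AddCommGroup MQ] [Module O MQ] [AddCommGroup M0] [Module O M0]
  (aQ : TQ →ₐ[O] Module.End O MQ) (a0 : T0 →ₐ[O] Module.End O M0) (π : MQ →ₗ[O] M0)

/-- the `π`-compatible pairs `(x, y)`: `π ∘ aQ x = a0 y ∘ π`. -/
def graph : Subalgebra O (TQ × T0) where
  carrier := {z | ∀ m, π (aQ z.1 m) = a0 z.2 (π m)}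
  mul_mem' := by
    intro z w hz hw m
    have hz' : ∀ m, π (aQ z.1 m) = a0 z.2 (π m) := hz
    have hw' : ∀ m, π (aQ w.1 m) = a0 w.2 (π m) := hw
    show π (aQ (z * w).1 m) = a0 (z * w).2 (π m)
    rw [Prod.fst_mul, Prod.snd_mul, map_mul, map_mul, Module.End.mul_apply, Module.End.mul_apply,
      hz', hw']
  add_mem' := by
    intro z w hz hw m
    have hz' : ∀ m, π (aQ z.1 m) = a0 z.2 (π m) := hz
    have hw' : ∀ m, π (aQ w.1 m) = a0 w.2 (π m) := hw
    show π (aQ (z + w).1 m) = a0 (z + w).2 (π m)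
    rw [Prod.fst_add, Prod.snd_add, map_add, map_add, LinearMap.add_apply, LinearMap.add_apply,
      map_add, hz', hw']
  algebraMap_mem' := by
    intro r m
    show π (aQ (algebraMap O (TQ × T0) r).1 m) = a0 (algebraMap O (TQ × T0) r).2 (π m)
    rw [Prod.algebraMap_apply]
    show π (aQ (algebraMap O TQ r) m) = a0 (algebraMap O T0 r) (π m)
    rw [AlgHom.commutes, AlgHom.commutes, Module.algebraMap_end_apply, Module.algebraMap_end_apply,
      map_smul]

theorem mem_graph {z : TQ × T0} :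
    z ∈ graph aQ a0 π ↔ ∀ m, π (aQ z.1 m) = a0 z.2 (π m) := Iff.rfl

/-- first projection of the graph. -/
def fstG : graph aQ a0 π →ₐ[O] TQ := (AlgHom.fst O TQ T0).comp (graph aQ a0 π).val

/-- second projection of the graph. -/
def sndG : graph aQ a0 π →ₐ[O] T0 := (AlgHom.snd O TQ T0).comp (graph aQ a0 π).val

@[simp] theorem fstG_apply (z : graph aQ a0 π) : fstG aQ a0 π z = (z : TQ × T0).1 := rfl

@[simp] theorem sndG_apply (z : graph aQ a0 π) : sndG aQ a0 π z = (z : TQ × T0).2 := rfl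

variable {aQ a0 π}

/-- the second component of a compatible pair is determined by the first one. -/
theorem snd_eq_of_comm (hπ : Surjective π) (ha0 : Injective a0) {x : TQ} {y y' : T0}
    (h : ∀ m, π (aQ x m) = a0 y (π m)) (h' : ∀ m, π (aQ x m) = a0 y' (π m)) : y = y' := by
  apply ha0
  apply LinearMap.ext
  intro n
  obtain ⟨m, rfl⟩ := hπ n
  rw [← h, ← h']

theorem fstG_injective (hπ : Surjective π) (ha0 : Injective a0) :
    Injective (fstG aQ a0 π) := by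
  rintro ⟨⟨x, y⟩, hz⟩ ⟨⟨x', y'⟩, hw⟩ h
  have hx : x = x' := h
  subst hx
  have hy : y = y' := snd_eq_of_comm hπ ha0 hz hw
  subst hy
  rfl

theorem fstG_surjective (G : Set TQ) (hG : Algebra.adjoin O G = ⊤)
    (hgen : ∀ g ∈ G, ∃ y : T0, ∀ m, π (aQ g m) = a0 y (π m)) :
    Surjective (fstG aQ a0 π) := by
  intro x
  have hle : Algebra.adjoin O G ≤ (fstG aQ a0 π).range := by
    apply Algebra.adjoin_le
    intro g hg
    obtain ⟨y, hy⟩ := hgen g hg
    exact ⟨⟨(g, y), hy⟩, rfl⟩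
  have hx : x ∈ (fstG aQ a0 π).range := hle (hG ▸ Algebra.mem_top)
  exact hx

/-- **the induced map** `κ : T_Q → T_∅`. -/
theorem exists_kappa (hπ : Surjective π) (ha0 : Injective a0) (G : Set TQ)
    (hG : Algebra.adjoin O G = ⊤)
    (hgen : ∀ g ∈ G, ∃ y : T0, ∀ m, π (aQ g m) = a0 y (π m)) :
    ∃ κ : TQ →ₐ[O] T0, (∀ x m, π (aQ x m) = a0 (κ x) (π m)) ∧
      ∀ κ' : TQ → T0, (∀ x m, π (aQ x m) = a0 (κ' x) (π m)) → κ' = κ := by
  let e : graph aQ a0 π ≃ₐ[O] TQ :=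
    AlgEquiv.ofBijective (fstG aQ a0 π) ⟨fstG_injective hπ ha0, fstG_surjective G hG hgen⟩
  have hκ : ∀ x m, π (aQ x m) = a0 ((sndG aQ a0 π).comp (e.symm : TQ →ₐ[O] graph aQ a0 π) x) (π m) := by
    intro x m
    have hz := (e.symm x).2 m
    have hx : ((e.symm x : graph aQ a0 π) : TQ × T0).1 = x := by
      have := e.apply_symm_apply x
      exact this
    rw [hx] at hz
    exact hz
  refine ⟨(sndG aQ a0 π).comp (e.symm : TQ →ₐ[O] graph aQ a0 π), hκ, ?_⟩
  intro κ' h'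
  funext x
  exact snd_eq_of_comm hπ ha0 (h' x) (hκ x)

/-- `κ x = y` as soon as `(x, y)` is a compatible pair. -/
theorem kappa_eq_of_comm (hπ : Surjective π) (ha0 : Injective a0) (κ : TQ → T0)
    (hκ : ∀ x m, π (aQ x m) = a0 (κ x) (π m)) {x : TQ} {y : T0}
    (h : ∀ m, π (aQ x m) = a0 y (π m)) : κ x = y :=
  snd_eq_of_comm hπ ha0 (hκ x) h

end Graph

section Local

variable {O : Type*} [CommRing O] [IsLocalRing O]
  {TQ T0 : Type*} [CommRing TQ] [IsLocalRing TQ] [Algebra O TQ] [Algebra.IsIntegral O TQ]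
  [CommRing T0] [IsLocalRing T0] [Algebra O T0] [IsLocalHom (algebraMap O T0)]

/-- an `𝒪`-algebra map from a local INTEGRAL `𝒪`-algebra to a local `𝒪`-algebra (with `𝒪 → T_∅`
local) is a local homomorphism: the preimage of the maximal ideal is a prime over `𝔪_𝒪`, hence
maximal. -/
theorem isLocalHom_of_isIntegral (κ : TQ →ₐ[O] T0) : IsLocalHom (κ : TQ →+* T0) := by
  let 𝔭 : Ideal TQ := (maximalIdeal T0).comap (κ : TQ →+* T0)
  have h𝔭 : 𝔭.IsPrime := Ideal.comap_isPrime _ _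
  have h1 : 𝔭.comap (algebraMap O TQ) = maximalIdeal O := by
    show ((maximalIdeal T0).comap (κ : TQ →+* T0)).comap (algebraMap O TQ) = maximalIdeal O
    rw [Ideal.comap_comap]
    have hc : (κ : TQ →+* T0).comp (algebraMap O TQ) = algebraMap O T0 := κ.comp_algebraMap
    rw [hc]
    have hloc : IsLocalHom (algebraMap O T0) := inferInstance
    exact ((local_hom_TFAE (algebraMap O T0)).out 0 4).mp hloc
  have h2 : 𝔭.IsMaximal :=
    Ideal.isMaximal_of_isIntegral_of_isMaximal_comap 𝔭 (h1 ▸ maximalIdeal.isMaximal O)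
  have h3 : 𝔭 = maximalIdeal TQ := IsLocalRing.eq_maximalIdeal h2
  constructor
  intro x hx
  by_contra hnu
  have hm : x ∈ maximalIdeal TQ := (mem_maximalIdeal x).mpr hnu
  rw [← h3] at hm
  have hm' : (κ : TQ →+* T0) x ∈ maximalIdeal T0 := hm
  exact (mem_maximalIdeal _).mp hm' hx

end Local

section TQ

open Fermat.Agent.GB.B4.Datum.ImageRing

variable {𝒪 : Type} [CommRing 𝒪] [IsLocalRing 𝒪] {AQ A0 : Type} [CommRing AQ] [CommRing A0]
  {MQ M0 : Type} [AddCommGroup MQ] [Module 𝒪 MQ] [AddCommGroup M0] [Module 𝒪 M0]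
  (θQ : AQ →+* ResidueField 𝒪) (θ0 : A0 →+* ResidueField 𝒪)
  (twQ : AQ →+* Module.End 𝒪 MQ) (tw0 : A0 →+* Module.End 𝒪 M0) (π : MQ →ₗ[𝒪] M0)

/-- ring generators of `AQ` give `𝒪`-algebra generators of `TQ`. -/
theorem adjoin_chi_range_eq_top {ι : Type*} (t : ι → AQ)
    (ht : Subring.closure (Set.range t) = ⊤) :
    Algebra.adjoin 𝒪 (Set.range fun i => chi 𝒪 θQ twQ (t i)) = ⊤ := by
  rw [eq_top_iff, ← adjoin_range_chi 𝒪 θQ twQ]
  apply Algebra.adjoin_le
  rintro _ ⟨a, rfl⟩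
  have ha : a ∈ Subring.closure (Set.range t) := ht ▸ Subring.mem_top a
  induction ha using Subring.closure_induction with
  | mem x hx =>
    obtain ⟨i, rfl⟩ := hx
    exact Algebra.subset_adjoin ⟨i, rfl⟩
  | zero => rw [map_zero]; exact Subalgebra.zero_mem _
  | one => rw [map_one]; exact Subalgebra.one_mem _
  | add x y _ _ hx hy => rw [map_add]; exact Subalgebra.add_mem _ hx hy
  | neg x _ hx => rw [map_neg]; exact Subalgebra.neg_mem _ hx
  | mul x y _ _ hx hy => rw [map_mul]; exact Subalgebra.mul_mem _ hx hy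

/-- **`κ : T_Q → T_∅` for two image-ring carriers**: `AQ`, `A0` two (anemic Hecke) rings acting on
`MQ`, `M0`; `π : MQ → M0` a surjection; `t i` ring generators of `AQ`, matched with `s i ∈ A0`
(`π ∘ twQ (t i) = tw0 (s i) ∘ π`).  Then there is a unique `κ` making `π` semilinear, and
`κ (chi (t i)) = chi (s i)`. -/
theorem exists_kappa_TQ (hπ : Surjective π) {ι : Type*} (t : ι → AQ) (s : ι → A0)
    (ht : Subring.closure (Set.range t) = ⊤)
    (hts : ∀ i m, π (twQ (t i) m) = tw0 (s i) (π m)) :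
    ∃ κ : TQ 𝒪 θQ twQ →ₐ[𝒪] TQ 𝒪 θ0 tw0,
      (∀ x m, π (act 𝒪 θQ twQ x m) = act 𝒪 θ0 tw0 (κ x) (π m)) ∧
      (∀ i, κ (chi 𝒪 θQ twQ (t i)) = chi 𝒪 θ0 tw0 (s i)) ∧
      ∀ κ' : TQ 𝒪 θQ twQ → TQ 𝒪 θ0 tw0,
        (∀ x m, π (act 𝒪 θQ twQ x m) = act 𝒪 θ0 tw0 (κ' x) (π m)) → κ' = κ := by
  have hcomm : ∀ i m, π (act 𝒪 θQ twQ (chi 𝒪 θQ twQ (t i)) m) =
      act 𝒪 θ0 tw0 (chi 𝒪 θ0 tw0 (s i)) (π m) := by
    intro i m
    rw [act_chi, act_chi]
    exact hts i m
  obtain ⟨κ, hκ, huniq⟩ := exists_kappa (aQ := act 𝒪 θQ twQ) (a0 := act 𝒪 θ0 tw0) (π := π) hπ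
    (act_injective 𝒪 θ0 tw0) (Set.range fun i => chi 𝒪 θQ twQ (t i))
    (adjoin_chi_range_eq_top θQ twQ t ht)
    (by
      rintro _ ⟨i, rfl⟩
      exact ⟨chi 𝒪 θ0 tw0 (s i), hcomm i⟩)
  refine ⟨κ, hκ, fun i => ?_, huniq⟩
  exact kappa_eq_of_comm hπ (act_injective 𝒪 θ0 tw0) κ hκ (hcomm i)

/-- the `κ` of `exists_kappa_TQ` is automatically a LOCAL homomorphism. -/
theorem isLocalHom_kappa_TQ [IsNoetherianRing 𝒪]
    [Module.Finite 𝒪 MQ] [Module.Free 𝒪 MQ] [Nontrivial MQ] [Fact (LocHyp 𝒪 θQ twQ)]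
    [Module.Finite 𝒪 M0] [Module.Free 𝒪 M0] [Nontrivial M0] [Fact (LocHyp 𝒪 θ0 tw0)]
    (κ : TQ 𝒪 θQ twQ →ₐ[𝒪] TQ 𝒪 θ0 tw0) :
    IsLocalHom (κ : TQ 𝒪 θQ twQ →+* TQ 𝒪 θ0 tw0) :=
  isLocalHom_of_isIntegral κ

end TQ

end Fermat.Agent.GE6.Inst.KappaAbs
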