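import Fermat.Agent.GE2.ClassMap
import Fermat.Agent.GE6.Inst.KappaAbs

/-!
# GATE-E / ENGINE-INST, node N6 SEMILIN (helper12): `M_Q → M_∅` is semilinear over `R_Q → R_∅`

End-to-end, hypothesis form.  Ring side: `π : R_Q → R_∅` (`GE2/DeltaQData`), `ψ : R_Q → T_Q` with
`ρ^univ_Q ⊗_ψ ≅ ρ_Q` and the Eichler–Shimura relation of `ρ_Q` (`G3`), `φ₀ : R_∅ → T_∅` with
`ρ^univ_∅ ⊗_{φ₀} ≅ ρ_{T_∅}` and the Eichler–Shimura relation of `ρ_{T_∅}` (the datum `H` of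
`GE/Engine/Base`).  Module side: `a : T_Q → End M_Q`, a `T_∅`-module `L` on which `T_∅` acts
FAITHFULLY (`GE6/Inst/LocModule`, `GE6/Inst/FaithLoc`), a surjection `πM : M_Q → L` which is
compatible with the Hecke operators ON GENERATORS (`FreeLevel.π_act`).  Then

  `πM (a (ψ y) m) = φ₀ (π y) • πM m`   for all `y : R_Q`, `m : M_Q`

— the clause (SEMILIN) of `GE6/Inst/Wire.NodeStmt`, the field `semilin` of `ModSideData`.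

Proof: `κ : T_Q → T_∅` with `πM (a x m) = κ x • πM m` (`KappaAbs.exists_kappa`, graph subalgebra),
`κ (t_Q ℓ) = t_∅ ℓ` (`kappa_eq_of_comm`), and `φ₀ ∘ π = κ ∘ ψ` by the uniqueness of classifying maps
from Frobenius characteristic polynomials (`GE2/ClassMap.comp_eq_comp_of_charpoly_frob`:
universality + Chebotarev + Carayol).
-/

set_option autoImplicit false
set_option linter.unusedSectionVars false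

namespace Fermat.Agent.GE6.Inst.PiSemilin

open IsLocalRing Function Polynomial GaloisRep
open Fermat.Agent.GE2.ClassMap Fermat.Agent.GE6.Inst.KappaAbs

/-- `ℚ̄`. -/
local notation "Qb" => AlgebraicClosure ℚ
/-- `G_ℚ`. -/
local notation "GQ" => (AlgebraicClosure ℚ ≃ₐ[ℚ] AlgebraicClosure ℚ)

variable {𝒪 : Type} [CommRing 𝒪] [IsDomain 𝒪] [IsDiscreteValuationRing 𝒪]
  [IsAdicComplete (maximalIdeal 𝒪) 𝒪]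
  {ρbar : ResidualGaloisRep (ResidueField 𝒪)}
  {𝒟₀ 𝒟Q : ∀ ⦃A : Type⦄ [CommRing A] [IsLocalRing A] [Algebra 𝒪 A], GaloisRepAdic A → Prop}
  (D₀ : DeformationRingData 𝒪 ρbar 𝒟₀) (DQ : DeformationRingData 𝒪 ρbar 𝒟Q)
  {T₀ : Type} [CommRing T₀] [IsLocalRing T₀] [IsNoetherianRing T₀]
  [IsAdicComplete (maximalIdeal T₀) T₀] [Algebra 𝒪 T₀]
  {TQ : Type} [CommRing TQ] [Algebra 𝒪 TQ]
  {MQ : Type} [AddCommGroup MQ] [Module 𝒪 MQ]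
  {L : Type} [AddCommGroup L] [Module 𝒪 L] [Module T₀ L] [IsScalarTower 𝒪 T₀ L]

/-- a faithful module gives an injective `Algebra.lsmul`. -/
theorem lsmul_injective (hfaith : ∀ u : T₀, (∀ y : L, u • y = 0) → u = 0) :
    Injective (Algebra.lsmul 𝒪 𝒪 L : T₀ →ₐ[𝒪] Module.End 𝒪 L) := by
  refine (injective_iff_map_eq_zero _).mpr fun u hu => hfaith u fun y => ?_
  have := LinearMap.congr_fun hu y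
  simpa using this

/-- **N6 SEMILIN, `map` form** (`T_Q` any commutative `𝒪`-algebra; the Eichler–Shimura relations in
the form `(charpoly (ρ^univ σ)).map _ = X² − t X + d`). -/
theorem semilin_of_frob_map (h𝒟Q : IsDeformationCondition 𝒪 𝒟Q)
    (hlocT : IsLocalHom (algebraMap 𝒪 T₀))
    (hresT : Surjective (IsLocalRing.residue T₀ ∘ algebraMap 𝒪 T₀))
    (π : DQ.R →ₐ[𝒪] D₀.R) (hπ : IsLocalHom (π : DQ.R →+* D₀.R))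
    (hπρ : (DQ.ρ.baseChangeAlong (π : DQ.R →+* D₀.R) hπ).IsEquiv D₀.ρ)
    (φ₀ : D₀.R →ₐ[𝒪] T₀) (ψ : DQ.R →ₐ[𝒪] TQ)
    (a : TQ →ₐ[𝒪] Module.End 𝒪 MQ)
    (hfaith : ∀ u : T₀, (∀ y : L, u • y = 0) → u = 0)
    (πM : MQ →ₗ[𝒪] L) (hπM : Surjective πM)
    (G : Set TQ) (hG : Algebra.adjoin 𝒪 G = ⊤)
    (hgen : ∀ g ∈ G, ∃ u : T₀, ∀ m, πM (a g m) = u • πM m)
    (B : Finset ℕ) (tQ dQ : ℕ → TQ) (t₀ d₀ : ℕ → T₀)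
    (htQ : ∀ ℓ : ℕ, ℓ.Prime → ℓ ∉ B → ∀ m, πM (a (tQ ℓ) m) = t₀ ℓ • πM m)
    (hdQ : ∀ ℓ : ℕ, ℓ.Prime → ℓ ∉ B → ∀ m, πM (a (dQ ℓ) m) = d₀ ℓ • πM m)
    (hQ : ∀ ℓ : ℕ, ℓ.Prime → ℓ ∉ B → ∀ P : ValuationSubring Qb, P.LiesOverPrime ℓ →
      ∀ σ : GQ, P.IsFrobeniusAt σ ℓ →
        (LinearMap.charpoly (DQ.ρ.ρ σ)).map (ψ : DQ.R →+* TQ) =
          X ^ 2 - C (tQ ℓ) * X + C (dQ ℓ))
    (h₀ : ∀ ℓ : ℕ, ℓ.Prime → ℓ ∉ B → ∀ P : ValuationSubring Qb, P.LiesOverPrime ℓ →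
      ∀ σ : GQ, P.IsFrobeniusAt σ ℓ →
        (LinearMap.charpoly (D₀.ρ.ρ σ)).map (φ₀ : D₀.R →+* T₀) =
          X ^ 2 - C (t₀ ℓ) * X + C (d₀ ℓ))
    (y : DQ.R) (m : MQ) : πM (a (ψ y) m) = φ₀ (π y) • πM m := by
  have ha0 := lsmul_injective (𝒪 := 𝒪) (L := L) hfaith
  obtain ⟨κ, hκ, -⟩ := exists_kappa (aQ := a) (a0 := (Algebra.lsmul 𝒪 𝒪 L : T₀ →ₐ[𝒪] _))
    (π := πM) hπM ha0 G hG (fun g hg => by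
      obtain ⟨u, hu⟩ := hgen g hg
      exact ⟨u, fun m => by rw [hu m]; rfl⟩)
  have hκt : ∀ ℓ : ℕ, ℓ.Prime → ℓ ∉ B → κ (tQ ℓ) = t₀ ℓ := fun ℓ hℓ hℓB =>
    kappa_eq_of_comm hπM ha0 κ hκ (fun m => by rw [htQ ℓ hℓ hℓB m]; rfl)
  have hκd : ∀ ℓ : ℕ, ℓ.Prime → ℓ ∉ B → κ (dQ ℓ) = d₀ ℓ := fun ℓ hℓ hℓB =>
    kappa_eq_of_comm hπM ha0 κ hκ (fun m => by rw [hdQ ℓ hℓ hℓB m]; rfl)
  have key := comp_eq_comp_of_charpoly_frob D₀ DQ h𝒟Q hlocT hresT π hπ hπρ φ₀ ψ κ B tQ dQ t₀ d₀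
    hκt hκd hQ h₀
  have h1 : φ₀ (π y) = κ (ψ y) := by
    have := congrArg (fun f : DQ.R →ₐ[𝒪] T₀ => f y) key
    exact this
  rw [hκ (ψ y) m, h1]
  rfl

/-- **N6 SEMILIN, representation form**: `T_Q` local, `ρ_Q` over `T_Q` with `ρ^univ_Q ⊗_ψ ≅ ρ_Q`,
`ρ_{T_∅}` over `T_∅` with `ρ^univ_∅ ⊗_{φ₀} ≅ ρ_{T_∅}`, and the two Eichler–Shimura relations
`charpoly ρ(Frob_ℓ) = X² − t_ℓ X + ℓ` (the output shapes of `G3` / `PsiPkgMin` and of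
`HeckeGaloisRepDatum.charpoly_frob`). -/
theorem semilin_of_frob [IsLocalRing TQ] (h𝒟Q : IsDeformationCondition 𝒪 𝒟Q)
    (hlocT : IsLocalHom (algebraMap 𝒪 T₀))
    (hresT : Surjective (IsLocalRing.residue T₀ ∘ algebraMap 𝒪 T₀))
    (π : DQ.R →ₐ[𝒪] D₀.R) (hπ : IsLocalHom (π : DQ.R →+* D₀.R))
    (hπρ : (DQ.ρ.baseChangeAlong (π : DQ.R →+* D₀.R) hπ).IsEquiv D₀.ρ)
    (φ₀ : D₀.R →ₐ[𝒪] T₀) (hφ₀ : IsLocalHom (φ₀ : D₀.R →+* T₀)) (ρT₀ : GaloisRepAdic T₀)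
    (h₀ρ : (D₀.ρ.baseChangeAlong (φ₀ : D₀.R →+* T₀) hφ₀).IsEquiv ρT₀)
    (ψ : DQ.R →ₐ[𝒪] TQ) (hψ : IsLocalHom (ψ : DQ.R →+* TQ)) (ρQ : GaloisRepAdic TQ)
    (hQρ : (DQ.ρ.baseChangeAlong (ψ : DQ.R →+* TQ) hψ).IsEquiv ρQ)
    (a : TQ →ₐ[𝒪] Module.End 𝒪 MQ)
    (hfaith : ∀ u : T₀, (∀ y : L, u • y = 0) → u = 0)
    (πM : MQ →ₗ[𝒪] L) (hπM : Surjective πM)
    (G : Set TQ) (hG : Algebra.adjoin 𝒪 G = ⊤)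
    (hgen : ∀ g ∈ G, ∃ u : T₀, ∀ m, πM (a g m) = u • πM m)
    (B : Finset ℕ) (tQ : ℕ → TQ) (t₀ : ℕ → T₀)
    (htQ : ∀ ℓ : ℕ, ℓ.Prime → ℓ ∉ B → ∀ m, πM (a (tQ ℓ) m) = t₀ ℓ • πM m)
    (hQ : ∀ ℓ : ℕ, ℓ.Prime → ℓ ∉ B → ∀ P : ValuationSubring Qb, P.LiesOverPrime ℓ →
      ∀ σ : GQ, P.IsFrobeniusAt σ ℓ →
        LinearMap.charpoly (ρQ.ρ σ) = X ^ 2 - C (tQ ℓ) * X + C ((ℓ : ℕ) : TQ))
    (h₀ : ∀ ℓ : ℕ, ℓ.Prime → ℓ ∉ B → ∀ P : ValuationSubring Qb, P.LiesOverPrime ℓ →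
      ∀ σ : GQ, P.IsFrobeniusAt σ ℓ →
        LinearMap.charpoly (ρT₀.ρ σ) = X ^ 2 - C (t₀ ℓ) * X + C ((ℓ : ℕ) : T₀))
    (y : DQ.R) (m : MQ) : πM (a (ψ y) m) = φ₀ (π y) • πM m := by
  refine semilin_of_frob_map D₀ DQ h𝒟Q hlocT hresT π hπ hπρ φ₀ ψ a hfaith πM hπM G hG hgen B tQ
    (fun ℓ => ((ℓ : ℕ) : TQ)) t₀ (fun ℓ => ((ℓ : ℕ) : T₀)) htQ ?_ ?_ ?_ y m
  · intro ℓ _ _ m
    rw [map_natCast, Nat.cast_smul_eq_nsmul, Module.End.natCast_apply, map_nsmul]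
  · intro ℓ hℓ hℓB P hP σ hσ
    rw [← charpoly_baseChangeAlong' (ψ : DQ.R →+* TQ) hψ DQ.ρ σ, charpoly_eq_of_isEquiv' hQρ σ]
    exact hQ ℓ hℓ hℓB P hP σ hσ
  · intro ℓ hℓ hℓB P hP σ hσ
    rw [← charpoly_baseChangeAlong' (φ₀ : D₀.R →+* T₀) hφ₀ D₀.ρ σ, charpoly_eq_of_isEquiv' h₀ρ σ]
    exact h₀ ℓ hℓ hℓB P hP σ hσ

end Fermat.Agent.GE6.Inst.PiSemilin
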