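import Fermat.Agent.GE6.Inst.OfUnit
import Fermat.Agent.GE6.Inst.AssemblyE
import Fermat.Agent.GE2.DeltaQData

/-!
# GATE-E / ENGINE-INST (helper12): the MODULE side of the Taylor–Wiles levels, hypothesis form

After `GE6/Inst/OfUnit` (one GATE-B `FreeLevel` + the ring side + the weak (UNIT) + `β`-semilinear
`π` ⟹ `TWDepthE`), `GE6/Inst/AssemblyE` (`TWLevelsEStmt` ⟹ `RTData`), helper72's
`GE6/Inst/Ring` (`ringSide_FL/SO`: the sets `Q_n`, `R_{Q_n}` exists and is a quotient of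
`𝒪⟦X₁..X_r⟧`) and helper22's `GE2/DeltaQData` (`β : R_Q ↠ R_∅`, `ker β = (g_j − 1)`,
`g_j^{p^a} = 1`, `g_j` LABELLED), what is left of the node E6 is ONE `Prop` about modular forms:

* `ModSideData 𝒪 p r E M₀ R RQ g β` : the module side at one Taylor–Wiles set — a GATE-B `FreeLevel`
  `F` over the base module `M₀` with diamond exponents `p^(E j)`, an `RQ`-module structure on `F.M`
  (`R_Q → T_Q → End F.M`), the weak (UNIT) `D_j m − m = g_j m' − m'` and `F.π (x m) = β x • F.π m`.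
* `ModSideData.twDepthE` : ring side + `ModSideData` ⟹ `TWDepthE`.
* `ModSideStmt p S 𝒟 D₀ φ₀ M` : for EVERY Taylor–Wiles set `qv` (frozen S56 clauses), deformation
  ring `DQ` of `𝒟 (image qv)`, labels `(P, φ, α, β, τ)` and labelled ring side `(π, g)` there are
  exponents `E j = v_p(qv j − 1)` and a `ModSideData`.
* `twLevelsEStmt_of_sides` : ring side ∧ `ModSideStmt` ⟹ `TWLevelsEStmt` (`GE6/Inst/AssemblyE`);
  `twLevelsEStmt_FL`, `twLevelsEStmt_SO` : the two engine problems `condFL`, `condSO`, the ring side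
  in the VERBATIM shape of the conclusion of `GE6/Inst/Ring.ringSide_FL/SO`.
-/

set_option autoImplicit false
set_option linter.unusedSectionVars false
set_option linter.style.haveILetI false

namespace Fermat.Agent.GE6.Inst.ModSide

open IsLocalRing Function Polynomial GaloisRep
open Fermat.Agent.GE6.Inst.LevelE Fermat.Agent.GE6.Inst.AssemblyE Fermat.Agent.GE.Graph
open Fermat.Agent.GE2.DeltaQData Fermat.Agent.GB.E2.TameGenAdic

/-- `ℚ̄`. -/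
local notation "Qb" => AlgebraicClosure ℚ
/-- `G_ℚ`. -/
local notation "GQ" => (AlgebraicClosure ℚ ≃ₐ[ℚ] AlgebraicClosure ℚ)

/-- **The module side at one Taylor–Wiles set** (everything GATE-B has to export for E6). -/
structure ModSideData (𝒪 : Type) [CommRing 𝒪] (p r : ℕ) (E : Fin r → ℕ)
    (M0 : Type) [AddCommGroup M0] [Module 𝒪 M0]
    (R : Type) [CommRing R] [Algebra 𝒪 R] [Module R M0]
    (RQ : Type) [CommRing RQ] [Algebra 𝒪 RQ] (g : Fin r → RQ) (β : RQ →ₐ[𝒪] R) : Type 1 where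
  /-- the Hecke symbols -/
  𝕋 : Type
  [instCommRing𝕋 : CommRing 𝕋]
  [instAlgebra𝕋 : Algebra 𝒪 𝕋]
  /-- their action on the base module -/
  act0 : 𝕋 →ₐ[𝒪] Module.End 𝒪 M0
  /-- the GATE-B level at full exponents -/
  F : Fermat.Agent.GB.B3.TWLevel.FreeLevel 𝒪 𝕋 M0 act0 r (fun j => p ^ E j)
  /-- `R_Q` acts on `M_Q` (through `R_Q → T_Q`) -/
  [instModule : Module RQ F.M]
  [instTower : IsScalarTower 𝒪 RQ F.M]
  /-- the weak (UNIT) statement: Hecke diamonds versus Galois diamonds -/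
  unit : ∀ (j : Fin r) (m : F.M), ∃ m' : F.M, F.D j m - m = g j • m' - m'
  /-- `M_Q → M_∅` is semilinear over `R_Q → R_∅` -/
  semilin : ∀ (x : RQ) (m : F.M), F.π (x • m) = β x • F.π m

attribute [instance] ModSideData.instCommRing𝕋 ModSideData.instAlgebra𝕋 ModSideData.instModule
  ModSideData.instTower

section Build

variable {𝒪 : Type} [CommRing 𝒪] [IsLocalRing 𝒪] {p r : ℕ} {E : Fin r → ℕ}
  {M0 : Type} [AddCommGroup M0] [Module 𝒪 M0]
  {R : Type} [CommRing R] [Algebra 𝒪 R] [Module R M0]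
  {RQ : Type} [CommRing RQ] [IsLocalRing RQ] [Algebra 𝒪 RQ] {g : Fin r → RQ} {β : RQ →ₐ[𝒪] R}

/-- **ring side + module side ⟹ `TWDepthE`.** -/
noncomputable def ModSideData.twDepthE (X : ModSideData 𝒪 p r E M0 R RQ g β)
    (hp : p.Prime) (hp𝒪 : (p : 𝒪) ∈ maximalIdeal 𝒪)
    (γ : MvPowerSeries (Fin r) 𝒪 →ₐ[𝒪] RQ) (hγ : Surjective γ)
    (hg : ∀ j, g j - 1 ∈ maximalIdeal RQ) (hβ : Surjective β)
    (ker_β : RingHom.ker β = Ideal.span (Set.range fun j => g j - 1))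
    (g_pow : ∀ j, g j ^ (p ^ E j) = 1) : TWDepthE 𝒪 p r R M0 E :=
  Fermat.Agent.GE6.Inst.OfUnit.twDepthEOfUnit hp hp𝒪 X.F γ hγ g
    (Fermat.Agent.GE6.Level.TWDepth.g_lift_of_mem γ hγ g hg) β hβ ker_β
    (fun j m => by rw [g_pow j, one_smul]) X.unit X.semilin

end Build

section Arith

/-- a Taylor–Wiles prime is different from `p`. -/
theorem ne_of_pow_dvd_sub_one {p q n : ℕ} (hp : p.Prime) (hq : q.Prime)
    (h : p ^ (n + 1) ∣ q - 1) : p ≠ q := by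
  rintro rfl
  have h1 : p ∣ p - 1 := (dvd_pow_self p n.succ_ne_zero).trans h
  have h2 : p - 1 < p := Nat.sub_lt hp.pos Nat.one_pos
  have h3 : 0 < p - 1 := Nat.sub_pos_of_lt hp.one_lt
  exact absurd (Nat.le_of_dvd h3 h1) (not_le.mpr h2)

/-- the full exponent of a Taylor–Wiles prime of depth `n` is `> n`. -/
theorem lt_of_pow_dvd_of_eq {p q n e m : ℕ} (hp : p.Prime) (h : p ^ (n + 1) ∣ q - 1)
    (hq : q = p ^ e * m + 1) (hm : ¬ p ∣ m) : n < e := by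
  by_contra hne
  rw [not_lt] at hne
  subst hq
  rw [Nat.add_sub_cancel] at h
  have h1 : p ^ (e + 1) ∣ p ^ e * m := (pow_dvd_pow p (Nat.succ_le_succ hne)).trans h
  rw [pow_succ] at h1
  exact hm ((Nat.mul_dvd_mul_iff_left (pow_pos hp.pos e)).mp h1)

end Arith

section Stmt

variable {𝒪 : Type} [CommRing 𝒪] [IsDomain 𝒪] [IsDiscreteValuationRing 𝒪]
  [IsAdicComplete (maximalIdeal 𝒪) 𝒪]
  {ρbar : ResidualGaloisRep (ResidueField 𝒪)}

/-- **E6-MOD, the residual (modular) input of E6**: for every Taylor–Wiles set, every deformation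
ring at that set and every LABELLED ring side `(π, g)` (helper22 `GE2/DeltaQData`) there is a
module side with the full exponents `E j = v_p(qv j − 1)`. -/
def ModSideStmt (p : ℕ) (S : Finset ℕ) (𝒟 : Finset ℕ → DefCondE 𝒪)
    (D0 : DeformationRingData 𝒪 ρbar (𝒟 ∅)) {T : Type} [CommRing T] [Algebra 𝒪 T]
    (φ0 : D0.R →ₐ[𝒪] T) (M : Type) [AddCommGroup M] [Module 𝒪 M] [Module T M] : Prop :=
  ∀ (r n : ℕ) (qv : Fin r → ℕ), Injective qv →
    (∀ i, (qv i).Prime ∧ qv i ∉ S ∧ p ^ (n + 1) ∣ qv i - 1) →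
    ∀ (DQ : DeformationRingData 𝒪 ρbar (𝒟 (Finset.univ.image qv)))
      (P : Fin r → ValuationSubring Qb) (φ : Fin r → GQ) (α β : Fin r → ResidueField 𝒪)
      (τ : Fin r → GQ),
      (∀ j, (P j).LiesOverPrime (qv j)) → (∀ j, (P j).IsFrobeniusAt (φ j) (qv j)) →
      (∀ j, α j ≠ β j ∧
        LinearMap.charpoly (ρbar.ρ (φ j)) = (X - C (α j)) * (X - C (β j))) →
      (∀ j, IsTameGenerator (P j) p (τ j)) →
      ∀ (π : DQ.R →ₐ[𝒪] D0.R) (hπ : IsLocalHom (π : DQ.R →+* D0.R)) (g : Fin r → (DQ.R)ˣ),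
        Surjective π →
        RingHom.ker (π : DQ.R →+* D0.R) = Ideal.span (Set.range fun j => (g j : DQ.R) - 1) →
        (DQ.ρ.baseChangeAlong (π : DQ.R →+* D0.R) hπ).IsEquiv D0.ρ →
        (∀ j, LabelledAt DQ.ρ (ResidueField.map (algebraMap 𝒪 DQ.R)) (P j) (φ j) (τ j)
          (α j) (β j) (g j)) →
        ∃ E : Fin r → ℕ, (∀ j, ∃ m : ℕ, qv j = p ^ E j * m + 1 ∧ ¬ p ∣ m) ∧
          Nonempty (@ModSideData 𝒪 _ p r E M _ _ D0.R _ _ (Module.compHom M (φ0 : D0.R →+* T))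
            DQ.R _ _ (fun j => (g j : DQ.R)) π)

/-- **ring side ∧ module side ⟹ Taylor–Wiles data of every depth.**  `hring` is the conclusion of
`GE6/Inst/Ring.ringSide_FL/SO`, `hdelta` the conclusion of
`GE2/DeltaQData.exists_augQuot_units_FL_data/_SO_data`. -/
theorem twLevelsEStmt_of_sides {p : ℕ} [Fact p.Prime] (hp𝒪 : (p : 𝒪) ∈ maximalIdeal 𝒪)
    (S : Finset ℕ) (𝒟 : Finset ℕ → DefCondE 𝒪)
    (D0 : DeformationRingData 𝒪 ρbar (𝒟 ∅)) {T : Type} [CommRing T] [Algebra 𝒪 T]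
    (φ0 : D0.R →ₐ[𝒪] T) (M : Type) [AddCommGroup M] [Module 𝒪 M] [Module T M]
    (hring : ∃ r : ℕ, ∀ n : ℕ, ∃ qv : Fin r → ℕ, Injective qv ∧
      (∀ i, (qv i).Prime ∧ qv i ∉ S ∧ p ^ (n + 1) ∣ qv i - 1) ∧
      (∀ i, ∀ P : ValuationSubring Qb, P.LiesOverPrime (qv i) →
        ∀ φ : GQ, P.IsFrobeniusAt φ (qv i) →
          ∃ α β : ResidueField 𝒪, α ≠ β ∧
            LinearMap.charpoly (ρbar.ρ φ) = (X - C α) * (X - C β)) ∧
      Nonempty (DeformationRingData 𝒪 ρbar (𝒟 (Finset.univ.image qv))) ∧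
      ∀ DQ : DeformationRingData 𝒪 ρbar (𝒟 (Finset.univ.image qv)),
        ∃ γ : MvPowerSeries (Fin r) 𝒪 →ₐ[𝒪] DQ.R, Surjective γ)
    (hdelta : ∀ {r : ℕ} (n : ℕ) (qv : Fin r → ℕ),
      (∀ i, (qv i).Prime ∧ qv i ∉ S ∧ p ^ (n + 1) ∣ qv i - 1) →
      ∀ (DQ : DeformationRingData 𝒪 ρbar (𝒟 (Finset.univ.image qv)))
        (P : Fin r → ValuationSubring Qb), (∀ j, (P j).LiesOverPrime (qv j)) →
        ∀ φ : Fin r → GQ, (∀ j, (P j).IsFrobeniusAt (φ j) (qv j)) →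
        ∀ α β : Fin r → ResidueField 𝒪, (∀ j, α j ≠ β j ∧
          LinearMap.charpoly (ρbar.ρ (φ j)) = (X - C (α j)) * (X - C (β j))) →
        ∀ τ : Fin r → GQ, (∀ j, IsTameGenerator (P j) p (τ j)) →
        ∃ (π : DQ.R →ₐ[𝒪] D0.R) (hπ : IsLocalHom (π : DQ.R →+* D0.R)) (g : Fin r → (DQ.R)ˣ),
          Surjective π ∧
          RingHom.ker (π : DQ.R →+* D0.R) =
            Ideal.span (Set.range fun j => (g j : DQ.R) - 1) ∧
          (DQ.ρ.baseChangeAlong (π : DQ.R →+* D0.R) hπ).IsEquiv D0.ρ ∧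
          (∀ j, (g j : DQ.R) - 1 ∈ maximalIdeal DQ.R) ∧
          (∀ j, ∀ a m : ℕ, qv j = p ^ a * m + 1 → ¬ p ∣ m → g j ^ p ^ a = 1) ∧
          (∀ j, π (g j : DQ.R) = 1) ∧
          (∀ j, LabelledAt DQ.ρ (ResidueField.map (algebraMap 𝒪 DQ.R)) (P j) (φ j) (τ j)
            (α j) (β j) (g j)))
    (hmod : ModSideStmt p S 𝒟 D0 φ0 M) : TWLevelsEStmt p D0 φ0 M := by
  have hp : p.Prime := Fact.out
  letI : Module D0.R M := Module.compHom M (φ0 : D0.R →+* T)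
  obtain ⟨r, hr⟩ := hring
  refine ⟨r, fun n => ?_⟩
  obtain ⟨qv, hinj, hqv, hfrob, ⟨DQ⟩, hγ⟩ := hr n
  obtain ⟨γ, hγs⟩ := hγ DQ
  -- the labels
  have hP : ∀ j, ∃ P : ValuationSubring Qb, P.LiesOverPrime (qv j) := fun j =>
    Fermat.Agent.Common_helper32.exists_liesOverPrime (qv j) (hqv j).1
  choose P hP using hP
  have hφ : ∀ j, ∃ φ : GQ, (P j).IsFrobeniusAt φ (qv j) := fun j =>
    Fermat.Agent.Common_helper32.exists_isFrobeniusAt_of_liesOver (P j) (qv j) (hqv j).1 (hP j)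
  choose φ hφ using hφ
  have hab : ∀ j, ∃ α β : ResidueField 𝒪, α ≠ β ∧
      LinearMap.charpoly (ρbar.ρ (φ j)) = (X - C α) * (X - C β) := fun j =>
    hfrob j (P j) (hP j) (φ j) (hφ j)
  choose α β hαβ using hab
  have hτ : ∀ j, ∃ τ : GQ, IsTameGenerator (P j) p τ := fun j =>
    exists_isTameGenerator (P j) (hqv j).1 (hP j) p
      (ne_of_pow_dvd_sub_one hp (hqv j).1 (hqv j).2.2)
  choose τ hτ using hτ
  -- the labelled ring side
  obtain ⟨π, hπ, g, hπs, hker, hπρ, hg𝔪, hgpow, -, hlab⟩ :=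
    hdelta n qv hqv DQ P hP φ hφ α β hαβ τ hτ
  -- the module side
  obtain ⟨E, hE, ⟨X⟩⟩ :=
    hmod r n qv hinj hqv DQ P φ α β τ hP hφ hαβ hτ π hπ g hπs hker hπρ hlab
  refine ⟨E, fun j => ?_, ⟨X.twDepthE hp hp𝒪 γ hγs hg𝔪 hπs hker fun j => ?_⟩⟩
  · obtain ⟨m, hm1, hm2⟩ := hE j
    exact (lt_of_pow_dvd_of_eq hp (hqv j).2.2 hm1 hm2).le
  · obtain ⟨m, hm1, hm2⟩ := hE j
    have h1 := hgpow j (E j) m hm1 hm2
    have h2 : ((g j ^ p ^ E j : (DQ.R)ˣ) : DQ.R) = 1 := by rw [h1, Units.val_one]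
    rwa [Units.val_pow_eq_pow_val] at h2

variable [Finite (ResidueField 𝒪)]

/-- **E6 for the flat problem**: `hring` = the conclusion of `GE6/Inst/Ring.ringSide_FL` verbatim. -/
theorem twLevelsEStmt_FL {p : ℕ} [Fact p.Prime] (hp𝒪 : (p : 𝒪) ∈ maximalIdeal 𝒪)
    (S Smin : Finset ℕ) (hpSmin : p ∈ Smin) (hSmin : Smin ⊆ S)
    (hmin : ∀ q : ℕ, q.Prime → q ≠ p → (q ∈ Smin ↔ ¬ ρbar.IsUnramifiedAt q))
    (D0 : DeformationRingData 𝒪 ρbar (condFL 𝒪 p Smin ∅)) {T : Type} [CommRing T] [Algebra 𝒪 T]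
    (φ0 : D0.R →ₐ[𝒪] T) (M : Type) [AddCommGroup M] [Module 𝒪 M] [Module T M]
    (hring : ∃ r : ℕ, ∀ n : ℕ, ∃ qv : Fin r → ℕ, Injective qv ∧
      (∀ i, (qv i).Prime ∧ qv i ∉ S ∧ p ^ (n + 1) ∣ qv i - 1) ∧
      (∀ i, ∀ P : ValuationSubring Qb, P.LiesOverPrime (qv i) →
        ∀ φ : GQ, P.IsFrobeniusAt φ (qv i) →
          ∃ α β : ResidueField 𝒪, α ≠ β ∧
            LinearMap.charpoly (ρbar.ρ φ) = (X - C α) * (X - C β)) ∧
      Nonempty (DeformationRingData 𝒪 ρbar (condFL 𝒪 p Smin (Finset.univ.image qv))) ∧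
      ∀ DQ : DeformationRingData 𝒪 ρbar (condFL 𝒪 p Smin (Finset.univ.image qv)),
        ∃ γ : MvPowerSeries (Fin r) 𝒪 →ₐ[𝒪] DQ.R, Surjective γ)
    (hmod : ModSideStmt p S (condFL 𝒪 p Smin) D0 φ0 M) : TWLevelsEStmt p D0 φ0 M :=
  twLevelsEStmt_of_sides hp𝒪 S (condFL 𝒪 p Smin) D0 φ0 M hring
    (fun n qv hqv DQ P hP φ hφ α β hαβ τ hτ =>
      exists_augQuot_units_FL_data S Smin hpSmin hSmin hmin n qv hqv D0 DQ P hP φ hφ α β hαβ τ hτ)
    hmod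

/-- **E6 for the strict-ordinary problem**: `hring` = the conclusion of
`GE6/Inst/Ring.ringSide_SO` verbatim. -/
theorem twLevelsEStmt_SO {p : ℕ} [Fact p.Prime] (hp2 : p ≠ 2) (hp𝒪 : (p : 𝒪) ∈ maximalIdeal 𝒪)
    (S Smin : Finset ℕ) (hpSmin : p ∈ Smin) (hSmin : Smin ⊆ S)
    (hmin : ∀ q : ℕ, q.Prime → q ≠ p → (q ∈ Smin ↔ ¬ ρbar.IsUnramifiedAt q))
    (D0 : DeformationRingData 𝒪 ρbar (condSO 𝒪 p Smin ∅)) {T : Type} [CommRing T] [Algebra 𝒪 T]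
    (φ0 : D0.R →ₐ[𝒪] T) (M : Type) [AddCommGroup M] [Module 𝒪 M] [Module T M]
    (hring : ∃ r : ℕ, ∀ n : ℕ, ∃ qv : Fin r → ℕ, Injective qv ∧
      (∀ i, (qv i).Prime ∧ qv i ∉ S ∧ p ^ (n + 1) ∣ qv i - 1) ∧
      (∀ i, ∀ P : ValuationSubring Qb, P.LiesOverPrime (qv i) →
        ∀ φ : GQ, P.IsFrobeniusAt φ (qv i) →
          ∃ α β : ResidueField 𝒪, α ≠ β ∧
            LinearMap.charpoly (ρbar.ρ φ) = (X - C α) * (X - C β)) ∧
      Nonempty (DeformationRingData 𝒪 ρbar (condSO 𝒪 p Smin (Finset.univ.image qv))) ∧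
      ∀ DQ : DeformationRingData 𝒪 ρbar (condSO 𝒪 p Smin (Finset.univ.image qv)),
        ∃ γ : MvPowerSeries (Fin r) 𝒪 →ₐ[𝒪] DQ.R, Surjective γ)
    (hmod : ModSideStmt p S (condSO 𝒪 p Smin) D0 φ0 M) : TWLevelsEStmt p D0 φ0 M :=
  twLevelsEStmt_of_sides hp𝒪 S (condSO 𝒪 p Smin) D0 φ0 M hring
    (fun n qv hqv DQ P hP φ hφ α β hαβ τ hτ =>
      exists_augQuot_units_SO_data hp2 S Smin hpSmin hSmin hmin n qv hqv D0 DQ P hP φ hφ α β hαβ
        τ hτ)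
    hmod

end Stmt

end Fermat.Agent.GE6.Inst.ModSide
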