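import Fermat.Agent.GE6.Inst.Wire
import Fermat.Agent.GE6.Inst.PiSemilin
import Fermat.Agent.GB.Def.Cond.FL
import Fermat.Agent.GB.Def.CondStrictPkg

/-!
# GATE-E / E6 node N8b NodeProof, layer 1 (helper72): `Wire.NodeStmt` from a RECORD at every `Q`

`Wire.NodeStmt P hp3 𝒟 D₀ φ₀ L eL` has two clauses, (UNIT) and (SEMILIN).  This file DISCHARGES
(SEMILIN) by helper12's `PiSemilin.semilin_of_frob` and reduces `NodeStmt` to ONE record at every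
Taylor–Wiles set `Q` (`RecordAt`, a structure; `RecordStmt`): a LOCAL `T_Q`, `a : T_Q →ₐ End (twE …).L1.M`,
`ψ : DQ.R →ₐ T_Q` local with `ρ^univ_Q ⊗_ψ ≅ ρ_Q`, a finite set `BQ` of bad primes and
`tQ : ℕ → T_Q` with

* (ES)   `charpoly ρ_Q(Frob_ℓ) = X² − tQ ℓ · X + ℓ` for the primes `ℓ ∉ BQ`;
* (GEN)  the `tQ ℓ`, `ℓ ∉ BQ`, generate `T_Q` as an `𝒪`-algebra;
* (PI)   for `ℓ ∉ BQ` there is a GOOD symbol `s` of `Q` with prime `ℓ` and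
         `L1.π (a (tQ ℓ) m) = L1.π (L1.act (X (inl s)) m)` (the diamond twist dies in the
         coinvariants);
* (UNIT) the clause of `NodeStmt`, verbatim.

Base side (N7, helper64/helper67/helper12): `T₀` complete noetherian local, `L` a FAITHFUL
`T₀`-module, `eL : Mbase P ≃ₗ L` with `eL (actBase P (X s) y) = t₀ (pr s) • eL y`, and the
Eichler–Shimura relation of `ρ_{T₀}` with the SAME `t₀`.

* `htQ_of_pi` : the Hecke compatibility of `πM = eL ∘ e₀ ∘ L1.π` on the generators;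
* **`nodeStmt_of_recordStmt`** : `RecordStmt ⟹ NodeStmt` (any family `𝒟` of deformation
  conditions);
* `nodeStmt_FL_of_recordStmt`, `nodeStmt_SO_of_recordStmt` : the two engine problems.
-/

set_option autoImplicit false
set_option linter.unusedSectionVars false
set_option linter.unusedVariables false
set_option linter.style.haveILetI false

open scoped MatrixGroups
open CongruenceSubgroup

namespace Fermat.Agent.GE6.Inst.NodeProof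

open IsLocalRing Function Polynomial GaloisRep
open Fermat.Agent.GB.B3 Fermat.Agent.GB.B3.TWLevel Fermat.Agent.GB.B3.RealLevel
  Fermat.Agent.GB.B3.HeckeActH Fermat.Agent.GB.B3.TWChars Fermat.Agent.GB.B3.FinalTW
  Fermat.Agent.GB.B3.Final Fermat.Agent.GB.B3.Tower
  Fermat.Agent.GB.B8.LevelIter Fermat.Agent.GB.B8.LevelGen
  Fermat.Agent.GE6.Inst.BaseIndep Fermat.Agent.GE6.Inst.MapBase
  Fermat.Agent.GE6.Inst.FreeLevelInst Fermat.Agent.GE6.Inst.FreeLevelTw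
  Fermat.Agent.GE6.Inst.ModSide Fermat.Agent.GE6.Inst.Wire
  Fermat.Agent.GE.Graph Fermat.Agent.GE2.DeltaQData Fermat.Agent.GB.E2.TameGenAdic
open WeierstrassCurve WeierstrassCurve.Affine.Point
open Fermat.Agent.GB.Setup.SetupPkg Fermat.Agent.GB.B9.ProviderFlat.G1
  Fermat.Agent.GB.B9.ProviderFlat.H1

/-- `ℚ̄`. -/
local notation "Qb" => AlgebraicClosure ℚ
/-- `G_ℚ`. -/
local notation "GQ" => (AlgebraicClosure ℚ ≃ₐ[ℚ] AlgebraicClosure ℚ)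

variable {p : ℕ} [hpF : Fact p.Prime] {W : WeierstrassCurve ℤ}
  {hcard₁ : Nat.card (Submodule.torsionBy ℤ
    ((W.map (Int.castRingHom ℚ)).toAffine.baseChange (AlgebraicClosure ℚ)).Point p) = p ^ 2}
  {hker : GaloisFactorsThroughFiniteLevel
    (WeierstrassCurve.Affine.Point.galoisRepModuleEnd (K := AlgebraicClosure ℚ) ℚ
      (W.map (Int.castRingHom ℚ)) p)}
  {M A : ℕ} (P : Pkg p W hcard₁ hker M A)

/-! ### the record at every Taylor–Wiles set -/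

section RecordAbs

variable {𝒪 : Type} [CommRing 𝒪] [IsDomain 𝒪] [IsDiscreteValuationRing 𝒪]
  [IsAdicComplete (maximalIdeal 𝒪) 𝒪]
  {𝕋 : Type} [CommRing 𝕋] [Algebra 𝒪 𝕋]
  {M0 : Type} [AddCommGroup M0] [Module 𝒪 M0] {act0 : 𝕋 →ₐ[𝒪] Module.End 𝒪 M0}
  {k : ℕ} {N : Fin k → ℕ}

/-- **the record at one Taylor–Wiles set** = N4 (MODQ: `T_Q, a, ψ, ρ_Q`, (ES), (GEN), (PI)) +
N5 (UNIT), for a GATE-B level `F`, good symbols `sym : ι₁ → 𝕋` of primes `pr : ι₁ → ℕ`, a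
deformation ring `DQ` and units `g`.  (A STRUCTURE over an ABSTRACT level on purpose: destructuring
a long `∃` over `(twE …).L1` takes minutes.) -/
structure RecordAt (F : FreeLevel 𝒪 𝕋 M0 act0 k N) (ι₁ : Type) (pr : ι₁ → ℕ) (sym : ι₁ → 𝕋)
    {ρbar : ResidualGaloisRep (ResidueField 𝒪)} {𝒟Q : DefCondE 𝒪}
    (DQ : DeformationRingData 𝒪 ρbar 𝒟Q) (g : Fin k → (DQ.R)ˣ) : Type 1 where
  /-- the Hecke ring `T_Q` -/
  TQ : Type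
  [instCommRing : CommRing TQ]
  [instLocal : IsLocalRing TQ]
  [instAlgebra : Algebra 𝒪 TQ]
  /-- its action on `M_Q` -/
  a : TQ →ₐ[𝒪] Module.End 𝒪 F.M
  /-- `R_Q → T_Q` -/
  ψ : DQ.R →ₐ[𝒪] TQ
  hψ : IsLocalHom (ψ : DQ.R →+* TQ)
  /-- the Galois representation over `T_Q` -/
  ρQ : GaloisRepAdic TQ
  /-- the bad primes -/
  BQ : Finset ℕ
  /-- the Hecke operators `T_ℓ ∈ T_Q` -/
  tQ : ℕ → TQ
  /-- `ρ^univ_Q ⊗_ψ ≅ ρ_Q` -/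
  hQρ : (DQ.ρ.baseChangeAlong (ψ : DQ.R →+* TQ) hψ).IsEquiv ρQ
  /-- (ES) -/
  hES : ∀ ℓ : ℕ, ℓ.Prime → ℓ ∉ BQ → ∀ Pℓ : ValuationSubring Qb, Pℓ.LiesOverPrime ℓ →
    ∀ σ : GQ, Pℓ.IsFrobeniusAt σ ℓ →
      LinearMap.charpoly (ρQ.ρ σ) = X ^ 2 - C (tQ ℓ) * X + C ((ℓ : ℕ) : TQ)
  /-- (GEN) -/
  hGEN : Algebra.adjoin 𝒪 {x : TQ | ∃ ℓ : ℕ, ℓ.Prime ∧ ℓ ∉ BQ ∧ x = tQ ℓ} = ⊤
  /-- (PI): the diamond twist dies in the coinvariants -/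
  hPI : ∀ ℓ : ℕ, ℓ.Prime → ℓ ∉ BQ → ∃ s : ι₁, pr s = ℓ ∧
    ∀ m : F.M, F.π (a (tQ ℓ) m) = F.π (F.act (sym s) m)
  /-- (UNIT) -/
  hUNIT : ∀ (j : Fin k) (m : F.M), ∃ m' : F.M, F.D j m - m = a (ψ (g j : DQ.R)) m' - m'

attribute [instance] RecordAt.instCommRing RecordAt.instLocal RecordAt.instAlgebra

end RecordAbs

section Record

/-- **the record at every Taylor–Wiles set** — `Wire.NodeStmt` minus (SEMILIN). -/
def RecordStmt (hp3 : p ≠ 3) (𝒟 : Finset ℕ → DefCondE P.O)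
    (D0 : DeformationRingData P.O P.rhobar (𝒟 ∅)) : Prop :=
  ∀ (r n : ℕ) (Q : TWSet P r n) (E : Fin r → ℕ) (hE : ∀ j, p ^ E j ∣ Q.qv j - 1),
    (∀ j, ∃ m : ℕ, Q.qv j = p ^ E j * m + 1 ∧ ¬ p ∣ m) →
    ∀ (c : Fin 0 → P.O) (hc : ∀ v : Fin 0, c v ^ p ^ eRev E (0 + r - 1 - v) = 1)
      (hc1 : ∀ v, (1 : P.O) - c v ∈ Ideal.span {P.ϖ})
      (DQ : DeformationRingData P.O P.rhobar (𝒟 (Finset.univ.image Q.qv)))
      (Pl : Fin r → ValuationSubring Qb) (φ : Fin r → GQ) (τ : Fin r → GQ),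
      (∀ j, (Pl j).LiesOverPrime (Q.qv j)) → (∀ j, (Pl j).IsFrobeniusAt (φ j) (Q.qv j)) →
      (∀ j, LinearMap.charpoly (P.rhobar.ρ (φ j)) = (X - C (Q.al j)) * (X - C (Q.be j))) →
      (∀ j, IsTameGenerator (Pl j) p (τ j)) →
      ∀ (π : DQ.R →ₐ[P.O] D0.R) (hπ : IsLocalHom (π : DQ.R →+* D0.R)) (g : Fin r → (DQ.R)ˣ),
        Surjective π →
        RingHom.ker (π : DQ.R →+* D0.R) = Ideal.span (Set.range fun j => (g j : DQ.R) - 1) →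
        (DQ.ρ.baseChangeAlong (π : DQ.R →+* D0.R) hπ).IsEquiv D0.ρ →
        (∀ j, LabelledAt DQ.ρ (ResidueField.map (algebraMap P.O DQ.R)) (Pl j) (φ j) (τ j)
          (Q.al j) (Q.be j) (g j)) →
        Nonempty (RecordAt (twE Q hp3 E hE c hc hc1).L1 Q.Sy.ι₁ Q.Sy.ℓ
          (fun s => (MvPolynomial.X (Sum.inl s) : Q.Sy.𝕋 P.O)) DQ g)

end Record

/-! ### the Hecke compatibility of `πM = eL ∘ e₀ ∘ L1.π` on the generators -/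

section Compat

variable {P} {g n : ℕ} (Q : TWSet P g n)
  (hp3 : p ≠ 3) (E : Fin g → ℕ) (hE : ∀ j, p ^ E j ∣ Q.qv j - 1)
  (c : Fin 0 → P.O) (hc : ∀ v : Fin 0, c v ^ p ^ eRev E (0 + g - 1 - v) = 1)
  (hc1 : ∀ v, (1 : P.O) - c v ∈ Ideal.span {P.ϖ})
  (ρs : Q.Sy.𝕋 P.O →ₐ[P.O] Q.Sy.𝕋 P.O)
  (e0 : M0 Q.Sy Q.𝔪 (Δs p (eRev E)) (primeDataE Q E hE).psi ≃ₗ[P.O] Mbase P)
  (he : ∀ t y, e0 (act0 Q.Sy Q.𝔪 (Δs p (eRev E)) (primeDataE Q E hE).psi t y)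
    = actQ Q ρs t (e0 y))
  (hρs : ∀ s, s ∉ Q.Qset → ρs (MvPolynomial.X s) = MvPolynomial.X s)
  {T : Type} [CommRing T] [Algebra P.O T]
  {L : Type} [AddCommGroup L] [Module P.O L] [Module T L] (eL : Mbase P ≃ₗ[P.O] L)
  (t0 : ℕ → T)
  (hcompat : ∀ (s : I0 W p M) (y : Mbase P),
    eL (actBase P (MvPolynomial.X s) y) = t0 s.1 • eL y)

include he hρs hcompat in
/-- a good symbol of `Q` acts on `L` through `t₀` of its prime. -/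
theorem eL_e0_π_act (s : Q.Sy.ι₁) (m : (twE Q hp3 E hE c hc hc1).L1.M) :
    eL (e0 ((twE Q hp3 E hE c hc hc1).L1.π
        ((twE Q hp3 E hE c hc hc1).L1.act (MvPolynomial.X (Sum.inl s)) m)))
      = t0 (Q.Sy.ℓ s) • eL (e0 ((twE Q hp3 E hE c hc hc1).L1.π m)) := by
  have hs : (Sum.inl s : Q.Sy.ι₁ ⊕ Q.Sy.ι₂) ∉ Q.Qset := by
    intro h
    obtain ⟨j, hj⟩ := Q.mem_Qset.mp h
    exact Sum.inl_ne_inr hj
  rw [(twE Q hp3 E hE c hc hc1).L1.π_act, he, actQ_X Q ρs (hρs _ hs), hcompat]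
  rfl

end Compat

/-! ### `RecordStmt ⟹ NodeStmt` -/

section Main

variable {T : Type} [CommRing T] [IsLocalRing T] [IsNoetherianRing T]
  [IsAdicComplete (maximalIdeal T) T] [Algebra P.O T]

set_option maxHeartbeats 3200000 in
/-- **N8b, layer 1**: the record at every Taylor–Wiles set gives `Wire.NodeStmt`; (SEMILIN) is
helper12's `PiSemilin.semilin_of_frob`. -/
theorem nodeStmt_of_recordStmt (hp3 : p ≠ 3) (𝒟 : Finset ℕ → DefCondE P.O)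
    (h𝒟 : ∀ Sig : Finset ℕ, IsDeformationCondition P.O (𝒟 Sig))
    (D0 : DeformationRingData P.O P.rhobar (𝒟 ∅)) (φ0 : D0.R →ₐ[P.O] T)
    (hlocT : IsLocalHom (algebraMap P.O T))
    (hresT : Surjective (IsLocalRing.residue T ∘ algebraMap P.O T))
    (hφ0 : IsLocalHom (φ0 : D0.R →+* T)) (ρT : GaloisRepAdic T)
    (h0ρ : (D0.ρ.baseChangeAlong (φ0 : D0.R →+* T) hφ0).IsEquiv ρT)
    (B0 : Finset ℕ) (t0 : ℕ → T)
    (h0 : ∀ ℓ : ℕ, ℓ.Prime → ℓ ∉ B0 → ∀ Pℓ : ValuationSubring Qb, Pℓ.LiesOverPrime ℓ →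
      ∀ σ : GQ, Pℓ.IsFrobeniusAt σ ℓ →
        LinearMap.charpoly (ρT.ρ σ) = X ^ 2 - C (t0 ℓ) * X + C ((ℓ : ℕ) : T))
    (L : Type) [AddCommGroup L] [Module P.O L] [Module T L] [IsScalarTower P.O T L]
    (hfaith : ∀ u : T, (∀ y : L, u • y = 0) → u = 0)
    (eL : Mbase P ≃ₗ[P.O] L)
    (hcompat : ∀ (s : I0 W p M) (y : Mbase P),
      eL (actBase P (MvPolynomial.X s) y) = t0 s.1 • eL y)
    (hrec : RecordStmt P hp3 𝒟 D0) :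
    NodeStmt P hp3 𝒟 D0 φ0 L eL := by
  intro r n Q E hE hEfull c hc hc1 ρs e0 he hρs hlam DQ Pl φ τ hP hφ hchar hτ π hπ g hπs hker
    hπρ hlab
  obtain ⟨Rc⟩ :=
    hrec r n Q E hE hEfull c hc hc1 DQ Pl φ τ hP hφ hchar hτ π hπ g hπs hker hπρ hlab
  refine ⟨Rc.TQ, _, _, Rc.a, Rc.ψ, Rc.hUNIT, fun y m => ?_⟩
  -- `πM = eL ∘ e₀ ∘ L1.π`
  let πM : (twE Q hp3 E hE c hc hc1).L1.M →ₗ[P.O] L :=
    (eL : Mbase P →ₗ[P.O] L).comp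
      ((e0 : _ →ₗ[P.O] Mbase P).comp (twE Q hp3 E hE c hc hc1).L1.π)
  have hπM : Surjective πM := by
    intro z
    obtain ⟨x, hx⟩ := (twE Q hp3 E hE c hc hc1).L1.π_surjective (e0.symm (eL.symm z))
    refine ⟨x, ?_⟩
    show eL (e0 ((twE Q hp3 E hE c hc hc1).L1.π x)) = z
    rw [hx, LinearEquiv.apply_symm_apply, LinearEquiv.apply_symm_apply]
  -- Hecke compatibility on the generators
  have htQ : ∀ ℓ : ℕ, ℓ.Prime → ℓ ∉ Rc.BQ → ∀ m, πM (Rc.a (Rc.tQ ℓ) m) = t0 ℓ • πM m := by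
    intro ℓ hℓ hℓB m
    obtain ⟨s, hs, hsm⟩ := Rc.hPI ℓ hℓ hℓB
    show eL (e0 ((twE Q hp3 E hE c hc hc1).L1.π (Rc.a (Rc.tQ ℓ) m)))
      = t0 ℓ • eL (e0 ((twE Q hp3 E hE c hc hc1).L1.π m))
    rw [hsm m, eL_e0_π_act Q hp3 E hE c hc hc1 ρs e0 he hρs eL t0 hcompat s m, hs]
  exact Fermat.Agent.GE6.Inst.PiSemilin.semilin_of_frob D0 DQ (h𝒟 _) hlocT hresT π hπ hπρ φ0 hφ0
    ρT h0ρ Rc.ψ Rc.hψ Rc.ρQ Rc.hQρ Rc.a hfaith πM hπM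
    {x : Rc.TQ | ∃ ℓ : ℕ, ℓ.Prime ∧ ℓ ∉ Rc.BQ ∧ x = Rc.tQ ℓ} Rc.hGEN
    (fun x hx => by
      obtain ⟨ℓ, hℓ, hℓB, rfl⟩ := hx
      exact ⟨t0 ℓ, htQ ℓ hℓ hℓB⟩)
    (B0 ∪ Rc.BQ) Rc.tQ t0
    (fun ℓ hℓ hℓB m => htQ ℓ hℓ (fun h => hℓB (Finset.mem_union_right _ h)) m)
    (fun ℓ hℓ hℓB Pℓ hPℓ σ hσ =>
      Rc.hES ℓ hℓ (fun h => hℓB (Finset.mem_union_right _ h)) Pℓ hPℓ σ hσ)
    (fun ℓ hℓ hℓB Pℓ hPℓ σ hσ =>
      h0 ℓ hℓ (fun h => hℓB (Finset.mem_union_left _ h)) Pℓ hPℓ σ hσ)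
    y m

/-- **N8b, layer 1, flat problem.** -/
theorem nodeStmt_FL_of_recordStmt (hp3 : p ≠ 3)
    (D0 : DeformationRingData P.O P.rhobar (condFL P.O p P.Smin ∅)) (φ0 : D0.R →ₐ[P.O] T)
    (hlocT : IsLocalHom (algebraMap P.O T))
    (hresT : Surjective (IsLocalRing.residue T ∘ algebraMap P.O T))
    (hφ0 : IsLocalHom (φ0 : D0.R →+* T)) (ρT : GaloisRepAdic T)
    (h0ρ : (D0.ρ.baseChangeAlong (φ0 : D0.R →+* T) hφ0).IsEquiv ρT)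
    (B0 : Finset ℕ) (t0 : ℕ → T)
    (h0 : ∀ ℓ : ℕ, ℓ.Prime → ℓ ∉ B0 → ∀ Pℓ : ValuationSubring Qb, Pℓ.LiesOverPrime ℓ →
      ∀ σ : GQ, Pℓ.IsFrobeniusAt σ ℓ →
        LinearMap.charpoly (ρT.ρ σ) = X ^ 2 - C (t0 ℓ) * X + C ((ℓ : ℕ) : T))
    (L : Type) [AddCommGroup L] [Module P.O L] [Module T L] [IsScalarTower P.O T L]
    (hfaith : ∀ u : T, (∀ y : L, u • y = 0) → u = 0)
    (eL : Mbase P ≃ₗ[P.O] L)
    (hcompat : ∀ (s : I0 W p M) (y : Mbase P),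
      eL (actBase P (MvPolynomial.X s) y) = t0 s.1 • eL y)
    (hrec : RecordStmt P hp3 (condFL P.O p P.Smin) D0) :
    NodeStmt P hp3 (condFL P.O p P.Smin) D0 φ0 L eL :=
  nodeStmt_of_recordStmt P hp3 (condFL P.O p P.Smin)
    (fun Sig => Fermat.Agent.GB.Def.Cond.isDeformationCondition_FL P.O p (P.Smin ∪ Sig) P.Smin)
    D0 φ0 hlocT hresT hφ0 ρT h0ρ B0 t0 h0 L hfaith eL hcompat hrec

/-- **N8b, layer 1, strict-ordinary problem.** -/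
theorem nodeStmt_SO_of_recordStmt (hp3 : p ≠ 3)
    (D0 : DeformationRingData P.O P.rhobar (condSO P.O p P.Smin ∅)) (φ0 : D0.R →ₐ[P.O] T)
    (hlocT : IsLocalHom (algebraMap P.O T))
    (hresT : Surjective (IsLocalRing.residue T ∘ algebraMap P.O T))
    (hφ0 : IsLocalHom (φ0 : D0.R →+* T)) (ρT : GaloisRepAdic T)
    (h0ρ : (D0.ρ.baseChangeAlong (φ0 : D0.R →+* T) hφ0).IsEquiv ρT)
    (B0 : Finset ℕ) (t0 : ℕ → T)
    (h0 : ∀ ℓ : ℕ, ℓ.Prime → ℓ ∉ B0 → ∀ Pℓ : ValuationSubring Qb, Pℓ.LiesOverPrime ℓ →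
      ∀ σ : GQ, Pℓ.IsFrobeniusAt σ ℓ →
        LinearMap.charpoly (ρT.ρ σ) = X ^ 2 - C (t0 ℓ) * X + C ((ℓ : ℕ) : T))
    (L : Type) [AddCommGroup L] [Module P.O L] [Module T L] [IsScalarTower P.O T L]
    (hfaith : ∀ u : T, (∀ y : L, u • y = 0) → u = 0)
    (eL : Mbase P ≃ₗ[P.O] L)
    (hcompat : ∀ (s : I0 W p M) (y : Mbase P),
      eL (actBase P (MvPolynomial.X s) y) = t0 s.1 • eL y)
    (hrec : RecordStmt P hp3 (condSO P.O p P.Smin) D0) :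
    NodeStmt P hp3 (condSO P.O p P.Smin) D0 φ0 L eL :=
  nodeStmt_of_recordStmt P hp3 (condSO P.O p P.Smin)
    (fun Sig => Fermat.Agent.GB.Def.Cond.isDeformationCondition_SO P.O p P.hp2 (P.Smin ∪ Sig)
      P.Smin)
    D0 φ0 hlocT hresT hφ0 ρT h0ρ B0 t0 h0 L hfaith eL hcompat hrec

end Main

end Fermat.Agent.GE6.Inst.NodeProof
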