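/-
GATE-E / ENGINE-INST (helper49), node N5 (iv) UNIT of helper12's table (board 7604): **the field
`unit` of `ModSide.ModSideData` at the object of record `(FreeLevelTw.twE …).L1 = (FQ1 …).M`**,
`T_Q := G2.T … 0 g c …`, `a := G2.a₁ …`, `x j := ψ_Q (g j)`.

* `pow_eq_one_of_labelledAt` : a LABELLED unit at a Taylor–Wiles prime `q = p^a m + 1`, `p ∤ m`,
  satisfies `u ^ p^a = 1` (uniqueness of the labelled unit `GE2/LabelMap.labelledAt_unique` +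
  `GE2/DeltaQ.exists_tw_unit`) — so the hypothesis `hxpow` of `UnitInst.hunit_of_labelled` is free;
* `hunit_of_labelled'` : `UnitInst.hunit_of_labelled` WITHOUT `hxpow`;
* `h1_twE` : the binder `h1` ((1pt)) of `hunit_of_labelled` at `twE`, from `G4H1.h1_G2` (`s = 0`,
  left disjunct), in the binder spelling of helper6's `FlatFill.h1_twR`;
* **`hunit_twE`** : (UNIT) for the `DQ.R`-module structure `UnitInst.moduleOfHom (a₁E …) ψ` on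
  `(twE …).L1.M`: `∀ j m, ∃ m', L1.D j m - m = (gu j : DQ.R) • m' - m'` — the field
  `ModSideData.unit` VERBATIM (`F := FQ1 …`, `FQ1_M`, `FQ1_D` are `rfl`).  Binders: the G2 record
  (`twP hD hι dℓ hdℓ hnd hsym`, four instances), the G3 record over `T_Q` (`ψ hψl ρQ hequiv hρ hdet
  hres`), the labels and the labelled units of `ModSide.ModSideStmt`, and `hB5` (helper51
  `B5Gen.hB5_twE`, announced board 7486) in the shape of `UnitInst.hunit_of_labelled`.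
-/
import Fermat.Agent.GE6.Inst.UnitInst
import Fermat.Agent.GE6.Inst.FreeLevelTw
import Fermat.Agent.GB.B9.ProviderFlat.G2
import Fermat.Agent.GB.B9.ProviderFlat.G4H1
import Fermat.Agent.GB.B9.ProviderFlat.G4Pkg

set_option autoImplicit false
set_option linter.unusedSectionVars false
set_option linter.unusedVariables false
set_option linter.style.haveILetI false

open WeierstrassCurve WeierstrassCurve.Affine.Point IsLocalRing
open scoped WeierstrassCurve.Affine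
open scoped MatrixGroups
open CongruenceSubgroup ModularCurve.Period CuspForm Polynomial

namespace Fermat.Agent.GE6.Inst.UnitTwE

open Fermat.Agent.GM.B
open Fermat.Agent.GB.B3.HeckeActH Fermat.Agent.GB.B3.RealLevel Fermat.Agent.GB.B3.Tower
  Fermat.Agent.GB.B3.TWChars Fermat.Agent.GB.B3.FinalTW Fermat.Agent.GB.B3.Plug
  Fermat.Agent.GB.B3.TWLevel Fermat.Agent.GB.B3.GamH Fermat.Agent.GB.B3.ChiLevelMulti
  Fermat.Agent.GB.B3.Final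
open Fermat.Agent.GJ.J2.Lat
open Fermat.Agent.GB.B4.Datum.ImageRing Fermat.Agent.GB.B4.Datum.TQFields
open Fermat.Agent.GB.Setup.SetupPkg
open Fermat.Agent.GB.B9.ProviderFlat Fermat.Agent.GB.B9.ProviderFlat.G1
open Fermat.Agent.GB.E2.TWDiag Fermat.Agent.GB.E2.TameGenAdic Fermat.Agent.GB.Glue.Points
open Fermat.Agent.GE2.DeltaQData Fermat.Agent.GE2.LabelMap Fermat.Agent.GE2.DeltaQ
open Fermat.Agent.GE6.Inst.FreeLevelInst Fermat.Agent.GE6.Inst.FreeLevelTw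
open Fermat.Agent.GE6.Inst.UnitInst
open Fermat.Agent.Common_helper32

/-- local instance (Prop-valued class) -/
local instance factPrimeOffUE {S : Set ℕ} (l : PrimesOff S) : Fact (l.1 : ℕ).Prime := ⟨l.1.2⟩

/-- `ℚ̄`. -/
local notation "Qb" => AlgebraicClosure ℚ
/-- `G_ℚ`. -/
local notation "GQ" => (AlgebraicClosure ℚ ≃ₐ[ℚ] AlgebraicClosure ℚ)
/-- the character `Γ₀(N) → Δ` of a character of `(ℤ/N)ˣ`. -/
local notation "chiΓ" => Fermat.Agent.GB.B3.EisGamma0.chi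
/-- the structure map `A → T_Q`. -/
local notation "chiT" => Fermat.Agent.GB.B4.Datum.ImageRing.chi

/-! ### the `p`-power order of a labelled unit -/

section Pow

variable {A : Type} [CommRing A] [IsLocalRing A] [IsNoetherianRing A]
  [IsAdicComplete (maximalIdeal A) A] {k : Type} [Field k]

/-- **a labelled unit at a Taylor–Wiles prime has `p`-power order.** -/
theorem pow_eq_one_of_labelledAt (ρ : GaloisRepAdic A) (ψ : k →+* ResidueField A) {p q : ℕ}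
    (hp : p.Prime) (hq : q.Prime) (hpq : p ≠ q) (hdet : ρ.DetIsCyclotomic p)
    (hres : ρ.residual.IsUnramifiedAt q) (hq1 : (q : A) - 1 ∈ maximalIdeal A)
    (P : ValuationSubring Qb) (hP : P.LiesOverPrime q) {φ τ : GQ} (hφ : P.IsFrobeniusAt φ q)
    (hτ : IsTameGenerator P p τ) {α β : k} (hαβ : α ≠ β)
    (a₀ b₀ : A) (ha₀ : residue A a₀ = ψ α) (hb₀ : residue A b₀ = ψ β)
    (htr : LinearMap.trace A ρ.V (ρ.ρ φ) - (a₀ + b₀) ∈ maximalIdeal A)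
    (hd : LinearMap.det (ρ.ρ φ) - a₀ * b₀ ∈ maximalIdeal A) (hab : IsUnit (a₀ - b₀))
    {u : Aˣ} (hu : LabelledAt ρ ψ P φ τ α β u) :
    ∀ a m : ℕ, q = p ^ a * m + 1 → ¬ p ∣ m → u ^ p ^ a = 1 := by
  obtain ⟨B, χ, hχ, h0, h1, -, hpow, -⟩ :=
    exists_tw_unit ρ hp hq hpq hdet hres hq1 P hP hφ a₀ b₀ htr hd hab hτ
  have h' : LabelledAt ρ ψ P φ τ α β
      (χ 0 ⟨τ, inertia_le_decomposition P hτ.mem_inertia⟩) := by
    refine ⟨hφ.mem_decompositionSubgroup, inertia_le_decomposition P hτ.mem_inertia, B, χ, hχ,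
      ?_, ?_, rfl⟩
    · have h2 := (residue_eq_zero_iff _).mpr h0
      rw [map_sub, sub_eq_zero] at h2
      rw [h2, ha₀]
    · have h2 := (residue_eq_zero_iff _).mpr h1
      rw [map_sub, sub_eq_zero] at h2
      rw [h2, hb₀]
  have hEq : u = χ 0 ⟨τ, inertia_le_decomposition P hτ.mem_inertia⟩ :=
    labelledAt_unique hαβ h' hu
  rw [hEq]
  exact hpow

end Pow

/-! ### (UNIT) for labelled units, no `hxpow` -/

section Labelled

variable {O : Type} [CommRing O] [IsDomain O] [IsDiscreteValuationRing O]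
  [IsAdicComplete (maximalIdeal O) O] [CharZero O]
  {𝕋 : Type} [CommRing 𝕋] [Algebra O 𝕋]
  {M0 : Type} [AddCommGroup M0] [Module O M0] {act0 : 𝕋 →ₐ[O] Module.End O M0}
  {g : ℕ} {N : Fin g → ℕ} [∀ i, NeZero (N i)]

/-- **`UnitInst.hunit_of_labelled` without `hxpow`.** -/
theorem hunit_of_labelled'
    (L : FreeLevel O 𝕋 M0 act0 g N)
    {p : ℕ} [hpF : Fact p.Prime] (hp2 : p ≠ 2) (hpO : (p : O) ∈ maximalIdeal O)
    (hNpow : ∀ i, ∃ n, N i = p ^ n) (hN : ∀ i, p ∣ N i)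
    (T : Type) [CommRing T] [IsLocalRing T] [Algebra O T] [IsLocalHom (algebraMap O T)]
    [Module.Finite O T] [IsReduced T] [IsNoetherianRing T] [IsAdicComplete (maximalIdeal T) T]
    (a : T →ₐ[O] Module.End O L.M) (a_D : ∀ t i, a t * L.D i = L.D i * a t)
    (Ω : Type) [Field Ω] [IsAlgClosed Ω] [Algebra O Ω] [Module.IsTorsionFree O Ω]
    (ρ : GaloisRepAdic T) (hdet : ρ.DetIsCyclotomic p)
    (ρbar : ResidualGaloisRep (ResidueField O))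
    (hres : ρ.residual.IsEquiv (ρbar.baseChangeAlong (ResidueField.map (algebraMap O T))))
    (r : Fin g → ℕ) (hr : ∀ i, (r i).Prime) (hpr : ∀ i, p ∣ r i - 1)
    (hunrbar : ∀ i, ρbar.IsUnramifiedAt (r i))
    (P : Fin g → ValuationSubring Qb) (hP : ∀ i, (P i).LiesOverPrime (r i))
    (φ : Fin g → GQ) (hφ : ∀ i, (P i).IsFrobeniusAt (φ i) (r i))
    (τ : Fin g → GQ) (hτ : ∀ i, IsTameGenerator (P i) p (τ i))
    (α β : Fin g → ResidueField O) (hαβ : ∀ i, α i ≠ β i)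
    (hchar : ∀ i, LinearMap.charpoly (ρbar.ρ (φ i)) = (X - C (α i)) * (X - C (β i)))
    (x : Fin g → Tˣ)
    (hx : ∀ i, LabelledAt ρ (ResidueField.map (algebraMap O T)) (P i) (φ i) (τ i) (α i) (β i)
      (x i))
    (h1 : ∀ (i : Fin g) (P' : ValuationSubring Qb) (hP' : P'.LiesOverPrime (r i)) (s : GQ)
      (hs : s ∈ P'.inertiaSubgroupIn ℚ) (Bas : Module.Basis (Fin 2) T ρ.V)
      (χ : Fin 2 → P'.decompositionSubgroup ℚ →* Tˣ),
      (∀ (j : Fin 2) (σ : P'.decompositionSubgroup ℚ),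
        ρ.ρ (σ : GQ) (Bas j) = (χ j σ : T) • Bas j) →
      ∀ θ : T →ₐ[O] Ω, G4.Occ₁ L a i θ →
        θ (χ 0 ⟨s, inertia_le_decomposition P' hs⟩ : T) = 1)
    (hB5 : ∀ (i : Fin g) (q : Idx O T)
      (hloc : IsLocalHom ((ψ q : T →ₐ[O] Rq q) : T →+* Rq q)),
      (∀ t : T, (∀ m, a t m ∈ L.unitSub p hN i) → ψ q t = 0) →
      ¬ (ρ.baseChangeAlong ((ψ q : T →ₐ[O] Rq q) : T →+* Rq q) hloc).IsUnipotentOnInertiaAt
        (r i)) :
    ∀ i (m : L.M), ∃ m' : L.M, L.D i m - m = a (x i : T) m' - m' := by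
  classical
  have hp : p.Prime := hpF.out
  have hpT : (p : T) ∈ maximalIdeal T := hdet.1
  have hpne : ∀ i, p ≠ r i := by
    intro i h
    have h1 := hpr i
    rw [← h] at h1
    have := Nat.le_of_dvd (by have := hp.two_le; omega) h1
    have := hp.two_le
    omega
  have hlift : ∀ c : ResidueField O, ∃ t : T,
      residue T t = ResidueField.map (algebraMap O T) c := by
    intro c
    obtain ⟨c₀, rfl⟩ := residue_surjective c
    exact ⟨algebraMap O T c₀, (ResidueField.map_residue (algebraMap O T) c₀).symm⟩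
  choose lift hlift' using hlift
  refine hunit_of_labelled L hp2 hpO hNpow hN T a a_D Ω ρ hdet ρbar hres r hr hpr hunrbar P hP φ hφ
    τ hτ α β hαβ hchar x hx (fun i => ?_) h1 hB5
  -- the `p`-power order
  have hr1 : r i - 1 ≠ 0 := by
    have := (hr i).two_le
    omega
  obtain ⟨a', m, hm, ham⟩ := Nat.exists_eq_pow_mul_and_not_dvd hr1 p hp.ne_one
  have hram : r i = p ^ a' * m + 1 := by
    have := (hr i).two_le
    omega
  obtain ⟨htr, hd, hab, -⟩ := G4Res.twChars_inputs ρ ρbar (ResidueField.map (algebraMap O T))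
    hres (P i) (hP i) (hunrbar i) (φ i) (α i) (β i) (hαβ i) (hchar i) (lift (α i)) (lift (β i))
    (hlift' _) (hlift' _)
  have hpow := pow_eq_one_of_labelledAt ρ (ResidueField.map (algebraMap O T)) hp (hr i) (hpne i)
    hdet
    (isUnramifiedAt_of_isEquiv_baseChangeAlong (ResidueField.map (algebraMap O T)) ρbar
      ρ.residual hres (hunrbar i))
    (G4Res.natCast_sub_one_mem hpT (hr i).one_le (hpr i)) (P i) (hP i) (hφ i) (hτ i) (hαβ i)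
    (lift (α i)) (lift (β i)) (hlift' _) (hlift' _) htr hd hab (hx i) a' m hram hm
  refine ⟨a', ?_⟩
  have h' := congrArg Units.val hpow
  rwa [Units.val_pow_eq_pow_val, Units.val_one] at h'

end Labelled

/-! ### the instance at `twE` -/

noncomputable section

variable {p : ℕ} [hpF : Fact p.Prime] {W : WeierstrassCurve ℤ}
  {hcard₁ : Nat.card (Submodule.torsionBy ℤ
    ((W.map (Int.castRingHom ℚ))⁄(AlgebraicClosure ℚ)).Point p) = p ^ 2}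
  {hker : GaloisFactorsThroughFiniteLevel
    (galoisRepModuleEnd (K := AlgebraicClosure ℚ) ℚ (W.map (Int.castRingHom ℚ)) p)}
  {M A : ℕ} {P : Pkg p W hcard₁ hker M A} {g n : ℕ} (Q : TWSet P g n)
  (hp3 : p ≠ 3) (E : Fin g → ℕ) (hE : ∀ j, p ^ E j ∣ Q.qv j - 1)
  (c : Fin 0 → P.O) (hc : ∀ v : Fin 0, c v ^ p ^ eRev E (0 + g - 1 - v) = 1)
  (hc1 : ∀ v, (1 : P.O) - c v ∈ Ideal.span {P.ϖ})

variable {N'' : ℕ} [NeZero N''] {SQ : Finset ℕ}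
  (twP : ↥(heckeAlgebra N'' 2 (↑SQ : Set ℕ)) →+*
    Module.End P.O (bigLevel Q.Sy Q.𝔪 (primeDataE Q E hE) (Q.hyp hp3) (0 + g)).M)
  (hD : ∀ t i,
    twP t * (bigLevel Q.Sy Q.𝔪 (primeDataE Q E hE) (Q.hyp hp3) (0 + g)).D i =
      (bigLevel Q.Sy Q.𝔪 (primeDataE Q E hE) (Q.hyp hp3) (0 + g)).D i * twP t)
  (θQ : ↥(heckeAlgebra N'' 2 (↑SQ : Set ℕ)) →+* P.k)

/-- helper11's `G2.tw₁` at `twE` -/
abbrev tw₁E :=
  G2.tw₁ Q.Sy Q.𝔪 (primeDataE Q E hE) (Q.hyp hp3) 0 g c hc hc1 twP hD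

/-- helper11's `G2.twχ` at `twE` -/
abbrev twχE :=
  G2.twχ Q.Sy Q.𝔪 (primeDataE Q E hE) (Q.hyp hp3) 0 g c hc hc1 twP hD

/-- **the Hecke ring `T_Q`** of ENGINE-INST: helper11's `G2.T` at `twE` -/
abbrev TE : Type :=
  G2.T Q.Sy Q.𝔪 (primeDataE Q E hE) (Q.hyp hp3) 0 g c hc hc1 twP hD θQ

/-- **its action on `M_Q = (twE …).L1.M = (FQ1 …).M`**: helper11's `G2.a₁` at `twE` -/
abbrev a₁E :=
  G2.a₁ Q.Sy Q.𝔪 (primeDataE Q E hE) (Q.hyp hp3) 0 g c hc hc1 twP hD θQ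

/-- the orders of the diamonds of `(twE …).L1` are nonzero -/
instance neZero_Nfun_natAdd0 (i : Fin g) : NeZero (Nfun p (eRev E) (0 + g) (Fin.natAdd 0 i)) :=
  ⟨(Nfun_pos hpF.out (eRev E) (0 + g) _).ne'⟩

/-- `2` is a nonzerodivisor of `AlgebraicClosure (Frac O)` -/
theorem two_mul_eq_zero_algClosure (c' : AlgebraicClosure (FractionRing P.O))
    (hc' : (2 : AlgebraicClosure (FractionRing P.O)) * c' = 0) : c' = 0 := by
  rcases mul_eq_zero.mp hc' with h2 | h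
  · exact absurd h2 two_ne_zero
  · exact h

/-- **(1pt) at `twE`** = the binder `h1` of `hunit_of_labelled` at `L := (twE …).L1`,
`a := a₁E …`, `r := Q.qv`. -/
theorem h1_twE (hsqN : Squarefree Q.N)
    (hpS : p ∈ SQ) (hNS : ∀ ℓ : ℕ, ℓ.Prime → ℓ ∣ N'' → ℓ ∈ SQ)
    (hSN : ∀ ℓ : ℕ, ℓ.Prime → ℓ ∣ Q.N → ℓ ∈ SQ)
    (dℓ : PrimesOff (↑SQ : Set ℕ) → Gamma0 Q.N)
    (hdℓ : ∀ (l : PrimesOff (↑SQ : Set ℕ)) (u : (ZMod Q.N)ˣ),
      (u : ZMod Q.N) = ((l.1 : ℕ) : ZMod Q.N) →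
        chiΓ (Theta (Δs p (eRev E)) (primeDataE Q E hE).psi (0 + g)) (dℓ l) ^ 2 *
          Theta (Δs p (eRev E)) (primeDataE Q E hE).psi (0 + g) u = 1)
    (hnd : ∀ l : PrimesOff (↑SQ : Set ℕ), ¬ (l.1 : ℕ) ∣ Q.N)
    (hι : ∀ (l : PrimesOff (↑SQ : Set ℕ))
        (x : (bigLevel Q.Sy Q.𝔪 (primeDataE Q E hE) (Q.hyp hp3) (0 + g)).M),
      (bigReal Q.Sy Q.𝔪 (primeDataE Q E hE) (Q.hyp hp3) (0 + g)).ι
          (twP (formsGenS N'' (↑SQ : Set ℕ) l) x) =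
        diaH (Theta (Δs p (eRev E)) (primeDataE Q E hE).psi (0 + g)) P.O (dℓ l)
          (TH (Theta (Δs p (eRev E)) (primeDataE Q E hE).psi (0 + g)) P.O (hnd l)
            ((bigReal Q.Sy Q.𝔪 (primeDataE Q E hE) (Q.hyp hp3) (0 + g)).ι x)))
    (hsym : ∀ l : PrimesOff (↑SQ : Set ℕ), ∃ i : Q.Sy.ι₁, Q.Sy.ℓ i = (l.1 : ℕ) ∧
      θQ (formsGenS N'' (↑SQ : Set ℕ) l) = Q.lamTop (MvPolynomial.X (Sum.inl i)))
    (hfrobQ : ∀ (ℓ : ℕ) (hℓ : ℓ.Prime) (hℓN : ¬ ℓ ∣ N'') (hℓS : ℓ ∉ (↑SQ : Set ℕ))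
      (Pl : ValuationSubring Qb), Pl.LiesOverPrime ℓ → ∀ σ : GQ, Pl.IsFrobeniusAt σ ℓ →
        LinearMap.charpoly (P.rhobar.ρ σ) =
          X ^ 2 - C (θQ (heckeAlgebra.T hℓ hℓN hℓS)) * X + C ((ℓ : ℕ) : P.k))
    [Fact (LocHyp P.O θQ (prodTw P.O (tw₁E Q hp3 E hE c hc hc1 twP hD)
      (twχE Q hp3 E hE c hc hc1 twP hD)))]
    [Module.Finite P.O ((twE Q hp3 E hE c hc hc1).L1.M × (twE Q hp3 E hE c hc hc1).Lχ.M)]
    [Module.Free P.O ((twE Q hp3 E hE c hc hc1).L1.M × (twE Q hp3 E hE c hc hc1).Lχ.M)]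
    [Nontrivial ((twE Q hp3 E hE c hc hc1).L1.M × (twE Q hp3 E hE c hc hc1).Lχ.M)]
    (ρQ : GaloisRepAdic (TE Q hp3 E hE c hc hc1 twP hD θQ))
    (hρ : ∀ (ℓ : ℕ) (hℓ : ℓ.Prime) (hℓN : ¬ ℓ ∣ N'') (hℓS : ℓ ∉ (↑SQ : Set ℕ))
        (Pl : ValuationSubring Qb), Pl.LiesOverPrime ℓ → ∀ σ : GQ, Pl.IsFrobeniusAt σ ℓ →
          LinearMap.charpoly (ρQ.ρ σ) =
            X ^ 2 - C (chiT P.O θQ (prodTw P.O (tw₁E Q hp3 E hE c hc hc1 twP hD)
                (twχE Q hp3 E hE c hc hc1 twP hD)) (heckeAlgebra.T hℓ hℓN hℓS)) * X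
              + C ((ℓ : TE Q hp3 E hE c hc hc1 twP hD θQ))) :
    ∀ (i : Fin g) (Pl : ValuationSubring Qb) (hPl : Pl.LiesOverPrime (Q.qv i))
      (σ : GQ) (hσ : σ ∈ Pl.inertiaSubgroupIn ℚ)
      (Bas : Module.Basis (Fin 2) (TE Q hp3 E hE c hc hc1 twP hD θQ) ρQ.V)
      (χ : Fin 2 → Pl.decompositionSubgroup ℚ →* (TE Q hp3 E hE c hc hc1 twP hD θQ)ˣ),
      (∀ (j : Fin 2) (τ : Pl.decompositionSubgroup ℚ),
        ρQ.ρ (τ : GQ) (Bas j) = (χ j τ : TE Q hp3 E hE c hc hc1 twP hD θQ) • Bas j) →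
      ∀ θ : TE Q hp3 E hE c hc hc1 twP hD θQ →ₐ[P.O] AlgebraicClosure (FractionRing P.O),
        G4.Occ₁ (twE Q hp3 E hE c hc hc1).L1 (a₁E Q hp3 E hE c hc hc1 twP hD θQ) i θ →
          θ (χ 0 ⟨σ, inertia_le_decomposition Pl hσ⟩ :
            TE Q hp3 E hE c hc hc1 twP hD θQ) = 1 := by
  intro i Pl hPl σ hσ Bas χ hχ θ hocc
  haveI : Algebra.IsIntegral P.O (TE Q hp3 E hE c hc hc1 twP hD θQ) :=
    Algebra.IsIntegral.of_finite P.O _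
  have hker𝔪 : ∀ t : Q.Sy.𝕋 P.O, t ∈ Q.𝔪 ↔ Q.lamTop t = 0 := fun t => by
    rw [Q.h𝔪]
    exact RingHom.mem_ker
  have hfrob : ∀ l : PrimesOff (↑SQ : Set ℕ),
      ∀ P' : ValuationSubring Qb, P'.LiesOverPrime (l.1 : ℕ) → ∀ σ' : GQ,
        P'.IsFrobeniusAt σ' (l.1 : ℕ) →
        ∃ d₀ : P.k, LinearMap.charpoly (P.rhobar.ρ σ')
          = X ^ 2 - C (θQ (formsGenS N'' (↑SQ : Set ℕ) l)) * X + C d₀ := by
    intro l P' hP' σ' hσ'
    have hlN'' : ¬ (l.1 : ℕ) ∣ N'' := fun h => l.2 (Finset.mem_coe.mpr (hNS _ l.1.2 h))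
    refine ⟨(((l.1 : ℕ) : ℕ) : P.k), ?_⟩
    rw [formsGenS_of_not_dvd N'' (↑SQ : Set ℕ) l hlN'']
    exact hfrobQ (l.1 : ℕ) l.1.2 hlN'' l.2 P' hP' σ' hσ'
  have hP : Pl.LiesOverPrime (rRev Q (g - 1 - (i : ℕ))) := by
    rw [rRev_idx Q i]
    exact hPl
  have hrp : rRev Q (g - 1 - (i : ℕ)) ≠ p := by
    rw [rRev_idx Q i]
    exact (Q.good i).2.2
  exact G4H1.h1_G2 Q.Sy Q.𝔪 (primeDataE Q E hE) (Q.hyp hp3) 0 g c hc hc1
    twP hD θQ hsqN (Nat.le_of_eq (Nat.zero_add g)) i ρQ hpS hNS hSN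
    hρ dℓ hdℓ hnd hι Q.lamTop hker𝔪 hsym P.rhobar P.habs hfrob
    (two_mul_eq_zero_algClosure (P := P))
    hrp Pl hP Bas χ hχ σ hσ (inertia_le_decomposition Pl hσ) θ (Or.inl hocc) 0

/-- **(UNIT) at `twE`** = the field `unit` of `ModSide.ModSideData` for `F := FQ1 …`, the
`DQ.R`-module structure `moduleOfHom (a₁E …) ψ`. -/
theorem hunit_twE (hsqN : Squarefree Q.N)
    (hpS : p ∈ SQ) (hNS : ∀ ℓ : ℕ, ℓ.Prime → ℓ ∣ N'' → ℓ ∈ SQ)
    (hSN : ∀ ℓ : ℕ, ℓ.Prime → ℓ ∣ Q.N → ℓ ∈ SQ)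
    (dℓ : PrimesOff (↑SQ : Set ℕ) → Gamma0 Q.N)
    (hdℓ : ∀ (l : PrimesOff (↑SQ : Set ℕ)) (u : (ZMod Q.N)ˣ),
      (u : ZMod Q.N) = ((l.1 : ℕ) : ZMod Q.N) →
        chiΓ (Theta (Δs p (eRev E)) (primeDataE Q E hE).psi (0 + g)) (dℓ l) ^ 2 *
          Theta (Δs p (eRev E)) (primeDataE Q E hE).psi (0 + g) u = 1)
    (hnd : ∀ l : PrimesOff (↑SQ : Set ℕ), ¬ (l.1 : ℕ) ∣ Q.N)
    (hι : ∀ (l : PrimesOff (↑SQ : Set ℕ))
        (x : (bigLevel Q.Sy Q.𝔪 (primeDataE Q E hE) (Q.hyp hp3) (0 + g)).M),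
      (bigReal Q.Sy Q.𝔪 (primeDataE Q E hE) (Q.hyp hp3) (0 + g)).ι
          (twP (formsGenS N'' (↑SQ : Set ℕ) l) x) =
        diaH (Theta (Δs p (eRev E)) (primeDataE Q E hE).psi (0 + g)) P.O (dℓ l)
          (TH (Theta (Δs p (eRev E)) (primeDataE Q E hE).psi (0 + g)) P.O (hnd l)
            ((bigReal Q.Sy Q.𝔪 (primeDataE Q E hE) (Q.hyp hp3) (0 + g)).ι x)))
    (hsym : ∀ l : PrimesOff (↑SQ : Set ℕ), ∃ i : Q.Sy.ι₁, Q.Sy.ℓ i = (l.1 : ℕ) ∧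
      θQ (formsGenS N'' (↑SQ : Set ℕ) l) = Q.lamTop (MvPolynomial.X (Sum.inl i)))
    (hfrobQ : ∀ (ℓ : ℕ) (hℓ : ℓ.Prime) (hℓN : ¬ ℓ ∣ N'') (hℓS : ℓ ∉ (↑SQ : Set ℕ))
      (Pl : ValuationSubring Qb), Pl.LiesOverPrime ℓ → ∀ σ : GQ, Pl.IsFrobeniusAt σ ℓ →
        LinearMap.charpoly (P.rhobar.ρ σ) =
          X ^ 2 - C (θQ (heckeAlgebra.T hℓ hℓN hℓS)) * X + C ((ℓ : ℕ) : P.k))
    [Fact (LocHyp P.O θQ (prodTw P.O (tw₁E Q hp3 E hE c hc hc1 twP hD)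
      (twχE Q hp3 E hE c hc hc1 twP hD)))]
    [Module.Finite P.O ((twE Q hp3 E hE c hc hc1).L1.M × (twE Q hp3 E hE c hc hc1).Lχ.M)]
    [Module.Free P.O ((twE Q hp3 E hE c hc hc1).L1.M × (twE Q hp3 E hE c hc hc1).Lχ.M)]
    [Nontrivial ((twE Q hp3 E hE c hc hc1).L1.M × (twE Q hp3 E hE c hc hc1).Lχ.M)]
    [IsReduced (TE Q hp3 E hE c hc hc1 twP hD θQ)]
    -- G3 over `T_Q`
    {𝒟 : ∀ ⦃B : Type⦄ [CommRing B] [IsLocalRing B] [Algebra P.O B], GaloisRepAdic B → Prop}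
    {DQ : GaloisRep.DeformationRingData P.O P.rhobar 𝒟}
    (ψQ : DQ.R →ₐ[P.O] TE Q hp3 E hE c hc hc1 twP hD θQ)
    (hψl : IsLocalHom (ψQ : DQ.R →+* TE Q hp3 E hE c hc hc1 twP hD θQ))
    (ρQ : GaloisRepAdic (TE Q hp3 E hE c hc hc1 twP hD θQ))
    (hequiv : (DQ.ρ.baseChangeAlong
      (ψQ : DQ.R →+* TE Q hp3 E hE c hc hc1 twP hD θQ) hψl).IsEquiv ρQ)
    (hρ : ∀ (ℓ : ℕ) (hℓ : ℓ.Prime) (hℓN : ¬ ℓ ∣ N'') (hℓS : ℓ ∉ (↑SQ : Set ℕ))
        (Pl : ValuationSubring Qb), Pl.LiesOverPrime ℓ → ∀ σ : GQ, Pl.IsFrobeniusAt σ ℓ →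
          LinearMap.charpoly (ρQ.ρ σ) =
            X ^ 2 - C (chiT P.O θQ (prodTw P.O (tw₁E Q hp3 E hE c hc hc1 twP hD)
                (twχE Q hp3 E hE c hc hc1 twP hD)) (heckeAlgebra.T hℓ hℓN hℓS)) * X
              + C ((ℓ : TE Q hp3 E hE c hc hc1 twP hD θQ)))
    (hdet : ρQ.DetIsCyclotomic p)
    (hres : ρQ.residual.IsEquiv
      (P.rhobar.baseChangeAlong
        (ResidueField.map (algebraMap P.O (TE Q hp3 E hE c hc hc1 twP hD θQ)))))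
    (hunrbar : ∀ j, P.rhobar.IsUnramifiedAt (Q.qv j))
    -- the labels and the labelled units of `ModSideStmt`
    (Pl : Fin g → ValuationSubring Qb) (hPl : ∀ j, (Pl j).LiesOverPrime (Q.qv j))
    (φ : Fin g → GQ) (hφ : ∀ j, (Pl j).IsFrobeniusAt (φ j) (Q.qv j))
    (τ : Fin g → GQ) (hτ : ∀ j, IsTameGenerator (Pl j) p (τ j))
    (α β : Fin g → P.k)
    (hαβ : ∀ j, α j ≠ β j ∧
      LinearMap.charpoly (P.rhobar.ρ (φ j)) = (X - C (α j)) * (X - C (β j)))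
    (gu : Fin g → (DQ.R)ˣ)
    (hlab : ∀ j, LabelledAt DQ.ρ (ResidueField.map (algebraMap P.O DQ.R)) (Pl j) (φ j) (τ j)
      (α j) (β j) (gu j))
    -- (B5) (helper51 `B5Gen.hB5_twE`)
    (hNp : ∀ i : Fin g, p ∣ Nfun p (eRev E) (0 + g) (Fin.natAdd 0 i))
    (hB5 : ∀ (i : Fin g) (q : Idx P.O (TE Q hp3 E hE c hc hc1 twP hD θQ))
      (hloc : IsLocalHom ((ψ q : TE Q hp3 E hE c hc hc1 twP hD θQ →ₐ[P.O] Rq q) :
        TE Q hp3 E hE c hc hc1 twP hD θQ →+* Rq q)),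
      (∀ t : TE Q hp3 E hE c hc hc1 twP hD θQ,
        (∀ m, a₁E Q hp3 E hE c hc hc1 twP hD θQ t m ∈
          (twE Q hp3 E hE c hc hc1).L1.unitSub p hNp i) → ψ q t = 0) →
      ¬ (ρQ.baseChangeAlong ((ψ q : TE Q hp3 E hE c hc hc1 twP hD θQ →ₐ[P.O] Rq q) :
        TE Q hp3 E hE c hc hc1 twP hD θQ →+* Rq q) hloc).IsUnipotentOnInertiaAt (Q.qv i)) :
    letI := moduleOfHom (a₁E Q hp3 E hE c hc hc1 twP hD θQ) ψQ
    ∀ (j : Fin g) (m : (twE Q hp3 E hE c hc hc1).L1.M),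
      ∃ m' : (twE Q hp3 E hE c hc hc1).L1.M,
        (twE Q hp3 E hE c hc hc1).L1.D j m - m = (gu j : DQ.R) • m' - m' := by
  haveI : Module.IsTorsionFree P.O (AlgebraicClosure (FractionRing P.O)) :=
    G4Pkg.isTorsionFree_algebraicClosure P.O
  have hNpow : ∀ i : Fin g, ∃ m, Nfun p (eRev E) (0 + g) (Fin.natAdd 0 i) = p ^ m := fun i =>
    ⟨_, congrFun (Nfun0_eq_E E) i⟩
  -- the labelled units over `T_Q`
  have hx : ∀ j, LabelledAt ρQ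
      (ResidueField.map (algebraMap P.O (TE Q hp3 E hE c hc hc1 twP hD θQ))) (Pl j) (φ j) (τ j)
      (α j) (β j)
      (Units.map ((ψQ : DQ.R →+* TE Q hp3 E hE c hc hc1 twP hD θQ) :
        DQ.R →* TE Q hp3 E hE c hc hc1 twP hD θQ) (gu j)) := fun j =>
    labelledAt_map_algHom ψQ hψl hequiv (hlab j)
  have key := hunit_of_labelled' (twE Q hp3 E hE c hc hc1).L1 P.hp2 P.hpO hNpow hNp
    (TE Q hp3 E hE c hc hc1 twP hD θQ) (a₁E Q hp3 E hE c hc hc1 twP hD θQ)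
    (fun t i => G2.a₁_D Q.Sy Q.𝔪 (primeDataE Q E hE) (Q.hyp hp3) 0 g c hc hc1 twP hD θQ t i)
    (AlgebraicClosure (FractionRing P.O)) ρQ hdet P.rhobar hres Q.qv Q.prime
    (fun j => dvd_trans (dvd_pow_self p (Nat.succ_ne_zero n)) (Q.cong j))
    hunrbar Pl hPl φ hφ τ hτ α β (fun j => (hαβ j).1) (fun j => (hαβ j).2)
    (fun j => Units.map ((ψQ : DQ.R →+* TE Q hp3 E hE c hc hc1 twP hD θQ) :
        DQ.R →* TE Q hp3 E hE c hc hc1 twP hD θQ) (gu j)) hx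
    (h1_twE Q hp3 E hE c hc hc1 twP hD θQ hsqN hpS hNS hSN dℓ hdℓ hnd hι hsym hfrobQ ρQ hρ)
    hB5
  exact hunit_compHom (a₁E Q hp3 E hE c hc hc1 twP hD θQ) ψQ (twE Q hp3 E hE c hc hc1).L1.D
    (fun j => (gu j : DQ.R))
    (fun j => ((Units.map ((ψQ : DQ.R →+* TE Q hp3 E hE c hc hc1 twP hD θQ) :
        DQ.R →* TE Q hp3 E hE c hc hc1 twP hD θQ) (gu j) :
          (TE Q hp3 E hE c hc hc1 twP hD θQ)ˣ) : TE Q hp3 E hE c hc hc1 twP hD θQ))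
    (fun j => rfl) key

end

end Fermat.Agent.GE6.Inst.UnitTwE
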