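/-
GATE-E (S59) / ENGINE-INST (helper51): **(B5) at the Taylor–Wiles diamonds with ANY number `s` of
framed steps** — in particular `s = 0`, which is what the engine of GATE-E needs for the binder
`hB5` of `GE6/Inst/UnitInst.hunit_of_labelled`.

GATE-B's `GB/B5/Glue/HnuPlug.hB5_plug` (helper35) and `ProviderFlat/G4B5.hB5_plug_L1` (helper6) are
stated for EXACTLY ONE framed step (`bigLevel Sy 𝔪 H h (1 + k)`, `Fin.natAdd 1 i`).  The proof does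
not use it; this file is the same proof with the number of diamonds `j` of the big level and the
index `i'` of the diamond FREE:

* `iotaVJ`, `coe_iotaVJ`, `iotaVJ_injective`, `iotaVJ_D`, `exists_tw_dataJ` : the common data at
  `bigLevel Sy 𝔪 H h j` (twins of `HnuPlug.iotaV …`);
* **`hB5_plugJ`** : `L` ANY level which is a quotient `π : (bigLevel … j).M ↠ L.M`, equivariant for
  ONE diamond (`π ∘ B.D i' = L.D i ∘ π`): at a DVR point `x` of `TQ` killing the annihilator of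
  `L.M / unitSub i`, `ρQ ⊗_x O'` is NOT unipotent on inertia at `r (j - 1 - i')`;
* `piOneG`, `piOneG_surjective`, `piOneG_D`, **`hB5_plugG_L1`** : at `(Plug.tw Sy 𝔪 H h s k c hc
  hc1).L1`, `i' := Fin.natAdd s i`, prime `r (k - 1 - i)` (twin of `G4B5.hB5_plug_L1`, `s` free);
* **`hB5_G2`** : the same at helper11's `G2` objects (`T := G2.T …`, `a₁ := G2.a₁ …`,
  `χ := ImageRing.chi`), with the generator formula `hι` of `G2.exists_twP_hecke` — the twin of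
  helper49's `G4H1.h1_G2` ((1pt)), same binder spelling;
* **`hB5_twE`** : the binder `hB5` of `UnitInst.hunit_of_labelled` VERBATIM at
  `L := (FreeLevelTw.twE Q hp3 E hE c hc hc1).L1` (`s = 0`, per-prime exponents `E j ≥ 1`),
  `r := Q.qv`, `T := G2.T …`, `a := G2.a₁ …`; (BND) discharged (`Q.N` squarefree).
-/
import Fermat.Agent.GB.B5.Glue.HnuPlug
import Fermat.Agent.GB.B9.ProviderFlat.G2
import Fermat.Agent.GB.B9.ProviderFlat.G7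
import Fermat.Agent.GE6.Inst.FreeLevelTw

set_option autoImplicit false
set_option linter.unusedSectionVars false
set_option linter.unusedVariables false
set_option linter.style.haveILetI false

open scoped MatrixGroups
open CongruenceSubgroup Polynomial IsLocalRing CuspForm
open Fermat.Agent.GM.B ModularCurve.Period
open Fermat.Agent.GB.B3 Fermat.Agent.GB.B3.EisGamma0 Fermat.Agent.GB.B3.GamH
open Fermat.Agent.GB.B3.RealLevel Fermat.Agent.GB.B3.HeckeActH Fermat.Agent.GB.B3.HeckeAct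
open Fermat.Agent.GB.B3.TWChars Fermat.Agent.GB.B3.Tower Fermat.Agent.GB.B3.FinalTW
open Fermat.Agent.GB.B3.Plug Fermat.Agent.GB.B3.ChiLevelMulti Fermat.Agent.GB.B3.TWLevel
open Fermat.Agent.GB.B3.StepInst Fermat.Agent.GB.B3.Final
open Fermat.Agent.GJ.J2.Lat
open Fermat.Agent.GB.B4.Twist.Asm Fermat.Agent.GB.B4.Twist.TwFinal Fermat.Agent.GB.B4.Twist.TwInst
open Fermat.Agent.GB.B5.Glue Fermat.Agent.GB.B5.Glue.HnuPlug

namespace Fermat.Agent.GE6.Inst.B5Gen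

open Fermat.Agent.Common_helper32

/-- local instance (Prop-valued class) -/
local instance factPrimeOffB5Gen {S : Set ℕ} (l : PrimesOff S) : Fact (l.1 : ℕ).Prime := ⟨l.1.2⟩

section Plug

variable {N p K : ℕ} [NeZero N] [hpF : Fact p.Prime] {r e N' : ℕ → ℕ}
variable (Sy : Symbols N)
variable {O : Type} [CommRing O] [IsDomain O] [IsDiscreteValuationRing O]
  [IsAdicComplete (maximalIdeal O) O] [CharZero O] [Finite (ResidueField O)]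
variable (𝔪 : Ideal (Sy.𝕋 O)) [𝔪.IsMaximal]
variable (H : PrimeData N p K r e N') {ϖ : O} {s0 : Sy.ι₁} (h : Plug.Hyp Sy 𝔪 p ϖ s0)
variable (j : ℕ)
variable {TQ : Type} [CommRing TQ] [IsLocalRing TQ] [Algebra O TQ]

/-! ### the common data: `ι`, the half-diamonds, `tw_ℂ`, `tw_O`, the `ι`-square -/

/-- the realisation of the big level inside the parabolic classes -/
noncomputable def iotaVJ
    (hbnd : ∀ y : Additive (GammaH (Theta (Δs p e) H.psi j)) →+ O,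
      IsLoc (actH Sy O (Theta (Δs p e) H.psi j)) 𝔪 y →
        y ∈ parabolicHoms O (GammaH (Theta (Δs p e) H.psi j)) O) :
    (bigLevel Sy 𝔪 H h j).M →ₗ[O]
      ↥(parabolicHoms O (GammaH (Theta (Δs p e) H.psi j)) O) :=
  LinearMap.codRestrict _ (bigReal Sy 𝔪 H h j).ι
    (fun x => hbnd _ (((bigReal Sy 𝔪 H h j).range _).1 ⟨x, rfl⟩))

theorem coe_iotaVJ
    (hbnd : ∀ y : Additive (GammaH (Theta (Δs p e) H.psi j)) →+ O,
      IsLoc (actH Sy O (Theta (Δs p e) H.psi j)) 𝔪 y →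
        y ∈ parabolicHoms O (GammaH (Theta (Δs p e) H.psi j)) O)
    (x : (bigLevel Sy 𝔪 H h j).M) :
    ((iotaVJ Sy 𝔪 H h j hbnd x :
        ↥(parabolicHoms O (GammaH (Theta (Δs p e) H.psi j)) O)) :
      Additive (GammaH (Theta (Δs p e) H.psi j)) →+ O)
      = (bigReal Sy 𝔪 H h j).ι x := rfl

theorem iotaVJ_injective
    (hbnd : ∀ y : Additive (GammaH (Theta (Δs p e) H.psi j)) →+ O,
      IsLoc (actH Sy O (Theta (Δs p e) H.psi j)) 𝔪 y →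
        y ∈ parabolicHoms O (GammaH (Theta (Δs p e) H.psi j)) O) :
    Function.Injective (iotaVJ Sy 𝔪 H h j hbnd) := fun x y hxy =>
  (bigReal Sy 𝔪 H h j).inj (by
    rw [← coe_iotaVJ Sy 𝔪 H h j hbnd x, ← coe_iotaVJ Sy 𝔪 H h j hbnd y, hxy])

/-- the diamond `i` of the big level is the diamond at the step `j - 1 - i` -/
theorem iotaVJ_D
    (hbnd : ∀ y : Additive (GammaH (Theta (Δs p e) H.psi j)) →+ O,
      IsLoc (actH Sy O (Theta (Δs p e) H.psi j)) 𝔪 y →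
        y ∈ parabolicHoms O (GammaH (Theta (Δs p e) H.psi j)) O)
    (i : Fin j) (y : (bigLevel Sy 𝔪 H h j).M) :
    iotaVJ Sy 𝔪 H h j hbnd ((bigLevel Sy 𝔪 H h j).D i y)
      = diaV (Theta (Δs p e) H.psi j) O (H.dd hpF.out (j - 1 - i))
          (iotaVJ Sy 𝔪 H h j hbnd y) := by
  apply Subtype.ext
  rw [coe_diaV, coe_iotaVJ, coe_iotaVJ, (bigReal Sy 𝔪 H h j).ι_D, diaLin_apply, dfun_apply]

/-- **the common data** of the plug instances, `j` diamonds. -/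
theorem exists_tw_dataJ (hj : j ≤ K)
    (hbnd : ∀ y : Additive (GammaH (Theta (Δs p e) H.psi j)) →+ O,
      IsLoc (actH Sy O (Theta (Δs p e) H.psi j)) 𝔪 y →
        y ∈ parabolicHoms O (GammaH (Theta (Δs p e) H.psi j)) O)
    (S : Finset ℕ) {N'' : ℕ} [NeZero N''] (hN'' : N'' = N * ∏ i : Fin j, r i)
    (hSN'' : ∀ ℓ : ℕ, ℓ.Prime → ℓ ∣ N'' → ℓ ∈ (↑S : Set ℕ)) (hNN'' : N ∣ N'')
    (twP : ↥(heckeAlgebra N'' 2 (↑S : Set ℕ)) →+* Module.End O (bigLevel Sy 𝔪 H h j).M)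
    (hT : ∀ (ℓ : ℕ) (hℓ : ℓ.Prime) (hℓN' : ¬ ℓ ∣ N'') (hℓS : ℓ ∉ (↑S : Set ℕ))
        (hℓN : ¬ ℓ ∣ N),
      haveI : Fact ℓ.Prime := ⟨hℓ⟩
      ∃ d : Gamma0 N,
        (∀ u : (ZMod N)ˣ, (u : ZMod N) = ((ℓ : ℕ) : ZMod N) →
          chi (Theta (Δs p e) H.psi j) d ^ 2 * Theta (Δs p e) H.psi j u = 1) ∧
        ∀ x : (bigLevel Sy 𝔪 H h j).M,
          (bigReal Sy 𝔪 H h j).ι (twP (heckeAlgebra.T hℓ hℓN' hℓS) x)
            = diaH (Theta (Δs p e) H.psi j) O d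
                (TH (Theta (Δs p e) H.psi j) O hℓN ((bigReal Sy 𝔪 H h j).ι x))) :
    ∃ (dℓ : PrimesOff (↑S : Set ℕ) → Gamma0 N)
      (twC : ↥(heckeAlgebra N'' 2 (↑S : Set ℕ)) →+*
        Module.End ℂ ↥(parabolicHoms ℂ (GammaH (Theta (Δs p e) H.psi j)) ℂ))
      (twO : ↥(heckeAlgebra N'' 2 (↑S : Set ℕ)) →+*
        Module.End O ↥(parabolicHoms O (GammaH (Theta (Δs p e) H.psi j)) O)),
      (∀ (l : PrimesOff (↑S : Set ℕ)) (u : (ZMod N)ˣ), (u : ZMod N) = ((l.1 : ℕ) : ZMod N) →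
        chi (Theta (Δs p e) H.psi j) (dℓ l) ^ 2 * Theta (Δs p e) H.psi j u = 1) ∧
      (∀ (l : PrimesOff (↑S : Set ℕ))
          (v : ↥(parabolicHoms ℂ (GammaH (Theta (Δs p e) H.psi j)) ℂ)),
        ((twC (formsGenS N'' (↑S : Set ℕ) l) v :
            ↥(parabolicHoms ℂ (GammaH (Theta (Δs p e) H.psi j)) ℂ)) :
            Additive (GammaH (Theta (Δs p e) H.psi j)) →+ ℂ)
          = diaH (Theta (Δs p e) H.psi j) ℂ (dℓ l)
              (GamH.TH (Theta (Δs p e) H.psi j) ℂ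
                (not_dvd_level (↑S : Set ℕ) hSN'' hNN'' l)
                (v : Additive (GammaH (Theta (Δs p e) H.psi j)) →+ ℂ))) ∧
      (∀ (l : PrimesOff (↑S : Set ℕ))
          (v : ↥(parabolicHoms O (GammaH (Theta (Δs p e) H.psi j)) O)),
        ((twO (formsGenS N'' (↑S : Set ℕ) l) v :
            ↥(parabolicHoms O (GammaH (Theta (Δs p e) H.psi j)) O)) :
            Additive (GammaH (Theta (Δs p e) H.psi j)) →+ O)
          = diaH (Theta (Δs p e) H.psi j) O (dℓ l)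
              (GamH.TH (Theta (Δs p e) H.psi j) O
                (not_dvd_level (↑S : Set ℕ) hSN'' hNN'' l)
                (v : Additive (GammaH (Theta (Δs p e) H.psi j)) →+ O))) ∧
      ∀ t y, iotaVJ Sy 𝔪 H h j hbnd (twP t y) = twO t (iotaVJ Sy 𝔪 H h j hbnd y) := by
  classical
  have hp : p.Prime := hpF.out
  -- the half-diamonds
  have hexd : ∀ l : PrimesOff (↑S : Set ℕ), ∃ d : Gamma0 N,
      (∀ u : (ZMod N)ˣ, (u : ZMod N) = ((l.1 : ℕ) : ZMod N) →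
        chi (Theta (Δs p e) H.psi j) d ^ 2 * Theta (Δs p e) H.psi j u = 1) ∧
      ∀ x : (bigLevel Sy 𝔪 H h j).M,
        (bigReal Sy 𝔪 H h j).ι
            (twP (heckeAlgebra.T l.1.2 (not_dvd_level' (↑S : Set ℕ) hSN'' l) l.2) x)
          = diaH (Theta (Δs p e) H.psi j) O d
              (TH (Theta (Δs p e) H.psi j) O
                (not_dvd_level (↑S : Set ℕ) hSN'' hNN'' l)
                ((bigReal Sy 𝔪 H h j).ι x)) := fun l =>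
    hT (l.1 : ℕ) l.1.2 (not_dvd_level' (↑S : Set ℕ) hSN'' l) l.2
      (not_dvd_level (↑S : Set ℕ) hSN'' hNN'' l)
  choose dℓ hdℓ hdℓT using hexd
  obtain ⟨twC, htwC, -⟩ := exists_tw_primeData H hp h.hp2 j hj hN'' (↑S : Set ℕ) hSN''
    (O := ℂ) dℓ hdℓ
  obtain ⟨twO, htwO, -⟩ := exists_tw_primeData H hp h.hp2 j hj hN'' (↑S : Set ℕ) hSN''
    (O := O) dℓ hdℓ
  refine ⟨dℓ, twC, twO, hdℓ, htwC, htwO, ?_⟩
  refine square_of_gens (iotaVJ Sy 𝔪 H h j hbnd) twP twO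
    (Set.range (formsGenS N'' (↑S : Set ℕ)))
    (Fermat.Agent.GB.B4.Twist.TwHom.closure_range_formsGenS N'' (↑S : Set ℕ)) ?_
  rintro _ ⟨l, rfl⟩ y
  apply Subtype.ext
  have e0 := coe_iotaVJ Sy 𝔪 H h j hbnd (twP (formsGenS N'' (↑S : Set ℕ) l) y)
  have e4 := coe_iotaVJ Sy 𝔪 H h j hbnd y
  have e1 := htwO l (iotaVJ Sy 𝔪 H h j hbnd y)
  rw [e4] at e1
  have e3 := formsGenS_of_not_dvd N'' (↑S : Set ℕ) l (not_dvd_level' (↑S : Set ℕ) hSN'' l)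
  have e2 := hdℓT l y
  rw [← e3] at e2
  exact e0.trans (e2.trans e1.symm)

/-! ### (B5) at ONE diamond of a quotient of the big level -/

/-- **(B5), plug form, `j` diamonds**: `L` any level with a surjection
`π : (bigLevel … j).M ↠ L.M` which intertwines the diamond `i'` of the big level with the diamond
`i` of `L`.  At every local point `x` of `TQ` killing the annihilator of `L.M / unitSub i`,
`ρQ ⊗_x O'` is NOT unipotent on inertia at the prime `r (j - 1 - i')` of the diamond `i'`. -/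
theorem hB5_plugJ (hj : j ≤ K)
    (hbnd : ∀ y : Additive (GammaH (Theta (Δs p e) H.psi j)) →+ O,
      IsLoc (actH Sy O (Theta (Δs p e) H.psi j)) 𝔪 y →
        y ∈ parabolicHoms O (GammaH (Theta (Δs p e) H.psi j)) O)
    (S : Finset ℕ) (hpS : p ∈ S)
    {N'' : ℕ} [NeZero N''] (hN'' : N'' = N * ∏ i : Fin j, r i)
    (hSN'' : ∀ ℓ : ℕ, ℓ.Prime → ℓ ∣ N'' → ℓ ∈ (↑S : Set ℕ))
    (ρQ : GaloisRepAdic TQ)
    (χ : ↥(heckeAlgebra N'' 2 (↑S : Set ℕ)) →+* TQ)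
    {𝕋' : Type} [CommRing 𝕋'] [Algebra O 𝕋'] {M0' : Type} [AddCommGroup M0'] [Module O M0']
    {act0' : 𝕋' →ₐ[O] Module.End O M0'} {k : ℕ} {Nk : Fin k → ℕ} [∀ i, NeZero (Nk i)]
    (L : FreeLevel O 𝕋' M0' act0' k Nk) (hNk : ∀ i, p ∣ Nk i)
    (π : (bigLevel Sy 𝔪 H h j).M →ₗ[O] L.M) (hπ : Function.Surjective π)
    (i' : Fin j) (i : Fin k)
    (hπD : ∀ y, π ((bigLevel Sy 𝔪 H h j).D i' y) = L.D i (π y))
    (a : TQ →ₐ[O] Module.End O L.M) (a_D : ∀ t i, a t * L.D i = L.D i * a t)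
    (twM : ↥(heckeAlgebra N'' 2 (↑S : Set ℕ)) →+* Module.End O L.M)
    (ha : ∀ t, a (χ t) = twM t)
    (twP : ↥(heckeAlgebra N'' 2 (↑S : Set ℕ)) →+* Module.End O (bigLevel Sy 𝔪 H h j).M)
    (hfmk : ∀ t (y : (bigLevel Sy 𝔪 H h j).M), twM t (π y) = π (twP t y))
    (hT : ∀ (ℓ : ℕ) (hℓ : ℓ.Prime) (hℓN' : ¬ ℓ ∣ N'') (hℓS : ℓ ∉ (↑S : Set ℕ))
        (hℓN : ¬ ℓ ∣ N),
      haveI : Fact ℓ.Prime := ⟨hℓ⟩
      ∃ d : Gamma0 N,
        (∀ u : (ZMod N)ˣ, (u : ZMod N) = ((ℓ : ℕ) : ZMod N) →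
          chi (Theta (Δs p e) H.psi j) d ^ 2 * Theta (Δs p e) H.psi j u = 1) ∧
        ∀ x : (bigLevel Sy 𝔪 H h j).M,
          (bigReal Sy 𝔪 H h j).ι (twP (heckeAlgebra.T hℓ hℓN' hℓS) x)
            = diaH (Theta (Δs p e) H.psi j) O d
                (TH (Theta (Δs p e) H.psi j) O hℓN ((bigReal Sy 𝔪 H h j).ι x)))
    (hρ : ∀ (ℓ : ℕ) (hℓ : ℓ.Prime) (hℓN' : ¬ ℓ ∣ N'') (hℓS : ℓ ∉ (↑S : Set ℕ))
      (A : ValuationSubring Qb), A.LiesOverPrime ℓ → ∀ σ : GQ, A.IsFrobeniusAt σ ℓ →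
        LinearMap.charpoly (ρQ.ρ σ)
          = X ^ 2 - C (χ (heckeAlgebra.T hℓ hℓN' hℓS)) * X + C ((ℓ : TQ)))
    (hei : 1 ≤ e (j - 1 - i')) (hrp : r (j - 1 - i') ≠ p)
    {O' : Type} [CommRing O'] [IsDomain O'] [IsDiscreteValuationRing O']
    [IsAdicComplete (maximalIdeal O') O'] [Finite (ResidueField O')] [CharZero O']
    (hpO' : (p : O') ∈ maximalIdeal O') (x : TQ →+* O') (hx : IsLocalHom x)
    (hocc : ∀ t : TQ, (∀ m, a t m ∈ L.unitSub p hNk i) → x t = 0) :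
    ¬ (ρQ.baseChangeAlong x hx).IsUnipotentOnInertiaAt (r (j - 1 - i')) := by
  classical
  have hp : p.Prime := hpF.out
  have hNN'' : N ∣ N'' := Dvd.intro _ hN''.symm
  obtain ⟨dℓ, twC, twO, hdℓ, htwC, htwO, hιT⟩ :=
    exists_tw_dataJ Sy 𝔪 H h j hj hbnd S hN'' hSN'' hNN'' twP hT
  have hιD : ∀ y, iotaVJ Sy 𝔪 H h j hbnd ((bigLevel Sy 𝔪 H h j).D i' y)
      = diaV (Theta (Δs p e) H.psi j) O (H.dd hp (j - 1 - i'))
          (iotaVJ Sy 𝔪 H h j hbnd y) := fun y => iotaVJ_D Sy 𝔪 H h j hbnd i' y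
  have hπT : ∀ t y, π (twP t y) = a (χ t) (π y) := by
    intro t y
    rw [ha]
    exact (hfmk t y).symm
  have hlt : j - 1 - (i' : ℕ) < j := by have := i'.2; omega
  haveI : NeZero (p ^ e (j - 1 - i')) := ⟨pow_ne_zero _ hp.ne_zero⟩
  -- `∑_{l < p^E} D^l` lands in `unitSub`
  have hsum : ∀ m, ∑ l : Fin (p ^ e (j - 1 - i')), ((L.D i) ^ (l : ℕ)) m
      ∈ L.unitSub p hNk i := by
    intro m
    obtain ⟨E, hE⟩ : ∃ E, e (j - 1 - i') = E + 1 := ⟨e (j - 1 - i') - 1, by omega⟩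
    have h1 : ∑ l : Fin (p ^ e (j - 1 - i')), ((L.D i) ^ (l : ℕ)) m
        = (∑ l ∈ Finset.range (p ^ e (j - 1 - i')), (L.D i) ^ l) m := by
      rw [Fin.sum_univ_eq_sum_range (fun l => ((L.D i) ^ l) m), LinearMap.sum_apply]
    rw [h1, hE, pow_succ', geom_sum_mul_eq, Module.End.mul_apply]
    exact L.range_le_unitSub p hNk i (Submodule.mem_sup_left ⟨_, rfl⟩)
  refine Fermat.Agent.GB.B5.Glue.HnuPoint.not_isUnipotentOnInertiaAt_of_squares_cyclic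
    (Theta (Δs p e) H.psi j)
    (FramePD.hθ H j hj) (FramePD.hodd hp h.hp2 j)
    _ (FramePD.hL H j hj) (FramePD.hnd H j hj)
    (FramePD.hdvd H j hj) (FramePD.hsq H j hj) _ _
    (FramePD.hpr H j hj) (FramePD.hprod H j hj)
    S hSN'' hNN'' dℓ hdℓ twC htwC
    (Fermat.Agent.GB.B5.Glue.HnuPoint.zsmul_eq_zero_of_charZero (R := O)) twO htwO p h.hp2 hpS χ
    ρQ hρ hpO' x hx (FramePD.mem_L r j (j - 1 - i') hlt) hrp
    (H.dd hp (j - 1 - i')) (FramePD.chi_dd_mem_range H hp j hj (j - 1 - i') hlt)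
    (p ^ e (j - 1 - i')) (FramePD.chi_dd_pow H hp j (j - 1 - i'))
    (iotaVJ Sy 𝔪 H h j hbnd) (iotaVJ_injective Sy 𝔪 H h j hbnd) π hπ (fun t => twP t) a hιT hπT
    ((bigLevel Sy 𝔪 H h j).D i') hιD (L.D i) hπD
    (L.unitSub p hNk i)
    (fun t m hm => L.map_mem_unitSub p hNk i (a t) (fun l => a_D t l) hm) hsum
    (fun m hm => ?_) hocc
  have hm' : ((p ^ e (j - 1 - i') : ℕ) : O) • m ∈ L.unitSub p hNk i := by
    rw [Nat.cast_smul_eq_nsmul, ← natCast_zsmul]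
    exact hm
  refine L.mem_unitSub_of_smul_mem p hNk i _ (fun o ho => ?_) hm'
  rcases mul_eq_zero.mp ho with h0 | h0
  · exact absurd (Nat.cast_eq_zero.mp h0) (pow_ne_zero _ hp.ne_zero)
  · exact h0

/-! ### at `(Plug.tw Sy 𝔪 H h s k c hc hc1).L1`, any number `s` of framed steps -/

section PlugL1

variable (s k : ℕ) (c : Fin s → O) (hc : ∀ v : Fin s, c v ^ p ^ e (s + k - 1 - v) = 1)
  (hc1 : ∀ v, (1 : O) - c v ∈ Ideal.span {ϖ})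

/-- the orders of the Taylor–Wiles diamonds of `Plug.tw … s k …` are nonzero -/
instance neZero_Nfun_natAddG (i : Fin k) : NeZero (Nfun p e (s + k) (Fin.natAdd s i)) :=
  ⟨(Nfun_pos hpF.out e (s + k) _).ne'⟩

/-- the quotient map `(bigLevel …).M ↠ M¹` (`= fmk` at the trivial family) as a linear map -/
noncomputable def piOneG :
    (bigLevel Sy 𝔪 H h (s + k)).M →ₗ[O] (tw Sy 𝔪 H h s k c hc hc1).L1.M :=
  (famRange (frD (bigLevel Sy 𝔪 H h (s + k))) (fun _ => (1 : O))).mkQ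

theorem piOneG_apply (x : (bigLevel Sy 𝔪 H h (s + k)).M) :
    piOneG Sy 𝔪 H h s k c hc hc1 x
      = fmk (frD (bigLevel Sy 𝔪 H h (s + k))) (fun _ => (1 : O)) x := rfl

theorem piOneG_surjective : Function.Surjective (piOneG Sy 𝔪 H h s k c hc hc1) :=
  Submodule.mkQ_surjective (famRange (frD (bigLevel Sy 𝔪 H h (s + k))) (fun _ => (1 : O)))

/-- `π ∘ B.D (Fin.natAdd s i) = L1.D i ∘ π` -/
theorem piOneG_D (i : Fin k) (y : (bigLevel Sy 𝔪 H h (s + k)).M) :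
    piOneG Sy 𝔪 H h s k c hc hc1 ((bigLevel Sy 𝔪 H h (s + k)).D (Fin.natAdd s i) y)
      = (tw Sy 𝔪 H h s k c hc hc1).L1.D i (piOneG Sy 𝔪 H h s k c hc hc1 y) := rfl

/-- the step of the `i`-th Taylor–Wiles diamond -/
theorem idx_natAdd (i : Fin k) :
    s + k - 1 - ((Fin.natAdd s i : Fin (s + k)) : ℕ) = k - 1 - (i : ℕ) := by
  rw [Fin.val_natAdd]
  have := i.2
  omega

/-- **(B5) at the `i`-th Taylor–Wiles diamond, on `M¹ = (Plug.tw … s k …).L1.M`**, `s` free. -/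
theorem hB5_plugG_L1 (hk : s + k ≤ K)
    (hbnd : ∀ y : Additive (GammaH (Theta (Δs p e) H.psi (s + k))) →+ O,
      IsLoc (actH Sy O (Theta (Δs p e) H.psi (s + k))) 𝔪 y →
        y ∈ parabolicHoms O (GammaH (Theta (Δs p e) H.psi (s + k))) O)
    (S : Finset ℕ) (hpS : p ∈ S)
    {N'' : ℕ} [NeZero N''] (hN'' : N'' = N * ∏ i : Fin (s + k), r i)
    (hSN'' : ∀ ℓ : ℕ, ℓ.Prime → ℓ ∣ N'' → ℓ ∈ (↑S : Set ℕ))
    (ρQ : GaloisRepAdic TQ)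
    (χ : ↥(heckeAlgebra N'' 2 (↑S : Set ℕ)) →+* TQ)
    (hNk : ∀ i : Fin k, p ∣ Nfun p e (s + k) (Fin.natAdd s i))
    (a₁ : TQ →ₐ[O] Module.End O (tw Sy 𝔪 H h s k c hc hc1).L1.M)
    (a₁_D : ∀ t i, a₁ t * (tw Sy 𝔪 H h s k c hc hc1).L1.D i
      = (tw Sy 𝔪 H h s k c hc hc1).L1.D i * a₁ t)
    (tw₁ : ↥(heckeAlgebra N'' 2 (↑S : Set ℕ)) →+*
      Module.End O (tw Sy 𝔪 H h s k c hc hc1).L1.M)
    (ha : ∀ t, a₁ (χ t) = tw₁ t)
    (twP : ↥(heckeAlgebra N'' 2 (↑S : Set ℕ)) →+* Module.End O (bigLevel Sy 𝔪 H h (s + k)).M)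
    (hfmk : ∀ t (x : (bigLevel Sy 𝔪 H h (s + k)).M),
      tw₁ t (fmk (frD (bigLevel Sy 𝔪 H h (s + k))) (fun _ => (1 : O)) x)
        = fmk (frD (bigLevel Sy 𝔪 H h (s + k))) (fun _ => (1 : O)) (twP t x))
    (hT : ∀ (ℓ : ℕ) (hℓ : ℓ.Prime) (hℓN' : ¬ ℓ ∣ N'') (hℓS : ℓ ∉ (↑S : Set ℕ))
        (hℓN : ¬ ℓ ∣ N),
      haveI : Fact ℓ.Prime := ⟨hℓ⟩
      ∃ d : Gamma0 N,
        (∀ u : (ZMod N)ˣ, (u : ZMod N) = ((ℓ : ℕ) : ZMod N) →
          chi (Theta (Δs p e) H.psi (s + k)) d ^ 2 * Theta (Δs p e) H.psi (s + k) u = 1) ∧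
        ∀ x : (bigLevel Sy 𝔪 H h (s + k)).M,
          (bigReal Sy 𝔪 H h (s + k)).ι (twP (heckeAlgebra.T hℓ hℓN' hℓS) x)
            = diaH (Theta (Δs p e) H.psi (s + k)) O d
                (TH (Theta (Δs p e) H.psi (s + k)) O hℓN ((bigReal Sy 𝔪 H h (s + k)).ι x)))
    (hρ : ∀ (ℓ : ℕ) (hℓ : ℓ.Prime) (hℓN' : ¬ ℓ ∣ N'') (hℓS : ℓ ∉ (↑S : Set ℕ))
      (A : ValuationSubring Qb), A.LiesOverPrime ℓ → ∀ σ : GQ, A.IsFrobeniusAt σ ℓ →
        LinearMap.charpoly (ρQ.ρ σ)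
          = X ^ 2 - C (χ (heckeAlgebra.T hℓ hℓN' hℓS)) * X + C ((ℓ : TQ)))
    (i : Fin k) (hei : 1 ≤ e (k - 1 - i)) (hrp : r (k - 1 - i) ≠ p)
    {O' : Type} [CommRing O'] [IsDomain O'] [IsDiscreteValuationRing O']
    [IsAdicComplete (maximalIdeal O') O'] [Finite (ResidueField O')] [CharZero O']
    (hpO' : (p : O') ∈ maximalIdeal O') (x : TQ →+* O') (hx : IsLocalHom x)
    (hocc : ∀ t : TQ,
      (∀ m, a₁ t m ∈ (tw Sy 𝔪 H h s k c hc hc1).L1.unitSub p hNk i) → x t = 0) :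
    ¬ (ρQ.baseChangeAlong x hx).IsUnipotentOnInertiaAt (r (k - 1 - i)) := by
  have hidx := idx_natAdd s k i
  have key := hB5_plugJ Sy 𝔪 H h (s + k) hk hbnd S hpS hN'' hSN'' ρQ χ
    (tw Sy 𝔪 H h s k c hc hc1).L1 hNk
    (piOneG Sy 𝔪 H h s k c hc hc1) (piOneG_surjective Sy 𝔪 H h s k c hc hc1)
    (Fin.natAdd s i) i (piOneG_D Sy 𝔪 H h s k c hc hc1 i) a₁ a₁_D tw₁ ha twP hfmk hT hρ
    (by rw [hidx]; exact hei) (by rw [hidx]; exact hrp) hpO' x hx hocc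
  rwa [hidx] at key

end PlugL1

/-! ### at helper11's `G2` objects (twin of helper49's `G4H1.h1_G2`) -/

section G2Sec

open Fermat.Agent.GB.B9.ProviderFlat Fermat.Agent.GB.B4.Datum.TQFields

variable (s k : ℕ) (c : Fin s → O) (hc : ∀ v : Fin s, c v ^ p ^ e (s + k - 1 - v) = 1)
  (hc1 : ∀ v, (1 : O) - c v ∈ Ideal.span {ϖ})

variable {N'' : ℕ} [NeZero N''] {S : Finset ℕ}
  (twP : ↥(heckeAlgebra N'' 2 (↑S : Set ℕ)) →+* Module.End O (bigLevel Sy 𝔪 H h (s + k)).M)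
  (hD : ∀ t i, twP t * (bigLevel Sy 𝔪 H h (s + k)).D i =
    (bigLevel Sy 𝔪 H h (s + k)).D i * twP t)
  (θA : ↥(heckeAlgebra N'' 2 (↑S : Set ℕ)) →+* IsLocalRing.ResidueField O)

/-- **(B5) on the `G2` objects at `Plug.tw`**, any number `s` of framed steps: at a DVR point `x`
of `T_Q := G2.T …` killing the annihilator of `M¹_Q / unitSub i`, `ρ_Q ⊗_x O'` is NOT unipotent on
inertia at the prime `r (k - 1 - i)` of the `i`-th Taylor–Wiles diamond. -/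
theorem hB5_G2 (hN : Squarefree N) (hsk : s + k ≤ K)
    [IsLocalRing (G2.T Sy 𝔪 H h s k c hc hc1 twP hD θA)]
    (hN'' : N'' = N * ∏ i : Fin (s + k), r i)
    (hpS : p ∈ S) (hNtopS : ∀ q : ℕ, q.Prime → q ∣ N'' → q ∈ S)
    (ρQ : GaloisRepAdic (G2.T Sy 𝔪 H h s k c hc hc1 twP hD θA))
    (hchar : ∀ (ℓ : ℕ) (hℓ : ℓ.Prime) (hℓN : ¬ ℓ ∣ N'') (hℓS : ℓ ∉ (↑S : Set ℕ))
      (A : ValuationSubring Qb), A.LiesOverPrime ℓ → ∀ σ : GQ, A.IsFrobeniusAt σ ℓ →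
        LinearMap.charpoly (ρQ.ρ σ) =
          X ^ 2 - C (Fermat.Agent.GB.B4.Datum.ImageRing.chi O θA
            (Fermat.Agent.GB.B4.Datum.TQFields.prodTw O (G2.tw₁ Sy 𝔪 H h s k c hc hc1 twP hD)
              (G2.twχ Sy 𝔪 H h s k c hc hc1 twP hD)) (heckeAlgebra.T hℓ hℓN hℓS)) * X
            + C ((ℓ : G2.T Sy 𝔪 H h s k c hc hc1 twP hD θA)))
    (dℓ : PrimesOff (↑S : Set ℕ) → Gamma0 N)
    (hdℓ : ∀ (l : PrimesOff (↑S : Set ℕ)) (u : (ZMod N)ˣ),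
      (u : ZMod N) = ((l.1 : ℕ) : ZMod N) →
      chi (Theta (Δs p e) H.psi (s + k)) (dℓ l) ^ 2 * Theta (Δs p e) H.psi (s + k) u = 1)
    (hnd : ∀ l : PrimesOff (↑S : Set ℕ), ¬ (l.1 : ℕ) ∣ N)
    (hι : ∀ (l : PrimesOff (↑S : Set ℕ)) (x : (bigLevel Sy 𝔪 H h (s + k)).M),
      (bigReal Sy 𝔪 H h (s + k)).ι (twP (formsGenS N'' (↑S : Set ℕ) l) x) =
        diaH (Theta (Δs p e) H.psi (s + k)) O (dℓ l)
          (haveI : Fact (l.1 : ℕ).Prime := ⟨l.1.2⟩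
           TH (Theta (Δs p e) H.psi (s + k)) O (hnd l)
            ((bigReal Sy 𝔪 H h (s + k)).ι x)))
    (hNk : ∀ i : Fin k, p ∣ Nfun p e (s + k) (Fin.natAdd s i))
    (i : Fin k) (hei : 1 ≤ e (k - 1 - i)) (hrp : r (k - 1 - i) ≠ p)
    {O' : Type} [CommRing O'] [IsDomain O'] [IsDiscreteValuationRing O']
    [IsAdicComplete (maximalIdeal O') O'] [Finite (ResidueField O')] [CharZero O']
    (hpO' : (p : O') ∈ maximalIdeal O')
    (x : G2.T Sy 𝔪 H h s k c hc hc1 twP hD θA →+* O') (hx : IsLocalHom x)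
    (hocc : ∀ t : G2.T Sy 𝔪 H h s k c hc hc1 twP hD θA,
      (∀ m, G2.a₁ Sy 𝔪 H h s k c hc hc1 twP hD θA t m ∈
        (tw Sy 𝔪 H h s k c hc hc1).L1.unitSub p hNk i) → x t = 0) :
    ¬ (ρQ.baseChangeAlong x hx).IsUnipotentOnInertiaAt (r (k - 1 - i)) := by
  have hSN' : ∀ ℓ : ℕ, ℓ.Prime → ℓ ∣ N'' → ℓ ∈ (↑S : Set ℕ) := fun ℓ hℓ hℓN =>
    Finset.mem_coe.mpr (hNtopS ℓ hℓ hℓN)
  -- `hT` from the `ι`-formula on the generators
  have hT : ∀ (ℓ : ℕ) (hℓ : ℓ.Prime) (hℓN' : ¬ ℓ ∣ N'') (hℓS : ℓ ∉ (↑S : Set ℕ))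
      (hℓN : ¬ ℓ ∣ N),
      haveI : Fact ℓ.Prime := ⟨hℓ⟩
      ∃ d : Gamma0 N,
        (∀ u : (ZMod N)ˣ, (u : ZMod N) = ((ℓ : ℕ) : ZMod N) →
          chi (Theta (Δs p e) H.psi (s + k)) d ^ 2 * Theta (Δs p e) H.psi (s + k) u = 1) ∧
        ∀ x : (bigLevel Sy 𝔪 H h (s + k)).M,
          (bigReal Sy 𝔪 H h (s + k)).ι (twP (heckeAlgebra.T hℓ hℓN' hℓS) x)
            = diaH (Theta (Δs p e) H.psi (s + k)) O d
                (TH (Theta (Δs p e) H.psi (s + k)) O hℓN ((bigReal Sy 𝔪 H h (s + k)).ι x)) := by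
    intro ℓ hℓ hℓN' hℓS hℓN
    refine ⟨dℓ ⟨⟨ℓ, hℓ⟩, hℓS⟩, fun u hu => hdℓ ⟨⟨ℓ, hℓ⟩, hℓS⟩ u hu, fun x => ?_⟩
    have h1 := hι ⟨⟨ℓ, hℓ⟩, hℓS⟩ x
    rw [formsGenS_of_not_dvd N'' (↑S : Set ℕ) ⟨⟨ℓ, hℓ⟩, hℓS⟩ hℓN'] at h1
    exact h1
  exact hB5_plugG_L1 Sy 𝔪 H h s k c hc hc1 hsk
    (fun y hy => Fermat.Agent.GB.B3.Boundary.Mat.isLoc_mem_parabolicHoms_theta_of_squarefree
      Sy 𝔪 H h hN (s + k) hy)
    S hpS hN'' hSN' ρQ
    (Fermat.Agent.GB.B4.Datum.ImageRing.chi O θA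
      (Fermat.Agent.GB.B4.Datum.TQFields.prodTw O (G2.tw₁ Sy 𝔪 H h s k c hc hc1 twP hD)
        (G2.twχ Sy 𝔪 H h s k c hc hc1 twP hD)))
    hNk (G2.a₁ Sy 𝔪 H h s k c hc hc1 twP hD θA)
    (fun t i => G2.a₁_D Sy 𝔪 H h s k c hc hc1 twP hD θA t i)
    (G2.tw₁ Sy 𝔪 H h s k c hc hc1 twP hD)
    (fun t => G2.a₁_chi Sy 𝔪 H h s k c hc hc1 twP hD θA t)
    twP (fun t x => rfl) hT hchar i hei hrp hpO' x hx hocc

end G2Sec

end Plug

/-! ### at a Taylor–Wiles set `Q` of the setup bundle, NO framed step -/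

section Pkg

open WeierstrassCurve WeierstrassCurve.Affine.Point
open Fermat.Agent.GB.Setup.SetupPkg Fermat.Agent.GB.B9.ProviderFlat.H1
  Fermat.Agent.GB.B9.ProviderFlat.G1 Fermat.Agent.GB.B9.ProviderFlat
  Fermat.Agent.GB.Glue.Points Fermat.Agent.GB.B9.ProviderFlat.G7.TWSetG7
  Fermat.Agent.GE6.Inst.FreeLevelInst Fermat.Agent.GE6.Inst.FreeLevelTw

variable {p : ℕ} [hpF : Fact p.Prime] {W : WeierstrassCurve ℤ}
  {hcard₁ : Nat.card (Submodule.torsionBy ℤ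
    ((W.map (Int.castRingHom ℚ)).toAffine.baseChange (AlgebraicClosure ℚ)).Point p) = p ^ 2}
  {hker : GaloisFactorsThroughFiniteLevel
    (WeierstrassCurve.Affine.Point.galoisRepModuleEnd (K := AlgebraicClosure ℚ) ℚ
      (W.map (Int.castRingHom ℚ)) p)}
  {M A : ℕ} {P : Pkg p W hcard₁ hker M A} {g n : ℕ} (Q : TWSet P g n)
  (hp3 : p ≠ 3) (E : Fin g → ℕ) (hE : ∀ j, p ^ E j ∣ Q.qv j - 1)
  (c : Fin 0 → P.O) (hc : ∀ v : Fin 0, c v ^ p ^ eRev E (0 + g - 1 - v) = 1)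
  (hc1 : ∀ v, (1 : P.O) - c v ∈ Ideal.span {P.ϖ})

/-- the level of forms at `Q`: `Q.N · ∏ qv` in the spelling of the tower (`0 + g` steps) -/
theorem prod_rRev : ∏ i : Fin (0 + g), rRev Q (i : ℕ) = ∏ j : Fin g, Q.qv j := by
  refine (Fintype.prod_equiv (finCongr (Nat.zero_add g)) (fun i : Fin (0 + g) => rRev Q (i : ℕ))
    (fun i : Fin g => Q.qv (Fin.rev i)) (fun i => ?_)).trans (Equiv.prod_comp Fin.revPerm Q.qv)
  exact rRev_lt Q (finCongr (Nat.zero_add g) i).2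

/-- the orders of the diamonds of `twE` are divisible by `p` as soon as `E j ≥ 1` -/
theorem dvd_Nfun0 (hE1 : ∀ j, 1 ≤ E j) (i : Fin g) :
    p ∣ Nfun p (eRev E) (0 + g) (Fin.natAdd 0 i) := by
  rw [Fermat.Agent.GB.B3.Plug.Nfun_natAdd, eRev_idx]
  exact dvd_pow_self p (by have := hE1 i; omega)

include hp3 in
/-- (BND) at every stage of the tower of `primeDataE` (squarefree level) -/
theorem hbnd_E (hsq : Squarefree M) (j : ℕ)
    (y : Additive (GammaH (Theta (Δs p (eRev E)) (primeDataE Q E hE).psi j)) →+ P.O)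
    (hy : IsLoc (actH Q.Sy P.O (Theta (Δs p (eRev E)) (primeDataE Q E hE).psi j)) Q.𝔪 y) :
    y ∈ parabolicHoms P.O (GammaH (Theta (Δs p (eRev E)) (primeDataE Q E hE).psi j)) P.O :=
  Fermat.Agent.GB.B3.Boundary.Mat.isLoc_mem_parabolicHoms_theta_of_squarefree Q.Sy Q.𝔪
    (primeDataE Q E hE) (Q.hyp hp3) (squarefree_N Q hsq) j hy

/-- **the binder `hB5` of `UnitInst.hunit_of_labelled`, VERBATIM, at
`L := (twE Q hp3 E hE c hc hc1).L1`, `r := Q.qv`** — for a record `(T, χ, a₁, tw₁, twP, ρQ)` in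
the spelling of `G4B5.hB5₁_tw1F` (`s = 0`). -/
theorem hB5_twE (hsq : Squarefree M) (hE1 : ∀ j, 1 ≤ E j)
    (S : Finset ℕ) (hpS : p ∈ S)
    {N'' : ℕ} [NeZero N''] (hN'' : N'' = Q.N * ∏ i : Fin (0 + g), rRev Q i)
    (hSN'' : ∀ ℓ : ℕ, ℓ.Prime → ℓ ∣ N'' → ℓ ∈ (↑S : Set ℕ))
    (T : Type) [CommRing T] [IsLocalRing T] [Algebra P.O T] [Module.Finite P.O T]
    (ρQ : GaloisRepAdic T)
    (χ : ↥(heckeAlgebra N'' 2 (↑S : Set ℕ)) →+* T)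
    (hNk : ∀ i : Fin g, p ∣ Nfun p (eRev E) (0 + g) (Fin.natAdd 0 i))
    (a₁ : T →ₐ[P.O] Module.End P.O (twE Q hp3 E hE c hc hc1).L1.M)
    (a₁_D : ∀ t i, a₁ t * (twE Q hp3 E hE c hc hc1).L1.D i =
      (twE Q hp3 E hE c hc hc1).L1.D i * a₁ t)
    (tw₁ : ↥(heckeAlgebra N'' 2 (↑S : Set ℕ)) →+*
      Module.End P.O (twE Q hp3 E hE c hc hc1).L1.M)
    (ha : ∀ t, a₁ (χ t) = tw₁ t)
    (twP : ↥(heckeAlgebra N'' 2 (↑S : Set ℕ)) →+*
      Module.End P.O (bigLevel Q.Sy Q.𝔪 (primeDataE Q E hE) (Q.hyp hp3) (0 + g)).M)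
    (hfmk : ∀ t (x : (bigLevel Q.Sy Q.𝔪 (primeDataE Q E hE) (Q.hyp hp3) (0 + g)).M),
      tw₁ t (fmk (frD (bigLevel Q.Sy Q.𝔪 (primeDataE Q E hE) (Q.hyp hp3) (0 + g)))
          (fun _ => (1 : P.O)) x)
        = fmk (frD (bigLevel Q.Sy Q.𝔪 (primeDataE Q E hE) (Q.hyp hp3) (0 + g)))
          (fun _ => (1 : P.O)) (twP t x))
    (hT : ∀ (ℓ : ℕ) (hℓ : ℓ.Prime) (hℓN' : ¬ ℓ ∣ N'') (hℓS : ℓ ∉ (↑S : Set ℕ))
        (hℓN : ¬ ℓ ∣ Q.N),
      haveI : Fact ℓ.Prime := ⟨hℓ⟩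
      ∃ d : Gamma0 Q.N,
        (∀ u : (ZMod Q.N)ˣ, (u : ZMod Q.N) = ((ℓ : ℕ) : ZMod Q.N) →
          chi (Theta (Δs p (eRev E)) (primeDataE Q E hE).psi (0 + g)) d ^ 2 *
            Theta (Δs p (eRev E)) (primeDataE Q E hE).psi (0 + g) u = 1) ∧
        ∀ x : (bigLevel Q.Sy Q.𝔪 (primeDataE Q E hE) (Q.hyp hp3) (0 + g)).M,
          (bigReal Q.Sy Q.𝔪 (primeDataE Q E hE) (Q.hyp hp3) (0 + g)).ι
              (twP (heckeAlgebra.T hℓ hℓN' hℓS) x)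
            = diaH (Theta (Δs p (eRev E)) (primeDataE Q E hE).psi (0 + g)) P.O d
                (TH (Theta (Δs p (eRev E)) (primeDataE Q E hE).psi (0 + g)) P.O hℓN
                  ((bigReal Q.Sy Q.𝔪 (primeDataE Q E hE) (Q.hyp hp3) (0 + g)).ι x)))
    (hρ : ∀ (ℓ : ℕ) (hℓ : ℓ.Prime) (hℓN' : ¬ ℓ ∣ N'') (hℓS : ℓ ∉ (↑S : Set ℕ)),
      ∀ A : ValuationSubring Qb, A.LiesOverPrime ℓ → ∀ σ : GQ, A.IsFrobeniusAt σ ℓ →
        LinearMap.charpoly (ρQ.ρ σ)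
          = X ^ 2 - C (χ (heckeAlgebra.T hℓ hℓN' hℓS)) * X + C ((ℓ : T))) :
    ∀ (i : Fin g) (x : Idx P.O T)
      (hloc : IsLocalHom ((ψ x : T →ₐ[P.O] Rq x) : T →+* Rq x)),
      (∀ t : T, (∀ m, a₁ t m ∈ (twE Q hp3 E hE c hc hc1).L1.unitSub p hNk i) → ψ x t = 0) →
      ¬ (ρQ.baseChangeAlong ((ψ x : T →ₐ[P.O] Rq x) : T →+* Rq x) hloc).IsUnipotentOnInertiaAt
        (Q.qv i) := by
  intro i x hloc hocc
  have key := hB5_plugG_L1 Q.Sy Q.𝔪 (primeDataE Q E hE) (Q.hyp hp3) 0 g c hc hc1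
    (Nat.le_of_eq (Nat.zero_add g)) (hbnd_E Q hp3 E hE hsq (0 + g)) S hpS hN'' hSN''
    ρQ χ hNk a₁ a₁_D tw₁ ha twP hfmk hT hρ i
    (by rw [eRev_idx]; exact hE1 i) (by rw [rRev_idx]; exact (Q.good i).2.2)
    (natCast_mem_maximalIdeal_Rq x P.hpO) ((ψ x : T →ₐ[P.O] Rq x) : T →+* Rq x) hloc hocc
  rwa [rRev_idx Q i] at key


end Pkg

end Fermat.Agent.GE6.Inst.B5Gen
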