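/-
GATE-E (S59) / ENGINE-INST item (iv) (UNIT), supplier (B5) (helper83): **(B5) at the Taylor–Wiles
diamonds of the level of record of E6**, `(twE Q hp3 E hE c hc hc1).L1` (`FreeLevelTw`, helper51) —
NO framed prime (`s = 0`).

GATE-B's only supplier, `GB/B5/Glue/HnuPlug.hB5_plug` (helper35/helper6) and
`ProviderFlat/G4B5.hB5_plug_L1`, is hard-coded to ONE framed step (`bigLevel … (1 + k)`,
`Fin.natAdd 1 i`, `hk : 1 + k ≤ K`).  This file is the generic twin: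

* Plug level, `j` generic: `iotaVJ`, `coe_iotaVJ`, `iotaVJ_injective`, `iotaVJ_D`, `exists_tw_dataJ`
  (`HnuPlug.iotaV … exists_tw_data` with `1 + k ↦ j`; `FramePD` is already `j`-generic);
* Plug level, `s k` generic: **`hB5_plugG`** (`HnuPlug.hB5_plug` with `1 + k ↦ s + k`,
  `Fin.natAdd 1 i ↦ Fin.natAdd s i`), `piOneG` (`= fmk` onto `(Plug.tw … s k c hc hc1).L1.M`),
  `piOneG_apply`, `piOneG_surjective`, `piOneG_D`, **`hB5_plugG_L1`** (`G4B5.hB5_plug_L1` at `s`);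
* `Q : G1.TWSet P g n`, per-prime exponents `E` (`FreeLevelInst.primeDataE`): `hbnd_E` ((BND) at
  every stage, squarefree level), `rRev_ne`, **`hB5_twE`** = the binder `hB5` of
  `UnitInst.hunit_of_labelled` VERBATIM at `L := (twE …).L1`, `r := Q.qv`, the DVR points
  `Idx P.O T` / `ψ` / `Rq` of `GB/Glue/Points`; `castN_unitSub` + **`hB5_FQ1`** = the same at
  `L := FQ1 …` (diamond orders `fun j => p ^ E j`, the `F` of `ModSideData`).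
  LEFT as binders (the G2 / G3 outputs, in the spelling of `G4B5.hB5₁_tw1F`):
  `S hpS N'' hN'' hSN'' T ρQ χ a₁ a₁_D tw₁ ha twP hfmk hT hρ`.
-/
import Fermat.Agent.GB.B5.Glue.HnuPlug
import Fermat.Agent.GB.B3.Boundary.MatPlug
import Fermat.Agent.GB.B3.Boundary.MatSqfree
import Fermat.Agent.GB.Glue.Points
import Fermat.Agent.GE6.Inst.FreeLevelTw

set_option autoImplicit false
set_option linter.unusedSectionVars false
set_option linter.unusedVariables false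
set_option linter.style.haveILetI false

open scoped MatrixGroups
open CongruenceSubgroup Polynomial IsLocalRing CuspForm
open Fermat.Agent.GM.B ModularCurve.Period
open Fermat.Agent.GB.B3 Fermat.Agent.GB.B3.EisGamma0 Fermat.Agent.GB.B3.GamH
open Fermat.Agent.GB.B3.RealLevel Fermat.Agent.GB.B3.HeckeActH Fermat.Agent.GB.B3.HeckeAct
open Fermat.Agent.GB.B3.TWChars Fermat.Agent.GB.B3.Tower Fermat.Agent.GB.B3.FinalTW
open Fermat.Agent.GB.B3.Plug Fermat.Agent.GB.B3.ChiLevelMulti Fermat.Agent.GB.B3.TWLevel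
open Fermat.Agent.GB.B3.StepInst Fermat.Agent.GB.B3.Final
open Fermat.Agent.GJ.J2.Lat
open Fermat.Agent.GB.B4.Twist.Asm Fermat.Agent.GB.B4.Twist.TwFinal Fermat.Agent.GB.B4.Twist.TwInst
open Fermat.Agent.GB.B5.Glue Fermat.Agent.GB.B5.Glue.HnuPlug

namespace Fermat.Agent.GE6.Inst.B5TwE

open Fermat.Agent.Common_helper32

/-- local instance (Prop-valued class) -/
local instance factPrimeOffB5TwE {S : Set ℕ} (l : PrimesOff S) : Fact (l.1 : ℕ).Prime := ⟨l.1.2⟩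

section Plug

variable {N p K : ℕ} [NeZero N] [hpF : Fact p.Prime] {r e N' : ℕ → ℕ}
variable (Sy : Symbols N)
variable {O : Type} [CommRing O] [IsDomain O] [IsDiscreteValuationRing O]
  [IsAdicComplete (maximalIdeal O) O] [CharZero O] [Finite (ResidueField O)]
variable (𝔪 : Ideal (Sy.𝕋 O)) [𝔪.IsMaximal]
variable (H : PrimeData N p K r e N') {ϖ : O} {s0 : Sy.ι₁} (h : Plug.Hyp Sy 𝔪 p ϖ s0)
variable (j : ℕ)
variable {TQ : Type} [CommRing TQ] [IsLocalRing TQ] [Algebra O TQ]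

/-! ### the common data at ANY stage `j`: `ι`, the half-diamonds, `tw_ℂ`, `tw_O`, the `ι`-square -/

/-- the realisation of the big level of stage `j` inside the parabolic classes -/
noncomputable def iotaVJ
    (hbnd : ∀ y : Additive (GammaH (Theta (Δs p e) H.psi j)) →+ O,
      IsLoc (actH Sy O (Theta (Δs p e) H.psi j)) 𝔪 y →
        y ∈ parabolicHoms O (GammaH (Theta (Δs p e) H.psi j)) O) :
    (bigLevel Sy 𝔪 H h j).M →ₗ[O]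
      ↥(parabolicHoms O (GammaH (Theta (Δs p e) H.psi j)) O) :=
  LinearMap.codRestrict _ (bigReal Sy 𝔪 H h j).ι
    (fun x => hbnd _ (((bigReal Sy 𝔪 H h j).range _).1 ⟨x, rfl⟩))

theorem coe_iotaVJ
    (hbnd : ∀ y : Additive (GammaH (Theta (Δs p e) H.psi j)) →+ O,
      IsLoc (actH Sy O (Theta (Δs p e) H.psi j)) 𝔪 y →
        y ∈ parabolicHoms O (GammaH (Theta (Δs p e) H.psi j)) O)
    (x : (bigLevel Sy 𝔪 H h j).M) :
    ((iotaVJ Sy 𝔪 H h j hbnd x :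
        ↥(parabolicHoms O (GammaH (Theta (Δs p e) H.psi j)) O)) :
      Additive (GammaH (Theta (Δs p e) H.psi j)) →+ O)
      = (bigReal Sy 𝔪 H h j).ι x := rfl

theorem iotaVJ_injective
    (hbnd : ∀ y : Additive (GammaH (Theta (Δs p e) H.psi j)) →+ O,
      IsLoc (actH Sy O (Theta (Δs p e) H.psi j)) 𝔪 y →
        y ∈ parabolicHoms O (GammaH (Theta (Δs p e) H.psi j)) O) :
    Function.Injective (iotaVJ Sy 𝔪 H h j hbnd) := fun x y hxy =>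
  (bigReal Sy 𝔪 H h j).inj (by
    rw [← coe_iotaVJ Sy 𝔪 H h j hbnd x, ← coe_iotaVJ Sy 𝔪 H h j hbnd y, hxy])

/-- the diamond at the step `j - 1 - i` -/
theorem iotaVJ_D
    (hbnd : ∀ y : Additive (GammaH (Theta (Δs p e) H.psi j)) →+ O,
      IsLoc (actH Sy O (Theta (Δs p e) H.psi j)) 𝔪 y →
        y ∈ parabolicHoms O (GammaH (Theta (Δs p e) H.psi j)) O)
    (i : Fin j) (y : (bigLevel Sy 𝔪 H h j).M) :
    iotaVJ Sy 𝔪 H h j hbnd ((bigLevel Sy 𝔪 H h j).D i y)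
      = diaV (Theta (Δs p e) H.psi j) O (H.dd hpF.out (j - 1 - i))
          (iotaVJ Sy 𝔪 H h j hbnd y) := by
  apply Subtype.ext
  rw [coe_diaV, coe_iotaVJ, coe_iotaVJ, (bigReal Sy 𝔪 H h j).ι_D, diaLin_apply, dfun_apply]

/-- **the common data** of the plug instances, at any stage `j ≤ K`. -/
theorem exists_tw_dataJ (hj : j ≤ K)
    (hbnd : ∀ y : Additive (GammaH (Theta (Δs p e) H.psi j)) →+ O,
      IsLoc (actH Sy O (Theta (Δs p e) H.psi j)) 𝔪 y →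
        y ∈ parabolicHoms O (GammaH (Theta (Δs p e) H.psi j)) O)
    (S : Finset ℕ) {N'' : ℕ} [NeZero N''] (hN'' : N'' = N * ∏ i : Fin j, r i)
    (hSN'' : ∀ ℓ : ℕ, ℓ.Prime → ℓ ∣ N'' → ℓ ∈ (↑S : Set ℕ)) (hNN'' : N ∣ N'')
    (twP : ↥(heckeAlgebra N'' 2 (↑S : Set ℕ)) →+* Module.End O (bigLevel Sy 𝔪 H h j).M)
    (hT : ∀ (ℓ : ℕ) (hℓ : ℓ.Prime) (hℓN' : ¬ ℓ ∣ N'') (hℓS : ℓ ∉ (↑S : Set ℕ))
        (hℓN : ¬ ℓ ∣ N),
      haveI : Fact ℓ.Prime := ⟨hℓ⟩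
      ∃ d : Gamma0 N,
        (∀ u : (ZMod N)ˣ, (u : ZMod N) = ((ℓ : ℕ) : ZMod N) →
          chi (Theta (Δs p e) H.psi j) d ^ 2 * Theta (Δs p e) H.psi j u = 1) ∧
        ∀ x : (bigLevel Sy 𝔪 H h j).M,
          (bigReal Sy 𝔪 H h j).ι (twP (heckeAlgebra.T hℓ hℓN' hℓS) x)
            = diaH (Theta (Δs p e) H.psi j) O d
                (TH (Theta (Δs p e) H.psi j) O hℓN ((bigReal Sy 𝔪 H h j).ι x))) :
    ∃ (dℓ : PrimesOff (↑S : Set ℕ) → Gamma0 N)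
      (twC : ↥(heckeAlgebra N'' 2 (↑S : Set ℕ)) →+*
        Module.End ℂ ↥(parabolicHoms ℂ (GammaH (Theta (Δs p e) H.psi j)) ℂ))
      (twO : ↥(heckeAlgebra N'' 2 (↑S : Set ℕ)) →+*
        Module.End O ↥(parabolicHoms O (GammaH (Theta (Δs p e) H.psi j)) O)),
      (∀ (l : PrimesOff (↑S : Set ℕ)) (u : (ZMod N)ˣ), (u : ZMod N) = ((l.1 : ℕ) : ZMod N) →
        chi (Theta (Δs p e) H.psi j) (dℓ l) ^ 2 * Theta (Δs p e) H.psi j u = 1) ∧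
      (∀ (l : PrimesOff (↑S : Set ℕ))
          (v : ↥(parabolicHoms ℂ (GammaH (Theta (Δs p e) H.psi j)) ℂ)),
        ((twC (formsGenS N'' (↑S : Set ℕ) l) v :
            ↥(parabolicHoms ℂ (GammaH (Theta (Δs p e) H.psi j)) ℂ)) :
            Additive (GammaH (Theta (Δs p e) H.psi j)) →+ ℂ)
          = diaH (Theta (Δs p e) H.psi j) ℂ (dℓ l)
              (GamH.TH (Theta (Δs p e) H.psi j) ℂ
                (not_dvd_level (↑S : Set ℕ) hSN'' hNN'' l)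
                (v : Additive (GammaH (Theta (Δs p e) H.psi j)) →+ ℂ))) ∧
      (∀ (l : PrimesOff (↑S : Set ℕ))
          (v : ↥(parabolicHoms O (GammaH (Theta (Δs p e) H.psi j)) O)),
        ((twO (formsGenS N'' (↑S : Set ℕ) l) v :
            ↥(parabolicHoms O (GammaH (Theta (Δs p e) H.psi j)) O)) :
            Additive (GammaH (Theta (Δs p e) H.psi j)) →+ O)
          = diaH (Theta (Δs p e) H.psi j) O (dℓ l)
              (GamH.TH (Theta (Δs p e) H.psi j) O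
                (not_dvd_level (↑S : Set ℕ) hSN'' hNN'' l)
                (v : Additive (GammaH (Theta (Δs p e) H.psi j)) →+ O))) ∧
      ∀ t y, iotaVJ Sy 𝔪 H h j hbnd (twP t y) = twO t (iotaVJ Sy 𝔪 H h j hbnd y) := by
  classical
  have hp : p.Prime := hpF.out
  -- the half-diamonds
  have hexd : ∀ l : PrimesOff (↑S : Set ℕ), ∃ d : Gamma0 N,
      (∀ u : (ZMod N)ˣ, (u : ZMod N) = ((l.1 : ℕ) : ZMod N) →
        chi (Theta (Δs p e) H.psi j) d ^ 2 * Theta (Δs p e) H.psi j u = 1) ∧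
      ∀ x : (bigLevel Sy 𝔪 H h j).M,
        (bigReal Sy 𝔪 H h j).ι
            (twP (heckeAlgebra.T l.1.2 (not_dvd_level' (↑S : Set ℕ) hSN'' l) l.2) x)
          = diaH (Theta (Δs p e) H.psi j) O d
              (TH (Theta (Δs p e) H.psi j) O
                (not_dvd_level (↑S : Set ℕ) hSN'' hNN'' l)
                ((bigReal Sy 𝔪 H h j).ι x)) := fun l =>
    hT (l.1 : ℕ) l.1.2 (not_dvd_level' (↑S : Set ℕ) hSN'' l) l.2
      (not_dvd_level (↑S : Set ℕ) hSN'' hNN'' l)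
  choose dℓ hdℓ hdℓT using hexd
  obtain ⟨twC, htwC, -⟩ := exists_tw_primeData H hp h.hp2 j hj hN'' (↑S : Set ℕ) hSN''
    (O := ℂ) dℓ hdℓ
  obtain ⟨twO, htwO, -⟩ := exists_tw_primeData H hp h.hp2 j hj hN'' (↑S : Set ℕ) hSN''
    (O := O) dℓ hdℓ
  refine ⟨dℓ, twC, twO, hdℓ, htwC, htwO, ?_⟩
  refine square_of_gens (iotaVJ Sy 𝔪 H h j hbnd) twP twO
    (Set.range (formsGenS N'' (↑S : Set ℕ)))
    (Fermat.Agent.GB.B4.Twist.TwHom.closure_range_formsGenS N'' (↑S : Set ℕ)) ?_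
  rintro _ ⟨l, rfl⟩ y
  apply Subtype.ext
  have e0 := coe_iotaVJ Sy 𝔪 H h j hbnd (twP (formsGenS N'' (↑S : Set ℕ) l) y)
  have e4 := coe_iotaVJ Sy 𝔪 H h j hbnd y
  have e1 := htwO l (iotaVJ Sy 𝔪 H h j hbnd y)
  rw [e4] at e1
  have e3 := formsGenS_of_not_dvd N'' (↑S : Set ℕ) l (not_dvd_level' (↑S : Set ℕ) hSN'' l)
  have e2 := hdℓT l y
  rw [← e3] at e2
  exact e0.trans (e2.trans e1.symm)

end Plug

section PlugG

variable {N p K : ℕ} [NeZero N] [hpF : Fact p.Prime] {r e N' : ℕ → ℕ}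
variable (Sy : Symbols N)
variable {O : Type} [CommRing O] [IsDomain O] [IsDiscreteValuationRing O]
  [IsAdicComplete (maximalIdeal O) O] [CharZero O] [Finite (ResidueField O)]
variable (𝔪 : Ideal (Sy.𝕋 O)) [𝔪.IsMaximal]
variable (H : PrimeData N p K r e N') {ϖ : O} {s0 : Sy.ι₁} (h : Plug.Hyp Sy 𝔪 p ϖ s0)
variable (s k : ℕ)
variable {TQ : Type} [CommRing TQ] [IsLocalRing TQ] [Algebra O TQ]

/-! ### (B5) at the Taylor–Wiles diamonds, `s` framed steps -/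

/-- **(B5), plug form, `s` generic** (`HnuPlug.hB5_plug` is `s = 1`): `L` any level which is an
equivariant quotient `π : (bigLevel … (s + k)).M ↠ L.M`, `i` a Taylor–Wiles diamond.  At every
local point `x` of `TQ` killing the annihilator of `L.M / unitSub i`, `ρQ ⊗_x O'` is NOT unipotent
on inertia at the prime `r (k - 1 - i)` of the diamond `i`. -/
theorem hB5_plugG (hk : s + k ≤ K)
    (hbnd : ∀ y : Additive (GammaH (Theta (Δs p e) H.psi (s + k))) →+ O,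
      IsLoc (actH Sy O (Theta (Δs p e) H.psi (s + k))) 𝔪 y →
        y ∈ parabolicHoms O (GammaH (Theta (Δs p e) H.psi (s + k))) O)
    (S : Finset ℕ) (hpS : p ∈ S)
    {N'' : ℕ} [NeZero N''] (hN'' : N'' = N * ∏ i : Fin (s + k), r i)
    (hSN'' : ∀ ℓ : ℕ, ℓ.Prime → ℓ ∣ N'' → ℓ ∈ (↑S : Set ℕ))
    (ρQ : GaloisRepAdic TQ)
    (χ : ↥(heckeAlgebra N'' 2 (↑S : Set ℕ)) →+* TQ)
    {𝕋' : Type} [CommRing 𝕋'] [Algebra O 𝕋'] {M0' : Type} [AddCommGroup M0'] [Module O M0']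
    {act0' : 𝕋' →ₐ[O] Module.End O M0'} {Nk : Fin k → ℕ} [∀ i, NeZero (Nk i)]
    (L : FreeLevel O 𝕋' M0' act0' k Nk) (hNk : ∀ i, p ∣ Nk i)
    (π : (bigLevel Sy 𝔪 H h (s + k)).M →ₗ[O] L.M) (hπ : Function.Surjective π)
    (hπD : ∀ i y, π ((bigLevel Sy 𝔪 H h (s + k)).D (Fin.natAdd s i) y) = L.D i (π y))
    (a : TQ →ₐ[O] Module.End O L.M) (a_D : ∀ t i, a t * L.D i = L.D i * a t)
    (twM : ↥(heckeAlgebra N'' 2 (↑S : Set ℕ)) →+* Module.End O L.M)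
    (ha : ∀ t, a (χ t) = twM t)
    (twP : ↥(heckeAlgebra N'' 2 (↑S : Set ℕ)) →+* Module.End O (bigLevel Sy 𝔪 H h (s + k)).M)
    (hfmk : ∀ t (y : (bigLevel Sy 𝔪 H h (s + k)).M), twM t (π y) = π (twP t y))
    (hT : ∀ (ℓ : ℕ) (hℓ : ℓ.Prime) (hℓN' : ¬ ℓ ∣ N'') (hℓS : ℓ ∉ (↑S : Set ℕ))
        (hℓN : ¬ ℓ ∣ N),
      haveI : Fact ℓ.Prime := ⟨hℓ⟩
      ∃ d : Gamma0 N,
        (∀ u : (ZMod N)ˣ, (u : ZMod N) = ((ℓ : ℕ) : ZMod N) →
          chi (Theta (Δs p e) H.psi (s + k)) d ^ 2 * Theta (Δs p e) H.psi (s + k) u = 1) ∧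
        ∀ x : (bigLevel Sy 𝔪 H h (s + k)).M,
          (bigReal Sy 𝔪 H h (s + k)).ι (twP (heckeAlgebra.T hℓ hℓN' hℓS) x)
            = diaH (Theta (Δs p e) H.psi (s + k)) O d
                (TH (Theta (Δs p e) H.psi (s + k)) O hℓN ((bigReal Sy 𝔪 H h (s + k)).ι x)))
    (hρ : ∀ (ℓ : ℕ) (hℓ : ℓ.Prime) (hℓN' : ¬ ℓ ∣ N'') (hℓS : ℓ ∉ (↑S : Set ℕ))
      (A : ValuationSubring Qb), A.LiesOverPrime ℓ → ∀ σ : GQ, A.IsFrobeniusAt σ ℓ →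
        LinearMap.charpoly (ρQ.ρ σ)
          = X ^ 2 - C (χ (heckeAlgebra.T hℓ hℓN' hℓS)) * X + C ((ℓ : TQ)))
    (i : Fin k) (hei : 1 ≤ e (k - 1 - i)) (hrp : r (k - 1 - i) ≠ p)
    {O' : Type} [CommRing O'] [IsDomain O'] [IsDiscreteValuationRing O']
    [IsAdicComplete (maximalIdeal O') O'] [Finite (ResidueField O')] [CharZero O']
    (hpO' : (p : O') ∈ maximalIdeal O') (x : TQ →+* O') (hx : IsLocalHom x)
    (hocc : ∀ t : TQ, (∀ m, a t m ∈ L.unitSub p hNk i) → x t = 0) :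
    ¬ (ρQ.baseChangeAlong x hx).IsUnipotentOnInertiaAt (r (k - 1 - i)) := by
  classical
  have hp : p.Prime := hpF.out
  have hNN'' : N ∣ N'' := Dvd.intro _ hN''.symm
  obtain ⟨dℓ, twC, twO, hdℓ, htwC, htwO, hιT⟩ :=
    exists_tw_dataJ Sy 𝔪 H h (s + k) hk hbnd S hN'' hSN'' hNN'' twP hT
  have hidx : s + k - 1 - ((Fin.natAdd s i : Fin (s + k)) : ℕ) = k - 1 - i := by
    rw [Fin.val_natAdd]
    omega
  have hιD : ∀ y, iotaVJ Sy 𝔪 H h (s + k) hbnd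
        ((bigLevel Sy 𝔪 H h (s + k)).D (Fin.natAdd s i) y)
      = diaV (Theta (Δs p e) H.psi (s + k)) O (H.dd hp (k - 1 - i))
          (iotaVJ Sy 𝔪 H h (s + k) hbnd y) := by
    intro y
    rw [iotaVJ_D, hidx]
  have hπT : ∀ t y, π (twP t y) = a (χ t) (π y) := by
    intro t y
    rw [ha]
    exact (hfmk t y).symm
  have hlt : k - 1 - (i : ℕ) < s + k := by
    have := i.2
    omega
  haveI : NeZero (p ^ e (k - 1 - i)) := ⟨pow_ne_zero _ hp.ne_zero⟩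
  -- `∑_{j < p^E} D^j` lands in `unitSub`
  have hsum : ∀ m, ∑ j : Fin (p ^ e (k - 1 - i)), ((L.D i) ^ (j : ℕ)) m ∈ L.unitSub p hNk i := by
    intro m
    obtain ⟨E, hE⟩ : ∃ E, e (k - 1 - i) = E + 1 := ⟨e (k - 1 - i) - 1, by omega⟩
    have h1 : ∑ j : Fin (p ^ e (k - 1 - i)), ((L.D i) ^ (j : ℕ)) m
        = (∑ j ∈ Finset.range (p ^ e (k - 1 - i)), (L.D i) ^ j) m := by
      rw [Fin.sum_univ_eq_sum_range (fun j => ((L.D i) ^ j) m), LinearMap.sum_apply]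
    rw [h1, hE, pow_succ', geom_sum_mul_eq, Module.End.mul_apply]
    exact L.range_le_unitSub p hNk i (Submodule.mem_sup_left ⟨_, rfl⟩)
  refine Fermat.Agent.GB.B5.Glue.HnuPoint.not_isUnipotentOnInertiaAt_of_squares_cyclic
    (Theta (Δs p e) H.psi (s + k))
    (FramePD.hθ H (s + k) hk) (FramePD.hodd hp h.hp2 (s + k))
    _ (FramePD.hL H (s + k) hk) (FramePD.hnd H (s + k) hk)
    (FramePD.hdvd H (s + k) hk) (FramePD.hsq H (s + k) hk) _ _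
    (FramePD.hpr H (s + k) hk) (FramePD.hprod H (s + k) hk)
    S hSN'' hNN'' dℓ hdℓ twC htwC
    (Fermat.Agent.GB.B5.Glue.HnuPoint.zsmul_eq_zero_of_charZero (R := O)) twO htwO p h.hp2 hpS χ
    ρQ hρ hpO' x hx (FramePD.mem_L r (s + k) (k - 1 - i) hlt) hrp
    (H.dd hp (k - 1 - i)) (FramePD.chi_dd_mem_range H hp (s + k) hk (k - 1 - i) hlt)
    (p ^ e (k - 1 - i)) (FramePD.chi_dd_pow H hp (s + k) (k - 1 - i))
    (iotaVJ Sy 𝔪 H h (s + k) hbnd) (iotaVJ_injective Sy 𝔪 H h (s + k) hbnd) π hπ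
    (fun t => twP t) a hιT hπT
    ((bigLevel Sy 𝔪 H h (s + k)).D (Fin.natAdd s i)) hιD (L.D i) (hπD i)
    (L.unitSub p hNk i)
    (fun t m hm => L.map_mem_unitSub p hNk i (a t) (fun j => a_D t j) hm) hsum
    (fun m hm => ?_) hocc
  have hm' : ((p ^ e (k - 1 - i) : ℕ) : O) • m ∈ L.unitSub p hNk i := by
    rw [Nat.cast_smul_eq_nsmul, ← natCast_zsmul]
    exact hm
  refine L.mem_unitSub_of_smul_mem p hNk i _ (fun o ho => ?_) hm'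
  rcases mul_eq_zero.mp ho with h0 | h0
  · exact absurd (Nat.cast_eq_zero.mp h0) (pow_ne_zero _ hp.ne_zero)
  · exact h0

/-! ### on `M¹ = (Plug.tw … s k …).L1.M` -/

variable (c : Fin s → O) (hc : ∀ v : Fin s, c v ^ p ^ e (s + k - 1 - v) = 1)
  (hc1 : ∀ v, (1 : O) - c v ∈ Ideal.span {ϖ})

/-- the orders of the Taylor–Wiles diamonds of `Plug.tw … s k …` are nonzero -/
instance neZero_Nfun_natAddG (i : Fin k) : NeZero (Nfun p e (s + k) (Fin.natAdd s i)) :=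
  ⟨(Nfun_pos hpF.out e (s + k) _).ne'⟩

/-- the quotient map `(bigLevel … (s + k)).M ↠ M¹` (`= fmk` at the trivial family) -/
noncomputable def piOneG :
    (bigLevel Sy 𝔪 H h (s + k)).M →ₗ[O] (tw Sy 𝔪 H h s k c hc hc1).L1.M :=
  (famRange (frD (bigLevel Sy 𝔪 H h (s + k))) (fun _ => (1 : O))).mkQ

theorem piOneG_apply (x : (bigLevel Sy 𝔪 H h (s + k)).M) :
    piOneG Sy 𝔪 H h s k c hc hc1 x
      = fmk (frD (bigLevel Sy 𝔪 H h (s + k))) (fun _ => (1 : O)) x := rfl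

theorem piOneG_surjective : Function.Surjective (piOneG Sy 𝔪 H h s k c hc hc1) :=
  Submodule.mkQ_surjective (famRange (frD (bigLevel Sy 𝔪 H h (s + k))) (fun _ => (1 : O)))

/-- `π ∘ B.D (Fin.natAdd s i) = L1.D i ∘ π` -/
theorem piOneG_D (i : Fin k) (y : (bigLevel Sy 𝔪 H h (s + k)).M) :
    piOneG Sy 𝔪 H h s k c hc hc1 ((bigLevel Sy 𝔪 H h (s + k)).D (Fin.natAdd s i) y)
      = (tw Sy 𝔪 H h s k c hc hc1).L1.D i (piOneG Sy 𝔪 H h s k c hc hc1 y) := rfl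

/-- **(B5) at the `i`-th Taylor–Wiles diamond, on `M¹ = (Plug.tw … s k …).L1.M`**
(`G4B5.hB5_plug_L1` is `s = 1`). -/
theorem hB5_plugG_L1 (hk : s + k ≤ K)
    (hbnd : ∀ y : Additive (GammaH (Theta (Δs p e) H.psi (s + k))) →+ O,
      IsLoc (actH Sy O (Theta (Δs p e) H.psi (s + k))) 𝔪 y →
        y ∈ parabolicHoms O (GammaH (Theta (Δs p e) H.psi (s + k))) O)
    (S : Finset ℕ) (hpS : p ∈ S)
    {N'' : ℕ} [NeZero N''] (hN'' : N'' = N * ∏ i : Fin (s + k), r i)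
    (hSN'' : ∀ ℓ : ℕ, ℓ.Prime → ℓ ∣ N'' → ℓ ∈ (↑S : Set ℕ))
    (ρQ : GaloisRepAdic TQ)
    (χ : ↥(heckeAlgebra N'' 2 (↑S : Set ℕ)) →+* TQ)
    (hNk : ∀ i : Fin k, p ∣ Nfun p e (s + k) (Fin.natAdd s i))
    (a₁ : TQ →ₐ[O] Module.End O (tw Sy 𝔪 H h s k c hc hc1).L1.M)
    (a₁_D : ∀ t i, a₁ t * (tw Sy 𝔪 H h s k c hc hc1).L1.D i
      = (tw Sy 𝔪 H h s k c hc hc1).L1.D i * a₁ t)
    (tw₁ : ↥(heckeAlgebra N'' 2 (↑S : Set ℕ)) →+*
      Module.End O (tw Sy 𝔪 H h s k c hc hc1).L1.M)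
    (ha : ∀ t, a₁ (χ t) = tw₁ t)
    (twP : ↥(heckeAlgebra N'' 2 (↑S : Set ℕ)) →+* Module.End O (bigLevel Sy 𝔪 H h (s + k)).M)
    (hfmk : ∀ t (x : (bigLevel Sy 𝔪 H h (s + k)).M),
      tw₁ t (fmk (frD (bigLevel Sy 𝔪 H h (s + k))) (fun _ => (1 : O)) x)
        = fmk (frD (bigLevel Sy 𝔪 H h (s + k))) (fun _ => (1 : O)) (twP t x))
    (hT : ∀ (ℓ : ℕ) (hℓ : ℓ.Prime) (hℓN' : ¬ ℓ ∣ N'') (hℓS : ℓ ∉ (↑S : Set ℕ))
        (hℓN : ¬ ℓ ∣ N),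
      haveI : Fact ℓ.Prime := ⟨hℓ⟩
      ∃ d : Gamma0 N,
        (∀ u : (ZMod N)ˣ, (u : ZMod N) = ((ℓ : ℕ) : ZMod N) →
          chi (Theta (Δs p e) H.psi (s + k)) d ^ 2 * Theta (Δs p e) H.psi (s + k) u = 1) ∧
        ∀ x : (bigLevel Sy 𝔪 H h (s + k)).M,
          (bigReal Sy 𝔪 H h (s + k)).ι (twP (heckeAlgebra.T hℓ hℓN' hℓS) x)
            = diaH (Theta (Δs p e) H.psi (s + k)) O d
                (TH (Theta (Δs p e) H.psi (s + k)) O hℓN ((bigReal Sy 𝔪 H h (s + k)).ι x)))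
    (hρ : ∀ (ℓ : ℕ) (hℓ : ℓ.Prime) (hℓN' : ¬ ℓ ∣ N'') (hℓS : ℓ ∉ (↑S : Set ℕ))
      (A : ValuationSubring Qb), A.LiesOverPrime ℓ → ∀ σ : GQ, A.IsFrobeniusAt σ ℓ →
        LinearMap.charpoly (ρQ.ρ σ)
          = X ^ 2 - C (χ (heckeAlgebra.T hℓ hℓN' hℓS)) * X + C ((ℓ : TQ)))
    (i : Fin k) (hei : 1 ≤ e (k - 1 - i)) (hrp : r (k - 1 - i) ≠ p)
    {O' : Type} [CommRing O'] [IsDomain O'] [IsDiscreteValuationRing O']
    [IsAdicComplete (maximalIdeal O') O'] [Finite (ResidueField O')] [CharZero O']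
    (hpO' : (p : O') ∈ maximalIdeal O') (x : TQ →+* O') (hx : IsLocalHom x)
    (hocc : ∀ t : TQ,
      (∀ m, a₁ t m ∈ (tw Sy 𝔪 H h s k c hc hc1).L1.unitSub p hNk i) → x t = 0) :
    ¬ (ρQ.baseChangeAlong x hx).IsUnipotentOnInertiaAt (r (k - 1 - i)) :=
  hB5_plugG Sy 𝔪 H h s k hk hbnd S hpS hN'' hSN'' ρQ χ (tw Sy 𝔪 H h s k c hc hc1).L1 hNk
    (piOneG Sy 𝔪 H h s k c hc hc1) (piOneG_surjective Sy 𝔪 H h s k c hc hc1)
    (piOneG_D Sy 𝔪 H h s k c hc hc1) a₁ a₁_D tw₁ ha twP hfmk hT hρ i hei hrp hpO' x hx hocc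

end PlugG

/-! ### at a Taylor–Wiles set `Q` of the setup bundle, per-prime exponents, no framed prime -/

section Pkg

open Fermat.Agent.GB.Setup.SetupPkg Fermat.Agent.GB.B9.ProviderFlat.H1
  Fermat.Agent.GB.B9.ProviderFlat.G1 Fermat.Agent.GB.Glue.Points
  Fermat.Agent.GE6.Inst.FreeLevelInst Fermat.Agent.GE6.Inst.FreeLevelTw
  Fermat.Agent.GE6.Inst.MapBase

variable {p : ℕ} [hpF : Fact p.Prime] {W : WeierstrassCurve ℤ}
  {hcard₁ : Nat.card (Submodule.torsionBy ℤ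
    ((W.map (Int.castRingHom ℚ)).toAffine.baseChange (AlgebraicClosure ℚ)).Point p) = p ^ 2}
  {hker : GaloisFactorsThroughFiniteLevel
    (WeierstrassCurve.Affine.Point.galoisRepModuleEnd (K := AlgebraicClosure ℚ) ℚ
      (W.map (Int.castRingHom ℚ)) p)}
  {M A : ℕ} {P : Pkg p W hcard₁ hker M A} {g n : ℕ} (Q : TWSet P g n)
  (hp3 : p ≠ 3) (E : Fin g → ℕ) (hE : ∀ j, p ^ E j ∣ Q.qv j - 1)
  (c : Fin 0 → P.O) (hc : ∀ v : Fin 0, c v ^ p ^ eRev E (0 + g - 1 - v) = 1)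
  (hc1 : ∀ v, (1 : P.O) - c v ∈ Ideal.span {P.ϖ})

/-- the level `Q.N` is squarefree -/
theorem squarefree_NQ (hsq : Squarefree M) : Squarefree Q.N :=
  Fermat.Agent.GB.B3.Boundary.Mat.squarefree_mul_prod_fin hsq Q.qv Q.prime Q.inj
    (fun i => (Q.good i).2.1)

include hp3 in
/-- **(BND) at every stage of the tower of `Q.N` with the exponents `E`** (squarefree level). -/
theorem hbnd_E (hsq : Squarefree M) (j : ℕ)
    (y : Additive (GammaH (Theta (Δs p (eRev E)) (primeDataE Q E hE).psi j)) →+ P.O)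
    (hy : IsLoc (actH Q.Sy P.O (Theta (Δs p (eRev E)) (primeDataE Q E hE).psi j)) Q.𝔪 y) :
    y ∈ parabolicHoms P.O (GammaH (Theta (Δs p (eRev E)) (primeDataE Q E hE).psi j)) P.O :=
  Fermat.Agent.GB.B3.Boundary.Mat.isLoc_mem_parabolicHoms_theta_of_squarefree Q.Sy Q.𝔪
    (primeDataE Q E hE) (Q.hyp hp3) (squarefree_NQ Q hsq) j hy

/-- the prime of the `i`-th Taylor–Wiles diamond is not `p` -/
theorem rRev_ne (i : Fin g) : rRev Q (g - 1 - (i : ℕ)) ≠ p := by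
  rw [rRev_idx Q i]
  exact (Q.good i).2.2

/-- **the binder `hB5` of `UnitInst.hunit_of_labelled`, VERBATIM, at `L := (twE …).L1`**
(`r := Q.qv`; `hE1 : 1 ≤ E i` — the exponents of record are `≥ n + 1 ≥ 1`). -/
theorem hB5_twE (hsq : Squarefree M) (hE1 : ∀ i, 1 ≤ E i)
    (S : Finset ℕ) (hpS : p ∈ S)
    {N'' : ℕ} [NeZero N''] (hN'' : N'' = Q.N * ∏ i : Fin (0 + g), rRev Q i)
    (hSN'' : ∀ ℓ : ℕ, ℓ.Prime → ℓ ∣ N'' → ℓ ∈ (↑S : Set ℕ))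
    (T : Type) [CommRing T] [IsLocalRing T] [Algebra P.O T] [IsLocalHom (algebraMap P.O T)]
    [Module.Finite P.O T] [IsReduced T] [IsNoetherianRing T] [IsAdicComplete (maximalIdeal T) T]
    (ρQ : GaloisRepAdic T)
    (χ : ↥(heckeAlgebra N'' 2 (↑S : Set ℕ)) →+* T)
    (hNk : ∀ i : Fin g, p ∣ Nfun p (eRev E) (0 + g) (Fin.natAdd 0 i))
    (a₁ : T →ₐ[P.O] Module.End P.O (twE Q hp3 E hE c hc hc1).L1.M)
    (a₁_D : ∀ t i, a₁ t * (twE Q hp3 E hE c hc hc1).L1.D i =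
      (twE Q hp3 E hE c hc hc1).L1.D i * a₁ t)
    (tw₁ : ↥(heckeAlgebra N'' 2 (↑S : Set ℕ)) →+*
      Module.End P.O (twE Q hp3 E hE c hc hc1).L1.M)
    (ha : ∀ t, a₁ (χ t) = tw₁ t)
    (twP : ↥(heckeAlgebra N'' 2 (↑S : Set ℕ)) →+*
      Module.End P.O (bigLevel Q.Sy Q.𝔪 (primeDataE Q E hE) (Q.hyp hp3) (0 + g)).M)
    (hfmk : ∀ t (x : (bigLevel Q.Sy Q.𝔪 (primeDataE Q E hE) (Q.hyp hp3) (0 + g)).M),
      tw₁ t (fmk (frD (bigLevel Q.Sy Q.𝔪 (primeDataE Q E hE) (Q.hyp hp3) (0 + g)))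
          (fun _ => (1 : P.O)) x)
        = fmk (frD (bigLevel Q.Sy Q.𝔪 (primeDataE Q E hE) (Q.hyp hp3) (0 + g)))
          (fun _ => (1 : P.O)) (twP t x))
    (hT : ∀ (ℓ : ℕ) (hℓ : ℓ.Prime) (hℓN' : ¬ ℓ ∣ N'') (hℓS : ℓ ∉ (↑S : Set ℕ))
        (hℓN : ¬ ℓ ∣ Q.N),
      haveI : Fact ℓ.Prime := ⟨hℓ⟩
      ∃ d : Gamma0 Q.N,
        (∀ u : (ZMod Q.N)ˣ, (u : ZMod Q.N) = ((ℓ : ℕ) : ZMod Q.N) →
          chi (Theta (Δs p (eRev E)) (primeDataE Q E hE).psi (0 + g)) d ^ 2 *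
            Theta (Δs p (eRev E)) (primeDataE Q E hE).psi (0 + g) u = 1) ∧
        ∀ x : (bigLevel Q.Sy Q.𝔪 (primeDataE Q E hE) (Q.hyp hp3) (0 + g)).M,
          (bigReal Q.Sy Q.𝔪 (primeDataE Q E hE) (Q.hyp hp3) (0 + g)).ι
              (twP (heckeAlgebra.T hℓ hℓN' hℓS) x)
            = diaH (Theta (Δs p (eRev E)) (primeDataE Q E hE).psi (0 + g)) P.O d
                (TH (Theta (Δs p (eRev E)) (primeDataE Q E hE).psi (0 + g)) P.O hℓN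
                  ((bigReal Q.Sy Q.𝔪 (primeDataE Q E hE) (Q.hyp hp3) (0 + g)).ι x)))
    (hρ : ∀ (ℓ : ℕ) (hℓ : ℓ.Prime) (hℓN' : ¬ ℓ ∣ N'') (hℓS : ℓ ∉ (↑S : Set ℕ)),
      ∀ A : ValuationSubring Qb, A.LiesOverPrime ℓ → ∀ σ : GQ, A.IsFrobeniusAt σ ℓ →
        LinearMap.charpoly (ρQ.ρ σ)
          = X ^ 2 - C (χ (heckeAlgebra.T hℓ hℓN' hℓS)) * X + C ((ℓ : T))) :
    ∀ (i : Fin g) (q : Idx P.O T)
      (hloc : IsLocalHom ((ψ q : T →ₐ[P.O] Rq q) : T →+* Rq q)),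
      (∀ t : T, (∀ m, a₁ t m ∈ (twE Q hp3 E hE c hc hc1).L1.unitSub p hNk i) → ψ q t = 0) →
      ¬ (ρQ.baseChangeAlong ((ψ q : T →ₐ[P.O] Rq q) : T →+* Rq q) hloc).IsUnipotentOnInertiaAt
        (Q.qv i) := by
  intro i q hloc hocc
  have h := hB5_plugG_L1 Q.Sy Q.𝔪 (primeDataE Q E hE) (Q.hyp hp3) 0 g c hc hc1
    (Nat.le_of_eq (Nat.zero_add g)) (hbnd_E Q hp3 E hE hsq (0 + g)) S hpS hN'' hSN''
    ρQ χ hNk a₁ a₁_D tw₁ ha twP hfmk hT hρ i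
    (by rw [eRev_idx E i]; exact hE1 i) (rRev_ne Q i)
    (natCast_mem_maximalIdeal_Rq q P.hpO) ((ψ q : T →ₐ[P.O] Rq q) : T →+* Rq q) hloc hocc
  rwa [rRev_idx Q i] at h

/-! ### the same at `F := FQ1 …` (diamond orders `fun j => p ^ E j`) -/

section CastN

variable {O : Type} [CommRing O] {𝕋 : Type} [CommRing 𝕋] [Algebra O 𝕋]
  {M0 : Type} [AddCommGroup M0] [Module O M0] {act0 : 𝕋 →ₐ[O] Module.End O M0}
  {k : ℕ} {N₁ N₂ : Fin k → ℕ} [∀ i, NeZero (N₁ i)] [∀ i, NeZero (N₂ i)]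

/-- `castN` does not change `unitSub` -/
theorem castN_unitSub (h : N₁ = N₂) (F : FreeLevel O 𝕋 M0 act0 k N₁) (p : ℕ)
    (hN₁ : ∀ i, p ∣ N₁ i) (hN₂ : ∀ i, p ∣ N₂ i) (i : Fin k) :
    (castN h F).unitSub p hN₂ i = F.unitSub p hN₁ i := by
  subst h
  rfl

/-- `mapBase` does not change `unitSub` -/
theorem mapBase_unitSub (F : FreeLevel O 𝕋 M0 act0 k N₁)
    {M0' : Type} [AddCommGroup M0'] [Module O M0'] (act0' : 𝕋 →ₐ[O] Module.End O M0')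
    (e : M0 ≃ₗ[O] M0') (he : ∀ t y, e (act0 t y) = act0' t (e y)) (p : ℕ)
    (hN₁ : ∀ i, p ∣ N₁ i) (i : Fin k) :
    (mapBase F act0' e he).unitSub p hN₁ i = F.unitSub p hN₁ i := rfl

end CastN

variable (ρ : Q.Sy.𝕋 P.O →ₐ[P.O] Q.Sy.𝕋 P.O)
  (e : M0 Q.Sy Q.𝔪 (Δs p (eRev E)) (primeDataE Q E hE).psi ≃ₗ[P.O] Mbase P)
  (he : ∀ t y, e (act0 Q.Sy Q.𝔪 (Δs p (eRev E)) (primeDataE Q E hE).psi t y)
    = actQ Q ρ t (e y))

/-- the orders `p ^ E j` are nonzero -/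
instance neZero_pow_E (j : Fin g) : NeZero ((fun j : Fin g => p ^ E j) j) :=
  ⟨pow_ne_zero _ hpF.out.ne_zero⟩

/-- `unitSub` of `FQ1 …` is `unitSub` of `(twE …).L1` -/
theorem FQ1_unitSub (hN : ∀ j : Fin g, p ∣ (fun j : Fin g => p ^ E j) j)
    (hNk : ∀ i : Fin g, p ∣ Nfun p (eRev E) (0 + g) (Fin.natAdd 0 i)) (i : Fin g) :
    (FQ1 Q hp3 E hE c hc hc1 ρ e he).unitSub p hN i
      = (twE Q hp3 E hE c hc hc1).L1.unitSub p hNk i :=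
  castN_unitSub (Nfun0_eq_E E) _ p hNk hN i

/-- the orders of the diamonds of `(twE …).L1` are divisible by `p` (`1 ≤ E j`) -/
theorem dvd_Nfun0 (hE1 : ∀ i, 1 ≤ E i) (i : Fin g) :
    p ∣ Nfun p (eRev E) (0 + g) (Fin.natAdd 0 i) := by
  rw [Fermat.Agent.GB.B3.Plug.Nfun_natAdd, eRev_idx]
  exact dvd_pow_self p (by have := hE1 i; omega)

/-- **the binder `hB5` of `UnitInst.hunit_of_labelled`, VERBATIM, at `L := FQ1 …`** (the `F` of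
`ModSideData`; an action `a₁` on `(twE …).L1.M` IS an action on `(FQ1 …).M`, `FQ1_M : rfl`). -/
theorem hB5_FQ1 (hsq : Squarefree M) (hE1 : ∀ i, 1 ≤ E i)
    (hN : ∀ j : Fin g, p ∣ (fun j : Fin g => p ^ E j) j)
    (S : Finset ℕ) (hpS : p ∈ S)
    {N'' : ℕ} [NeZero N''] (hN'' : N'' = Q.N * ∏ i : Fin (0 + g), rRev Q i)
    (hSN'' : ∀ ℓ : ℕ, ℓ.Prime → ℓ ∣ N'' → ℓ ∈ (↑S : Set ℕ))
    (T : Type) [CommRing T] [IsLocalRing T] [Algebra P.O T] [IsLocalHom (algebraMap P.O T)]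
    [Module.Finite P.O T] [IsReduced T] [IsNoetherianRing T] [IsAdicComplete (maximalIdeal T) T]
    (ρQ : GaloisRepAdic T)
    (χ : ↥(heckeAlgebra N'' 2 (↑S : Set ℕ)) →+* T)
    (a₁ : T →ₐ[P.O] Module.End P.O (FQ1 Q hp3 E hE c hc hc1 ρ e he).M)
    (a₁_D : ∀ t i, a₁ t * (FQ1 Q hp3 E hE c hc hc1 ρ e he).D i =
      (FQ1 Q hp3 E hE c hc hc1 ρ e he).D i * a₁ t)
    (tw₁ : ↥(heckeAlgebra N'' 2 (↑S : Set ℕ)) →+*
      Module.End P.O (twE Q hp3 E hE c hc hc1).L1.M)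
    (ha : ∀ t, a₁ (χ t) = tw₁ t)
    (twP : ↥(heckeAlgebra N'' 2 (↑S : Set ℕ)) →+*
      Module.End P.O (bigLevel Q.Sy Q.𝔪 (primeDataE Q E hE) (Q.hyp hp3) (0 + g)).M)
    (hfmk : ∀ t (x : (bigLevel Q.Sy Q.𝔪 (primeDataE Q E hE) (Q.hyp hp3) (0 + g)).M),
      tw₁ t (fmk (frD (bigLevel Q.Sy Q.𝔪 (primeDataE Q E hE) (Q.hyp hp3) (0 + g)))
          (fun _ => (1 : P.O)) x)
        = fmk (frD (bigLevel Q.Sy Q.𝔪 (primeDataE Q E hE) (Q.hyp hp3) (0 + g)))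
          (fun _ => (1 : P.O)) (twP t x))
    (hT : ∀ (ℓ : ℕ) (hℓ : ℓ.Prime) (hℓN' : ¬ ℓ ∣ N'') (hℓS : ℓ ∉ (↑S : Set ℕ))
        (hℓN : ¬ ℓ ∣ Q.N),
      haveI : Fact ℓ.Prime := ⟨hℓ⟩
      ∃ d : Gamma0 Q.N,
        (∀ u : (ZMod Q.N)ˣ, (u : ZMod Q.N) = ((ℓ : ℕ) : ZMod Q.N) →
          chi (Theta (Δs p (eRev E)) (primeDataE Q E hE).psi (0 + g)) d ^ 2 *
            Theta (Δs p (eRev E)) (primeDataE Q E hE).psi (0 + g) u = 1) ∧
        ∀ x : (bigLevel Q.Sy Q.𝔪 (primeDataE Q E hE) (Q.hyp hp3) (0 + g)).M,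
          (bigReal Q.Sy Q.𝔪 (primeDataE Q E hE) (Q.hyp hp3) (0 + g)).ι
              (twP (heckeAlgebra.T hℓ hℓN' hℓS) x)
            = diaH (Theta (Δs p (eRev E)) (primeDataE Q E hE).psi (0 + g)) P.O d
                (TH (Theta (Δs p (eRev E)) (primeDataE Q E hE).psi (0 + g)) P.O hℓN
                  ((bigReal Q.Sy Q.𝔪 (primeDataE Q E hE) (Q.hyp hp3) (0 + g)).ι x)))
    (hρ : ∀ (ℓ : ℕ) (hℓ : ℓ.Prime) (hℓN' : ¬ ℓ ∣ N'') (hℓS : ℓ ∉ (↑S : Set ℕ)),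
      ∀ A : ValuationSubring Qb, A.LiesOverPrime ℓ → ∀ σ : GQ, A.IsFrobeniusAt σ ℓ →
        LinearMap.charpoly (ρQ.ρ σ)
          = X ^ 2 - C (χ (heckeAlgebra.T hℓ hℓN' hℓS)) * X + C ((ℓ : T))) :
    ∀ (i : Fin g) (q : Idx P.O T)
      (hloc : IsLocalHom ((ψ q : T →ₐ[P.O] Rq q) : T →+* Rq q)),
      (∀ t : T, (∀ m, a₁ t m ∈ (FQ1 Q hp3 E hE c hc hc1 ρ e he).unitSub p hN i) → ψ q t = 0) →
      ¬ (ρQ.baseChangeAlong ((ψ q : T →ₐ[P.O] Rq q) : T →+* Rq q) hloc).IsUnipotentOnInertiaAt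
        (Q.qv i) := by
  intro i q hloc hocc
  refine hB5_twE Q hp3 E hE c hc hc1 hsq hE1 S hpS hN'' hSN'' T ρQ χ (dvd_Nfun0 E hE1)
    a₁ a₁_D tw₁ ha twP hfmk hT hρ i q hloc (fun t ht => hocc t (fun m => ?_))
  rw [FQ1_unitSub Q hp3 E hE c hc hc1 ρ e he hN (dvd_Nfun0 E hE1) i]
  exact ht m

end Pkg

end Fermat.Agent.GE6.Inst.B5TwE
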