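import Mathlib
import Fermat.Prelude.Def_Algebra_PatchingDatum

/-!
# GATE-E / ENGINE-INST (helper12): coarsening a Prelude `PatchingLevel`

A patching level with relation ideal `J'` gives one with any bigger relation ideal `J ⊇ J'`
contained in the ideal `(X₁, …, X_r)` of the variables: replace `N` by `N ⧸ φ(J) N`.

Used to pass from Taylor–Wiles data whose diamond groups have exponents `ℓ^(E j)`, `E j ≥ n`, to the
level `J_n = ((1 + X_j)^(ℓ^n) − 1)_j` of the Prelude `PatchingDatum`.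
-/

set_option autoImplicit false
set_option linter.unusedSectionVars false

namespace Fermat.Agent.GE6.Inst.Coarsen

open MvPowerSeries

variable {𝒪 : Type} [CommRing 𝒪] {r : ℕ} {R : Type} [CommRing R] [Algebra 𝒪 R]
  {M : Type} [AddCommGroup M] [Module R M] {J' J : Ideal (MvPowerSeries (Fin r) 𝒪)}

/-- the submodule `φ(J) N` -/
noncomputable def subJ (L : Algebra.PatchingLevel 𝒪 r R M J') (J : Ideal (MvPowerSeries (Fin r) 𝒪)) :
    Submodule (MvPowerSeries (Fin r) 𝒪) L.N :=
  (J.map (L.φ : MvPowerSeries (Fin r) 𝒪 →+* MvPowerSeries (Fin r) 𝒪)) • ⊤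

/-- every element of `φ(J) N` is `∑ φ(c_i) b_i` with `c_i ∈ J`. -/
theorem exists_of_mem_subJ (L : Algebra.PatchingLevel 𝒪 r R M J')
    (J : Ideal (MvPowerSeries (Fin r) 𝒪)) {x : L.N} (hx : x ∈ subJ L J) :
    ∃ c : Fin L.d → MvPowerSeries (Fin r) 𝒪, (∀ i, c i ∈ J) ∧ x = ∑ i, L.φ (c i) • L.b i := by
  unfold subJ at hx
  have key : ∀ a ∈ J.map (L.φ : MvPowerSeries (Fin r) 𝒪 →+* MvPowerSeries (Fin r) 𝒪),
      ∀ m : L.N, ∃ c : Fin L.d → MvPowerSeries (Fin r) 𝒪,
        (∀ i, c i ∈ J) ∧ a • m = ∑ i, L.φ (c i) • L.b i := by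
    intro a ha
    refine Submodule.span_induction
      (p := fun a _ => ∀ m : L.N, ∃ c : Fin L.d → MvPowerSeries (Fin r) 𝒪,
        (∀ i, c i ∈ J) ∧ a • m = ∑ i, L.φ (c i) • L.b i) ?_ ?_ ?_ ?_ ha
    · rintro _ ⟨j, hj, rfl⟩ m
      obtain ⟨c, hc⟩ := L.b_span m
      refine ⟨fun i => j * c i, fun i => J.mul_mem_right _ hj, ?_⟩
      rw [hc, Finset.smul_sum]
      refine Finset.sum_congr rfl fun i _ => ?_
      rw [smul_smul, map_mul]
      rfl
    · intro m
      exact ⟨fun _ => 0, fun _ => J.zero_mem, by simp⟩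
    · intro a b _ _ iha ihb m
      obtain ⟨c, hc, hc'⟩ := iha m
      obtain ⟨c', hc2, hc2'⟩ := ihb m
      refine ⟨fun i => c i + c' i, fun i => J.add_mem (hc i) (hc2 i), ?_⟩
      rw [add_smul, hc', hc2', ← Finset.sum_add_distrib]
      refine Finset.sum_congr rfl fun i _ => ?_
      rw [map_add, add_smul]
    · intro s a _ iha m
      obtain ⟨c, hc, hc'⟩ := iha (s • m)
      refine ⟨c, hc, ?_⟩
      rw [smul_eq_mul, mul_comm, mul_smul, hc']
  refine Submodule.smul_induction_on hx (fun a ha m _ => key a ha m) (fun y z hy hz => ?_)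
  · obtain ⟨c, hc, hc'⟩ := hy
    obtain ⟨c', hc2, hc2'⟩ := hz
    refine ⟨fun i => c i + c' i, fun i => J.add_mem (hc i) (hc2 i), ?_⟩
    rw [hc', hc2', ← Finset.sum_add_distrib]
    refine Finset.sum_congr rfl fun i _ => ?_
    rw [map_add, add_smul]

theorem sum_mem_subJ (L : Algebra.PatchingLevel 𝒪 r R M J')
    (J : Ideal (MvPowerSeries (Fin r) 𝒪)) (c : Fin L.d → MvPowerSeries (Fin r) 𝒪)
    (hc : ∀ i, c i ∈ J) : ∑ i, L.φ (c i) • L.b i ∈ subJ L J :=
  Submodule.sum_mem _ fun i _ =>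
    Submodule.smul_mem_smul (Ideal.mem_map_of_mem _ (hc i)) Submodule.mem_top

/-- `φ(J) N ⊆ ker π` when `J ⊆ (X₁, …, X_r)`. -/
theorem subJ_le_ker (L : Algebra.PatchingLevel 𝒪 r R M J')
    (hJX : J ≤ Ideal.span (Set.range (X : Fin r → MvPowerSeries (Fin r) 𝒪))) {x : L.N}
    (hx : x ∈ subJ L J) : L.π x = 0 := by
  rw [L.ker_π]
  have h1 : J.map (L.φ : MvPowerSeries (Fin r) 𝒪 →+* MvPowerSeries (Fin r) 𝒪) ≤
      Ideal.span (Set.range fun i : Fin r => L.φ (X i)) := by
    refine le_trans (Ideal.map_mono hJX) ?_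
    rw [Ideal.map_span, ← Set.range_comp]
    rfl
  exact Submodule.smul_mono_left h1 hx

/-- **Coarsening.** -/
theorem nonempty_patchingLevel_of_le (L : Algebra.PatchingLevel 𝒪 r R M J') (hJ : J' ≤ J)
    (hJX : J ≤ Ideal.span (Set.range (X : Fin r → MvPowerSeries (Fin r) 𝒪))) :
    Nonempty (Algebra.PatchingLevel 𝒪 r R M J) := by
  classical
  -- the induced projection
  let πq : (L.N ⧸ subJ L J) →+ M :=
    QuotientAddGroup.lift (subJ L J).toAddSubgroup L.π (fun x hx => subJ_le_ker L hJX hx)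
  have hπq : ∀ x : L.N, πq (Submodule.Quotient.mk x) = L.π x := fun x => rfl
  refine ⟨{
    N := L.N ⧸ subJ L J
    φ := L.φ
    ψ := L.ψ
    ψ_surjective := L.ψ_surjective
    ψ_φ_X := L.ψ_φ_X
    π := πq
    π_smul := ?_
    π_surjective := ?_
    ker_π := ?_
    d := L.d
    b := fun i => Submodule.Quotient.mk (L.b i)
    b_span := ?_
    b_rel := ?_ }⟩
  · intro f x
    obtain ⟨x, rfl⟩ := Submodule.Quotient.mk_surjective _ x
    rw [← Submodule.Quotient.mk_smul, hπq, hπq, L.π_smul]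
  · intro m
    obtain ⟨x, rfl⟩ := L.π_surjective m
    exact ⟨Submodule.Quotient.mk x, hπq x⟩
  · intro x
    obtain ⟨x, rfl⟩ := Submodule.Quotient.mk_surjective _ x
    rw [hπq, L.ker_π]
    constructor
    · intro hx
      have h1 := Submodule.mem_map_of_mem (f := (subJ L J).mkQ) hx
      rw [Submodule.map_smul'', Submodule.map_top, Submodule.range_mkQ] at h1
      exact h1
    · intro hx
      have h1 : Submodule.Quotient.mk x ∈ Submodule.map (subJ L J).mkQ
          (Ideal.span (Set.range fun i : Fin r => L.φ (X i)) • (⊤ : Submodule _ L.N)) := by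
        rw [Submodule.map_smul'', Submodule.map_top, Submodule.range_mkQ]
        exact hx
      obtain ⟨y, hy, hyx⟩ := h1
      have h2 : x - y ∈ subJ L J := by
        rw [← Submodule.Quotient.mk_eq_zero, Submodule.Quotient.mk_sub, sub_eq_zero]
        exact hyx.symm
      have h3 : L.π (x - y) = 0 := subJ_le_ker L hJX h2
      rw [L.ker_π] at h3
      have := Submodule.add_mem _ h3 hy
      rwa [sub_add_cancel] at this
  · intro x
    obtain ⟨x, rfl⟩ := Submodule.Quotient.mk_surjective _ x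
    obtain ⟨c, hc⟩ := L.b_span x
    refine ⟨c, ?_⟩
    rw [hc]
    exact (map_sum (subJ L J).mkQ _ _).trans (Finset.sum_congr rfl fun i _ => rfl)
  · intro c
    have h0 : (∑ i, L.φ (c i) • (Submodule.Quotient.mk (L.b i) : L.N ⧸ subJ L J)) =
        Submodule.Quotient.mk (∑ i, L.φ (c i) • L.b i) :=
      ((map_sum (subJ L J).mkQ _ _).trans (Finset.sum_congr rfl fun i _ => rfl)).symm
    rw [h0, Submodule.Quotient.mk_eq_zero]
    constructor
    · intro h i
      obtain ⟨c', hc', hcc'⟩ := exists_of_mem_subJ L J h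
      have h1 : ∑ i, L.φ (c i - c' i) • L.b i = 0 := by
        simp only [map_sub, sub_smul, Finset.sum_sub_distrib]
        rw [hcc', sub_self]
      have h2 := (L.b_rel fun i => c i - c' i).mp h1 i
      have h3 : c i = (c i - c' i) + c' i := by ring
      rw [h3]
      exact J.add_mem (hJ h2) (hc' i)
    · intro h
      exact sum_mem_subJ L J c h

end Fermat.Agent.GE6.Inst.Coarsen
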