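/-
GATE-E (S59) / ENGINE-INST item (v), Hecke side, part 2 (helper67).

The `hfrob` binder of `GE6/Inst/Semilin.comp_eq_of_frob` (helper72) and of
`GE2/ClassMap.comp_eq_comp_of_charpoly_frob` (helper22) from the two Eichler–Shimura relations:
if `ρ_{T_Q}(Frob_ℓ)` has characteristic polynomial `X² − a_Q X + ℓ`, `ρ_{T_∅}(Frob_ℓ)` has
characteristic polynomial `X² − a_∅ X + ℓ`, and `κ a_Q = a_∅`, then `ρ_{T_Q} ⊗_κ T_∅` and `ρ_{T_∅}`
have the same characteristic polynomial at `Frob_ℓ`.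

* `charpoly_baseChangeAlong_eq` : one `σ`;
* `hfrob_of_kappa` : the binder, for two families of Hecke operators `aQ ℓ`, `a0 ℓ` indexed by the
  primes outside a finite set `B`.
NEW file; Mathlib + Prelude only.
-/
import Mathlib
import Fermat.Prelude.Def_GaloisRep_Adic

set_option autoImplicit false
set_option linter.unusedSectionVars false
set_option linter.style.haveILetI false

namespace Fermat.Agent.GE6.Inst.KappaFrob

open Polynomial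

/-- `ℚ̄`. -/
local notation "Qb" => AlgebraicClosure ℚ
/-- `G_ℚ`. -/
local notation "GQ" => (AlgebraicClosure ℚ ≃ₐ[ℚ] AlgebraicClosure ℚ)

variable {TQ T0 : Type} [CommRing TQ] [IsLocalRing TQ] [CommRing T0] [IsLocalRing T0]

/-- characteristic polynomials commute with base change along a local homomorphism. -/
theorem charpoly_baseChangeAlong_map (κ : TQ →+* T0) (hκ : IsLocalHom κ) (ρ : GaloisRepAdic TQ)
    (σ : GQ) :
    LinearMap.charpoly ((ρ.baseChangeAlong κ hκ).ρ σ) = (LinearMap.charpoly (ρ.ρ σ)).map κ := by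
  letI : Algebra TQ T0 := κ.toAlgebra
  exact LinearMap.charpoly_baseChange (ρ.ρ σ) T0

/-- one Frobenius: matching Eichler–Shimura relations and `κ a_Q = a_∅`. -/
theorem charpoly_baseChangeAlong_eq (κ : TQ →+* T0) (hκ : IsLocalHom κ)
    (ρTQ : GaloisRepAdic TQ) (ρT0 : GaloisRepAdic T0) (σ : GQ) (ℓ : ℕ) (aQ : TQ) (a0 : T0)
    (hQ : LinearMap.charpoly (ρTQ.ρ σ) = X ^ 2 - C aQ * X + C (ℓ : TQ))
    (h0 : LinearMap.charpoly (ρT0.ρ σ) = X ^ 2 - C a0 * X + C (ℓ : T0))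
    (ha : κ aQ = a0) :
    LinearMap.charpoly ((ρTQ.baseChangeAlong κ hκ).ρ σ) = LinearMap.charpoly (ρT0.ρ σ) := by
  rw [charpoly_baseChangeAlong_map, hQ, h0, Polynomial.map_add, Polynomial.map_sub,
    Polynomial.map_pow, Polynomial.map_mul, Polynomial.map_X, Polynomial.map_C, Polynomial.map_C,
    ha, map_natCast]

/-- **the `hfrob` binder** of `Semilin.comp_eq_of_frob` from the two Eichler–Shimura relations
outside a finite set `B` of primes and `κ (a_Q ℓ) = a_∅ ℓ`. -/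
theorem hfrob_of_kappa (κ : TQ →+* T0) (hκ : IsLocalHom κ)
    (ρTQ : GaloisRepAdic TQ) (ρT0 : GaloisRepAdic T0) (B : Finset ℕ)
    (aQ : ℕ → TQ) (a0 : ℕ → T0)
    (hQ : ∀ ℓ : ℕ, ℓ.Prime → ℓ ∉ B → ∀ P : ValuationSubring Qb, P.LiesOverPrime ℓ →
      ∀ σ : GQ, P.IsFrobeniusAt σ ℓ →
        LinearMap.charpoly (ρTQ.ρ σ) = X ^ 2 - C (aQ ℓ) * X + C (ℓ : TQ))
    (h0 : ∀ ℓ : ℕ, ℓ.Prime → ℓ ∉ B → ∀ P : ValuationSubring Qb, P.LiesOverPrime ℓ →
      ∀ σ : GQ, P.IsFrobeniusAt σ ℓ →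
        LinearMap.charpoly (ρT0.ρ σ) = X ^ 2 - C (a0 ℓ) * X + C (ℓ : T0))
    (ha : ∀ ℓ : ℕ, ℓ.Prime → ℓ ∉ B → κ (aQ ℓ) = a0 ℓ) :
    ∀ ℓ : ℕ, ℓ.Prime → ℓ ∉ B → ∀ P : ValuationSubring Qb, P.LiesOverPrime ℓ →
      ∀ σ : GQ, P.IsFrobeniusAt σ ℓ →
        LinearMap.charpoly ((ρTQ.baseChangeAlong κ hκ).ρ σ) = LinearMap.charpoly (ρT0.ρ σ) :=
  fun ℓ hℓ hℓB P hP σ hσ =>
    charpoly_baseChangeAlong_eq κ hκ ρTQ ρT0 σ ℓ (aQ ℓ) (a0 ℓ) (hQ ℓ hℓ hℓB P hP σ hσ)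
      (h0 ℓ hℓ hℓB P hP σ hσ) (ha ℓ hℓ hℓB)

end Fermat.Agent.GE6.Inst.KappaFrob
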