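/-
GATE-E (S59) / ENGINE-INST item (v), Hecke side, part 3 (helper67).

`KappaAbs.exists_kappa_TQ` in the spelling of GATE-B's `TQFieldsHecke`: the two rings are Prelude
Hecke algebras `heckeAlgebra NQ k SQ`, `heckeAlgebra N0 k S0` (DIFFERENT levels and sets), the ring
generators are the `T ℓ` and the `U q` (`TQFieldsHecke.gens / adjoin_gens / gens_cases`).

* `exists_kappa_of_adjoin` : set form (`Algebra.adjoin ℤ G = ⊤`) of `exists_kappa_TQ`, with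
  `κ (chi t) = chi s` for EVERY compatible pair `(t, s)`;
* `exists_kappa_hecke` : the Hecke-algebra form, compatibility asked on the `T ℓ` and the `U q` only.
NEW file; imports `GE6/Inst/KappaAbs` + `GB/B4/Datum/TQFieldsHecke`.
-/
import Mathlib
import Fermat.Agent.GE6.Inst.KappaAbs
import Fermat.Agent.GB.B4.Datum.TQFieldsHecke

set_option autoImplicit false
set_option linter.unusedSectionVars false

namespace Fermat.Agent.GE6.Inst.KappaHecke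

open IsLocalRing Function CuspForm Fermat.Agent.GB.B4.Datum.ImageRing
  Fermat.Agent.GB.B4.Datum.TQFieldsHecke Fermat.Agent.GE6.Inst.KappaAbs

section Adjoin

variable {𝒪 : Type} [CommRing 𝒪] [IsLocalRing 𝒪] {AQ A0 : Type} [CommRing AQ] [CommRing A0]
  {MQ M0 : Type} [AddCommGroup MQ] [Module 𝒪 MQ] [AddCommGroup M0] [Module 𝒪 M0]
  (θQ : AQ →+* ResidueField 𝒪) (θ0 : A0 →+* ResidueField 𝒪)
  (twQ : AQ →+* Module.End 𝒪 MQ) (tw0 : A0 →+* Module.End 𝒪 M0) (π : MQ →ₗ[𝒪] M0)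

/-- `ℤ`-algebra generators of `AQ` give `𝒪`-algebra generators of `TQ`. -/
theorem adjoin_chi_image_eq_top (G : Set AQ) (hG : Algebra.adjoin ℤ G = ⊤) :
    Algebra.adjoin 𝒪 (chi 𝒪 θQ twQ '' G) = ⊤ := by
  rw [eq_top_iff, ← adjoin_range_chi 𝒪 θQ twQ]
  apply Algebra.adjoin_le
  rintro _ ⟨a, rfl⟩
  have ha : a ∈ Algebra.adjoin ℤ G := hG ▸ Algebra.mem_top
  induction ha using Algebra.adjoin_induction with
  | mem x hx => exact Algebra.subset_adjoin ⟨x, hx, rfl⟩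
  | algebraMap r =>
    rw [eq_intCast, map_intCast]
    exact intCast_mem _ r
  | add x y _ _ hx hy => rw [map_add]; exact Subalgebra.add_mem _ hx hy
  | mul x y _ _ hx hy => rw [map_mul]; exact Subalgebra.mul_mem _ hx hy

/-- **set form of `exists_kappa_TQ`**: compatibility asked on a generating SET `G` of `AQ`;
`κ (chi t) = chi s` for every compatible pair. -/
theorem exists_kappa_of_adjoin (hπ : Surjective π) (G : Set AQ) (hG : Algebra.adjoin ℤ G = ⊤)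
    (hgen : ∀ t ∈ G, ∃ s : A0, ∀ m, π (twQ t m) = tw0 s (π m)) :
    ∃ κ : TQ 𝒪 θQ twQ →ₐ[𝒪] TQ 𝒪 θ0 tw0,
      (∀ x m, π (act 𝒪 θQ twQ x m) = act 𝒪 θ0 tw0 (κ x) (π m)) ∧
      (∀ (t : AQ) (s : A0), (∀ m, π (twQ t m) = tw0 s (π m)) →
        κ (chi 𝒪 θQ twQ t) = chi 𝒪 θ0 tw0 s) ∧
      ∀ κ' : TQ 𝒪 θQ twQ → TQ 𝒪 θ0 tw0,
        (∀ x m, π (act 𝒪 θQ twQ x m) = act 𝒪 θ0 tw0 (κ' x) (π m)) → κ' = κ := by
  obtain ⟨κ, hκ, huniq⟩ := exists_kappa (aQ := act 𝒪 θQ twQ) (a0 := act 𝒪 θ0 tw0) (π := π) hπ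
    (act_injective 𝒪 θ0 tw0) (chi 𝒪 θQ twQ '' G) (adjoin_chi_image_eq_top θQ twQ G hG)
    (by
      rintro _ ⟨t, ht, rfl⟩
      obtain ⟨s, hs⟩ := hgen t ht
      refine ⟨chi 𝒪 θ0 tw0 s, fun m => ?_⟩
      rw [act_chi, act_chi]
      exact hs m)
  refine ⟨κ, hκ, fun t s hts => ?_, huniq⟩
  refine kappa_eq_of_comm hπ (act_injective 𝒪 θ0 tw0) κ hκ fun m => ?_
  rw [act_chi, act_chi]
  exact hts m

end Adjoin

section Hecke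

variable {𝒪 : Type} [CommRing 𝒪] [IsLocalRing 𝒪]
  {NQ N0 : ℕ} [NeZero NQ] [NeZero N0] {k : ℤ} {SQ S0 : Set ℕ}
  {MQ M0 : Type} [AddCommGroup MQ] [Module 𝒪 MQ] [AddCommGroup M0] [Module 𝒪 M0]
  (θQ : ↥(heckeAlgebra NQ k SQ) →+* ResidueField 𝒪) (θ0 : ↥(heckeAlgebra N0 k S0) →+* ResidueField 𝒪)
  (twQ : ↥(heckeAlgebra NQ k SQ) →+* Module.End 𝒪 MQ)
  (tw0 : ↥(heckeAlgebra N0 k S0) →+* Module.End 𝒪 M0) (π : MQ →ₗ[𝒪] M0)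

/-- **`κ : T_Q → T_∅` for two Prelude Hecke algebras** (levels `NQ`, `N0`; sets `SQ`, `S0`):
`π`-compatibility is asked on the `T ℓ` (`ℓ ∤ NQ`, `ℓ ∉ SQ`) and the `U q` (`q ∣ NQ`, `q ∉ SQ`)
only (the latter is vacuous when `SQ` contains the primes of `NQ`). -/
theorem exists_kappa_hecke (hπ : Surjective π)
    (hT : ∀ {ℓ : ℕ} (hℓ : ℓ.Prime) (hℓN : ¬ ℓ ∣ NQ) (hℓS : ℓ ∉ SQ), ∃ s : ↥(heckeAlgebra N0 k S0),
      ∀ m, π (twQ (heckeAlgebra.T hℓ hℓN hℓS) m) = tw0 s (π m))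
    (hU : ∀ {q : ℕ} (hq : q.Prime) (hqN : q ∣ NQ) (hqS : q ∉ SQ), ∃ s : ↥(heckeAlgebra N0 k S0),
      ∀ m, π (twQ (heckeAlgebra.U hq hqN hqS) m) = tw0 s (π m)) :
    ∃ κ : TQ 𝒪 θQ twQ →ₐ[𝒪] TQ 𝒪 θ0 tw0,
      (∀ x m, π (act 𝒪 θQ twQ x m) = act 𝒪 θ0 tw0 (κ x) (π m)) ∧
      (∀ (t : ↥(heckeAlgebra NQ k SQ)) (s : ↥(heckeAlgebra N0 k S0)),
        (∀ m, π (twQ t m) = tw0 s (π m)) → κ (chi 𝒪 θQ twQ t) = chi 𝒪 θ0 tw0 s) ∧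
      ∀ κ' : TQ 𝒪 θQ twQ → TQ 𝒪 θ0 tw0,
        (∀ x m, π (act 𝒪 θQ twQ x m) = act 𝒪 θ0 tw0 (κ' x) (π m)) → κ' = κ := by
  refine exists_kappa_of_adjoin θQ θ0 twQ tw0 π hπ (gens NQ k SQ) (adjoin_gens NQ k SQ) ?_
  intro t ht
  rcases gens_cases ht with ⟨ℓ, hℓ, hℓN, hℓS, rfl⟩ | ⟨q, hq, hqN, hqS, rfl⟩
  · exact hT hℓ hℓN hℓS
  · exact hU hq hqN hqS

/-- the same when `SQ` contains the primes of `NQ` (no `U q`): only the `T ℓ`, `ℓ ∉ SQ`. -/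
theorem exists_kappa_hecke_T (hπ : Surjective π)
    (hSQ : ∀ q : ℕ, q.Prime → q ∣ NQ → q ∈ SQ)
    (hT : ∀ {ℓ : ℕ} (hℓ : ℓ.Prime) (hℓN : ¬ ℓ ∣ NQ) (hℓS : ℓ ∉ SQ), ∃ s : ↥(heckeAlgebra N0 k S0),
      ∀ m, π (twQ (heckeAlgebra.T hℓ hℓN hℓS) m) = tw0 s (π m)) :
    ∃ κ : TQ 𝒪 θQ twQ →ₐ[𝒪] TQ 𝒪 θ0 tw0,
      (∀ x m, π (act 𝒪 θQ twQ x m) = act 𝒪 θ0 tw0 (κ x) (π m)) ∧
      (∀ (t : ↥(heckeAlgebra NQ k SQ)) (s : ↥(heckeAlgebra N0 k S0)),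
        (∀ m, π (twQ t m) = tw0 s (π m)) → κ (chi 𝒪 θQ twQ t) = chi 𝒪 θ0 tw0 s) ∧
      ∀ κ' : TQ 𝒪 θQ twQ → TQ 𝒪 θ0 tw0,
        (∀ x m, π (act 𝒪 θQ twQ x m) = act 𝒪 θ0 tw0 (κ' x) (π m)) → κ' = κ :=
  exists_kappa_hecke θQ θ0 twQ tw0 π hπ hT
    (fun hq hqN hqS => absurd (hSQ _ hq hqN) hqS)

end Hecke

end Fermat.Agent.GE6.Inst.KappaHecke
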