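import Fermat.Agent.GE6.Level
import Fermat.Agent.GE6.Inst.Coarsen

/-!
# GATE-E / ENGINE-INST (helper12): Taylor–Wiles data with diamond exponents `ℓ^(E j)`, `E j ≥ n`

`GE6/Level.TWDepth` asks the module `M_Q` to be free over `𝒪[(ℤ/ℓ^n)^r]`.  The Taylor–Wiles primes
`q_j ≡ 1 (mod ℓ^(n+1))` of frozen S56 have diamond groups of order `ℓ^(E j)`, `E j = v_ℓ(q_j − 1)`,
which may be bigger than `ℓ^n` and vary with `j`.  `TWDepthE 𝒪 ℓ r R M E` is the same structure with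
the exponents `E : Fin r → ℕ`; it gives a patching level at `J_E = ((1 + X_j)^(ℓ^(E j)) − 1)_j`
(`TWDepthE.nonempty_patchingLevel_E`) and, by coarsening (`Inst/Coarsen`), at `J_n` for every
`n ≤ E j` (`TWDepthE.nonempty_patchingLevel`).
-/

set_option autoImplicit false
set_option linter.unusedSectionVars false
set_option linter.style.haveILetI false

namespace Fermat.Agent.GE6.Inst.LevelE

open IsLocalRing MvPowerSeries Fermat.Agent.GE6.Level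

/-- the ideal `((1 + X_j)^(ℓ^(E j)) − 1)_j` -/
noncomputable def JE (𝒪 : Type) [CommRing 𝒪] (ℓ : ℕ) {r : ℕ} (E : Fin r → ℕ) :
    Ideal (MvPowerSeries (Fin r) 𝒪) :=
  Ideal.span (Set.range fun j : Fin r =>
    ((1 + X j) ^ (ℓ ^ E j) - 1 : MvPowerSeries (Fin r) 𝒪))

/-- the monomials `∏ j, (1 + X_j)^(a j)`, `a j < ℓ^(E j)` -/
noncomputable def monoE (𝒪 : Type) [CommRing 𝒪] {ℓ r : ℕ} {E : Fin r → ℕ}
    (a : ∀ j : Fin r, Fin (ℓ ^ E j)) : MvPowerSeries (Fin r) 𝒪 :=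
  ∏ j, (1 + X j) ^ (a j : ℕ)

section Ideals

variable {𝒪 : Type} [CommRing 𝒪] {ℓ r : ℕ} {E : Fin r → ℕ}

theorem Jq_le_JE (n : ℕ) (hn : ∀ j, E j ≤ n) : Jq 𝒪 r (ℓ ^ n) ≤ JE 𝒪 ℓ E := by
  unfold Jq JE
  rw [Ideal.span_le]
  rintro _ ⟨j, rfl⟩
  have h1 : ℓ ^ n = ℓ ^ E j * ℓ ^ (n - E j) := by
    rw [← pow_add, Nat.add_sub_cancel' (hn j)]
  have h2 : ((1 + X j : MvPowerSeries (Fin r) 𝒪) ^ (ℓ ^ E j) - 1) ∣
      ((1 + X j) ^ (ℓ ^ E j)) ^ (ℓ ^ (n - E j)) - 1 := by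
    have := sub_dvd_pow_sub_pow ((1 + X j : MvPowerSeries (Fin r) 𝒪) ^ (ℓ ^ E j)) 1
      (ℓ ^ (n - E j))
    rwa [one_pow] at this
  obtain ⟨c, hc⟩ := h2
  show (1 + X j : MvPowerSeries (Fin r) 𝒪) ^ (ℓ ^ n) - 1 ∈ _
  rw [h1, pow_mul, hc]
  exact Ideal.mul_mem_right _ _ (Ideal.subset_span ⟨j, rfl⟩)

theorem JE_le_Jq (n : ℕ) (hn : ∀ j, n ≤ E j) : JE 𝒪 ℓ E ≤ Jq 𝒪 r (ℓ ^ n) := by
  unfold Jq JE
  rw [Ideal.span_le]
  rintro _ ⟨j, rfl⟩
  have h1 : ℓ ^ E j = ℓ ^ n * ℓ ^ (E j - n) := by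
    rw [← pow_add, Nat.add_sub_cancel' (hn j)]
  have h2 : ((1 + X j : MvPowerSeries (Fin r) 𝒪) ^ (ℓ ^ n) - 1) ∣
      ((1 + X j) ^ (ℓ ^ n)) ^ (ℓ ^ (E j - n)) - 1 := by
    have := sub_dvd_pow_sub_pow ((1 + X j : MvPowerSeries (Fin r) 𝒪) ^ (ℓ ^ n)) 1
      (ℓ ^ (E j - n))
    rwa [one_pow] at this
  obtain ⟨c, hc⟩ := h2
  show (1 + X j : MvPowerSeries (Fin r) 𝒪) ^ (ℓ ^ E j) - 1 ∈ _
  rw [h1, pow_mul, hc]
  exact Ideal.mul_mem_right _ _ (Ideal.subset_span ⟨j, rfl⟩)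

theorem Jq_le_span_X (q : ℕ) :
    Jq 𝒪 r q ≤ Ideal.span (Set.range (X : Fin r → MvPowerSeries (Fin r) 𝒪)) := by
  unfold Jq
  rw [Ideal.span_le]
  rintro _ ⟨j, rfl⟩
  have h2 : ((1 + X j : MvPowerSeries (Fin r) 𝒪) - 1) ∣ (1 + X j) ^ q - 1 := by
    have := sub_dvd_pow_sub_pow (1 + X j : MvPowerSeries (Fin r) 𝒪) 1 q
    rwa [one_pow] at this
  obtain ⟨c, hc⟩ := h2
  show (1 + X j : MvPowerSeries (Fin r) 𝒪) ^ q - 1 ∈ _
  rw [hc, add_sub_cancel_left]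
  exact Ideal.mul_mem_right _ _ (Ideal.subset_span ⟨j, rfl⟩)

/-- reduction of the exponents modulo `ℓ^(E j)` -/
def red (hℓ : 0 < ℓ) (E : Fin r → ℕ) {n : ℕ} (a : Fin r → Fin (ℓ ^ n)) :
    ∀ j : Fin r, Fin (ℓ ^ E j) :=
  fun j => ⟨(a j : ℕ) % ℓ ^ E j, Nat.mod_lt _ (pow_pos hℓ _)⟩

theorem mono_sub_monoE_mem (hℓ : 0 < ℓ) {n : ℕ} (a : Fin r → Fin (ℓ ^ n)) :
    mono 𝒪 a - monoE 𝒪 (red hℓ E a) ∈ JE 𝒪 ℓ E := by
  rw [← Ideal.Quotient.eq]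
  unfold mono monoE
  rw [map_prod, map_prod]
  refine Finset.prod_congr rfl fun j _ => ?_
  rw [map_pow, map_pow]
  have h1 : (Ideal.Quotient.mk (JE 𝒪 ℓ E) (1 + X j)) ^ (ℓ ^ E j) = 1 := by
    rw [← map_pow, ← sub_eq_zero, ← map_one (Ideal.Quotient.mk (JE 𝒪 ℓ E)), ← map_sub,
      Ideal.Quotient.eq_zero_iff_mem]
    exact Ideal.subset_span ⟨j, rfl⟩
  rw [pow_eq_pow_mod _ h1]
  rfl

end Ideals

section Div

variable {𝒪 : Type} [CommRing 𝒪] [IsLocalRing 𝒪] [IsNoetherianRing 𝒪]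
  [IsAdicComplete (maximalIdeal 𝒪) 𝒪] {ℓ r : ℕ}

/-- **Division, exponents `E`.** -/
theorem exists_sub_sum_mem_E (hℓ : ℓ.Prime) (hℓ𝒪 : (ℓ : 𝒪) ∈ maximalIdeal 𝒪) (E : Fin r → ℕ)
    (f : MvPowerSeries (Fin r) 𝒪) :
    ∃ p : (∀ j : Fin r, Fin (ℓ ^ E j)) → 𝒪, f - ∑ a, C (p a) * monoE 𝒪 a ∈ JE 𝒪 ℓ E := by
  classical
  set n := Finset.univ.sup E with hn
  have hEn : ∀ j, E j ≤ n := fun j => Finset.le_sup (Finset.mem_univ j)
  obtain ⟨p, hp⟩ := exists_sub_sum_mem hℓ hℓ𝒪 n f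
  have hq : ∀ j, NeZero (ℓ ^ E j) := fun j => ⟨pow_ne_zero _ hℓ.ne_zero⟩
  -- the reduced sum lies in the span of the monomials
  have hg : (∑ a, C (p a) * monoE 𝒪 (red hℓ.pos E a)) ∈
      Submodule.span 𝒪 (Set.range fun a : (∀ j : Fin r, Fin (ℓ ^ E j)) => monoE 𝒪 a) := by
    refine Submodule.sum_mem _ fun a _ => ?_
    have h1 : C (p a) * monoE 𝒪 (red hℓ.pos E a) = p a • monoE 𝒪 (red hℓ.pos E a) := by
      rw [MvPowerSeries.smul_eq_C_mul]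
    rw [h1]
    exact Submodule.smul_mem _ _ (Submodule.subset_span ⟨_, rfl⟩)
  obtain ⟨p', hp'⟩ := (Submodule.mem_span_range_iff_exists_fun 𝒪).mp hg
  refine ⟨p', ?_⟩
  have h2 : (∑ a, C (p' a) * monoE 𝒪 a) = ∑ a, C (p a) * monoE 𝒪 (red hℓ.pos E a) := by
    rw [← hp']
    refine Finset.sum_congr rfl fun a _ => ?_
    rw [MvPowerSeries.smul_eq_C_mul]
  rw [h2]
  have h3 : f - ∑ a, C (p a) * monoE 𝒪 (red hℓ.pos E a) =
      (f - ∑ a, C (p a) * mono 𝒪 a) +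
        ∑ a, C (p a) * (mono 𝒪 a - monoE 𝒪 (red hℓ.pos E a)) := by
    simp only [mul_sub, Finset.sum_sub_distrib]
    ring
  rw [h3]
  refine Ideal.add_mem _ (Jq_le_JE n hEn hp) (Ideal.sum_mem _ fun a _ => ?_)
  exact Ideal.mul_mem_left _ _ (mono_sub_monoE_mem hℓ.pos a)

end Div

/-- **An abstract Taylor–Wiles datum with diamond exponents `ℓ^(E j)`.**  Same fields as
`GE6/Level.TWDepth`, the index set of the monomial basis being `∀ j, Fin (ℓ^(E j))`. -/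
structure TWDepthE (𝒪 : Type) [CommRing 𝒪] (ℓ r : ℕ) (R : Type) [CommRing R] [Algebra 𝒪 R]
    (M : Type) [AddCommGroup M] [Module R M] (E : Fin r → ℕ) : Type 1 where
  /-- the ring `R_Q` -/
  RQ : Type
  [instCommRing : CommRing RQ]
  [instAlgebra : Algebra 𝒪 RQ]
  γ : MvPowerSeries (Fin r) 𝒪 →ₐ[𝒪] RQ
  γ_surjective : Function.Surjective γ
  /-- the (Galois) diamond elements -/
  g : Fin r → RQ
  g_lift : ∀ j, ∃ y : MvPowerSeries (Fin r) 𝒪, ¬ IsUnit (constantCoeff y) ∧ γ y = g j - 1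
  β : RQ →ₐ[𝒪] R
  β_surjective : Function.Surjective β
  ker_β : RingHom.ker β = Ideal.span (Set.range fun j => g j - 1)
  /-- the module `M_Q` -/
  MQ : Type
  [instAddCommGroup : AddCommGroup MQ]
  [instModule : Module RQ MQ]
  π : MQ →+ M
  π_smul : ∀ (x : RQ) (m : MQ), π (x • m) = β x • π m
  π_surjective : Function.Surjective π
  ker_π : ∀ m : MQ, π m = 0 ↔
    m ∈ (Ideal.span (Set.range fun j => g j - 1)) • (⊤ : Submodule RQ MQ)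
  d : ℕ
  e : Fin d → MQ
  g_pow : ∀ (j : Fin r) (m : MQ), g j ^ (ℓ ^ E j) • m = m
  span : ∀ m : MQ, ∃ c : (∀ j : Fin r, Fin (ℓ ^ E j)) → Fin d → 𝒪,
    m = ∑ a, ∑ i, (algebraMap 𝒪 RQ (c a i) * ∏ j, g j ^ (a j : ℕ)) • e i
  indep : ∀ c : (∀ j : Fin r, Fin (ℓ ^ E j)) → Fin d → 𝒪,
    (∑ a, ∑ i, (algebraMap 𝒪 RQ (c a i) * ∏ j, g j ^ (a j : ℕ)) • e i) = 0 → ∀ a i, c a i = 0

attribute [instance] TWDepthE.instCommRing TWDepthE.instAlgebra TWDepthE.instAddCommGroup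
  TWDepthE.instModule

section Build

variable {𝒪 : Type} [CommRing 𝒪] {ℓ r : ℕ} {R : Type} [CommRing R] [Algebra 𝒪 R]
  {M : Type} [AddCommGroup M] [Module R M] {E : Fin r → ℕ}

/-- the module `M_Q`, as a module over `Λ` through `γ` -/
def TWDepthE.N (T : TWDepthE 𝒪 ℓ r R M E) : Type := T.MQ

instance (T : TWDepthE 𝒪 ℓ r R M E) : AddCommGroup T.N := T.instAddCommGroup

noncomputable instance (T : TWDepthE 𝒪 ℓ r R M E) : Module (MvPowerSeries (Fin r) 𝒪) T.N :=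
  Module.compHom T.MQ (T.γ : MvPowerSeries (Fin r) 𝒪 →+* T.RQ)

/-- the identity `N → M_Q` -/
def TWDepthE.toMQ (T : TWDepthE 𝒪 ℓ r R M E) (x : T.N) : T.MQ := x

/-- the identity `M_Q → N` -/
def TWDepthE.ofMQ (T : TWDepthE 𝒪 ℓ r R M E) (x : T.MQ) : T.N := x

theorem TWDepthE.smul_def (T : TWDepthE 𝒪 ℓ r R M E) (f : MvPowerSeries (Fin r) 𝒪) (x : T.N) :
    f • x = T.ofMQ (T.γ f • T.toMQ x) := rfl

/-- `π` on `N` -/
def TWDepthE.πN (T : TWDepthE 𝒪 ℓ r R M E) : T.N →+ M := T.π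

theorem TWDepthE.πN_apply (T : TWDepthE 𝒪 ℓ r R M E) (x : T.N) : T.πN x = T.π (T.toMQ x) := rfl

theorem TWDepthE.ofMQ_sum (T : TWDepthE 𝒪 ℓ r R M E) {ι : Type*} (s : Finset ι) (F : ι → T.MQ) :
    T.ofMQ (∑ i ∈ s, F i) = ∑ i ∈ s, T.ofMQ (F i) := rfl

end Build

section Main

variable {𝒪 : Type} [CommRing 𝒪] [IsLocalRing 𝒪] [IsNoetherianRing 𝒪]
  [IsAdicComplete (maximalIdeal 𝒪) 𝒪] {ℓ r : ℕ} {R : Type} [CommRing R] [Algebra 𝒪 R]
  {M : Type} [AddCommGroup M] [Module R M] {E : Fin r → ℕ}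

/-- a Taylor–Wiles datum with exponents `E` gives a patching level at `J_E`. -/
theorem TWDepthE.nonempty_patchingLevel_E (hℓ : ℓ.Prime) (hℓ𝒪 : (ℓ : 𝒪) ∈ maximalIdeal 𝒪)
    (T : TWDepthE 𝒪 ℓ r R M E) :
    Nonempty (Algebra.PatchingLevel 𝒪 r R M (JE 𝒪 ℓ E)) := by
  classical
  choose y hy0 hy using T.g_lift
  have hΛ : IsAdicComplete (maximalIdeal (MvPowerSeries (Fin r) 𝒪)) (MvPowerSeries (Fin r) 𝒪) :=
    Fermat.Agent.S53.isAdicComplete_mvPowerSeries 𝒪 (Fin r)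
  have hym : ∀ j, y j ∈ maximalIdeal (MvPowerSeries (Fin r) 𝒪) := by
    intro j
    rw [mem_maximalIdeal, mem_nonunits_iff, MvPowerSeries.isUnit_iff_constantCoeff]
    exact hy0 j
  obtain ⟨φ, hφ⟩ := Fermat.Agent.S53.exists_algHom_X (𝒪 := 𝒪) (A := MvPowerSeries (Fin r) 𝒪) y hym
  have hγφ1 : ∀ j, T.γ (φ (1 + X j)) = T.g j := by
    intro j
    rw [map_add, map_one, hφ, map_add, map_one, hy]
    ring
  have hγφmono : ∀ a : (∀ j : Fin r, Fin (ℓ ^ E j)),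
      T.γ (φ (monoE 𝒪 a)) = ∏ j, T.g j ^ (a j : ℕ) := by
    intro a
    unfold monoE
    rw [map_prod, map_prod]
    refine Finset.prod_congr rfl fun j _ => ?_
    rw [map_pow, map_pow, hγφ1]
  have hJ : ∀ c ∈ JE 𝒪 ℓ E, ∀ m : T.MQ, T.γ (φ c) • m = 0 := by
    intro c hc
    have h1 : JE 𝒪 ℓ E ≤ Ideal.comap (T.γ.toRingHom.comp φ.toRingHom)
        (Module.annihilator T.RQ T.MQ) := by
      unfold JE
      rw [Ideal.span_le]
      rintro _ ⟨j, rfl⟩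
      show _ ∈ Module.annihilator T.RQ T.MQ
      rw [Module.mem_annihilator]
      intro m
      have h2 : (T.γ.toRingHom.comp φ.toRingHom)
          ((1 + X j) ^ (ℓ ^ E j) - 1 : MvPowerSeries (Fin r) 𝒪) = T.g j ^ (ℓ ^ E j) - 1 := by
        show T.γ (φ ((1 + X j) ^ (ℓ ^ E j) - 1)) = _
        rw [map_sub, map_sub, map_pow, map_pow, hγφ1, map_one, map_one]
      rw [h2, sub_smul, T.g_pow, one_smul, sub_self]
    intro m
    exact Module.mem_annihilator.mp (h1 hc) m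
  refine ⟨{
    N := T.N
    φ := φ
    ψ := T.β.comp T.γ
    ψ_surjective := T.β_surjective.comp T.γ_surjective
    ψ_φ_X := ?_
    π := T.πN
    π_smul := ?_
    π_surjective := T.π_surjective
    ker_π := ?_
    d := T.d
    b := fun i => T.ofMQ (T.e i)
    b_span := ?_
    b_rel := ?_ }⟩
  · intro i
    show T.β (T.γ (φ (X i))) = 0
    rw [hφ, hy, ← RingHom.mem_ker, T.ker_β]
    exact Ideal.subset_span ⟨i, rfl⟩
  · intro f x
    exact T.π_smul (T.γ f) x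
  · intro x
    rw [T.πN_apply, T.ker_π]
    have h1 := mem_smul_top_compHom (N := T.MQ) (T.γ : MvPowerSeries (Fin r) 𝒪 →+* T.RQ)
      T.γ_surjective (Ideal.span (Set.range fun i : Fin r => φ (X i))) x
    have h2 : (Ideal.span (Set.range fun i : Fin r => φ (X i))).map
        (T.γ : MvPowerSeries (Fin r) 𝒪 →+* T.RQ) =
        Ideal.span (Set.range fun j => T.g j - 1) := by
      rw [Ideal.map_span, ← Set.range_comp]
      congr 2
      funext j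
      show T.γ (φ (X j)) = _
      rw [hφ, hy]
    rw [h2] at h1
    exact h1.symm
  · intro x
    obtain ⟨c, hc⟩ := T.span (T.toMQ x)
    refine ⟨fun i => ∑ a, C (c a i) * monoE 𝒪 a, ?_⟩
    have h1 : ∀ i, φ (∑ a, C (c a i) * monoE 𝒪 a) • T.ofMQ (T.e i) =
        T.ofMQ (∑ a, (algebraMap 𝒪 T.RQ (c a i) * ∏ j, T.g j ^ (a j : ℕ)) • T.e i) := by
      intro i
      rw [T.smul_def]
      congr 1
      rw [map_sum, map_sum, Finset.sum_smul]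
      refine Finset.sum_congr rfl fun a _ => ?_
      rw [map_mul, map_mul, hγφmono]
      congr 2
      have h2 : (C (c a i) : MvPowerSeries (Fin r) 𝒪) = algebraMap 𝒪 _ (c a i) := rfl
      rw [h2, AlgHom.commutes, AlgHom.commutes]
    simp_rw [h1]
    rw [← T.ofMQ_sum, Finset.sum_comm]
    exact hc
  · intro c
    have key : ∀ c' : Fin T.d → MvPowerSeries (Fin r) 𝒪,
        (∑ i, φ (c' i) • T.ofMQ (T.e i)) = T.ofMQ (∑ i, T.γ (φ (c' i)) • T.e i) := by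
      intro c'
      rfl
    constructor
    · intro h i
      have hdiv : ∀ i, ∃ p : (∀ j : Fin r, Fin (ℓ ^ E j)) → 𝒪,
          c i - ∑ a, C (p a) * monoE 𝒪 a ∈ JE 𝒪 ℓ E :=
        fun i => exists_sub_sum_mem_E hℓ hℓ𝒪 E (c i)
      choose p hp using hdiv
      have h1 : ∀ i, T.γ (φ (c i)) • T.e i =
          ∑ a, (algebraMap 𝒪 T.RQ (p i a) * ∏ j, T.g j ^ (a j : ℕ)) • T.e i := by
        intro i
        have h2 := hJ _ (hp i) (T.e i)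
        rw [map_sub, map_sub, sub_smul, sub_eq_zero] at h2
        rw [h2, map_sum, map_sum, Finset.sum_smul]
        refine Finset.sum_congr rfl fun a _ => ?_
        rw [map_mul, map_mul, hγφmono]
        congr 2
        have h3 : (C (p i a) : MvPowerSeries (Fin r) 𝒪) = algebraMap 𝒪 _ (p i a) := rfl
        rw [h3, AlgHom.commutes, AlgHom.commutes]
      have h4 : (∑ a, ∑ i, (algebraMap 𝒪 T.RQ (p i a) * ∏ j, T.g j ^ (a j : ℕ)) • T.e i) = 0 := by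
        rw [Finset.sum_comm]
        simp_rw [← h1]
        rw [key] at h
        exact h
      have h5 := T.indep (fun a i => p i a) h4
      have h6 : ∑ a, C (p i a) * monoE 𝒪 a = 0 := by
        refine Finset.sum_eq_zero fun a _ => ?_
        rw [h5 a i, map_zero, zero_mul]
      have h7 := hp i
      rw [h6, sub_zero] at h7
      exact h7
    · intro h
      rw [key]
      have : (∑ i, T.γ (φ (c i)) • T.e i) = 0 :=
        Finset.sum_eq_zero fun i _ => hJ _ (h i) (T.e i)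
      rw [this]
      rfl

/-- **a Taylor–Wiles datum with exponents `E j ≥ n` gives a patching level at `J_n`.** -/
theorem TWDepthE.nonempty_patchingLevel (hℓ : ℓ.Prime) (hℓ𝒪 : (ℓ : 𝒪) ∈ maximalIdeal 𝒪)
    (T : TWDepthE 𝒪 ℓ r R M E) (n : ℕ) (hn : ∀ j, n ≤ E j) :
    Nonempty (Algebra.PatchingLevel 𝒪 r R M
      (Ideal.span (Set.range fun j : Fin r =>
        ((1 + MvPowerSeries.X j) ^ (ℓ ^ n) - 1 : MvPowerSeries (Fin r) 𝒪)))) := by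
  obtain ⟨L⟩ := T.nonempty_patchingLevel_E hℓ hℓ𝒪
  exact Fermat.Agent.GE6.Inst.Coarsen.nonempty_patchingLevel_of_le L (JE_le_Jq n hn)
    (Jq_le_span_X (ℓ ^ n))

/-- **all depths**: data with exponents `E n j ≥ n` for every `n` give a Prelude
`PatchingDatum`. -/
theorem nonempty_patchingDatum_E (hℓ : ℓ.Prime) (hℓ𝒪 : (ℓ : 𝒪) ∈ maximalIdeal 𝒪)
    (E : ℕ → Fin r → ℕ) (hE : ∀ n j, n ≤ E n j) (T : ∀ n, TWDepthE 𝒪 ℓ r R M (E n)) :
    Nonempty (Algebra.PatchingDatum 𝒪 ℓ r R M) :=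
  ⟨⟨fun n => ((T n).nonempty_patchingLevel hℓ hℓ𝒪 n (hE n)).some⟩⟩

end Main

end Fermat.Agent.GE6.Inst.LevelE
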