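/-
GATE-E (S59) / ENGINE-INST node N4 = item (ii) (helper52): **the ring `T_Q`, its action on the
Taylor–Wiles module and `ψ_Q : R_Q → T_Q`, at GATE-B's level datum WITHOUT framed step.**

helper12's `GE6/Inst/ModSide.ModSideData` wants an `R_Q`-module structure on `F.M`, where
`F = FreeLevelTw.FQ1 Q …` (helper51) has `F.M = (twE Q …).L1.M`,
`twE Q … = Plug.tw Q.Sy Q.𝔪 (primeDataE Q E hE) (Q.hyp hp3) 0 g c hc hc1`.  It is
`UnitInst.moduleOfHom a ψ` (helper49) for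

* `a  := a₁E … = G2.a₁ …` at `twE` (helper11's `T_Q := G2.T …`, image of the twisted Hecke algebra of
  forms of level `NQ0 Q = Q.N * ∏ rRev = M (∏ qv)²` in `End (M¹_Q × M^χ_Q)`),
* `ψ  : DQ.R →ₐ[P.O] TE …` from G3 (`ProviderFlat/G3.exists_psi_TQ_flat`), `DQ` a universal
  deformation ring for the ENGINE's condition `Graph.condFL P.O p P.Smin (image Q.qv)`.

This file = the first half of `FlatGroups.groupsOn_flat` at `s = 0` (no framed prime):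

* `ofIff` : transport of a `DeformationRingData` along an equivalence of deformation conditions
  (same `R`, same `ρ`, by `rfl`); `condFL_iff_framedCond` : the engine's `condFL` is GATE-B's
  `framedCond … flatCondition` when `Su = ∅`;
* `NQ0`, `prod_rRev`, `NQ0_eq`, … : the forms level at `s = 0` and its arithmetic;
* **`exists_twP_twE`** : G2 at `twE` (`G2.exists_dl_theta` + `G2.exists_twP_hecke` fed from
  `PkgLevel.exists_thetaQ` and `G2Sym`);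
* `tw₁E twχE TE a₁E a₂E`, `fact_locHypE`, `finite_prodE free_prodE nontrivial_prodE` : the objects
  of G2 at `twE` and the four instances that make `TE` a complete local noetherian `O`-algebra;
* **`exists_psi_twE`** : G3 at `twE` for `DQ` over `condFL` (`hsq : Squarefree M`, `hpM : ¬ p ∣ M`,
  `hSu : P.Su = ∅` = the minimal level).
-/
import Fermat.Agent.GE6.Inst.FreeLevelTw
import Fermat.Agent.GB.B9.ProviderFlat.G2
import Fermat.Agent.GB.B9.ProviderFlat.G2Sym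
import Fermat.Agent.GB.B9.ProviderFlat.G3
import Fermat.Agent.GB.Setup.PkgLevel
import Fermat.Agent.GB.B3.FreeLevelInst
import Fermat.Agent.GE.Graph.RTStmt

set_option autoImplicit false
set_option linter.unusedSectionVars false
set_option linter.unusedVariables false
set_option linter.style.haveILetI false

open WeierstrassCurve WeierstrassCurve.Affine.Point IsLocalRing
open scoped WeierstrassCurve.Affine
open scoped MatrixGroups
open CongruenceSubgroup ModularCurve.Period CuspForm Polynomial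

namespace Fermat.Agent.GE6.Inst.PsiQ

open Fermat.Agent.GM.B
open Fermat.Agent.GB.B3.HeckeActH Fermat.Agent.GB.B3.RealLevel Fermat.Agent.GB.B3.Tower
  Fermat.Agent.GB.B3.TWChars Fermat.Agent.GB.B3.FinalTW Fermat.Agent.GB.B3.Plug
  Fermat.Agent.GB.B3.TWLevel Fermat.Agent.GB.B3.GamH Fermat.Agent.GB.B3.ChiLevelMulti
  Fermat.Agent.GB.B3.Final
open Fermat.Agent.GJ.J2.Lat
open Fermat.Agent.GB.B4.Datum.ImageRing Fermat.Agent.GB.B4.Datum.TQFields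
open Fermat.Agent.GB.Setup.SetupPkg
open Fermat.Agent.GB.Def.FramedNodes
open Fermat.Agent.GB.B9.ProviderFlat Fermat.Agent.GB.B9.ProviderFlat.G1
open Fermat.Agent.GE6.Inst.FreeLevelInst Fermat.Agent.GE6.Inst.FreeLevelTw
open Fermat.Agent.GE.Graph GaloisRep

/-- local instance (Prop-valued class) -/
local instance factPrimeOffPQ {S : Set ℕ} (l : PrimesOff S) : Fact (l.1 : ℕ).Prime := ⟨l.1.2⟩

/-- `ℚ̄`. -/
local notation "Qb" => AlgebraicClosure ℚ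
/-- `G_ℚ`. -/
local notation "GQ" => (AlgebraicClosure ℚ ≃ₐ[ℚ] AlgebraicClosure ℚ)
/-- the character `Γ₀(N) → Δ` of a character of `(ℤ/N)ˣ`. -/
local notation "chiΓ" => Fermat.Agent.GB.B3.EisGamma0.chi
/-- the structure map `A → T_Q`. -/
local notation "chiT" => Fermat.Agent.GB.B4.Datum.ImageRing.chi

noncomputable section

/-! ### transport of a universal deformation ring along an equivalence of conditions -/

section OfIff

variable {𝒪 : Type} [CommRing 𝒪] [IsDomain 𝒪] [IsDiscreteValuationRing 𝒪]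
  [IsAdicComplete (maximalIdeal 𝒪) 𝒪] {ρbar : ResidualGaloisRep (ResidueField 𝒪)}
  {𝒟 𝒟' : ∀ ⦃A : Type⦄ [CommRing A] [IsLocalRing A] [Algebra 𝒪 A], GaloisRepAdic A → Prop}

/-- **the same ring and the same representation, for an equivalent deformation condition** -/
def ofIff
    (h : ∀ ⦃A : Type⦄ [CommRing A] [IsLocalRing A] [Algebra 𝒪 A] (ρ : GaloisRepAdic A),
      𝒟 ρ ↔ 𝒟' ρ)
    (D : DeformationRingData 𝒪 ρbar 𝒟) : DeformationRingData 𝒪 ρbar 𝒟' where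
  R := D.R
  residue_surjective := D.residue_surjective
  absIrr := D.absIrr
  ρ := D.ρ
  isOfType := (h D.ρ).mp D.isOfType
  residual_isEquiv := D.residual_isEquiv
  universal := fun A _ _ _ _ _ _ hs ρA hρA hres => D.universal A hs ρA ((h ρA).mpr hρA) hres

end OfIff

/-- **the engine's flat condition is GATE-B's framed flat condition when there is no framed
prime** -/
theorem condFL_iff_framedCond {𝒪 : Type} [CommRing 𝒪] [IsLocalRing 𝒪] (p : ℕ) [Fact p.Prime]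
    (Smin Su Q : Finset ℕ) (hSu : Su = ∅)
    ⦃A : Type⦄ [CommRing A] [IsLocalRing A] [Algebra 𝒪 A] (ρ : GaloisRepAdic A) :
    condFL 𝒪 p Smin Q ρ ↔ framedCond p (flatCondition 𝒪 p) Smin Su Q ρ := by
  subst hSu
  unfold condFL framedCond
  rw [Finset.union_empty]

/-- the same for the strict-ordinary condition -/
theorem condSO_iff_framedCond {𝒪 : Type} [CommRing 𝒪] [IsLocalRing 𝒪] (p : ℕ) [Fact p.Prime]
    (Smin Su Q : Finset ℕ) (hSu : Su = ∅)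
    ⦃A : Type⦄ [CommRing A] [IsLocalRing A] [Algebra 𝒪 A] (ρ : GaloisRepAdic A) :
    condSO 𝒪 p Smin Q ρ ↔ framedCond p (strictOrdinaryCondition 𝒪 p) Smin Su Q ρ := by
  subst hSu
  unfold condSO framedCond
  rw [Finset.union_empty]

variable {p : ℕ} [hpF : Fact p.Prime] {W : WeierstrassCurve ℤ}
  {hcard₁ : Nat.card (Submodule.torsionBy ℤ
    ((W.map (Int.castRingHom ℚ))⁄(AlgebraicClosure ℚ)).Point p) = p ^ 2}
  {hker : GaloisFactorsThroughFiniteLevel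
    (galoisRepModuleEnd (K := AlgebraicClosure ℚ) ℚ (W.map (Int.castRingHom ℚ)) p)}
  {M A : ℕ} {P : Pkg p W hcard₁ hker M A} {g n : ℕ} (Q : TWSet P g n)

/-! ### the forms level at `s = 0` -/

/-- the product of the step primes of stage `0 + g` is the product of the Taylor–Wiles primes -/
theorem prod_rRev : ∏ i : Fin (0 + g), rRev Q i = ∏ i, Q.qv i := by
  rw [Fin.prod_univ_eq_prod_range (fun i => rRev Q i) (0 + g), Nat.zero_add,
    ← Fin.prod_univ_eq_prod_range (fun i => rRev Q i) g]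
  rw [Finset.prod_congr rfl fun (i : Fin g) _ => rRev_lt Q i.2]
  exact Equiv.prod_comp Fin.revPerm Q.qv

/-- **the level of the forms whose Hecke algebra acts on `M_Q`** (no framed step):
`Q.N * ∏ qv = M * (∏ qv)²` -/
abbrev NQ0 : ℕ := Q.N * ∏ i : Fin (0 + g), rRev Q i

theorem NQ0_eq : NQ0 Q = M * ((∏ i, Q.qv i) * ∏ i, Q.qv i) := by
  rw [NQ0, prod_rRev, TWSet.N, Nat.mul_assoc]

theorem prod_qv_ne_zero : (∏ i, Q.qv i) ≠ 0 :=
  Finset.prod_ne_zero_iff.mpr fun i _ => (Q.prime i).ne_zero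

theorem NQ0_ne_zero : NQ0 Q ≠ 0 := by
  rw [NQ0_eq]
  exact Nat.mul_ne_zero P.hM (Nat.mul_ne_zero (prod_qv_ne_zero Q) (prod_qv_ne_zero Q))

instance neZero_NQ0 : NeZero (NQ0 Q) := ⟨NQ0_ne_zero Q⟩

theorem dvd_NQ0 : M ∣ NQ0 Q := by
  rw [NQ0_eq]
  exact Dvd.intro _ rfl

theorem N_dvd_NQ0 : Q.N ∣ NQ0 Q := Dvd.intro _ rfl

/-- a prime dividing the product of the Taylor–Wiles primes is one of them -/
theorem mem_image_of_dvd_prod {ℓ : ℕ} (hℓ : ℓ.Prime) (h : ℓ ∣ ∏ i, Q.qv i) :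
    ℓ ∈ Finset.univ.image Q.qv := by
  obtain ⟨i, -, hi⟩ := (Prime.dvd_finsetProd_iff hℓ.prime _).mp h
  exact Finset.mem_image.mpr ⟨i, Finset.mem_univ _,
    ((Nat.prime_dvd_prime_iff_eq hℓ (Q.prime i)).mp hi).symm⟩

/-- every prime of the forms level divides `M` or is a Taylor–Wiles prime -/
theorem hNprimes0 (ℓ : ℕ) (hℓ : ℓ.Prime) (hd : ℓ ∣ NQ0 Q) :
    ℓ ∣ M ∨ ℓ ∈ Finset.univ.image Q.qv := by
  rw [NQ0_eq] at hd
  rcases (Nat.Prime.dvd_mul hℓ).mp hd with h | h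
  · exact Or.inl h
  · rcases (Nat.Prime.dvd_mul hℓ).mp h with h | h
    · exact Or.inr (mem_image_of_dvd_prod Q hℓ h)
    · exact Or.inr (mem_image_of_dvd_prod Q hℓ h)

/-- a prime of `M` does not divide the cofactor `(∏ qv)²` -/
theorem not_dvd_cofactor0 {ℓ : ℕ} (hℓ : ℓ.Prime) (hℓM : ℓ ∣ M) :
    ¬ ℓ ∣ (∏ i, Q.qv i) * ∏ i, Q.qv i := by
  have h1 : ¬ ℓ ∣ ∏ i, Q.qv i := fun h => by
    obtain ⟨i, -, hi⟩ := Finset.mem_image.mp (mem_image_of_dvd_prod Q hℓ h)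
    exact (Q.good i).2.1 (hi ▸ hℓM)
  intro h
  rcases (Nat.Prime.dvd_mul hℓ).mp h with h | h
  · exact h1 h
  · exact h1 h

/-- every prime of a squarefree `M` exactly divides the forms level -/
theorem hexact0 (hsq : Squarefree M) (ℓ : ℕ) (hℓ : ℓ.Prime) (hℓM : ℓ ∣ M) :
    ℓ ∣ NQ0 Q ∧ ¬ ℓ ^ 2 ∣ NQ0 Q := by
  rw [NQ0_eq]
  refine ⟨Dvd.dvd.mul_right hℓM _, fun h2 => ?_⟩
  have hcop : Nat.Coprime (ℓ ^ 2) ((∏ i, Q.qv i) * ∏ i, Q.qv i) :=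
    Nat.Coprime.pow_left 2 ((Nat.Prime.coprime_iff_not_dvd hℓ).mpr (not_dvd_cofactor0 Q hℓ hℓM))
  have h3 : ℓ ^ 2 ∣ M := hcop.dvd_of_dvd_mul_right h2
  exact Nat.squarefree_iff_prime_squarefree.mp hsq ℓ hℓ (by rwa [← pow_two])

/-- `p ∤ M ⟹ p ∤ NQ0` -/
theorem not_dvd_NQ0 (hpM : ¬ p ∣ M) : ¬ p ∣ NQ0 Q := by
  intro h
  rcases hNprimes0 Q p hpF.out h with h | h
  · exact hpM h
  · obtain ⟨i, -, hi⟩ := Finset.mem_image.mp h
    exact (Q.good i).2.2 hi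

/-! ### G2 at `twE` -/

section TwE

variable (hp3 : p ≠ 3) (E : Fin g → ℕ) (hE : ∀ j, p ^ E j ∣ Q.qv j - 1)

/-- **G2 at the level datum without framed step**: the residual eigensystem at the forms level
`NQ0 Q`, the half-diamonds and the twisted Hecke action on the big level of stage `0 + g` with the
per-prime exponents `E`, with its `ι`-formula on the generators, its commutation with the diamonds
and the Hecke symbols, and (LOC). -/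
theorem exists_twP_twE (hsq : Squarefree M) :
    ∃ (SQ : Finset ℕ) (θQ : heckeAlgebra (NQ0 Q) 2 (↑SQ : Set ℕ) →+* P.k),
      p ∈ SQ ∧ (∀ ℓ : ℕ, ℓ.Prime → ℓ ∣ NQ0 Q → ℓ ∈ SQ) ∧
      (∀ q : ℕ, q.Prime → ¬ W.IsGoodPrimeFor q → q ∈ SQ) ∧
      (∀ (ℓ : ℕ) (hℓ : ℓ.Prime) (hℓN : ¬ ℓ ∣ NQ0 Q) (hℓS : ℓ ∉ (↑SQ : Set ℕ)),
        θQ (heckeAlgebra.T hℓ hℓN hℓS) = ((W.apOfModel ℓ : ℤ) : P.k)) ∧
      (∀ (ℓ : ℕ) (hℓ : ℓ.Prime) (hℓN : ¬ ℓ ∣ NQ0 Q) (hℓS : ℓ ∉ (↑SQ : Set ℕ))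
        (Pl : ValuationSubring Qb), Pl.LiesOverPrime ℓ → ∀ σ : GQ, Pl.IsFrobeniusAt σ ℓ →
          LinearMap.charpoly (P.rhobar.ρ σ) =
            X ^ 2 - C (θQ (heckeAlgebra.T hℓ hℓN hℓS)) * X + C ((ℓ : ℕ) : P.k)) ∧
      (∀ l : PrimesOff (↑SQ : Set ℕ), ∃ i : Q.Sy.ι₁, Q.Sy.ℓ i = (l.1 : ℕ) ∧
        θQ (formsGenS (NQ0 Q) (↑SQ : Set ℕ) l) = Q.lamTop (MvPolynomial.X (Sum.inl i))) ∧
      ∃ (dℓ : PrimesOff (↑SQ : Set ℕ) → Gamma0 Q.N)
        (hnd : ∀ l : PrimesOff (↑SQ : Set ℕ), ¬ (l.1 : ℕ) ∣ Q.N),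
        (∀ (l : PrimesOff (↑SQ : Set ℕ)) (u : (ZMod Q.N)ˣ),
          (u : ZMod Q.N) = ((l.1 : ℕ) : ZMod Q.N) →
            chiΓ (Theta (Δs p (eRev E)) (primeDataE Q E hE).psi (0 + g)) (dℓ l) ^ 2 *
              Theta (Δs p (eRev E)) (primeDataE Q E hE).psi (0 + g) u = 1) ∧
        ∃ twP : ↥(heckeAlgebra (NQ0 Q) 2 (↑SQ : Set ℕ)) →+*
            Module.End P.O (bigLevel Q.Sy Q.𝔪 (primeDataE Q E hE) (Q.hyp hp3) (0 + g)).M,
          (∀ (l : PrimesOff (↑SQ : Set ℕ))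
              (x : (bigLevel Q.Sy Q.𝔪 (primeDataE Q E hE) (Q.hyp hp3) (0 + g)).M),
            (bigReal Q.Sy Q.𝔪 (primeDataE Q E hE) (Q.hyp hp3) (0 + g)).ι
                (twP (formsGenS (NQ0 Q) (↑SQ : Set ℕ) l) x) =
              diaH (Theta (Δs p (eRev E)) (primeDataE Q E hE).psi (0 + g)) P.O (dℓ l)
                (TH (Theta (Δs p (eRev E)) (primeDataE Q E hE).psi (0 + g)) P.O (hnd l)
                  ((bigReal Q.Sy Q.𝔪 (primeDataE Q E hE) (Q.hyp hp3) (0 + g)).ι x))) ∧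
          (∀ t i, twP t * (bigLevel Q.Sy Q.𝔪 (primeDataE Q E hE) (Q.hyp hp3) (0 + g)).D i =
            (bigLevel Q.Sy Q.𝔪 (primeDataE Q E hE) (Q.hyp hp3) (0 + g)).D i * twP t) ∧
          (∀ t u, twP t * (bigLevel Q.Sy Q.𝔪 (primeDataE Q E hE) (Q.hyp hp3) (0 + g)).act u =
            (bigLevel Q.Sy Q.𝔪 (primeDataE Q E hE) (Q.hyp hp3) (0 + g)).act u * twP t) ∧
          LocHyp P.O θQ twP := by
  obtain ⟨SQ, θQ, -, hpS, hNS, hbadS, hθT, hfrobQ, -⟩ :=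
    Fermat.Agent.GB.Setup.PkgLevel.exists_thetaQ P (dvd_NQ0 Q)
  have hnd : ∀ l : PrimesOff (↑SQ : Set ℕ), ¬ (l.1 : ℕ) ∣ Q.N :=
    G2Sym.hnd_Q Q (N_dvd_NQ0 Q) SQ hNS
  obtain ⟨dℓ, hdℓ⟩ := G2.exists_dl_theta (primeDataE Q E hE) (0 + g)
    (Nat.le_of_eq (Nat.zero_add g)) P.hp2 (↑SQ : Set ℕ) hnd
  have hsym : ∀ l : PrimesOff (↑SQ : Set ℕ), ∃ i : Q.Sy.ι₁, Q.Sy.ℓ i = (l.1 : ℕ) ∧
      θQ (formsGenS (NQ0 Q) (↑SQ : Set ℕ) l) = Q.lamTop (MvPolynomial.X (Sum.inl i)) :=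
    G2Sym.hsym_Q Q (N_dvd_NQ0 Q) SQ hNS hpS hbadS θQ hθT
  have hev : ∀ t ∈ Q.𝔪, Q.lamTop t = 0 := G2Sym.hev_Q Q
  obtain ⟨twP, hι, hD, hact, hlocP⟩ :=
    G2.exists_twP_hecke Q.Sy Q.𝔪 (primeDataE Q E hE) (Q.hyp hp3) 0 g
      (G2Sym.squarefree_N Q hsq) (Nat.le_of_eq (Nat.zero_add g))
      (rfl : NQ0 Q = Q.N * ∏ i : Fin (0 + g), rRev Q i) SQ hNS dℓ hdℓ hnd Q.lamTop hev θQ hsym
  exact ⟨SQ, θQ, hpS, hNS, hbadS, hθT, hfrobQ, hsym, dℓ, hnd, hdℓ, twP, hι, hD, hact, hlocP⟩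

end TwE

/-! ### the objects of G2 at `twE`, and G3 -/

section G3E

variable (hp3 : p ≠ 3) (E : Fin g → ℕ) (hE : ∀ j, p ^ E j ∣ Q.qv j - 1)
  (c : Fin 0 → P.O) (hc : ∀ v : Fin 0, c v ^ p ^ eRev E (0 + g - 1 - v) = 1)
  (hc1 : ∀ v, (1 : P.O) - c v ∈ Ideal.span {P.ϖ})
  {SQ : Finset ℕ}
  (twP : ↥(heckeAlgebra (NQ0 Q) 2 (↑SQ : Set ℕ)) →+*
    Module.End P.O (bigLevel Q.Sy Q.𝔪 (primeDataE Q E hE) (Q.hyp hp3) (0 + g)).M)
  (hD : ∀ t i, twP t * (bigLevel Q.Sy Q.𝔪 (primeDataE Q E hE) (Q.hyp hp3) (0 + g)).D i =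
    (bigLevel Q.Sy Q.𝔪 (primeDataE Q E hE) (Q.hyp hp3) (0 + g)).D i * twP t)
  (θQ : ↥(heckeAlgebra (NQ0 Q) 2 (↑SQ : Set ℕ)) →+* P.k)

/-- helper11's `G2.tw₁` at `twE` -/
abbrev tw₁E :=
  G2.tw₁ Q.Sy Q.𝔪 (primeDataE Q E hE) (Q.hyp hp3) 0 g c hc hc1 twP hD

/-- helper11's `G2.twχ` at `twE` -/
abbrev twχE :=
  G2.twχ Q.Sy Q.𝔪 (primeDataE Q E hE) (Q.hyp hp3) 0 g c hc hc1 twP hD

/-- **the Hecke ring `T_Q`**: helper11's `G2.T` at `twE` -/
abbrev TE : Type :=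
  G2.T Q.Sy Q.𝔪 (primeDataE Q E hE) (Q.hyp hp3) 0 g c hc hc1 twP hD θQ

/-- **the action of `T_Q` on `M_Q = (twE …).L1.M = (FQ1 …).M`**: helper11's `G2.a₁` at `twE` -/
abbrev a₁E :=
  G2.a₁ Q.Sy Q.𝔪 (primeDataE Q E hE) (Q.hyp hp3) 0 g c hc hc1 twP hD θQ

/-- helper11's `G2.a₂` at `twE` -/
abbrev a₂E :=
  G2.a₂ Q.Sy Q.𝔪 (primeDataE Q E hE) (Q.hyp hp3) 0 g c hc hc1 twP hD θQ

/-- (LOC) for the product action, as a `Fact` (instance binder of `exists_psi_twE`) -/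
theorem fact_locHypE (hlocP : LocHyp P.O θQ twP) :
    Fact (LocHyp P.O θQ (prodTw P.O (tw₁E Q hp3 E hE c hc hc1 twP hD)
      (twχE Q hp3 E hE c hc hc1 twP hD))) :=
  ⟨G2.locHyp_T Q.Sy Q.𝔪 (primeDataE Q E hE) (Q.hyp hp3) 0 g c hc hc1 twP hD θQ hlocP⟩

theorem finite_prodE : Module.Finite P.O
    ((twE Q hp3 E hE c hc hc1).L1.M × (twE Q hp3 E hE c hc hc1).Lχ.M) :=
  Fermat.Agent.GB.B3.FreeLevelInst.finite_prod _

theorem free_prodE : Module.Free P.O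
    ((twE Q hp3 E hE c hc hc1).L1.M × (twE Q hp3 E hE c hc hc1).Lχ.M) :=
  Fermat.Agent.GB.B3.FreeLevelInst.free_prod _

theorem nontrivial_prodE : Nontrivial
    ((twE Q hp3 E hE c hc hc1).L1.M × (twE Q hp3 E hE c hc hc1).Lχ.M) :=
  Fermat.Agent.GB.B3.FreeLevelInst.nontrivial_prod _
    (fun i => Nfun_pos hpF.out (eRev E) (0 + g) (Fin.natAdd 0 i))
    (twE_d_pos Q hp3 E hE c hc hc1)

end G3E

end

end Fermat.Agent.GE6.Inst.PsiQ
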