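/-
GATE-E (S59) / ENGINE-INST node N4 = item (ii), file 2 (helper52): **G3 at `twE`**, i.e.
`ψ_Q : R_Q → T_Q` for the ENGINE's flat deformation problem at a Taylor–Wiles set of the minimal
level.  Objects and instances: `GE6/Inst/PsiQ` (`TE`, `a₁E`, `tw₁E`, `twχE`, `fact_locHypE`,
`finite_prodE`, `free_prodE`, `nontrivial_prodE`, `exists_twP_twE`).

The `R_Q`-module structure on `M_Q = (FQ1 …).M = (twE …).L1.M` of `ModSide.ModSideData` is
`UnitInst.moduleOfHom (a₁E …) ψ` (helper49) for the `ψ` of `exists_psi_twE`.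
-/
import Fermat.Agent.GE6.Inst.PsiQ

set_option autoImplicit false
set_option linter.unusedSectionVars false
set_option linter.unusedVariables false
set_option linter.style.haveILetI false

open WeierstrassCurve WeierstrassCurve.Affine.Point IsLocalRing
open scoped WeierstrassCurve.Affine
open scoped MatrixGroups
open CongruenceSubgroup ModularCurve.Period CuspForm Polynomial

namespace Fermat.Agent.GE6.Inst.PsiQ

open Fermat.Agent.GM.B
open Fermat.Agent.GB.B3.HeckeActH Fermat.Agent.GB.B3.RealLevel Fermat.Agent.GB.B3.Tower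
  Fermat.Agent.GB.B3.TWChars Fermat.Agent.GB.B3.FinalTW Fermat.Agent.GB.B3.Plug
  Fermat.Agent.GB.B3.TWLevel Fermat.Agent.GB.B3.GamH Fermat.Agent.GB.B3.ChiLevelMulti
  Fermat.Agent.GB.B3.Final
open Fermat.Agent.GJ.J2.Lat
open Fermat.Agent.GB.B4.Datum.ImageRing Fermat.Agent.GB.B4.Datum.TQFields
open Fermat.Agent.GB.Setup.SetupPkg
open Fermat.Agent.GB.Def.FramedNodes
open Fermat.Agent.GB.B9.ProviderFlat Fermat.Agent.GB.B9.ProviderFlat.G1
open Fermat.Agent.GE6.Inst.FreeLevelInst Fermat.Agent.GE6.Inst.FreeLevelTw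
open Fermat.Agent.GE.Graph GaloisRep

/-- `ℚ̄`. -/
local notation "Qb" => AlgebraicClosure ℚ
/-- `G_ℚ`. -/
local notation "GQ" => (AlgebraicClosure ℚ ≃ₐ[ℚ] AlgebraicClosure ℚ)
/-- the character `Γ₀(N) → Δ` of a character of `(ℤ/N)ˣ`. -/
local notation "chiΓ" => Fermat.Agent.GB.B3.EisGamma0.chi
/-- the structure map `A → T_Q`. -/
local notation "chiT" => Fermat.Agent.GB.B4.Datum.ImageRing.chi

noncomputable section

variable {p : ℕ} [hpF : Fact p.Prime] {W : WeierstrassCurve ℤ}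
  {hcard₁ : Nat.card (Submodule.torsionBy ℤ
    ((W.map (Int.castRingHom ℚ))⁄(AlgebraicClosure ℚ)).Point p) = p ^ 2}
  {hker : GaloisFactorsThroughFiniteLevel
    (galoisRepModuleEnd (K := AlgebraicClosure ℚ) ℚ (W.map (Int.castRingHom ℚ)) p)}
  {M A : ℕ} {P : Pkg p W hcard₁ hker M A} {g n : ℕ} (Q : TWSet P g n)
  (hp3 : p ≠ 3) (E : Fin g → ℕ) (hE : ∀ j, p ^ E j ∣ Q.qv j - 1)
  (c : Fin 0 → P.O) (hc : ∀ v : Fin 0, c v ^ p ^ eRev E (0 + g - 1 - v) = 1)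
  (hc1 : ∀ v, (1 : P.O) - c v ∈ Ideal.span {P.ϖ})
  {SQ : Finset ℕ}
  (twP : ↥(heckeAlgebra (NQ0 Q) 2 (↑SQ : Set ℕ)) →+*
    Module.End P.O (bigLevel Q.Sy Q.𝔪 (primeDataE Q E hE) (Q.hyp hp3) (0 + g)).M)
  (hD : ∀ t i, twP t * (bigLevel Q.Sy Q.𝔪 (primeDataE Q E hE) (Q.hyp hp3) (0 + g)).D i =
    (bigLevel Q.Sy Q.𝔪 (primeDataE Q E hE) (Q.hyp hp3) (0 + g)).D i * twP t)
  (θQ : ↥(heckeAlgebra (NQ0 Q) 2 (↑SQ : Set ℕ)) →+* P.k)

/-- **G3 at `twE`** for the ENGINE's flat problem `condFL P.O p P.Smin (image Q.qv)` at the minimal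
level (`M` squarefree, `p ∤ M`, no framed prime): `ψ_Q : R_Q → T_Q` surjective and local, `ρ_Q`
over `T_Q` with `R_Q`-push `≅ ρ_Q`, the Frobenius characteristic polynomials, `det = cyc` and the
residual representation. -/
theorem exists_psi_twE
    [Fact (LocHyp P.O θQ (prodTw P.O (tw₁E Q hp3 E hE c hc hc1 twP hD)
      (twχE Q hp3 E hE c hc hc1 twP hD)))]
    [Module.Finite P.O ((twE Q hp3 E hE c hc hc1).L1.M × (twE Q hp3 E hE c hc hc1).Lχ.M)]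
    [Module.Free P.O ((twE Q hp3 E hE c hc hc1).L1.M × (twE Q hp3 E hE c hc hc1).Lχ.M)]
    [Nontrivial ((twE Q hp3 E hE c hc hc1).L1.M × (twE Q hp3 E hE c hc hc1).Lχ.M)]
    (hsq : Squarefree M) (hpM : ¬ p ∣ M) (hSu : P.Su = ∅)
    (hpS : p ∈ SQ) (hNS : ∀ ℓ : ℕ, ℓ.Prime → ℓ ∣ NQ0 Q → ℓ ∈ SQ)
    (hfrobQ : ∀ (ℓ : ℕ) (hℓ : ℓ.Prime) (hℓN : ¬ ℓ ∣ NQ0 Q) (hℓS : ℓ ∉ (↑SQ : Set ℕ))
      (Pl : ValuationSubring Qb), Pl.LiesOverPrime ℓ → ∀ σ : GQ, Pl.IsFrobeniusAt σ ℓ →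
        LinearMap.charpoly (P.rhobar.ρ σ) =
          X ^ 2 - C (θQ (heckeAlgebra.T hℓ hℓN hℓS)) * X + C ((ℓ : ℕ) : P.k))
    (DQ : DeformationRingData P.O P.rhobar (condFL P.O p P.Smin (Finset.univ.image Q.qv))) :
    ∃ (ψ : DQ.R →ₐ[P.O] TE Q hp3 E hE c hc hc1 twP hD θQ)
      (hψl : IsLocalHom (ψ : DQ.R →+* TE Q hp3 E hE c hc hc1 twP hD θQ))
      (ρQ : GaloisRepAdic (TE Q hp3 E hE c hc hc1 twP hD θQ)),
      Function.Surjective ψ ∧
      (DQ.ρ.baseChangeAlong (ψ : DQ.R →+* TE Q hp3 E hE c hc hc1 twP hD θQ) hψl).IsEquiv ρQ ∧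
      (∀ (ℓ : ℕ) (hℓ : ℓ.Prime) (hℓN : ¬ ℓ ∣ NQ0 Q) (hℓS : ℓ ∉ (↑SQ : Set ℕ))
        (Pl : ValuationSubring Qb), Pl.LiesOverPrime ℓ → ∀ σ : GQ, Pl.IsFrobeniusAt σ ℓ →
          LinearMap.charpoly (ρQ.ρ σ) =
            X ^ 2 - C (chiT P.O θQ (prodTw P.O (tw₁E Q hp3 E hE c hc hc1 twP hD)
                (twχE Q hp3 E hE c hc hc1 twP hD)) (heckeAlgebra.T hℓ hℓN hℓS)) * X
              + C ((ℓ : TE Q hp3 E hE c hc hc1 twP hD θQ))) ∧
      ρQ.DetIsCyclotomic p ∧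
      ρQ.residual.IsEquiv
        (P.rhobar.baseChangeAlong
          (ResidueField.map (algebraMap P.O (TE Q hp3 E hE c hc hc1 twP hD θQ)))) := by
  have hpT : p ∈ P.Smin ∪ P.Su ∪ Finset.univ.image Q.qv :=
    Finset.mem_union_left _ (Finset.mem_union_left _ P.p_mem_Smin)
  have hNT : ∀ q : ℕ, q.Prime → q ∣ NQ0 Q → q ∈ P.Smin ∪ P.Su ∪ Finset.univ.image Q.qv := by
    intro q hq hqN
    rcases hNprimes0 Q q hq hqN with h | h
    · by_cases hqp : q = p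
      · rw [hqp]
        exact hpT
      · rcases P.mem_Smin_or_mem_Su hq h hqp with h' | h'
        · exact Finset.mem_union_left _ (Finset.mem_union_left _ h')
        · exact Finset.mem_union_left _ (Finset.mem_union_right _ h')
    · exact Finset.mem_union_right _ h
  have hSmin : ∀ q ∈ P.Smin, q.Prime → q ≠ p → q ∣ NQ0 Q ∧ ¬ q ^ 2 ∣ NQ0 Q := by
    intro q hq hqpr hqp
    rcases P.dvd_of_mem_Smin hq with h | h
    · exact absurd h hqp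
    · exact hexact0 Q hsq q hqpr h
  -- (`have` first: `obtain … := <term>` makes `rcases` unfold the big objects)
  have key :=
    G3.exists_psi_TQ_flat (θ := θQ)
      (tw := prodTw P.O (tw₁E Q hp3 E hE c hc hc1 twP hD) (twχE Q hp3 E hE c hc hc1 twP hD))
      P.hp2 P.hpO (not_dvd_NQ0 Q hpM) hpS hNS P.rhobar P.habs
      (fun ℓ hℓ hℓN hℓS Pl hPl σ hσ => ⟨_, hfrobQ ℓ hℓ hℓN hℓS Pl hPl σ hσ⟩)
      P.Smin P.Su (Finset.univ.image Q.qv) ∅ hpT hNT hSmin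
      (fun q hq => absurd hq (Finset.notMem_empty q))
      (ofIff (condFL_iff_framedCond p P.Smin P.Su (Finset.univ.image Q.qv) hSu) DQ)
  obtain ⟨ψ, hψ, ρQ, h1, h2, h3, h4, -, h6⟩ := key
  refine ⟨ψ, hψ, ρQ, ?_, ?_, ?_, ?_, ?_⟩
  · exact h1
  · exact h2
  · exact h3
  · exact h4
  · exact h6


end

end Fermat.Agent.GE6.Inst.PsiQ
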