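/-
GATE-E (S59) / E6 node N8b, the RECORD (helper52): **abstract builder of helper72's
`NodeProof.RecordAt`** from a "Hecke record" `(T_Q, χ : 𝕋(N'')^{(S_Q)} → T_Q, a, ψ, ρ_Q)`:

* `adjoin_eq_top_of_closure` : if `χ : A → T` has `𝒪[χ(A)] = T` and `G` generates the ring `A`, then
  any set containing `χ(G)` generates the `𝒪`-algebra `T`;
* **`nonempty_recordAt`** : `BQ := S_Q`, `tQ ℓ := χ (T_ℓ)` (`ℓ ∉ S_Q` prime, `0` otherwise); (ES)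
  is the Eichler–Shimura relation of `ρ_Q` in the spelling of `ProviderFlat/G3`, (GEN) is
  `adjoin_range_chi` + `closure_range_formsGenS`, (PI) is stated on the generators
  `formsGenS N'' S_Q l`, (UNIT) verbatim.
-/
import Fermat.Agent.GE6.Inst.NodeProof
import Fermat.Agent.GB.B4.Twist.TwHom

set_option autoImplicit false
set_option linter.unusedSectionVars false
set_option linter.unusedVariables false
set_option linter.style.haveILetI false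

open scoped MatrixGroups
open CongruenceSubgroup CuspForm

namespace Fermat.Agent.GE6.Inst.RecordAbs

open IsLocalRing Function Polynomial GaloisRep
open Fermat.Agent.GB.B3 Fermat.Agent.GB.B3.TWLevel
open Fermat.Agent.GJ.J2.Lat
open Fermat.Agent.GE.Graph
open Fermat.Agent.GE6.Inst.NodeProof

/-- `ℚ̄`. -/
local notation "Qb" => AlgebraicClosure ℚ
/-- `G_ℚ`. -/
local notation "GQ" => (AlgebraicClosure ℚ ≃ₐ[ℚ] AlgebraicClosure ℚ)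

/-- if `χ : A → T` has `𝒪[χ(A)] = T` and `G` generates the ring `A`, every set containing `χ(G)`
generates the `𝒪`-algebra `T`. -/
theorem adjoin_eq_top_of_closure {𝒪 A T : Type*} [CommRing 𝒪] [Ring A] [Ring T] [Algebra 𝒪 T]
    (χ : A →+* T) (G : Set A) (hG : Subring.closure G = ⊤)
    (hχ : Algebra.adjoin 𝒪 (Set.range χ) = ⊤) (s : Set T) (hs : ∀ x ∈ G, χ x ∈ s) :
    Algebra.adjoin 𝒪 s = ⊤ := by
  rw [eq_top_iff, ← hχ]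
  refine Algebra.adjoin_le ?_
  rintro _ ⟨a, rfl⟩
  have ha : a ∈ Subring.closure G := by
    rw [hG]
    exact Subring.mem_top a
  have hle : Subring.closure G ≤ (Algebra.adjoin 𝒪 s).toSubring.comap χ :=
    Subring.closure_le.mpr fun x hx => Algebra.subset_adjoin (hs x hx)
  exact hle ha

section Abs

variable {𝒪 : Type} [CommRing 𝒪] [IsDomain 𝒪] [IsDiscreteValuationRing 𝒪]
  [IsAdicComplete (maximalIdeal 𝒪) 𝒪]
  {𝕋 : Type} [CommRing 𝕋] [Algebra 𝒪 𝕋]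
  {M0 : Type} [AddCommGroup M0] [Module 𝒪 M0] {act0 : 𝕋 →ₐ[𝒪] Module.End 𝒪 M0}
  {k : ℕ} {N : Fin k → ℕ}

/-- **the record at one Taylor–Wiles set from a Hecke record**: `BQ := S_Q`,
`tQ ℓ := χ (T_ℓ)`. -/
theorem nonempty_recordAt (F : FreeLevel 𝒪 𝕋 M0 act0 k N) (ι₁ : Type) (pr : ι₁ → ℕ)
    (sym : ι₁ → 𝕋)
    {ρbar : ResidualGaloisRep (ResidueField 𝒪)} {𝒟Q : DefCondE 𝒪}
    (DQ : DeformationRingData 𝒪 ρbar 𝒟Q) (g : Fin k → (DQ.R)ˣ)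
    {N'' : ℕ} [NeZero N''] (SQ : Finset ℕ) (hNS : ∀ ℓ : ℕ, ℓ.Prime → ℓ ∣ N'' → ℓ ∈ SQ)
    (TQ : Type) [CommRing TQ] [IsLocalRing TQ] [Algebra 𝒪 TQ]
    (χ : ↥(heckeAlgebra N'' 2 (↑SQ : Set ℕ)) →+* TQ)
    (hχ : Algebra.adjoin 𝒪 (Set.range χ) = ⊤)
    (a : TQ →ₐ[𝒪] Module.End 𝒪 F.M) (ψ : DQ.R →ₐ[𝒪] TQ)
    (hψ : IsLocalHom (ψ : DQ.R →+* TQ)) (ρQ : GaloisRepAdic TQ)
    (hQρ : (DQ.ρ.baseChangeAlong (ψ : DQ.R →+* TQ) hψ).IsEquiv ρQ)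
    (hρ : ∀ (ℓ : ℕ) (hℓ : ℓ.Prime) (hℓN : ¬ ℓ ∣ N'') (hℓS : ℓ ∉ (↑SQ : Set ℕ))
        (Pl : ValuationSubring Qb), Pl.LiesOverPrime ℓ → ∀ σ : GQ, Pl.IsFrobeniusAt σ ℓ →
          LinearMap.charpoly (ρQ.ρ σ) =
            X ^ 2 - C (χ (heckeAlgebra.T hℓ hℓN hℓS)) * X + C ((ℓ : TQ)))
    (hpi : ∀ l : PrimesOff (↑SQ : Set ℕ), ∃ s : ι₁, pr s = (l.1 : ℕ) ∧
      ∀ m : F.M, F.π (a (χ (formsGenS N'' (↑SQ : Set ℕ) l)) m) = F.π (F.act (sym s) m))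
    (hunit : ∀ (j : Fin k) (m : F.M), ∃ m' : F.M, F.D j m - m = a (ψ (g j : DQ.R)) m' - m') :
    Nonempty (RecordAt F ι₁ pr sym DQ g) := by
  classical
  let tQ : ℕ → TQ := fun ℓ =>
    if h : ℓ.Prime ∧ ℓ ∉ SQ then
      χ (heckeAlgebra.T h.1 (fun hd => h.2 (hNS ℓ h.1 hd))
        (fun hm => h.2 (Finset.mem_coe.mp hm)))
    else 0
  have htQ : ∀ (ℓ : ℕ) (hℓ : ℓ.Prime) (hℓS : ℓ ∉ SQ),
      tQ ℓ = χ (heckeAlgebra.T hℓ (fun hd => hℓS (hNS ℓ hℓ hd))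
        (fun hm => hℓS (Finset.mem_coe.mp hm))) := by
    intro ℓ hℓ hℓS
    exact dif_pos ⟨hℓ, hℓS⟩
  have htQl : ∀ l : PrimesOff (↑SQ : Set ℕ),
      tQ (l.1 : ℕ) = χ (formsGenS N'' (↑SQ : Set ℕ) l) := by
    intro l
    rw [htQ (l.1 : ℕ) l.1.2 (fun h => l.2 (Finset.mem_coe.mpr h)),
      formsGenS_of_not_dvd N'' (↑SQ : Set ℕ) l
        (fun hd => l.2 (Finset.mem_coe.mpr (hNS _ l.1.2 hd)))]
  refine ⟨{ TQ := TQ, a := a, ψ := ψ, hψ := hψ, ρQ := ρQ, BQ := SQ, tQ := tQ, hQρ := hQρ,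
            hES := ?_, hGEN := ?_, hPI := ?_, hUNIT := hunit }⟩
  · intro ℓ hℓ hℓB Pℓ hPℓ σ hσ
    rw [htQ ℓ hℓ hℓB]
    exact hρ ℓ hℓ _ _ Pℓ hPℓ σ hσ
  · refine adjoin_eq_top_of_closure χ (Set.range (formsGenS N'' (↑SQ : Set ℕ)))
      (Fermat.Agent.GB.B4.Twist.TwHom.closure_range_formsGenS N'' (↑SQ : Set ℕ)) hχ _ ?_
    rintro _ ⟨l, rfl⟩
    exact ⟨(l.1 : ℕ), l.1.2, fun h => l.2 (Finset.mem_coe.mpr h), (htQl l).symm⟩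
  · intro ℓ hℓ hℓB
    obtain ⟨s, hs, hsm⟩ := hpi ⟨⟨ℓ, hℓ⟩, fun h => hℓB (Finset.mem_coe.mp h)⟩
    refine ⟨s, hs, fun m => ?_⟩
    have h1 := htQl ⟨⟨ℓ, hℓ⟩, fun h => hℓB (Finset.mem_coe.mp h)⟩
    have h2 : tQ ℓ = χ (formsGenS N'' (↑SQ : Set ℕ)
        ⟨⟨ℓ, hℓ⟩, fun h => hℓB (Finset.mem_coe.mp h)⟩) := h1
    rw [h2]
    exact hsm m

end Abs

end Fermat.Agent.GE6.Inst.RecordAbs
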