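/-
GATE-E (S59) / E6 node N8b, the RECORD, flat problem (helper52): **`NodeProof.RecordStmt` for the
ENGINE's flat deformation problem at the minimal level** (`M` squarefree, `p ∤ M`, no framed
prime) — the hypothesis `hrec` of helper72's `NodeProof.nodeStmt_FL_of_recordStmt`.

At a Taylor–Wiles set `Q` (with its full exponents `E`):

* `T_Q := TE …` (helper11's `G2.T` at `twE`, forms level `NQ0 Q`), `a := a₁E …`, from
  `PsiQ.exists_twP_twE` (G2 at `twE`);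
* `ψ : R_Q → T_Q`, `ρ_Q`, `ρ^univ_Q ⊗_ψ ≅ ρ_Q`, (ES) from `PsiQ.exists_psi_twE` (G3 at `twE`);
* `BQ := S_Q`, `tQ ℓ := χ(T_ℓ)`; (GEN) = `adjoin_range_chi` (`RecordAbs.nonempty_recordAt`);
* (PI) = helper49's `PiTwE.pi_a1E_chi_gen` + `FreeLevel.π_act`;
* (UNIT) = helper49's `UnitTwE.hunit_twE`, with `hB5` := helper51's `B5Gen.hB5_twE`.
-/
import Fermat.Agent.GE6.Inst.RecordAbs
import Fermat.Agent.GE6.Inst.PsiQG3
import Fermat.Agent.GE6.Inst.PiTwE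
import Fermat.Agent.GE6.Inst.UnitTwE
import Fermat.Agent.GE6.Inst.B5Gen
import Fermat.Agent.GB.B9.ProviderFlat.G2HT
import Fermat.Agent.GB.B4.Datum.TQReduced

set_option autoImplicit false
set_option linter.unusedSectionVars false
set_option linter.unusedVariables false
set_option linter.style.haveILetI false

open WeierstrassCurve WeierstrassCurve.Affine.Point IsLocalRing
open scoped WeierstrassCurve.Affine
open scoped MatrixGroups
open CongruenceSubgroup ModularCurve.Period CuspForm Polynomial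

namespace Fermat.Agent.GE6.Inst.RecordFL

open Fermat.Agent.GM.B
open Fermat.Agent.GB.B3.HeckeActH Fermat.Agent.GB.B3.RealLevel Fermat.Agent.GB.B3.Tower
  Fermat.Agent.GB.B3.TWChars Fermat.Agent.GB.B3.FinalTW Fermat.Agent.GB.B3.Plug
  Fermat.Agent.GB.B3.TWLevel Fermat.Agent.GB.B3.GamH Fermat.Agent.GB.B3.ChiLevelMulti
  Fermat.Agent.GB.B3.Final
open Fermat.Agent.GJ.J2.Lat
open Fermat.Agent.GB.B4.Datum.ImageRing Fermat.Agent.GB.B4.Datum.TQFields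
open Fermat.Agent.GB.Setup.SetupPkg
open Fermat.Agent.GB.B9.ProviderFlat Fermat.Agent.GB.B9.ProviderFlat.G1
open Fermat.Agent.GB.E2.TameGenAdic
open Fermat.Agent.GE2.DeltaQData
open Fermat.Agent.GE6.Inst.FreeLevelInst Fermat.Agent.GE6.Inst.FreeLevelTw
open Fermat.Agent.GE6.Inst.PsiQ Fermat.Agent.GE6.Inst.NodeProof
open Fermat.Agent.GE.Graph GaloisRep

/-- `ℚ̄`. -/
local notation "Qb" => AlgebraicClosure ℚ
/-- `G_ℚ`. -/
local notation "GQ" => (AlgebraicClosure ℚ ≃ₐ[ℚ] AlgebraicClosure ℚ)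
/-- the structure map `A → T_Q`. -/
local notation "chiT" => Fermat.Agent.GB.B4.Datum.ImageRing.chi

noncomputable section

variable {p : ℕ} [hpF : Fact p.Prime] {W : WeierstrassCurve ℤ}
  {hcard₁ : Nat.card (Submodule.torsionBy ℤ
    ((W.map (Int.castRingHom ℚ))⁄(AlgebraicClosure ℚ)).Point p) = p ^ 2}
  {hker : GaloisFactorsThroughFiniteLevel
    (galoisRepModuleEnd (K := AlgebraicClosure ℚ) ℚ (W.map (Int.castRingHom ℚ)) p)}
  {M A : ℕ} (P : Pkg p W hcard₁ hker M A)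

set_option maxHeartbeats 3200000 in
/-- **the record at every Taylor–Wiles set, flat problem, minimal level.** -/
theorem recordStmt_FL (hp3 : p ≠ 3) (hsq : Squarefree M) (hpM : ¬ p ∣ M) (hSu : P.Su = ∅)
    (D0 : DeformationRingData P.O P.rhobar (condFL P.O p P.Smin ∅)) :
    RecordStmt P hp3 (condFL P.O p P.Smin) D0 := by
  intro r n Q E hE hEfull c hc hc1 DQ Pl φ τ hPl hφ hchar hτ π hπ g hπs hkerπ hπρ hlab
  -- G2 at `twE`
  have k2 := exists_twP_twE Q hp3 E hE hsq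
  obtain ⟨SQ, θQ, hpS, hNS, hbadS, hθT, hfrobQ, hsym, dℓ, hnd, hdℓ, twP, hι, hD, hact, hlocP⟩ := k2
  haveI := fact_locHypE Q hp3 E hE c hc hc1 twP hD θQ hlocP
  haveI := finite_prodE Q hp3 E hE c hc hc1
  haveI := free_prodE Q hp3 E hE c hc hc1
  haveI := nontrivial_prodE Q hp3 E hE c hc hc1
  -- G3 at `twE`
  have k3 := exists_psi_twE Q hp3 E hE c hc hc1 twP hD θQ hsq hpM hSu hpS hNS hfrobQ DQ
  obtain ⟨ψ, hψl, ρQ, hψs, hequiv, hρ, hdet, hres⟩ := k3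
  -- arithmetic
  have hE1 : ∀ j, 1 ≤ E j := by
    intro j
    obtain ⟨m, hm1, hm2⟩ := hEfull j
    have h1 := Fermat.Agent.GE6.Inst.ModSide.lt_of_pow_dvd_of_eq hpF.out (Q.cong j) hm1 hm2
    omega
  have hNp : ∀ i : Fin r, p ∣ Nfun p (eRev E) (0 + r) (Fin.natAdd 0 i) :=
    Fermat.Agent.GE6.Inst.B5Gen.dvd_Nfun0 E hE1
  have hSN : ∀ ℓ : ℕ, ℓ.Prime → ℓ ∣ Q.N → ℓ ∈ SQ := fun ℓ hℓ hd =>
    hNS ℓ hℓ (hd.trans (N_dvd_NQ0 Q))
  have hunr : ∀ j, P.rhobar.IsUnramifiedAt (Q.qv j) := fun j =>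
    P.unram (Q.prime j) (fun hd => by
      rcases (Nat.Prime.dvd_mul (Q.prime j)).mp hd with h | h
      · exact (Q.good j).2.1 h
      · exact (Q.good j).2.2 ((Nat.prime_dvd_prime_iff_eq (Q.prime j) hpF.out).mp h))
  -- (UNIT)
  have hUNIT : ∀ (j : Fin r) (m : (twE Q hp3 E hE c hc hc1).L1.M),
      ∃ m' : (twE Q hp3 E hE c hc hc1).L1.M,
        (twE Q hp3 E hE c hc hc1).L1.D j m - m =
          a₁E Q hp3 E hE c hc hc1 twP hD θQ (ψ (g j : DQ.R)) m' - m' := by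
    haveI : IsReduced (TE Q hp3 E hE c hc hc1 twP hD θQ) :=
      Fermat.Agent.GB.B4.Datum.TQReduced.isReduced_TQ_hecke θQ _ hNS
    have hT := G2HT.hT_of_hι Q.Sy Q.𝔪 (primeDataE Q E hE) (Q.hyp hp3) (0 + r) SQ dℓ hdℓ hnd
      twP hι
    have hB5 := Fermat.Agent.GE6.Inst.B5Gen.hB5_twE Q hp3 E hE c hc hc1 hsq hE1 SQ hpS
      (N'' := NQ0 Q) rfl (fun ℓ hℓ hd => Finset.mem_coe.mpr (hNS ℓ hℓ hd))
      (TE Q hp3 E hE c hc hc1 twP hD θQ) ρQ
      (chiT P.O θQ (prodTw P.O (tw₁E Q hp3 E hE c hc hc1 twP hD)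
        (twχE Q hp3 E hE c hc hc1 twP hD))) hNp
      (a₁E Q hp3 E hE c hc hc1 twP hD θQ)
      (fun t i => G2.a₁_D Q.Sy Q.𝔪 (primeDataE Q E hE) (Q.hyp hp3) 0 r c hc hc1 twP hD θQ t i)
      (tw₁E Q hp3 E hE c hc hc1 twP hD)
      (fun t => G2.a₁_chi Q.Sy Q.𝔪 (primeDataE Q E hE) (Q.hyp hp3) 0 r c hc hc1 twP hD θQ t)
      twP (fun t x => rfl) hT hρ
    have hunit := Fermat.Agent.GE6.Inst.UnitTwE.hunit_twE Q hp3 E hE c hc hc1 twP hD θQ
      (G2Sym.squarefree_N Q hsq) hpS hNS hSN dℓ hdℓ hnd hι hsym hfrobQ ψ hψl ρQ hequiv hρ hdet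
      hres hunr Pl hPl φ hφ τ hτ Q.al Q.be (fun j => ⟨Q.ne j, hchar j⟩) g hlab hNp hB5
    intro j m
    obtain ⟨m', hm'⟩ := hunit j m
    exact ⟨m', hm'⟩
  -- (PI)
  have hPI : ∀ l : PrimesOff (↑SQ : Set ℕ), ∃ s : Q.Sy.ι₁, Q.Sy.ℓ s = (l.1 : ℕ) ∧
      ∀ m : (twE Q hp3 E hE c hc hc1).L1.M,
        (twE Q hp3 E hE c hc hc1).L1.π
            (a₁E Q hp3 E hE c hc hc1 twP hD θQ
              (chiT P.O θQ (prodTw P.O (tw₁E Q hp3 E hE c hc hc1 twP hD)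
                (twχE Q hp3 E hE c hc hc1 twP hD)) (formsGenS (NQ0 Q) (↑SQ : Set ℕ) l)) m) =
          (twE Q hp3 E hE c hc hc1).L1.π
            ((twE Q hp3 E hE c hc hc1).L1.act (MvPolynomial.X (Sum.inl s)) m) := by
    intro l
    obtain ⟨i, hi, -⟩ := hsym l
    refine ⟨i, hi, fun m => ?_⟩
    have h1 := Fermat.Agent.GE6.Inst.PiTwE.pi_a1E_chi_gen Q hp3 E hE c hc hc1 twP hD θQ dℓ hnd hι
      l i hi m
    have h2 := (twE Q hp3 E hE c hc hc1).L1.π_act (MvPolynomial.X (Sum.inl i)) m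
    exact h1.trans h2.symm
  exact Fermat.Agent.GE6.Inst.RecordAbs.nonempty_recordAt (twE Q hp3 E hE c hc hc1).L1
    Q.Sy.ι₁ Q.Sy.ℓ (fun s => (MvPolynomial.X (Sum.inl s) : Q.Sy.𝕋 P.O)) DQ g SQ hNS
    (TE Q hp3 E hE c hc hc1 twP hD θQ)
    (chiT P.O θQ (prodTw P.O (tw₁E Q hp3 E hE c hc hc1 twP hD)
      (twχE Q hp3 E hE c hc hc1 twP hD)))
    (adjoin_range_chi P.O θQ _)
    (a₁E Q hp3 E hE c hc hc1 twP hD θQ) ψ hψl ρQ hequiv hρ hPI hUNIT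

end

end Fermat.Agent.GE6.Inst.RecordFL
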