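import Fermat.Agent.GE6.Inst.NodeProofPkg
import Fermat.Agent.GE6.Inst.RecordFL
import Fermat.Agent.GE.Engine.FLPlug

/-!
# GATE-E / E6 node N8b, FINAL (helper72): `FLPlug.NodeFLStmt p hp3`

The residual `Prop` of helper54's `GE/Engine/FLPlug.lean` (= E6's node statement in helper12's
shape, board 7876) from

* `NodeProofPkg.nodeStmt_FL_of_record` (layer 1.5: the node at a bundle from the record at every
  Taylor–Wiles set; (SEMILIN) = `PiSemilin.semilin_of_frob`), and
* `RecordFL.recordStmt_FL` (helper52: the record at `twE` — G2 + G3 at `twE`, (GEN), (PI), (UNIT)).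

Hence **`heckeFLStmt : Top.HeckeFLStmt p`** for `p ≠ 3` (`FLPlug.heckeFLStmt_of_node`).
-/

set_option autoImplicit false
set_option linter.unusedSectionVars false
set_option linter.unusedVariables false
set_option linter.style.haveILetI false

namespace Fermat.Agent.GE6.Inst.NodeFL

open Fermat.Agent.GE.Engine Fermat.Agent.GE.Engine.FLPlug

/-- **E6 at the minimal level, flat case, `p ≠ 3`.** -/
theorem nodeFLStmt (p : ℕ) [hpF : Fact p.Prime] (hp3 : p ≠ 3) : NodeFLStmt p hp3 := by
  intro W hΔ hW hirr hcard₁ hker M _ hsq hpM hRM hmin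
  refine ⟨1, le_rfl, fun P D H hπ φ hφ hloc hρ eL heL => ?_⟩
  have hSu : P.Su = ∅ := su_eq_empty P hmin
  exact Fermat.Agent.GE6.Inst.NodeProofPkg.nodeStmt_FL_of_record P hp3 D H hπ φ hloc hρ eL heL
    (Fermat.Agent.GE6.Inst.RecordFL.recordStmt_FL P hp3 hsq hpM hSu D)

/-- **the flat Hecke side of the engine, `p ≠ 3`.** -/
theorem heckeFLStmt (p : ℕ) [hpF : Fact p.Prime] (hp3 : p ≠ 3) : HeckeFLStmt p :=
  heckeFLStmt_of_node p hp3 (nodeFLStmt p hp3)

end Fermat.Agent.GE6.Inst.NodeFL
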