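import Fermat.Agent.GE6.Inst.NodeProof
import Fermat.Agent.GE6.Inst.BaseTPkg

/-!
# GATE-E / E6 node N8b NodeProof, layer 1.5 (helper72): the node at a bundle, from the RECORD

The binder block of helper12's ruling (board 7876): `D H hπ φ hloc hρ eL heL` (the context of
`GE/Engine/Base.exists_base_of_datum` + `BaseTPkg.exists_eLP`).  With `T₀ := Tloc P.O P.theta`,
`L := LTP P` (faithful: `BaseTLoc.eq_zero_of_smul_LT_eq_zero`), `ρ_{T₀} := H.ρ`,
`t₀ ℓ := piT (T_ℓ)` (`H.charpoly_frob`) the layer-1 theorems of `NodeProof` give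

* `t0P`, `t0P_eq` : the Hecke operators `piT (T_ℓ)` as a function of `ℓ : ℕ`;
* **`nodeStmt_of_record`** (any family `𝒟`), **`nodeStmt_FL_of_record`**,
  **`nodeStmt_SO_of_record`** :
  `RecordStmt P hp3 (condFL/condSO …) D ⟹ NodeStmt P hp3 (condFL/condSO …) D φ (LTP P) eL`.
-/

set_option autoImplicit false
set_option linter.unusedSectionVars false
set_option linter.unusedVariables false
set_option linter.style.haveILetI false

open scoped TensorProduct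

namespace Fermat.Agent.GE6.Inst.NodeProofPkg

open IsLocalRing Function Polynomial GaloisRep CuspForm
open WeierstrassCurve WeierstrassCurve.Affine.Point
open Fermat.Agent.GB.Setup.SetupPkg Fermat.Agent.GB.B4.Datum.Carrier
  Fermat.Agent.GB.B8.LevelStage Fermat.Agent.GB.B8.LevelGen
  Fermat.Agent.GE.Graph
  Fermat.Agent.GE6.Inst.FreeLevelInst Fermat.Agent.GE6.Inst.BaseTLoc
  Fermat.Agent.GE6.Inst.BaseTPkg Fermat.Agent.GE6.Inst.Wire Fermat.Agent.GE6.Inst.NodeProof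

variable {p : ℕ} [hpF : Fact p.Prime] {W : WeierstrassCurve ℤ}
  {hcard₁ : Nat.card (Submodule.torsionBy ℤ
    ((W.map (Int.castRingHom ℚ)).toAffine.baseChange (AlgebraicClosure ℚ)).Point p) = p ^ 2}
  {hker : GaloisFactorsThroughFiniteLevel
    (WeierstrassCurve.Affine.Point.galoisRepModuleEnd (K := AlgebraicClosure ℚ) ℚ
      (W.map (Int.castRingHom ℚ)) p)}
  {M A : ℕ} (P : Pkg p W hcard₁ hker M A) [NeZero M]

open Classical in
/-- **the Hecke operators `piT (T_ℓ) ∈ Tloc`** as a function of `ℓ : ℕ` (`0` at the bad `ℓ`). -/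
noncomputable def t0P (ℓ : ℕ) : Tloc P.O P.theta :=
  if h : ℓ.Prime ∧ ¬ ℓ ∣ M ∧ ℓ ∉ (↑P.S0 : Set ℕ) then
    piT P.O P.theta (heckeAlgebra.T h.1 h.2.1 h.2.2)
  else 0

theorem t0P_eq {ℓ : ℕ} (hℓ : ℓ.Prime) (hℓM : ¬ ℓ ∣ M) (hℓS : ℓ ∉ (↑P.S0 : Set ℕ)) :
    t0P P ℓ = piT P.O P.theta (heckeAlgebra.T hℓ hℓM hℓS) := by
  unfold t0P
  rw [dif_pos ⟨hℓ, hℓM, hℓS⟩]

/-- the Eichler–Shimura relation of the datum, in the `t0P` spelling. -/
theorem h0_of_datum (H : HeckeGaloisRepDatum M (↑P.S0 : Set ℕ) P.O P.theta (Tloc P.O P.theta))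
    (hπ : H.π = piT P.O P.theta) :
    ∀ ℓ : ℕ, ℓ.Prime → ℓ ∉ P.S0 → ∀ Pℓ : ValuationSubring (AlgebraicClosure ℚ),
      Pℓ.LiesOverPrime ℓ → ∀ σ : (AlgebraicClosure ℚ ≃ₐ[ℚ] AlgebraicClosure ℚ),
        Pℓ.IsFrobeniusAt σ ℓ →
        LinearMap.charpoly (H.ρ.ρ σ)
          = X ^ 2 - C (t0P P ℓ) * X + C ((ℓ : ℕ) : Tloc P.O P.theta) := by
  intro ℓ hℓ hℓS Pℓ hPℓ σ hσ
  have hℓS' : ℓ ∉ (↑P.S0 : Set ℕ) := fun h => hℓS (Finset.mem_coe.mp h)
  obtain ⟨-, hℓM, -⟩ := P.good_of_notMem_S0 hℓ hℓS'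
  have h := H.charpoly_frob ℓ hℓ hℓM hℓS' Pℓ hPℓ σ hσ
  have h2 : H.π (heckeAlgebra.T hℓ hℓM hℓS') = t0P P ℓ := by
    rw [t0P_eq P hℓ hℓM hℓS', hπ]
  rw [h2] at h
  exact h

/-- `heL` in the `t0P` spelling. -/
theorem hcompat_of_heL (eL : Mbase P ≃ₗ[P.O] LTP P)
    (heL : ∀ (s : I0 W p M) (y : Mbase P),
      eL (actBase P (MvPolynomial.X s) y)
        = piT P.O P.theta (heckeAlgebra.T s.2.1 s.2.2.2.1 (pr0_notMem_S0 P s)) • eL y) :
    ∀ (s : I0 W p M) (y : Mbase P),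
      eL (actBase P (MvPolynomial.X s) y) = t0P P s.1 • eL y := by
  intro s y
  rw [heL s y, t0P_eq P s.2.1 s.2.2.2.1 (pr0_notMem_S0 P s)]

/-- **N8b, layer 1.5, any family `𝒟` of deformation conditions**: the node at a bundle from the
record at every Taylor–Wiles set.  Binders = helper12's ruling (board 7876). -/
theorem nodeStmt_of_record (hp3 : p ≠ 3) (𝒟 : Finset ℕ → DefCondE P.O)
    (h𝒟 : ∀ Sig : Finset ℕ, IsDeformationCondition P.O (𝒟 Sig))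
    (D : DeformationRingData P.O P.rhobar (𝒟 ∅))
    (H : HeckeGaloisRepDatum M (↑P.S0 : Set ℕ) P.O P.theta (Tloc P.O P.theta))
    (hπ : H.π = piT P.O P.theta)
    (φ : D.R →ₐ[P.O] Tloc P.O P.theta)
    (hloc : IsLocalHom (φ : D.R →+* Tloc P.O P.theta))
    (hρ : (D.ρ.baseChangeAlong (φ : D.R →+* Tloc P.O P.theta) hloc).IsEquiv H.ρ)
    (eL : Mbase P ≃ₗ[P.O] LTP P)
    (heL : ∀ (s : I0 W p M) (y : Mbase P),
      eL (actBase P (MvPolynomial.X s) y)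
        = piT P.O P.theta (heckeAlgebra.T s.2.1 s.2.2.2.1 (pr0_notMem_S0 P s)) • eL y)
    (hrec : RecordStmt P hp3 𝒟 D) :
    NodeStmt P hp3 𝒟 D φ (LTP P) eL :=
  nodeStmt_of_recordStmt P hp3 𝒟 h𝒟 D φ inferInstance H.residue_surjective hloc H.ρ hρ P.S0
    (t0P P) (h0_of_datum P H hπ) (LTP P) (fun u hu => eq_zero_of_smul_LT_eq_zero u hu) eL
    (hcompat_of_heL P eL heL) hrec

/-- **N8b, layer 1.5, flat problem**: the node at a bundle from the record at every Taylor–Wiles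
set.  Binders = helper12's ruling (board 7876). -/
theorem nodeStmt_FL_of_record (hp3 : p ≠ 3)
    (D : DeformationRingData P.O P.rhobar (condFL P.O p P.Smin ∅))
    (H : HeckeGaloisRepDatum M (↑P.S0 : Set ℕ) P.O P.theta (Tloc P.O P.theta))
    (hπ : H.π = piT P.O P.theta)
    (φ : D.R →ₐ[P.O] Tloc P.O P.theta)
    (hloc : IsLocalHom (φ : D.R →+* Tloc P.O P.theta))
    (hρ : (D.ρ.baseChangeAlong (φ : D.R →+* Tloc P.O P.theta) hloc).IsEquiv H.ρ)
    (eL : Mbase P ≃ₗ[P.O] LTP P)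
    (heL : ∀ (s : I0 W p M) (y : Mbase P),
      eL (actBase P (MvPolynomial.X s) y)
        = piT P.O P.theta (heckeAlgebra.T s.2.1 s.2.2.2.1 (pr0_notMem_S0 P s)) • eL y)
    (hrec : RecordStmt P hp3 (condFL P.O p P.Smin) D) :
    NodeStmt P hp3 (condFL P.O p P.Smin) D φ (LTP P) eL :=
  nodeStmt_FL_of_recordStmt P hp3 D φ inferInstance H.residue_surjective hloc H.ρ hρ P.S0 (t0P P)
    (h0_of_datum P H hπ) (LTP P) (fun u hu => eq_zero_of_smul_LT_eq_zero u hu) eL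
    (hcompat_of_heL P eL heL) hrec

/-- **N8b, layer 1.5, strict-ordinary problem.** -/
theorem nodeStmt_SO_of_record (hp3 : p ≠ 3)
    (D : DeformationRingData P.O P.rhobar (condSO P.O p P.Smin ∅))
    (H : HeckeGaloisRepDatum M (↑P.S0 : Set ℕ) P.O P.theta (Tloc P.O P.theta))
    (hπ : H.π = piT P.O P.theta)
    (φ : D.R →ₐ[P.O] Tloc P.O P.theta)
    (hloc : IsLocalHom (φ : D.R →+* Tloc P.O P.theta))
    (hρ : (D.ρ.baseChangeAlong (φ : D.R →+* Tloc P.O P.theta) hloc).IsEquiv H.ρ)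
    (eL : Mbase P ≃ₗ[P.O] LTP P)
    (heL : ∀ (s : I0 W p M) (y : Mbase P),
      eL (actBase P (MvPolynomial.X s) y)
        = piT P.O P.theta (heckeAlgebra.T s.2.1 s.2.2.2.1 (pr0_notMem_S0 P s)) • eL y)
    (hrec : RecordStmt P hp3 (condSO P.O p P.Smin) D) :
    NodeStmt P hp3 (condSO P.O p P.Smin) D φ (LTP P) eL :=
  nodeStmt_SO_of_recordStmt P hp3 D φ inferInstance H.residue_surjective hloc H.ρ hρ P.S0 (t0P P)
    (h0_of_datum P H hπ) (LTP P) (fun u hu => eq_zero_of_smul_LT_eq_zero u hu) eL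
    (hcompat_of_heL P eL heL) hrec

end Fermat.Agent.GE6.Inst.NodeProofPkg
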