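/-
GATE-E / E6 ENGINE-INST, node N4 (ii) MODQ, the RING-TO-HECKE map (helper59, author of
`GB/B9/ProviderFlat/G3`): **`ψ_Q : R_Q ↠ T_Q` stated for the ENGINE conditions `condFL`**
(`GE/Graph/RTStmt`), i.e. `G3.exists_psi_flat` / `exists_psi_TQ_flat` with the "condition transport
`framedCond ↔ condFL`" done once and for all.

* `framedCond_flat_iff` : `framedCond p (flatCondition 𝒪 p) Smin Su Q ρ ↔ condFL 𝒪 p Smin (Su ∪ Q) ρ`
  (`Finset.union_assoc`), `framedCond_flat_empty_iff` (`Su = ∅`);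
* `toFramedFL D` : a deformation datum of `condFL 𝒪 p Smin Q` as one of
  `framedCond p (flatCondition 𝒪 p) Smin ∅ Q` — SAME ring, SAME universal representation
  (`toFramedFL_R`, `toFramedFL_ρ` by `rfl`), through `GE6/DefRingCongr.congr`;
* `exists_psi_condFL` : general complete Noetherian local carrier `T_Q`;
* `exists_psi_TQ_condFL` : carrier `ImageRing.TQ 𝒪 θ tw` (what `G2.T` is);
  both with `DQ : DeformationRingData 𝒪 ρbar (condFL 𝒪 p Smin Q)` and `ψ : DQ.R →ₐ[𝒪] T_Q`.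
-/
import Fermat.Agent.GB.B9.ProviderFlat.G3
import Fermat.Agent.GE6.DefRingCongrCond

set_option autoImplicit false
set_option linter.style.haveILetI false
set_option linter.unusedSectionVars false
set_option linter.unusedVariables false

noncomputable section

namespace Fermat.Agent.GE6.Inst.PsiCondFL

open CuspForm IsLocalRing Polynomial GaloisRep Fermat.Agent.GB.B4.Datum.Carrier
  Fermat.Agent.GB.B4.Datum.ImageRing Fermat.Agent.GB.B4.Datum.Push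
  Fermat.Agent.GB.Def.FramedNodes Fermat.Agent.GE.Graph Fermat.Agent.GE6.DefRingCongr

local notation "GQ" => (AlgebraicClosure ℚ ≃ₐ[ℚ] AlgebraicClosure ℚ)
local notation "Qb" => AlgebraicClosure ℚ

section Cond

variable {𝒪 : Type} [CommRing 𝒪] [IsLocalRing 𝒪] {p : ℕ} [Fact p.Prime] {Smin Su Q : Finset ℕ}
  {A : Type} [CommRing A] [IsLocalRing A] [Algebra 𝒪 A] {ρ : GaloisRepAdic A}

/-- GATE-B's framed flat condition is the engine's `condFL` with `Σ := Su ∪ Q`. -/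
theorem framedCond_flat_iff :
    framedCond p (flatCondition 𝒪 p) Smin Su Q ρ ↔ condFL 𝒪 p Smin (Su ∪ Q) ρ := by
  unfold framedCond condFL
  rw [Finset.union_assoc]

/-- … and with `Su = ∅` it is `condFL 𝒪 p Smin Q`. -/
theorem framedCond_flat_empty_iff :
    framedCond p (flatCondition 𝒪 p) Smin ∅ Q ρ ↔ condFL 𝒪 p Smin Q ρ := by
  rw [framedCond_flat_iff, Finset.empty_union]

/-- GATE-B's framed strict-ordinary condition is the engine's `condSO` with `Σ := Su ∪ Q`. -/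
theorem framedCond_strict_iff :
    framedCond p (strictOrdinaryCondition 𝒪 p) Smin Su Q ρ ↔ condSO 𝒪 p Smin (Su ∪ Q) ρ := by
  unfold framedCond condSO
  rw [Finset.union_assoc]

theorem framedCond_strict_empty_iff :
    framedCond p (strictOrdinaryCondition 𝒪 p) Smin ∅ Q ρ ↔ condSO 𝒪 p Smin Q ρ := by
  rw [framedCond_strict_iff, Finset.empty_union]

end Cond

variable {p : ℕ} [Fact p.Prime] {N : ℕ} [NeZero N] {S : Finset ℕ}
  {𝒪 : Type} [CommRing 𝒪] [IsDomain 𝒪] [IsDiscreteValuationRing 𝒪]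
  [IsAdicComplete (maximalIdeal 𝒪) 𝒪]
  {ρbar : ResidualGaloisRep (ResidueField 𝒪)} {Smin Su Q : Finset ℕ}

/-- engine datum `condFL … (Su ∪ Q)` ⟶ GATE-B datum `framedCond … Smin Su Q` (same ring). -/
def toFramedFL' (D : DeformationRingData 𝒪 ρbar (condFL 𝒪 p Smin (Su ∪ Q))) :
    DeformationRingData 𝒪 ρbar (framedCond p (flatCondition 𝒪 p) Smin Su Q) :=
  congr D (fun _ _ _ _ _ _ _ _ _ _ => framedCond_flat_iff.symm)

/-- engine datum `condFL … Q` ⟶ GATE-B datum `framedCond … Smin ∅ Q` (same ring). -/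
def toFramedFL (D : DeformationRingData 𝒪 ρbar (condFL 𝒪 p Smin Q)) :
    DeformationRingData 𝒪 ρbar (framedCond p (flatCondition 𝒪 p) Smin ∅ Q) :=
  congr D (fun _ _ _ _ _ _ _ _ _ _ => framedCond_flat_empty_iff.symm)

/-- GATE-B datum `framedCond … Smin Su Q` ⟶ engine datum `condFL … (Su ∪ Q)` (same ring). -/
def ofFramedFL' (D : DeformationRingData 𝒪 ρbar (framedCond p (flatCondition 𝒪 p) Smin Su Q)) :
    DeformationRingData 𝒪 ρbar (condFL 𝒪 p Smin (Su ∪ Q)) :=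
  congr D (fun _ _ _ _ _ _ _ _ _ _ => framedCond_flat_iff)

/-- GATE-B datum `framedCond … Smin ∅ Q` ⟶ engine datum `condFL … Q` (same ring). -/
def ofFramedFL (D : DeformationRingData 𝒪 ρbar (framedCond p (flatCondition 𝒪 p) Smin ∅ Q)) :
    DeformationRingData 𝒪 ρbar (condFL 𝒪 p Smin Q) :=
  congr D (fun _ _ _ _ _ _ _ _ _ _ => framedCond_flat_empty_iff)

/-- strict-ordinary twins. -/
def toFramedSO (D : DeformationRingData 𝒪 ρbar (condSO 𝒪 p Smin Q)) :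
    DeformationRingData 𝒪 ρbar (framedCond p (strictOrdinaryCondition 𝒪 p) Smin ∅ Q) :=
  congr D (fun _ _ _ _ _ _ _ _ _ _ => framedCond_strict_empty_iff.symm)

def ofFramedSO
    (D : DeformationRingData 𝒪 ρbar (framedCond p (strictOrdinaryCondition 𝒪 p) Smin ∅ Q)) :
    DeformationRingData 𝒪 ρbar (condSO 𝒪 p Smin Q) :=
  congr D (fun _ _ _ _ _ _ _ _ _ _ => framedCond_strict_empty_iff)

def toFramedSO' (D : DeformationRingData 𝒪 ρbar (condSO 𝒪 p Smin (Su ∪ Q))) :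
    DeformationRingData 𝒪 ρbar (framedCond p (strictOrdinaryCondition 𝒪 p) Smin Su Q) :=
  congr D (fun _ _ _ _ _ _ _ _ _ _ => framedCond_strict_iff.symm)

def ofFramedSO'
    (D : DeformationRingData 𝒪 ρbar (framedCond p (strictOrdinaryCondition 𝒪 p) Smin Su Q)) :
    DeformationRingData 𝒪 ρbar (condSO 𝒪 p Smin (Su ∪ Q)) :=
  congr D (fun _ _ _ _ _ _ _ _ _ _ => framedCond_strict_iff)

@[simp] theorem toFramedFL_R (D : DeformationRingData 𝒪 ρbar (condFL 𝒪 p Smin Q)) :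
    (toFramedFL D).R = D.R := rfl

@[simp] theorem toFramedFL_ρ (D : DeformationRingData 𝒪 ρbar (condFL 𝒪 p Smin Q)) :
    (toFramedFL D).ρ = D.ρ := rfl

@[simp] theorem toFramedSO_R (D : DeformationRingData 𝒪 ρbar (condSO 𝒪 p Smin Q)) :
    (toFramedSO D).R = D.R := rfl

@[simp] theorem toFramedSO_ρ (D : DeformationRingData 𝒪 ρbar (condSO 𝒪 p Smin Q)) :
    (toFramedSO D).ρ = D.ρ := rfl

variable [Finite (ResidueField 𝒪)] [CharZero 𝒪]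
  {θ : heckeAlgebra N 2 (↑S : Set ℕ) →+* ResidueField 𝒪}

/-- **`ψ_Q : R_Q ↠ T_Q` for the engine problem `condFL 𝒪 p Smin Q`, general carrier**
(= `G3.exists_psi_flat` with `Su := ∅`; `Sun` = any set of primes exactly dividing `N` at which
unipotency of `ρ_Q` on inertia is wanted). -/
theorem exists_psi_condFL
    {TQ : Type} [CommRing TQ] [IsLocalRing TQ] [IsNoetherianRing TQ]
    [IsAdicComplete (maximalIdeal TQ) TQ] [Algebra 𝒪 TQ] [IsLocalHom (algebraMap 𝒪 TQ)]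
    (hp2 : p ≠ 2) (hp𝒪 : (p : 𝒪) ∈ maximalIdeal 𝒪) (hpN : ¬ p ∣ N) (hpS : p ∈ S)
    (hNS : ∀ q : ℕ, q.Prime → q ∣ N → q ∈ S)
    (habs : ρbar.IsAbsolutelyIrreducible)
    (hfrob : ∀ (ℓ : ℕ) (hℓ : ℓ.Prime) (hℓN : ¬ ℓ ∣ N) (hℓS : ℓ ∉ (↑S : Set ℕ)),
      ∀ P : ValuationSubring Qb, P.LiesOverPrime ℓ → ∀ σ : GQ, P.IsFrobeniusAt σ ℓ →
        ∃ d₀ : ResidueField 𝒪, LinearMap.charpoly (ρbar.ρ σ) =
          X ^ 2 - C (θ (heckeAlgebra.T hℓ hℓN hℓS)) * X + C d₀)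
    (tw : heckeAlgebra N 2 (↑S : Set ℕ) →+* TQ)
    (hres : ∀ t, residue TQ (tw t) = ResidueField.map (algebraMap 𝒪 TQ) (θ t))
    (hgen : Algebra.adjoin 𝒪 (Set.range tw) = ⊤)
    (hressurj : Function.Surjective (residue TQ ∘ algebraMap 𝒪 TQ))
    (Sun : Finset ℕ) (hpT : p ∈ Smin ∪ Q)
    (hNT : ∀ q : ℕ, q.Prime → q ∣ N → q ∈ Smin ∪ Q)
    (hSmin : ∀ q ∈ Smin, q.Prime → q ≠ p → q ∣ N ∧ ¬ q ^ 2 ∣ N)
    (hSun : ∀ q ∈ Sun, q.Prime → q ≠ p → q ∣ N ∧ ¬ q ^ 2 ∣ N)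
    (DQ : DeformationRingData 𝒪 ρbar (condFL 𝒪 p Smin Q)) :
    ∃ (ψ : DQ.R →ₐ[𝒪] TQ) (hψ : IsLocalHom (ψ : DQ.R →+* TQ)) (ρQ : GaloisRepAdic TQ),
      Function.Surjective ψ ∧
      (DQ.ρ.baseChangeAlong (ψ : DQ.R →+* TQ) hψ).IsEquiv ρQ ∧
      (∀ (ℓ : ℕ) (hℓ : ℓ.Prime) (hℓN : ¬ ℓ ∣ N) (hℓS : ℓ ∉ (↑S : Set ℕ))
        (A : ValuationSubring Qb), A.LiesOverPrime ℓ → ∀ σ : GQ, A.IsFrobeniusAt σ ℓ →
          LinearMap.charpoly (ρQ.ρ σ) =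
            X ^ 2 - C (tw (heckeAlgebra.T hℓ hℓN hℓS)) * X + C ((ℓ : TQ))) ∧
      ρQ.DetIsCyclotomic p ∧
      (∀ q ∈ Sun, q.Prime → q ≠ p → ρQ.IsUnipotentOnInertiaAt q) ∧
      ρQ.residual.IsEquiv (ρbar.baseChangeAlong (ResidueField.map (algebraMap 𝒪 TQ))) := by
  have hpT' : p ∈ Smin ∪ ∅ ∪ Q := by rw [Finset.union_empty]; exact hpT
  have hNT' : ∀ q : ℕ, q.Prime → q ∣ N → q ∈ Smin ∪ ∅ ∪ Q := fun q hq hqN => by
    rw [Finset.union_empty]; exact hNT q hq hqN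
  obtain ⟨ψ, hψ, ρQ, h1, h2, h3, h4, h5, h6⟩ :=
    Fermat.Agent.GB.B9.ProviderFlat.G3.exists_psi_flat (θ := θ) hp2 hp𝒪 hpN hpS hNS ρbar habs
      hfrob tw hres hgen hressurj Smin ∅ Q Sun hpT' hNT' hSmin hSun (toFramedFL DQ)
  exact ⟨ψ, hψ, ρQ, h1, h2, h3, h4, h5, h6⟩

variable {M : Type} [AddCommGroup M] [Module 𝒪 M] [Module.Finite 𝒪 M] [Module.Free 𝒪 M]
  [Nontrivial M] {tw : heckeAlgebra N 2 (↑S : Set ℕ) →+* Module.End 𝒪 M}

/-- **`ψ_Q : R_Q ↠ T_Q` for the engine problem `condFL 𝒪 p Smin Q`, over the image ring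
`ImageRing.TQ 𝒪 θ tw`** of an `End`-valued Hecke action with `LocHyp` (= `G3.exists_psi_TQ_flat`
with `Su := ∅`). -/
theorem exists_psi_TQ_condFL [hloc : Fact (LocHyp 𝒪 θ tw)]
    (hp2 : p ≠ 2) (hp𝒪 : (p : 𝒪) ∈ maximalIdeal 𝒪) (hpN : ¬ p ∣ N) (hpS : p ∈ S)
    (hNS : ∀ q : ℕ, q.Prime → q ∣ N → q ∈ S)
    (habs : ρbar.IsAbsolutelyIrreducible)
    (hfrob : ∀ (ℓ : ℕ) (hℓ : ℓ.Prime) (hℓN : ¬ ℓ ∣ N) (hℓS : ℓ ∉ (↑S : Set ℕ)),
      ∀ P : ValuationSubring Qb, P.LiesOverPrime ℓ → ∀ σ : GQ, P.IsFrobeniusAt σ ℓ →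
        ∃ d₀ : ResidueField 𝒪, LinearMap.charpoly (ρbar.ρ σ) =
          X ^ 2 - C (θ (heckeAlgebra.T hℓ hℓN hℓS)) * X + C d₀)
    (Sun : Finset ℕ) (hpT : p ∈ Smin ∪ Q)
    (hNT : ∀ q : ℕ, q.Prime → q ∣ N → q ∈ Smin ∪ Q)
    (hSmin : ∀ q ∈ Smin, q.Prime → q ≠ p → q ∣ N ∧ ¬ q ^ 2 ∣ N)
    (hSun : ∀ q ∈ Sun, q.Prime → q ≠ p → q ∣ N ∧ ¬ q ^ 2 ∣ N)
    (DQ : DeformationRingData 𝒪 ρbar (condFL 𝒪 p Smin Q)) :
    ∃ (ψ : DQ.R →ₐ[𝒪] TQ 𝒪 θ tw) (hψ : IsLocalHom (ψ : DQ.R →+* TQ 𝒪 θ tw))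
      (ρQ : GaloisRepAdic (TQ 𝒪 θ tw)),
      Function.Surjective ψ ∧
      (DQ.ρ.baseChangeAlong (ψ : DQ.R →+* TQ 𝒪 θ tw) hψ).IsEquiv ρQ ∧
      (∀ (ℓ : ℕ) (hℓ : ℓ.Prime) (hℓN : ¬ ℓ ∣ N) (hℓS : ℓ ∉ (↑S : Set ℕ))
        (A : ValuationSubring Qb), A.LiesOverPrime ℓ → ∀ σ : GQ, A.IsFrobeniusAt σ ℓ →
          LinearMap.charpoly (ρQ.ρ σ) =
            X ^ 2 - C (chi 𝒪 θ tw (heckeAlgebra.T hℓ hℓN hℓS)) * X
              + C ((ℓ : TQ 𝒪 θ tw))) ∧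
      ρQ.DetIsCyclotomic p ∧
      (∀ q ∈ Sun, q.Prime → q ≠ p → ρQ.IsUnipotentOnInertiaAt q) ∧
      ρQ.residual.IsEquiv
        (ρbar.baseChangeAlong (ResidueField.map (algebraMap 𝒪 (TQ 𝒪 θ tw)))) :=
  exists_psi_condFL (θ := θ) hp2 hp𝒪 hpN hpS hNS habs hfrob (chi 𝒪 θ tw)
    (fun t => residue_chi (θ := θ) (tw := tw) t) (adjoin_range_chi 𝒪 θ tw)
    (residue_comp_algebraMap_surjective (θ := θ) (tw := tw)) Sun hpT hNT hSmin hSun DQ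

end Fermat.Agent.GE6.Inst.PsiCondFL
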