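/-
GATE-E / E6 ENGINE-INST, node N4-SO(a) (helper39, author of `GB/B9/ProviderNew/{HAnn,HAnnBig}` and
of the `GB/B10/L` chain): **`ψ_Q : R_Q ↠ T_Q` in ONE call from `P : SetupPkg.Pkg` at a MINIMAL level
(`P.Su = ∅`), for the engine problem `condSO P.O p P.Smin (image qv)`** (strict-ordinary at `p`,
`p ∥ N = N₀ * p`, the "très ramifiée" branch) — the strict-ordinary twin of
`GE6/Inst/PsiPkgMin.exists_psi_pkg_min`, and the `Su = ∅` twin of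
`GE8/Deside/G3Pkg.exists_psi_pkg_strict_noSide` (which needs a chain prime `q₀ ∈ P.Su`).

NO side condition `p = 3 → 2 ∣ N₀ * p`: the Galois package is the binder-free
`GE8/Deside/Final.galPkgSONoSideNew` (RISK-3 DESIDE, route (D2)).

* `exists_psi_TQ_condSO` : `GE8/Deside/G3.exists_psi_TQ_strict_noSide` at `Su := ∅`, with the
  engine datum `DQ : DeformationRingData 𝒪 ρbar (condSO 𝒪 p Smin Q)` (through
  `PsiCondFL.toFramedSO`: SAME ring, SAME universal representation), binder-free on the Galois side;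
* `exists_psi_pkg_min_SO` : the same over the SETUP bundle `P` with `P.Su = ∅`; conclusion = the
  five conjuncts of `PsiPkgMin.exists_psi_pkg_min` VERBATIM.

Side conditions, as in `G3Pkg` / `PsiPkgMin`:
* `hNprimes` : every prime of `N₀ * p` divides `M` or is a Taylor–Wiles prime,
* `hexact`   : every prime `≠ p` of `M` exactly divides `N₀ * p`,
* `hordbar`  : `ρ̄` is ordinary at `p` (the hypothesis of the SO branch),
* `hAnn`     : the Hecke module `Mod` is killed by the annihilator of the `p`-new lattice `LamNew`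
  (supplier at a Taylor–Wiles level: `GB/B9/ProviderNew/HAnnBig`, `NewAnn.hAnn_ker_new`).
-/
import Fermat.Agent.GE6.Inst.PsiCondFL
import Fermat.Agent.GE8.Deside.G3
import Fermat.Agent.GE8.Deside.Final
import Fermat.Agent.GB.Setup.SetupPkg

set_option autoImplicit false
set_option linter.style.haveILetI false
set_option linter.unusedSectionVars false
set_option linter.unusedVariables false

open WeierstrassCurve WeierstrassCurve.Affine.Point IsLocalRing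
open scoped WeierstrassCurve.Affine

noncomputable section

namespace Fermat.Agent.GE6.Inst.PsiPkgMinSO

open TensorProduct CuspForm Polynomial GaloisRep
open Fermat.Agent.GK.AL
open Fermat.Agent.GB.B4.Datum.Carrier Fermat.Agent.GB.B4.Datum.ImageRing
open Fermat.Agent.GB.B4.Datum.Push Fermat.Agent.GB.Def.FramedNodes
open Fermat.Agent.GB.B10.KumLevelHecke Fermat.Agent.GB.B10.L.NewInst
open Fermat.Agent.GB.B10.L.ThetaNew Fermat.Agent.GB.B10.L.StrictQNew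
open Fermat.Agent.GB.Setup.SetupPkg Fermat.Agent.GE.Graph Fermat.Agent.GE6.Inst.PsiCondFL

local notation "GQ" => (AlgebraicClosure ℚ ≃ₐ[ℚ] AlgebraicClosure ℚ)
local notation "Qb" => AlgebraicClosure ℚ

section Gen

variable {N' p : ℕ} [NeZero N'] [Fact p.Prime] {S : Finset ℕ}
  {𝒪 : Type} [CommRing 𝒪] [IsDomain 𝒪] [IsDiscreteValuationRing 𝒪]
  [IsAdicComplete (maximalIdeal 𝒪) 𝒪] [Finite (ResidueField 𝒪)] [CharZero 𝒪]
  {θ : heckeAlgebra (N' * p) 2 (↑S : Set ℕ) →+* ResidueField 𝒪}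
  {M : Type} [AddCommGroup M] [Module 𝒪 M] [Module.Finite 𝒪 M] [Module.Free 𝒪 M]
  [Nontrivial M] {tw : heckeAlgebra (N' * p) 2 (↑S : Set ℕ) →+* Module.End 𝒪 M}

/-- **`ψ_Q : R_Q ↠ T_Q` for the engine problem `condSO 𝒪 p Smin Q`, over the image ring
`ImageRing.TQ 𝒪 θ tw`, level `N' * p` with `p ∥ N' * p`, WITHOUT side condition**
(= `GE8/Deside/G3.exists_psi_TQ_strict_noSide` at `Su := ∅` and
`hpkg := GE8/Deside/Final.galPkgSONoSideNew`). -/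
theorem exists_psi_TQ_condSO [hloc : Fact (LocHyp 𝒪 θ tw)]
    (hp2 : p ≠ 2) (hp𝒪 : (p : 𝒪) ∈ maximalIdeal 𝒪)
    (h : ExactDvd p (N' * p)) (hpS : p ∈ S)
    (hNS : ∀ q : ℕ, q.Prime → q ∣ N' * p → q ∈ S)
    (ρbar : ResidualGaloisRep (ResidueField 𝒪)) (habs : ρbar.IsAbsolutelyIrreducible)
    (hfrob : ∀ (ℓ : ℕ) (hℓ : ℓ.Prime) (hℓN : ¬ ℓ ∣ N' * p) (hℓS : ℓ ∉ (↑S : Set ℕ)),
      ∀ P : ValuationSubring Qb, P.LiesOverPrime ℓ → ∀ σ : GQ, P.IsFrobeniusAt σ ℓ →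
        ∃ d₀ : ResidueField 𝒪, LinearMap.charpoly (ρbar.ρ σ) =
          X ^ 2 - C (θ (heckeAlgebra.T hℓ hℓN hℓS)) * X + C d₀)
    (hordbar : (GaloisRepAdic.ofResidualGaloisRep ρbar).IsOrdinaryAt p)
    (hAnn : ∀ t₀ : 𝒪 ⊗[ℤ] heckeAlgebra (N' * p) 2 (↑S : Set ℕ),
      (∀ (a : 𝒪), ∀ x ∈ (LamNew (not_dvd_of_exactDvd h) :
          AddSubgroup (levelData p (N' * p) hpS hNS).Λ),
        (levelData p (N' * p) hpS hNS).heckeTensor 𝒪 t₀ (a ⊗ₜ[ℤ] x) = 0) →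
          ∀ m : M, twO 𝒪 tw t₀ m = 0)
    (Smin Q Sun : Finset ℕ) (hpT : p ∈ Smin ∪ Q)
    (hNT : ∀ q : ℕ, q.Prime → q ∣ N' * p → q ∈ Smin ∪ Q)
    (hSmin : ∀ q ∈ Smin, q.Prime → q ≠ p → q ∣ N' * p ∧ ¬ q ^ 2 ∣ N' * p)
    (hSun : ∀ q ∈ Sun, q.Prime → q ≠ p → q ∣ N' * p ∧ ¬ q ^ 2 ∣ N' * p)
    (DQ : DeformationRingData 𝒪 ρbar (condSO 𝒪 p Smin Q)) :
    ∃ (ψ : DQ.R →ₐ[𝒪] TQ 𝒪 θ tw) (hψ : IsLocalHom (ψ : DQ.R →+* TQ 𝒪 θ tw))
      (ρQ : GaloisRepAdic (TQ 𝒪 θ tw)),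
      Function.Surjective ψ ∧
      (DQ.ρ.baseChangeAlong (ψ : DQ.R →+* TQ 𝒪 θ tw) hψ).IsEquiv ρQ ∧
      (∀ (ℓ : ℕ) (hℓ : ℓ.Prime) (hℓN : ¬ ℓ ∣ N' * p) (hℓS : ℓ ∉ (↑S : Set ℕ))
        (A : ValuationSubring Qb), A.LiesOverPrime ℓ → ∀ σ : GQ, A.IsFrobeniusAt σ ℓ →
          LinearMap.charpoly (ρQ.ρ σ) =
            X ^ 2 - C (chi 𝒪 θ tw (heckeAlgebra.T hℓ hℓN hℓS)) * X
              + C ((ℓ : TQ 𝒪 θ tw))) ∧
      ρQ.DetIsCyclotomic p ∧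
      (∀ q ∈ Sun, q.Prime → q ≠ p → ρQ.IsUnipotentOnInertiaAt q) ∧
      ρQ.residual.IsEquiv
        (ρbar.baseChangeAlong (ResidueField.map (algebraMap 𝒪 (TQ 𝒪 θ tw)))) := by
  have hpT' : p ∈ Smin ∪ ∅ ∪ Q := by rw [Finset.union_empty]; exact hpT
  have hNT' : ∀ q : ℕ, q.Prime → q ∣ N' * p → q ∈ Smin ∪ ∅ ∪ Q := fun q hq hqN => by
    rw [Finset.union_empty]; exact hNT q hq hqN
  obtain ⟨ψ, hψ, ρQ, h1, h2, h3, h4, h5, h6⟩ :=
    Fermat.Agent.GE8.Deside.G3.exists_psi_TQ_strict_noSide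
      Fermat.Agent.GE8.Deside.Final.galPkgSONoSideNew (θ := θ) (tw := tw) hp2 hp𝒪 h hpS hNS
      ρbar habs hfrob hordbar hAnn Smin ∅ Q Sun hpT' hNT' hSmin hSun (toFramedSO DQ)
  exact ⟨ψ, hψ, ρQ, h1, h2, h3, h4, h5, h6⟩

end Gen

variable {p : ℕ} [Fact p.Prime] {W : WeierstrassCurve ℤ}
  {hcard₁ : Nat.card (Submodule.torsionBy ℤ
    ((W.map (Int.castRingHom ℚ))⁄(AlgebraicClosure ℚ)).Point p) = p ^ 2}
  {hker : GaloisFactorsThroughFiniteLevel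
    (galoisRepModuleEnd (K := AlgebraicClosure ℚ) ℚ (W.map (Int.castRingHom ℚ)) p)}
  {M A : ℕ} (P : Pkg p W hcard₁ hker M A)

/-- **G3 (strict-ordinary branch) over the SETUP bundle at a minimal level** (`P.Su = ∅`), engine
condition `condSO`, level `N₀ * p` with `p ∥ N₀ * p`, WITHOUT side condition. Conclusion = the five
conjuncts of `PsiPkgMin.exists_psi_pkg_min`. -/
theorem exists_psi_pkg_min_SO (hSu : P.Su = ∅) {N₀ : ℕ} [NeZero N₀] {SQ : Finset ℕ}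
    {θQ : heckeAlgebra (N₀ * p) 2 (↑SQ : Set ℕ) →+* P.k}
    (h : ExactDvd p (N₀ * p)) (hpS : p ∈ SQ)
    (hNS : ∀ q : ℕ, q.Prime → q ∣ N₀ * p → q ∈ SQ)
    (hfrobQ : ∀ (ℓ : ℕ) (hℓ : ℓ.Prime) (hℓN : ¬ ℓ ∣ N₀ * p) (hℓS : ℓ ∉ (↑SQ : Set ℕ))
      (Q : ValuationSubring Qb), Q.LiesOverPrime ℓ → ∀ σ : GQ, Q.IsFrobeniusAt σ ℓ →
        LinearMap.charpoly (P.rhobar.ρ σ) =
          X ^ 2 - C (θQ (heckeAlgebra.T hℓ hℓN hℓS)) * X + C ((ℓ : ℕ) : P.k))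
    (hordbar : (GaloisRepAdic.ofResidualGaloisRep P.rhobar).IsOrdinaryAt p)
    {Mod : Type} [AddCommGroup Mod] [Module P.O Mod] [Module.Finite P.O Mod]
    [Module.Free P.O Mod] [Nontrivial Mod]
    {tw : heckeAlgebra (N₀ * p) 2 (↑SQ : Set ℕ) →+* Module.End P.O Mod}
    [Fact (LocHyp P.O θQ tw)]
    (hAnn : ∀ t₀ : P.O ⊗[ℤ] heckeAlgebra (N₀ * p) 2 (↑SQ : Set ℕ),
      (∀ (a : P.O), ∀ x ∈ (LamNew (not_dvd_of_exactDvd h) :
          AddSubgroup (levelData p (N₀ * p) hpS hNS).Λ),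
        (levelData p (N₀ * p) hpS hNS).heckeTensor P.O t₀ (a ⊗ₜ[ℤ] x) = 0) →
          ∀ m : Mod, twO P.O tw t₀ m = 0)
    {r : ℕ} (qv : Fin r → ℕ)
    (hNprimes : ∀ q : ℕ, q.Prime → q ∣ N₀ * p → q ∣ M ∨ q ∈ Finset.univ.image qv)
    (hexact : ∀ q : ℕ, q.Prime → q ∣ M → q ≠ p → q ∣ N₀ * p ∧ ¬ q ^ 2 ∣ N₀ * p)
    (DQ : DeformationRingData P.O P.rhobar (condSO P.O p P.Smin (Finset.univ.image qv))) :
    ∃ (ψ : DQ.R →ₐ[P.O] TQ P.O θQ tw) (hψ : IsLocalHom (ψ : DQ.R →+* TQ P.O θQ tw))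
      (ρQ : GaloisRepAdic (TQ P.O θQ tw)),
      Function.Surjective ψ ∧
      (DQ.ρ.baseChangeAlong (ψ : DQ.R →+* TQ P.O θQ tw) hψ).IsEquiv ρQ ∧
      (∀ (ℓ : ℕ) (hℓ : ℓ.Prime) (hℓN : ¬ ℓ ∣ N₀ * p) (hℓS : ℓ ∉ (↑SQ : Set ℕ))
        (A : ValuationSubring Qb), A.LiesOverPrime ℓ → ∀ σ : GQ, A.IsFrobeniusAt σ ℓ →
          LinearMap.charpoly (ρQ.ρ σ) =
            X ^ 2 - C (chi P.O θQ tw (heckeAlgebra.T hℓ hℓN hℓS)) * X
              + C ((ℓ : TQ P.O θQ tw))) ∧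
      ρQ.DetIsCyclotomic p ∧
      ρQ.residual.IsEquiv
        (P.rhobar.baseChangeAlong (ResidueField.map (algebraMap P.O (TQ P.O θQ tw)))) := by
  obtain ⟨ψ, hψ, ρQ, h1, h2, h3, h4, -, h6⟩ :=
    exists_psi_TQ_condSO (θ := θQ) (tw := tw) P.hp2 P.hpO h hpS hNS P.rhobar P.habs
      (fun ℓ hℓ hℓN hℓS Q hQ σ hσ => ⟨_, hfrobQ ℓ hℓ hℓN hℓS Q hQ σ hσ⟩) hordbar hAnn
      P.Smin (Finset.univ.image qv) ∅ (Finset.mem_union_left _ P.p_mem_Smin)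
      (fun q hq hqN => by
        rcases hNprimes q hq hqN with h' | h'
        · by_cases hqp : q = p
          · rw [hqp]
            exact Finset.mem_union_left _ P.p_mem_Smin
          · rcases P.mem_Smin_or_mem_Su hq h' hqp with h'' | h''
            · exact Finset.mem_union_left _ h''
            · rw [hSu] at h''
              exact absurd h'' (Finset.notMem_empty q)
        · exact Finset.mem_union_right _ h')
      (fun q hq hqpr hqp => by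
        rcases P.dvd_of_mem_Smin hq with h' | h'
        · exact absurd h' hqp
        · exact hexact q hqpr h' hqp)
      (fun q hq => absurd hq (Finset.notMem_empty q))
      DQ
  exact ⟨ψ, hψ, ρQ, h1, h2, h3, h4, h6⟩

end Fermat.Agent.GE6.Inst.PsiPkgMinSO
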