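/-
GATE-E (S59) / ENGINE-INST node N5 (iv) UNIT, LAST PLUG (helper51): **helper49's
`UnitTwE.hunit_twE` with its only open binder `hB5` DISCHARGED** by `B5Gen.hB5_G2` (`s = 0`).

* `not_unip_congr` : transport of `¬ IsUnipotentOnInertiaAt` along an equality of primes (a `rw`
  on these terms re-checks the whole motive and times out: the ring is `G2.T …`);
* `hB5_TE` : the binder `hB5` of `UnitTwE.hunit_twE` VERBATIM (at helper49's `TE …`, `a₁E …`);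
* **`hunit_twE_closed`** : `UnitTwE.hunit_twE` without `hB5` (new binders: `hE1 : ∀ j, 1 ≤ E j`,
  `hN'' : N'' = Q.N * ∏ i : Fin (0 + g), rRev Q i`) = the field `unit` of `ModSide.ModSideData`
  VERBATIM at `F := FQ1 …`, module structure `UnitInst.moduleOfHom (a₁E …) ψQ`.
-/
import Fermat.Agent.GE6.Inst.UnitTwE
import Fermat.Agent.GE6.Inst.B5Gen

set_option autoImplicit false
set_option linter.unusedSectionVars false
set_option linter.unusedVariables false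
set_option linter.style.haveILetI false

open WeierstrassCurve WeierstrassCurve.Affine.Point IsLocalRing
open scoped WeierstrassCurve.Affine
open scoped MatrixGroups
open CongruenceSubgroup ModularCurve.Period CuspForm Polynomial

namespace Fermat.Agent.GE6.Inst.UnitTwEB5

open Fermat.Agent.GM.B
open Fermat.Agent.GB.B3.HeckeActH Fermat.Agent.GB.B3.RealLevel Fermat.Agent.GB.B3.Tower
  Fermat.Agent.GB.B3.TWChars Fermat.Agent.GB.B3.FinalTW Fermat.Agent.GB.B3.Plug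
  Fermat.Agent.GB.B3.TWLevel Fermat.Agent.GB.B3.GamH Fermat.Agent.GB.B3.ChiLevelMulti
  Fermat.Agent.GB.B3.Final
open Fermat.Agent.GJ.J2.Lat
open Fermat.Agent.GB.B4.Datum.ImageRing Fermat.Agent.GB.B4.Datum.TQFields
open Fermat.Agent.GB.Setup.SetupPkg
open Fermat.Agent.GB.B9.ProviderFlat Fermat.Agent.GB.B9.ProviderFlat.G1
open Fermat.Agent.GB.E2.TWDiag Fermat.Agent.GB.E2.TameGenAdic Fermat.Agent.GB.Glue.Points
open Fermat.Agent.GE2.DeltaQData Fermat.Agent.GE2.LabelMap Fermat.Agent.GE2.DeltaQ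
open Fermat.Agent.GE6.Inst.FreeLevelInst Fermat.Agent.GE6.Inst.FreeLevelTw
open Fermat.Agent.GE6.Inst.UnitInst Fermat.Agent.GE6.Inst.UnitTwE Fermat.Agent.GE6.Inst.B5Gen
open Fermat.Agent.Common_helper32

/-- local instance (Prop-valued class) -/
local instance factPrimeOffUEB5 {S : Set ℕ} (l : PrimesOff S) : Fact (l.1 : ℕ).Prime := ⟨l.1.2⟩

/-- `ℚ̄`. -/
local notation "Qb" => AlgebraicClosure ℚ
/-- `G_ℚ`. -/
local notation "GQ" => (AlgebraicClosure ℚ ≃ₐ[ℚ] AlgebraicClosure ℚ)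
/-- the character `Γ₀(N) → Δ` of a character of `(ℤ/N)ˣ`. -/
local notation "chiΓ" => Fermat.Agent.GB.B3.EisGamma0.chi
/-- the structure map `A → T_Q`. -/
local notation "chiT" => Fermat.Agent.GB.B4.Datum.ImageRing.chi

/-- transport of "not unipotent on inertia" along an equality of primes -/
theorem not_unip_congr {A' : Type} [CommRing A'] [IsLocalRing A'] (ρ : GaloisRepAdic A') {a b : ℕ}
    (h : a = b) (H : ¬ ρ.IsUnipotentOnInertiaAt a) : ¬ ρ.IsUnipotentOnInertiaAt b := h ▸ H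

noncomputable section

variable {p : ℕ} [hpF : Fact p.Prime] {W : WeierstrassCurve ℤ}
  {hcard₁ : Nat.card (Submodule.torsionBy ℤ
    ((W.map (Int.castRingHom ℚ))⁄(AlgebraicClosure ℚ)).Point p) = p ^ 2}
  {hker : GaloisFactorsThroughFiniteLevel
    (galoisRepModuleEnd (K := AlgebraicClosure ℚ) ℚ (W.map (Int.castRingHom ℚ)) p)}
  {M A : ℕ} {P : Pkg p W hcard₁ hker M A} {g n : ℕ} (Q : TWSet P g n)
  (hp3 : p ≠ 3) (E : Fin g → ℕ) (hE : ∀ j, p ^ E j ∣ Q.qv j - 1)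
  (c : Fin 0 → P.O) (hc : ∀ v : Fin 0, c v ^ p ^ eRev E (0 + g - 1 - v) = 1)
  (hc1 : ∀ v, (1 : P.O) - c v ∈ Ideal.span {P.ϖ})

variable {N'' : ℕ} [NeZero N''] {SQ : Finset ℕ}
  (twP : ↥(heckeAlgebra N'' 2 (↑SQ : Set ℕ)) →+*
    Module.End P.O (bigLevel Q.Sy Q.𝔪 (primeDataE Q E hE) (Q.hyp hp3) (0 + g)).M)
  (hD : ∀ t i,
    twP t * (bigLevel Q.Sy Q.𝔪 (primeDataE Q E hE) (Q.hyp hp3) (0 + g)).D i =
      (bigLevel Q.Sy Q.𝔪 (primeDataE Q E hE) (Q.hyp hp3) (0 + g)).D i * twP t)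
  (θQ : ↥(heckeAlgebra N'' 2 (↑SQ : Set ℕ)) →+* P.k)

set_option maxHeartbeats 1600000 in
/-- **the binder `hB5` of `UnitTwE.hunit_twE`, VERBATIM.** -/
theorem hB5_TE (hsqN : Squarefree Q.N) (hE1 : ∀ j, 1 ≤ E j)
    (hN'' : N'' = Q.N * ∏ i : Fin (0 + g), rRev Q i)
    (hpS : p ∈ SQ) (hNS : ∀ ℓ : ℕ, ℓ.Prime → ℓ ∣ N'' → ℓ ∈ SQ)
    (dℓ : PrimesOff (↑SQ : Set ℕ) → Gamma0 Q.N)
    (hdℓ : ∀ (l : PrimesOff (↑SQ : Set ℕ)) (u : (ZMod Q.N)ˣ),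
      (u : ZMod Q.N) = ((l.1 : ℕ) : ZMod Q.N) →
        chiΓ (Theta (Δs p (eRev E)) (primeDataE Q E hE).psi (0 + g)) (dℓ l) ^ 2 *
          Theta (Δs p (eRev E)) (primeDataE Q E hE).psi (0 + g) u = 1)
    (hnd : ∀ l : PrimesOff (↑SQ : Set ℕ), ¬ (l.1 : ℕ) ∣ Q.N)
    (hι : ∀ (l : PrimesOff (↑SQ : Set ℕ))
        (x : (bigLevel Q.Sy Q.𝔪 (primeDataE Q E hE) (Q.hyp hp3) (0 + g)).M),
      (bigReal Q.Sy Q.𝔪 (primeDataE Q E hE) (Q.hyp hp3) (0 + g)).ι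
          (twP (formsGenS N'' (↑SQ : Set ℕ) l) x) =
        diaH (Theta (Δs p (eRev E)) (primeDataE Q E hE).psi (0 + g)) P.O (dℓ l)
          (TH (Theta (Δs p (eRev E)) (primeDataE Q E hE).psi (0 + g)) P.O (hnd l)
            ((bigReal Q.Sy Q.𝔪 (primeDataE Q E hE) (Q.hyp hp3) (0 + g)).ι x)))
    [Fact (LocHyp P.O θQ (prodTw P.O (tw₁E Q hp3 E hE c hc hc1 twP hD)
      (twχE Q hp3 E hE c hc hc1 twP hD)))]
    [Module.Finite P.O ((twE Q hp3 E hE c hc hc1).L1.M × (twE Q hp3 E hE c hc hc1).Lχ.M)]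
    [Module.Free P.O ((twE Q hp3 E hE c hc hc1).L1.M × (twE Q hp3 E hE c hc hc1).Lχ.M)]
    [Nontrivial ((twE Q hp3 E hE c hc hc1).L1.M × (twE Q hp3 E hE c hc hc1).Lχ.M)]
    (ρQ : GaloisRepAdic (TE Q hp3 E hE c hc hc1 twP hD θQ))
    (hρ : ∀ (ℓ : ℕ) (hℓ : ℓ.Prime) (hℓN : ¬ ℓ ∣ N'') (hℓS : ℓ ∉ (↑SQ : Set ℕ))
        (Pl : ValuationSubring Qb), Pl.LiesOverPrime ℓ → ∀ σ : GQ, Pl.IsFrobeniusAt σ ℓ →
          LinearMap.charpoly (ρQ.ρ σ) =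
            X ^ 2 - C (chiT P.O θQ (prodTw P.O (tw₁E Q hp3 E hE c hc hc1 twP hD)
                (twχE Q hp3 E hE c hc hc1 twP hD)) (heckeAlgebra.T hℓ hℓN hℓS)) * X
              + C ((ℓ : TE Q hp3 E hE c hc hc1 twP hD θQ)))
    (hNp : ∀ i : Fin g, p ∣ Nfun p (eRev E) (0 + g) (Fin.natAdd 0 i)) :
    ∀ (i : Fin g) (q : Idx P.O (TE Q hp3 E hE c hc hc1 twP hD θQ))
      (hloc : IsLocalHom ((ψ q : TE Q hp3 E hE c hc hc1 twP hD θQ →ₐ[P.O] Rq q) :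
        TE Q hp3 E hE c hc hc1 twP hD θQ →+* Rq q)),
      (∀ t : TE Q hp3 E hE c hc hc1 twP hD θQ,
        (∀ m, a₁E Q hp3 E hE c hc hc1 twP hD θQ t m ∈
          (twE Q hp3 E hE c hc hc1).L1.unitSub p hNp i) → ψ q t = 0) →
      ¬ (ρQ.baseChangeAlong ((ψ q : TE Q hp3 E hE c hc hc1 twP hD θQ →ₐ[P.O] Rq q) :
        TE Q hp3 E hE c hc hc1 twP hD θQ →+* Rq q) hloc).IsUnipotentOnInertiaAt (Q.qv i) := by
  intro i q hloc hocc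
  have hk : 0 + g ≤ g := Nat.le_of_eq (Nat.zero_add g)
  have hei : 1 ≤ eRev E (g - 1 - (i : ℕ)) := by rw [eRev_idx]; exact hE1 i
  have hrp : rRev Q (g - 1 - (i : ℕ)) ≠ p := by rw [rRev_idx]; exact (Q.good i).2.2
  have hpO' := natCast_mem_maximalIdeal_Rq q P.hpO
  have key := hB5_G2 Q.Sy Q.𝔪 (primeDataE Q E hE) (Q.hyp hp3) 0 g c hc hc1 twP hD θQ
    hsqN hk hN'' hpS hNS ρQ hρ dℓ hdℓ hnd hι hNp i hei hrp hpO'
    ((ψ q : TE Q hp3 E hE c hc hc1 twP hD θQ →ₐ[P.O] Rq q) :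
      TE Q hp3 E hE c hc hc1 twP hD θQ →+* Rq q) hloc
  exact not_unip_congr _ (rRev_idx Q i) (key hocc)

set_option maxHeartbeats 1600000 in
/-- **(UNIT) at `twE`, all binders on the G2 / G3 records**: helper49's `UnitTwE.hunit_twE` with
`hB5 := hB5_TE`. -/
theorem hunit_twE_closed (hsqN : Squarefree Q.N) (hE1 : ∀ j, 1 ≤ E j)
    (hN'' : N'' = Q.N * ∏ i : Fin (0 + g), rRev Q i)
    (hpS : p ∈ SQ) (hNS : ∀ ℓ : ℕ, ℓ.Prime → ℓ ∣ N'' → ℓ ∈ SQ)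
    (hSN : ∀ ℓ : ℕ, ℓ.Prime → ℓ ∣ Q.N → ℓ ∈ SQ)
    (dℓ : PrimesOff (↑SQ : Set ℕ) → Gamma0 Q.N)
    (hdℓ : ∀ (l : PrimesOff (↑SQ : Set ℕ)) (u : (ZMod Q.N)ˣ),
      (u : ZMod Q.N) = ((l.1 : ℕ) : ZMod Q.N) →
        chiΓ (Theta (Δs p (eRev E)) (primeDataE Q E hE).psi (0 + g)) (dℓ l) ^ 2 *
          Theta (Δs p (eRev E)) (primeDataE Q E hE).psi (0 + g) u = 1)
    (hnd : ∀ l : PrimesOff (↑SQ : Set ℕ), ¬ (l.1 : ℕ) ∣ Q.N)
    (hι : ∀ (l : PrimesOff (↑SQ : Set ℕ))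
        (x : (bigLevel Q.Sy Q.𝔪 (primeDataE Q E hE) (Q.hyp hp3) (0 + g)).M),
      (bigReal Q.Sy Q.𝔪 (primeDataE Q E hE) (Q.hyp hp3) (0 + g)).ι
          (twP (formsGenS N'' (↑SQ : Set ℕ) l) x) =
        diaH (Theta (Δs p (eRev E)) (primeDataE Q E hE).psi (0 + g)) P.O (dℓ l)
          (TH (Theta (Δs p (eRev E)) (primeDataE Q E hE).psi (0 + g)) P.O (hnd l)
            ((bigReal Q.Sy Q.𝔪 (primeDataE Q E hE) (Q.hyp hp3) (0 + g)).ι x)))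
    (hsym : ∀ l : PrimesOff (↑SQ : Set ℕ), ∃ i : Q.Sy.ι₁, Q.Sy.ℓ i = (l.1 : ℕ) ∧
      θQ (formsGenS N'' (↑SQ : Set ℕ) l) = Q.lamTop (MvPolynomial.X (Sum.inl i)))
    (hfrobQ : ∀ (ℓ : ℕ) (hℓ : ℓ.Prime) (hℓN : ¬ ℓ ∣ N'') (hℓS : ℓ ∉ (↑SQ : Set ℕ))
      (Pl : ValuationSubring Qb), Pl.LiesOverPrime ℓ → ∀ σ : GQ, Pl.IsFrobeniusAt σ ℓ →
        LinearMap.charpoly (P.rhobar.ρ σ) =
          X ^ 2 - C (θQ (heckeAlgebra.T hℓ hℓN hℓS)) * X + C ((ℓ : ℕ) : P.k))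
    [Fact (LocHyp P.O θQ (prodTw P.O (tw₁E Q hp3 E hE c hc hc1 twP hD)
      (twχE Q hp3 E hE c hc hc1 twP hD)))]
    [Module.Finite P.O ((twE Q hp3 E hE c hc hc1).L1.M × (twE Q hp3 E hE c hc hc1).Lχ.M)]
    [Module.Free P.O ((twE Q hp3 E hE c hc hc1).L1.M × (twE Q hp3 E hE c hc hc1).Lχ.M)]
    [Nontrivial ((twE Q hp3 E hE c hc hc1).L1.M × (twE Q hp3 E hE c hc hc1).Lχ.M)]
    [IsReduced (TE Q hp3 E hE c hc hc1 twP hD θQ)]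
    -- G3 over `T_Q`
    {𝒟 : ∀ ⦃B : Type⦄ [CommRing B] [IsLocalRing B] [Algebra P.O B], GaloisRepAdic B → Prop}
    {DQ : GaloisRep.DeformationRingData P.O P.rhobar 𝒟}
    (ψQ : DQ.R →ₐ[P.O] TE Q hp3 E hE c hc hc1 twP hD θQ)
    (hψl : IsLocalHom (ψQ : DQ.R →+* TE Q hp3 E hE c hc hc1 twP hD θQ))
    (ρQ : GaloisRepAdic (TE Q hp3 E hE c hc hc1 twP hD θQ))
    (hequiv : (DQ.ρ.baseChangeAlong
      (ψQ : DQ.R →+* TE Q hp3 E hE c hc hc1 twP hD θQ) hψl).IsEquiv ρQ)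
    (hρ : ∀ (ℓ : ℕ) (hℓ : ℓ.Prime) (hℓN : ¬ ℓ ∣ N'') (hℓS : ℓ ∉ (↑SQ : Set ℕ))
        (Pl : ValuationSubring Qb), Pl.LiesOverPrime ℓ → ∀ σ : GQ, Pl.IsFrobeniusAt σ ℓ →
          LinearMap.charpoly (ρQ.ρ σ) =
            X ^ 2 - C (chiT P.O θQ (prodTw P.O (tw₁E Q hp3 E hE c hc hc1 twP hD)
                (twχE Q hp3 E hE c hc hc1 twP hD)) (heckeAlgebra.T hℓ hℓN hℓS)) * X
              + C ((ℓ : TE Q hp3 E hE c hc hc1 twP hD θQ)))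
    (hdet : ρQ.DetIsCyclotomic p)
    (hres : ρQ.residual.IsEquiv
      (P.rhobar.baseChangeAlong
        (ResidueField.map (algebraMap P.O (TE Q hp3 E hE c hc hc1 twP hD θQ)))))
    (hunrbar : ∀ j, P.rhobar.IsUnramifiedAt (Q.qv j))
    -- the labels and the labelled units of `ModSideStmt`
    (Pl : Fin g → ValuationSubring Qb) (hPl : ∀ j, (Pl j).LiesOverPrime (Q.qv j))
    (φ : Fin g → GQ) (hφ : ∀ j, (Pl j).IsFrobeniusAt (φ j) (Q.qv j))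
    (τ : Fin g → GQ) (hτ : ∀ j, IsTameGenerator (Pl j) p (τ j))
    (α β : Fin g → P.k)
    (hαβ : ∀ j, α j ≠ β j ∧
      LinearMap.charpoly (P.rhobar.ρ (φ j)) = (X - C (α j)) * (X - C (β j)))
    (gu : Fin g → (DQ.R)ˣ)
    (hlab : ∀ j, LabelledAt DQ.ρ (ResidueField.map (algebraMap P.O DQ.R)) (Pl j) (φ j) (τ j)
      (α j) (β j) (gu j))
    (hNp : ∀ i : Fin g, p ∣ Nfun p (eRev E) (0 + g) (Fin.natAdd 0 i)) :
    letI := moduleOfHom (a₁E Q hp3 E hE c hc hc1 twP hD θQ) ψQ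
    ∀ (j : Fin g) (m : (twE Q hp3 E hE c hc hc1).L1.M),
      ∃ m' : (twE Q hp3 E hE c hc hc1).L1.M,
        (twE Q hp3 E hE c hc hc1).L1.D j m - m = (gu j : DQ.R) • m' - m' :=
  hunit_twE Q hp3 E hE c hc hc1 twP hD θQ hsqN hpS hNS hSN dℓ hdℓ hnd hι hsym hfrobQ ψQ hψl ρQ
    hequiv hρ hdet hres hunrbar Pl hPl φ hφ τ hτ α β hαβ gu hlab hNp
    (hB5_TE Q hp3 E hE c hc hc1 twP hD θQ hsqN hE1 hN'' hpS hNS dℓ hdℓ hnd hι ρQ hρ hNp)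

end

end Fermat.Agent.GE6.Inst.UnitTwEB5
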