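/-
GATE-E (S59) / E6 node N8b, the RECORD, strict-ordinary problem, branch SO(a) (helper74):
**`NodeProof.RecordStmt P hp3 (condSO P.O p P.Smin) D0`** — the record at every Taylor–Wiles set for
the ENGINE's strict-ordinary deformation problem at the minimal level, `p ∥ M`, `M` squarefree
(`P.Su = ∅`), `W` NOT residually modular of level `M / p`, `ρ̄` ordinary at `p`.  This is the
hypothesis `hrec` of helper72's `NodeProofPkg.nodeStmt_SO_of_record`; twin of helper52's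
`RecordFL.recordStmt_FL`.

At a Taylor–Wiles set `Q` (with its full exponents `E`):

* G2 at `twE`, forms level `N'' := N0E Q * p` LITERALLY (`TwPGen.exists_twP_twE_gen`);
* (ANN) for the `p`-new lattice: helper39's `AnnTwE.hAnn_twE`;
* `ψ : R_Q → T_Q`, `ρ_Q`, `ρ^univ_Q ⊗_ψ ≅ ρ_Q`, (ES): helper39's
  `PsiPkgMinSO.exists_psi_pkg_min_SO`;
* `BQ := S_Q`, `tQ ℓ := χ(T_ℓ)`, (GEN): helper52's `RecordAbs.nonempty_recordAt`;
* (PI): helper49's `PiTwE.pi_a1E_chi_gen` + `FreeLevel.π_act`;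
* (UNIT): helper49 / helper51's `UnitTwEB5.hunit_twE_closed`.
-/
import Fermat.Agent.GE6.Inst.RecordAbs
import Fermat.Agent.GE6.Inst.TwPGen
import Fermat.Agent.GE6.Inst.AnnTwE
import Fermat.Agent.GE6.Inst.PsiPkgMinSO
import Fermat.Agent.GE6.Inst.PsiQ
import Fermat.Agent.GE6.Inst.PiTwE
import Fermat.Agent.GE6.Inst.UnitTwEB5
import Fermat.Agent.GE6.Inst.FullExp
import Fermat.Agent.GB.B4.Datum.TQReduced

set_option autoImplicit false
set_option linter.unusedSectionVars false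
set_option linter.unusedVariables false
set_option linter.style.haveILetI false

open WeierstrassCurve WeierstrassCurve.Affine.Point IsLocalRing
open scoped WeierstrassCurve.Affine
open scoped MatrixGroups
open CongruenceSubgroup ModularCurve.Period CuspForm Polynomial

namespace Fermat.Agent.GE6.Inst.RecordSO

open Fermat.Agent.GM.B
open Fermat.Agent.GB.B3.HeckeActH Fermat.Agent.GB.B3.RealLevel Fermat.Agent.GB.B3.Tower
  Fermat.Agent.GB.B3.TWChars Fermat.Agent.GB.B3.FinalTW Fermat.Agent.GB.B3.Plug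
  Fermat.Agent.GB.B3.TWLevel Fermat.Agent.GB.B3.GamH Fermat.Agent.GB.B3.ChiLevelMulti
  Fermat.Agent.GB.B3.Final
open Fermat.Agent.GJ.J2.Lat
open Fermat.Agent.GB.B4.Datum.ImageRing Fermat.Agent.GB.B4.Datum.TQFields
open Fermat.Agent.GB.Setup.SetupPkg
open Fermat.Agent.GB.B9.ProviderFlat Fermat.Agent.GB.B9.ProviderFlat.G1
open Fermat.Agent.GB.E2.TameGenAdic
open Fermat.Agent.GE2.DeltaQData
open Fermat.Agent.GE6.Inst.FreeLevelInst Fermat.Agent.GE6.Inst.FreeLevelTw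
open Fermat.Agent.GE6.Inst.UnitTwE Fermat.Agent.GE6.Inst.TwPGen Fermat.Agent.GE6.Inst.AnnTwE
open Fermat.Agent.GE6.Inst.NodeProof
open Fermat.Agent.GE.Graph GaloisRep

/-- `ℚ̄`. -/
local notation "Qb" => AlgebraicClosure ℚ
/-- `G_ℚ`. -/
local notation "GQ" => (AlgebraicClosure ℚ ≃ₐ[ℚ] AlgebraicClosure ℚ)
/-- the structure map `A → T_Q`. -/
local notation "chiT" => Fermat.Agent.GB.B4.Datum.ImageRing.chi

noncomputable section

variable {p : ℕ} [hpF : Fact p.Prime] {W : WeierstrassCurve ℤ}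
  {hcard₁ : Nat.card (Submodule.torsionBy ℤ
    ((W.map (Int.castRingHom ℚ))⁄(AlgebraicClosure ℚ)).Point p) = p ^ 2}
  {hker : GaloisFactorsThroughFiniteLevel
    (galoisRepModuleEnd (K := AlgebraicClosure ℚ) ℚ (W.map (Int.castRingHom ℚ)) p)}
  {M A : ℕ} (P : Pkg p W hcard₁ hker M A)

set_option maxHeartbeats 12800000 in
/-- **the record at every Taylor–Wiles set, strict-ordinary problem SO(a), minimal level.** -/
theorem recordStmt_SO (hp3 : p ≠ 3) (hsq : Squarefree M) (hpM : p ∣ M) (hSu : P.Su = ∅)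
    (hX : ¬ W.IsResiduallyModularOfLevel p (M / p))
    (hordbar : (GaloisRepAdic.ofResidualGaloisRep P.rhobar).IsOrdinaryAt p)
    (D0 : DeformationRingData P.O P.rhobar (condSO P.O p P.Smin ∅)) :
    RecordStmt P hp3 (condSO P.O p P.Smin) D0 := by
  intro r n Q E hE hEfull c hc hc1 DQ Pl φ τ hPl hφ hchar hτ π hπ g hπs hkerπ hπρ hlab
  -- the forms level `N0E Q * p`, `p ∥`
  haveI : NeZero (N0E Q) := ⟨N0E_ne_zero Q hpM⟩
  haveI : NeZero (N0E Q * p) := ⟨Nat.mul_ne_zero (N0E_ne_zero Q hpM) hpF.out.ne_zero⟩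
  have hN'' : N0E Q * p = Q.N * ∏ i : Fin (0 + r), rRev Q i := N0E_mul_p Q hpM
  -- G2 at `twE`
  have k2 := exists_twP_twE_gen Q hp3 E hE hsq hN''
  obtain ⟨SQ, θQ, hSQ, hpS, hNS, hSN, hbadS, hθT, hfrobQ, dℓ, hnd, hdℓ, hsym, twP, hD, hι, hact,
    hlocP⟩ := k2
  haveI := fact_locHyp_twE Q hp3 E hE c hc hc1 twP hD θQ hlocP
  haveI := Fermat.Agent.GE6.Inst.PsiQ.finite_prodE Q hp3 E hE c hc hc1
  haveI := Fermat.Agent.GE6.Inst.PsiQ.free_prodE Q hp3 E hE c hc hc1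
  haveI := Fermat.Agent.GE6.Inst.PsiQ.nontrivial_prodE Q hp3 E hE c hc hc1
  -- (ANN) for the `p`-new lattice
  have hAnn := hAnn_twE Q hp3 E hE c hc hc1 hsq hpM hX hN'' (not_dvd_N0E Q hsq hpM) SQ hpS hNS
    dℓ hdℓ hnd twP hι hD
  -- G3 at `twE`, strict-ordinary branch
  have k3 := Fermat.Agent.GE6.Inst.PsiPkgMinSO.exists_psi_pkg_min_SO P hSu
    (exactDvd_N0E Q hsq hpM) hpS hNS hfrobQ hordbar
    (tw := prodTw P.O (tw₁E Q hp3 E hE c hc hc1 twP hD) (twχE Q hp3 E hE c hc hc1 twP hD))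
    hAnn Q.qv (hNprimes_E Q hN'') (hexact_E Q hsq hN'') DQ
  obtain ⟨ψ, hψl, ρQ, hψs, hequiv, hρ, hdet, hres⟩ := k3
  -- arithmetic
  have hE1 : ∀ j, 1 ≤ E j := Fermat.Agent.GE6.Inst.FullExp.one_le_of_full Q E hEfull
  have hNp : ∀ i : Fin r, p ∣ Nfun p (eRev E) (0 + r) (Fin.natAdd 0 i) :=
    Fermat.Agent.GE6.Inst.B5Gen.dvd_Nfun0 E hE1
  have hunr : ∀ j, P.rhobar.IsUnramifiedAt (Q.qv j) := fun j =>
    P.unram (Q.prime j) (fun hd => by
      rcases (Nat.Prime.dvd_mul (Q.prime j)).mp hd with h | h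
      · exact (Q.good j).2.1 h
      · exact (Q.good j).2.2 ((Nat.prime_dvd_prime_iff_eq (Q.prime j) hpF.out).mp h))
  -- (UNIT)
  have hUNIT : ∀ (j : Fin r) (m : (twE Q hp3 E hE c hc hc1).L1.M),
      ∃ m' : (twE Q hp3 E hE c hc hc1).L1.M,
        (twE Q hp3 E hE c hc hc1).L1.D j m - m =
          a₁E Q hp3 E hE c hc hc1 twP hD θQ (ψ (g j : DQ.R)) m' - m' := by
    haveI : IsReduced (TE Q hp3 E hE c hc hc1 twP hD θQ) :=
      Fermat.Agent.GB.B4.Datum.TQReduced.isReduced_TQ_hecke θQ _ hNS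
    have hunit := Fermat.Agent.GE6.Inst.UnitTwEB5.hunit_twE_closed Q hp3 E hE c hc hc1 twP hD θQ
      (G2Sym.squarefree_N Q hsq) hE1 hN'' hpS hNS hSN dℓ hdℓ hnd hι hsym hfrobQ ψ hψl ρQ hequiv hρ
      hdet hres hunr Pl hPl φ hφ τ hτ Q.al Q.be (fun j => ⟨Q.ne j, hchar j⟩) g hlab hNp
    intro j m
    obtain ⟨m', hm'⟩ := hunit j m
    exact ⟨m', hm'⟩
  -- (PI)
  have hPI : ∀ l : PrimesOff (↑SQ : Set ℕ), ∃ s : Q.Sy.ι₁, Q.Sy.ℓ s = (l.1 : ℕ) ∧
      ∀ m : (twE Q hp3 E hE c hc hc1).L1.M,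
        (twE Q hp3 E hE c hc hc1).L1.π
            (a₁E Q hp3 E hE c hc hc1 twP hD θQ
              (chiT P.O θQ (prodTw P.O (tw₁E Q hp3 E hE c hc hc1 twP hD)
                (twχE Q hp3 E hE c hc hc1 twP hD))
                (formsGenS (N0E Q * p) (↑SQ : Set ℕ) l)) m) =
          (twE Q hp3 E hE c hc hc1).L1.π
            ((twE Q hp3 E hE c hc hc1).L1.act (MvPolynomial.X (Sum.inl s)) m) := by
    intro l
    obtain ⟨i, hi, -⟩ := hsym l
    refine ⟨i, hi, fun m => ?_⟩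
    have h1 := Fermat.Agent.GE6.Inst.PiTwE.pi_a1E_chi_gen Q hp3 E hE c hc hc1 twP hD θQ dℓ hnd hι
      l i hi m
    have h2 := (twE Q hp3 E hE c hc hc1).L1.π_act (MvPolynomial.X (Sum.inl i)) m
    exact h1.trans h2.symm
  exact Fermat.Agent.GE6.Inst.RecordAbs.nonempty_recordAt (twE Q hp3 E hE c hc hc1).L1
    Q.Sy.ι₁ Q.Sy.ℓ (fun s => (MvPolynomial.X (Sum.inl s) : Q.Sy.𝕋 P.O)) DQ g SQ hNS
    (TE Q hp3 E hE c hc hc1 twP hD θQ)
    (chiT P.O θQ (prodTw P.O (tw₁E Q hp3 E hE c hc hc1 twP hD)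
      (twχE Q hp3 E hE c hc hc1 twP hD)))
    (adjoin_range_chi P.O θQ _)
    (a₁E Q hp3 E hE c hc hc1 twP hD θQ) ψ hψl ρQ hequiv hρ hPI hUNIT

end

end Fermat.Agent.GE6.Inst.RecordSO
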