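/-
GATE-E / E6 ENGINE-INST, node N8b, strict-ordinary branch SO(a), FINAL (helper74):
**`SOaPlug.NodeSOaStmt p hp3`** (helper11), the only hypothesis of `SOaPlug.baseSOa_of_nodeStmt`
(= the body of `StepPlugSO.BaseSOaStmt p`): E6's node statement for `condSO` at every bundle of
minimal level `M`, `p ∥ M`, `W` multiplicative at `p`, not residually modular of level `M / p`.

`nodeSOaStmt p hp3` = `NodeSO.nodeStmt_SO` at `A := 1`, with `hSu := su_eq_empty P hmin`,
`hordbar := StrictPkg.isOrdinaryAt_rhobar P (BaseOdd.hordbar_of_mult P.hΔ hW hmult)`.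
-/
import Fermat.Agent.GE6.Inst.NodeSO
import Fermat.Agent.GE.Engine.SOaPlug

set_option autoImplicit false
set_option linter.unusedSectionVars false
set_option linter.unusedVariables false
set_option linter.style.haveILetI false

namespace Fermat.Agent.GE6.Inst.NodeSOaFinal

/-- **E6 N8b-SO, closed**: helper11's `NodeSOaStmt p hp3`. -/
theorem nodeSOaStmt (p : ℕ) [hpF : Fact p.Prime] (hp3 : p ≠ 3) :
    Fermat.Agent.GE.Engine.SOaPlug.NodeSOaStmt p hp3 := by
  intro W hΔ hW hirr hcard₁ hker M _ hsq hpM hRM hmult hno hmin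
  refine ⟨1, le_rfl, fun P D H hπ φ hφ hloc hρ eL heL => ?_⟩
  exact Fermat.Agent.GE6.Inst.NodeSO.nodeStmt_SO P hp3 hsq hpM
    (Fermat.Agent.GE.Engine.su_eq_empty P hmin) hno
    (Fermat.Agent.GB.ResOrd.StrictPkg.isOrdinaryAt_rhobar P
      (Fermat.Agent.GE8.Deside.BaseOdd.hordbar_of_mult P.hΔ hW hmult))
    D H hπ φ hloc hρ eL heL

end Fermat.Agent.GE6.Inst.NodeSOaFinal
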