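/-
GATE-E (S59) / ENGINE-INST, the seam "`π : M_Q → M_∅` is `β`-semilinear" (helper72; helper12 7002).

At a Taylor–Wiles level there are TWO `𝒪`-algebra maps `R_Q → T_∅`:

  `κ ∘ ψ_Q`  (`ψ_Q : R_Q ↠ T_Q`, `κ : T_Q → T_∅` the action of `T_Q` on the coinvariants
              `M_Q / (D_j − 1) ≅ M_∅`, with `κ (tw_Q T_ℓ) = tw_∅ T_ℓ` for `ℓ ∉ S ∪ Q`),
  `ψ_∅ ∘ β`  (`β : R_Q ↠ R_∅` of E2, `ψ_∅ : R_∅ ↠ T_∅` of S54),

and the `β`-semilinearity of `π` is exactly their equality.  It is NOT formal (no "`R_Q` is generated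
by traces" is available for an abstract `DeformationRingData`), but it follows from the UNIQUENESS
clause of the universal property of `R_Q` with target `T_∅`: the two pushed representations have the
same characteristic polynomials at the Frobenius elements outside a finite set, hence the same
traces (Chebotarev + Krull, `GJ/Tate/Carayol.trace_eq_of_charpoly_frob_eq`), hence are equivalent
(Carayol, `S53_helper35.isEquiv_of_trace_eq`: residually absolutely irreducible).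

* `eq_of_isEquiv_of_frob` : **abstract core** — `f g : D.R →ₐ[𝒪] A` local, `D.ρ ⊗_g A ≅ ρA` of type
  `𝒟` with residual `ρ̄`, and `D.ρ ⊗_f A` has the Frobenius characteristic polynomials of `ρA`
  outside a finite set  ⟹  `f = g`.
* `eq_of_frob` : the same with `ρA := D.ρ ⊗_g A`.
* `comp_eq_of_frob` : **the Taylor–Wiles seam** `κ.comp ψQ = ψ₀.comp β`.
* `smul_comm_of_comp_eq` : the module statement — if `T_Q` acts on `M_Q`, `T_∅` on `M_∅`, and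
  `π (t • m) = κ t • π m`, then `π (ψQ x • m) = ψ₀ (β x) • π m`.
NEW file; imports only.
-/
import Mathlib
import Fermat.Agent.GE.Graph.RTStmt
import Fermat.Agent.GJ.Tate.Carayol
import Fermat.Agent.S53_helper35.Wrappers
import Fermat.Agent.GP.Tan.UnivInj
import Fermat.Agent.GP.Top.S56OfGates

set_option autoImplicit false
set_option linter.unusedSectionVars false
set_option linter.style.haveILetI false

namespace Fermat.Agent.GE6.Inst.Semilin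

open IsLocalRing Function Polynomial GaloisRep
open Fermat.Agent.GE.Graph Fermat.Agent.GP.Top

/-- `ℚ̄`. -/
local notation "Qb" => AlgebraicClosure ℚ
/-- `G_ℚ`. -/
local notation "GQ" => (AlgebraicClosure ℚ ≃ₐ[ℚ] AlgebraicClosure ℚ)

variable {𝒪 : Type} [CommRing 𝒪] [IsDomain 𝒪] [IsDiscreteValuationRing 𝒪]
  [IsAdicComplete (maximalIdeal 𝒪) 𝒪]
  {ρbar : ResidualGaloisRep (ResidueField 𝒪)}
  {𝒟 : ∀ ⦃A : Type⦄ [CommRing A] [IsLocalRing A] [Algebra 𝒪 A], GaloisRepAdic A → Prop}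

section Equiv

variable {A : Type} [CommRing A] [IsLocalRing A]

theorem isEquivSymm {ρ ρ' : GaloisRepAdic A} (h : ρ.IsEquiv ρ') : ρ'.IsEquiv ρ := by
  obtain ⟨e⟩ := h
  exact ⟨e.symm⟩

theorem isEquivTrans {ρ ρ' ρ'' : GaloisRepAdic A} (h : ρ.IsEquiv ρ') (h' : ρ'.IsEquiv ρ'') :
    ρ.IsEquiv ρ'' := by
  obtain ⟨e⟩ := h
  obtain ⟨e'⟩ := h'
  exact ⟨e.trans e'⟩

end Equiv

section Core

variable (D : DeformationRingData 𝒪 ρbar 𝒟)
  {A : Type} [CommRing A] [IsLocalRing A] [IsNoetherianRing A]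
  [IsAdicComplete (maximalIdeal A) A] [Algebra 𝒪 A] [IsLocalHom (algebraMap 𝒪 A)]

/-- the residual representation of a push of the universal deformation. -/
theorem residual_push_univ (f : D.R →ₐ[𝒪] A) (hf : IsLocalHom (f : D.R →+* A)) :
    (D.ρ.baseChangeAlong (f : D.R →+* A) hf).residual.IsEquiv
      (ρbar.baseChangeAlong (ResidueField.map (algebraMap 𝒪 A))) := by
  have h := Fermat.Agent.GP.Tan.UnivInj.residual_baseChangeAlong_isEquiv D.ρ (f : D.R →+* A) hf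
    ρbar (ResidueField.map (algebraMap 𝒪 D.R)) D.residual_isEquiv
  have e : (haveI := hf; ResidueField.map (f : D.R →+* A)).comp
      (ResidueField.map (algebraMap 𝒪 D.R)) = ResidueField.map (algebraMap 𝒪 A) := by
    haveI := hf
    ext x
    obtain ⟨a, rfl⟩ := residue_surjective x
    rw [RingHom.comp_apply, ResidueField.map_residue, ResidueField.map_residue,
      ResidueField.map_residue]
    congr 1
    exact f.commutes a
  rw [e] at h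
  exact h

/-- **Abstract core.**  Two local `𝒪`-algebra homomorphisms out of a universal deformation ring into
a complete noetherian local `𝒪`-algebra coincide as soon as one of them classifies a representation
`ρA` (of type `𝒟`, residually `ρ̄`) and the other one pushes the universal deformation to a
representation with the Frobenius characteristic polynomials of `ρA` outside a finite set `B`. -/
theorem eq_of_isEquiv_of_frob
    (hresA : Surjective (residue A ∘ algebraMap 𝒪 A))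
    (f g : D.R →ₐ[𝒪] A) (hf : IsLocalHom (f : D.R →+* A)) (hg : IsLocalHom (g : D.R →+* A))
    (ρA : GaloisRepAdic A) (h𝒟 : 𝒟 ρA)
    (hgρ : (D.ρ.baseChangeAlong (g : D.R →+* A) hg).IsEquiv ρA)
    (B : Finset ℕ)
    (hfrob : ∀ ℓ : ℕ, ℓ.Prime → ℓ ∉ B → ∀ P : ValuationSubring Qb, P.LiesOverPrime ℓ →
      ∀ σ : GQ, P.IsFrobeniusAt σ ℓ →
        LinearMap.charpoly ((D.ρ.baseChangeAlong (f : D.R →+* A) hf).ρ σ) =
          LinearMap.charpoly (ρA.ρ σ)) :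
    f = g := by
  -- residual representations
  have hresg := residual_push_univ D g hg
  have hresf := residual_push_univ D f hf
  have hresρA : ρA.residual.IsEquiv
      (ρbar.baseChangeAlong (ResidueField.map (algebraMap 𝒪 A))) := by
    obtain ⟨e⟩ := hgρ
    obtain ⟨e'⟩ := hresg
    exact ⟨e.symm.residual.trans e'⟩
  -- same traces, hence equivalent
  have htr : ∀ σ, (D.ρ.baseChangeAlong (f : D.R →+* A) hf).trace σ = ρA.trace σ :=
    fun σ => Fermat.Agent.GJ.Tate.Carayol.trace_eq_of_charpoly_frob_eq _ _ B hfrob σ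
  have hfρ : (D.ρ.baseChangeAlong (f : D.R →+* A) hf).IsEquiv ρA :=
    Fermat.Agent.S53_helper35.isEquiv_of_trace_eq _ _ ρbar D.absIrr
      (ResidueField.map (algebraMap 𝒪 A)) hresf hresρA htr
  -- uniqueness in the universal property
  exact (D.universal A hresA ρA h𝒟 hresρA).unique ⟨hf, hfρ⟩ ⟨hg, hgρ⟩

/-- the same with `ρA := D.ρ ⊗_g A`. -/
theorem eq_of_frob
    (hresA : Surjective (residue A ∘ algebraMap 𝒪 A))
    (f g : D.R →ₐ[𝒪] A) (hf : IsLocalHom (f : D.R →+* A)) (hg : IsLocalHom (g : D.R →+* A))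
    (h𝒟 : 𝒟 (D.ρ.baseChangeAlong (g : D.R →+* A) hg))
    (B : Finset ℕ)
    (hfrob : ∀ ℓ : ℕ, ℓ.Prime → ℓ ∉ B → ∀ P : ValuationSubring Qb, P.LiesOverPrime ℓ →
      ∀ σ : GQ, P.IsFrobeniusAt σ ℓ →
        LinearMap.charpoly ((D.ρ.baseChangeAlong (f : D.R →+* A) hf).ρ σ) =
          LinearMap.charpoly ((D.ρ.baseChangeAlong (g : D.R →+* A) hg).ρ σ)) :
    f = g :=
  eq_of_isEquiv_of_frob D hresA f g hf hg _ h𝒟 ⟨GaloisRepAdic.Equiv.refl _⟩ B hfrob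

end Core

section TW

variable {𝒟₀ : ∀ ⦃A : Type⦄ [CommRing A] [IsLocalRing A] [Algebra 𝒪 A], GaloisRepAdic A → Prop}
  (DQ : DeformationRingData 𝒪 ρbar 𝒟) (D₀ : DeformationRingData 𝒪 ρbar 𝒟₀)
  {TQ : Type} [CommRing TQ] [IsLocalRing TQ] [Algebra 𝒪 TQ]
  {T₀ : Type} [CommRing T₀] [IsLocalRing T₀] [IsNoetherianRing T₀]
  [IsAdicComplete (maximalIdeal T₀) T₀] [Algebra 𝒪 T₀] [IsLocalHom (algebraMap 𝒪 T₀)]

/-- **The Taylor–Wiles seam**: `κ ∘ ψ_Q = ψ_∅ ∘ β`.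

`β : R_Q → R_∅` carries `ρ_Q^univ` to `ρ_∅^univ` (E2), `ψ_Q : R_Q → T_Q` carries `ρ_Q^univ` to
`ρ_{T_Q}`, `ψ_∅ : R_∅ → T_∅` carries `ρ_∅^univ` to `ρ_{T_∅}` (S54), `ρ_{T_∅}` is of type `𝒟_Q`
(because `𝒟_∅ ⊆ 𝒟_Q`), and `κ : T_Q → T_∅` is a local `𝒪`-algebra homomorphism such that
`ρ_{T_Q} ⊗_κ T_∅` and `ρ_{T_∅}` have the same Frobenius characteristic polynomials outside a finite
set `B` (e.g. `κ (tw_Q T_ℓ) = tw_∅ T_ℓ` and the two Eichler–Shimura relations). -/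
theorem comp_eq_of_frob
    (hres₀ : Surjective (residue T₀ ∘ algebraMap 𝒪 T₀))
    (β : DQ.R →ₐ[𝒪] D₀.R) (hβ : IsLocalHom (β : DQ.R →+* D₀.R))
    (hβρ : (DQ.ρ.baseChangeAlong (β : DQ.R →+* D₀.R) hβ).IsEquiv D₀.ρ)
    (ψQ : DQ.R →ₐ[𝒪] TQ) (hψQ : IsLocalHom (ψQ : DQ.R →+* TQ)) (ρTQ : GaloisRepAdic TQ)
    (hQρ : (DQ.ρ.baseChangeAlong (ψQ : DQ.R →+* TQ) hψQ).IsEquiv ρTQ)
    (ψ₀ : D₀.R →ₐ[𝒪] T₀) (hψ₀ : IsLocalHom (ψ₀ : D₀.R →+* T₀)) (ρT₀ : GaloisRepAdic T₀)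
    (h₀ρ : (D₀.ρ.baseChangeAlong (ψ₀ : D₀.R →+* T₀) hψ₀).IsEquiv ρT₀)
    (h𝒟 : 𝒟 ρT₀)
    (κ : TQ →ₐ[𝒪] T₀) (hκ : IsLocalHom (κ : TQ →+* T₀))
    (B : Finset ℕ)
    (hfrob : ∀ ℓ : ℕ, ℓ.Prime → ℓ ∉ B → ∀ P : ValuationSubring Qb, P.LiesOverPrime ℓ →
      ∀ σ : GQ, P.IsFrobeniusAt σ ℓ →
        LinearMap.charpoly ((ρTQ.baseChangeAlong (κ : TQ →+* T₀) hκ).ρ σ) =
          LinearMap.charpoly (ρT₀.ρ σ)) :
    κ.comp ψQ = ψ₀.comp β := by
  have hf : IsLocalHom ((κ.comp ψQ : DQ.R →ₐ[𝒪] T₀) : DQ.R →+* T₀) :=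
    isLocalHom_comp' (ψQ : DQ.R →+* TQ) hψQ (κ : TQ →+* T₀) hκ
  have hg : IsLocalHom ((ψ₀.comp β : DQ.R →ₐ[𝒪] T₀) : DQ.R →+* T₀) :=
    isLocalHom_comp' (β : DQ.R →+* D₀.R) hβ (ψ₀ : D₀.R →+* T₀) hψ₀
  refine eq_of_isEquiv_of_frob DQ hres₀ (κ.comp ψQ) (ψ₀.comp β) hf hg ρT₀ h𝒟 ?_ B ?_
  · -- `ρ_Q^univ ⊗ (ψ₀ ∘ β) ≅ (ρ_Q^univ ⊗ β) ⊗ ψ₀ ≅ ρ_∅^univ ⊗ ψ₀ ≅ ρ_{T₀}`
    have h1 := baseChangeAlong_comp_isEquiv DQ.ρ (β : DQ.R →+* D₀.R) hβ (ψ₀ : D₀.R →+* T₀) hψ₀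
    have h2 : ((DQ.ρ.baseChangeAlong (β : DQ.R →+* D₀.R) hβ).baseChangeAlong
        (ψ₀ : D₀.R →+* T₀) hψ₀).IsEquiv (D₀.ρ.baseChangeAlong (ψ₀ : D₀.R →+* T₀) hψ₀) := by
      obtain ⟨e⟩ := hβρ
      exact ⟨e.baseChangeAlong _ hψ₀⟩
    exact isEquivTrans (isEquivSymm h1) (isEquivTrans h2 h₀ρ)
  · intro ℓ hℓ hℓB P hP σ hσ
    have h1 := baseChangeAlong_comp_isEquiv DQ.ρ (ψQ : DQ.R →+* TQ) hψQ (κ : TQ →+* T₀) hκ
    have h2 : ((DQ.ρ.baseChangeAlong (ψQ : DQ.R →+* TQ) hψQ).baseChangeAlong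
        (κ : TQ →+* T₀) hκ).IsEquiv (ρTQ.baseChangeAlong (κ : TQ →+* T₀) hκ) := by
      obtain ⟨e⟩ := hQρ
      exact ⟨e.baseChangeAlong _ hκ⟩
    have h3 : ((DQ.ρ.baseChangeAlong ((κ.comp ψQ : DQ.R →ₐ[𝒪] T₀) : DQ.R →+* T₀) hf)).IsEquiv
        (ρTQ.baseChangeAlong (κ : TQ →+* T₀) hκ) :=
      isEquivTrans (isEquivSymm h1) h2
    rw [charpoly_eq_of_isEquivE h3 σ]
    exact hfrob ℓ hℓ hℓB P hP σ hσ

/-- **the module form**: if `π : M_Q → M_∅` is `κ`-semilinear for the Hecke actions, it is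
`β`-semilinear for the actions of the deformation rings. -/
theorem smul_comm_of_comp_eq
    (β : DQ.R →ₐ[𝒪] D₀.R) (ψQ : DQ.R →ₐ[𝒪] TQ) (ψ₀ : D₀.R →ₐ[𝒪] T₀) (κ : TQ →ₐ[𝒪] T₀)
    (h : κ.comp ψQ = ψ₀.comp β)
    {MQ M₀ : Type*} [AddCommGroup MQ] [Module TQ MQ] [AddCommGroup M₀] [Module T₀ M₀]
    (π : MQ →+ M₀) (hπ : ∀ (t : TQ) (m : MQ), π (t • m) = κ t • π m)
    (x : DQ.R) (m : MQ) : π (ψQ x • m) = ψ₀ (β x) • π m := by
  rw [hπ]
  have := congrArg (fun F : DQ.R →ₐ[𝒪] T₀ => F x) h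
  simp only [AlgHom.comp_apply] at this
  rw [this]

end TW

end Fermat.Agent.GE6.Inst.Semilin
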